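import Fermat.Agent.Lib.CFT.Profinite.LevelClasses

set_option autoImplicit false

universe u

open CategoryTheory groupCohomology Rep

namespace Fermat.Agent.Lib.CFT.Profinite

open ConcreteHomology

variable {k G : Type u} [CommRing k] [Group G]

section infl

variable (M : Rep.{u} k G) (V : Subgroup G) [V.Normal]

/-- The inflation chain map from the cochains of `G ⧸ V` with values in `M^V` to the cochains of
`G` with values in `M`. -/
noncomputable def inflCochains :
    inhomogeneousCochains (M.quotientToInvariants V) ⟶ inhomogeneousCochains M :=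
  cochainsMap (QuotientGroup.mk' V) (Rep.ofHom (M.ρ.quotientToInvariants_lift V))

theorem inflCochains_apply {n : ℕ} (c : (Fin n → G ⧸ V) → M.quotientToInvariants V)
    (g : Fin n → G) :
    ((inflCochains M V).f n).hom c g = (c (fun i => (g i : G ⧸ V))).1 := rfl

theorem inflCochains_injective (n : ℕ) : Function.Injective ((inflCochains M V).f n).hom := by
  intro c c' h
  funext q
  apply Subtype.ext
  have := congr_fun h (fun i => (q i).out)
  rw [inflCochains_apply, inflCochains_apply] at this
  simpa using this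

/-- Inflated cochains are `V`-constant with values fixed by `V`. -/
theorem inflCochains_isCochainOn {n : ℕ} (c : (Fin n → G ⧸ V) → M.quotientToInvariants V) :
    LevelFamily.IsCochainOn M V (((inflCochains M V).f n).hom c) := by
  refine ⟨fun g s hs => ?_, fun g s hs => ?_⟩
  · rw [inflCochains_apply, inflCochains_apply]
    congr 2
    funext i
    exact (QuotientGroup.mk_mul_of_mem (g i) (hs i))
  · rw [inflCochains_apply]
    exact (c _).2 ⟨s, hs⟩

/-- A `V`-constant cochain with values fixed by `V` is inflated from `G ⧸ V`. -/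
theorem exists_inflCochains_eq {n : ℕ} {f : (Fin n → G) → M}
    (hf : LevelFamily.IsCochainOn M V f) :
    ∃ c : (Fin n → G ⧸ V) → M.quotientToInvariants V, ((inflCochains M V).f n).hom c = f := by
  refine ⟨fun q => ⟨f (fun i => (q i).out), fun s => hf.2 _ s.1 s.2⟩, ?_⟩
  funext g
  rw [inflCochains_apply]
  show f (fun i => ((g i : G ⧸ V)).out) = f g
  have hs : ∀ i, (g i)⁻¹ * ((g i : G ⧸ V)).out ∈ V := fun i => by
    have := QuotientGroup.out_eq' (g i : G ⧸ V)
    exact QuotientGroup.eq.mp this.symm
  have := hf.1 g (fun i => (g i)⁻¹ * ((g i : G ⧸ V)).out) hs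
  rw [← this]
  congr 1
  funext i
  simp

/-- Inflation commutes with the differentials. -/
theorem inflCochains_d {n : ℕ} (c : (Fin n → G ⧸ V) → M.quotientToInvariants V) :
    ((inflCochains M V).f (n + 1)).hom
        ((inhomogeneousCochains.d (M.quotientToInvariants V) n).hom c) =
      (inhomogeneousCochains.d M n).hom (((inflCochains M V).f n).hom c) := by
  have := congr($((inflCochains M V).comm n (n + 1)) c)
  simp only [ModuleCat.hom_comp, LinearMap.coe_comp, Function.comp_apply,
    CochainComplex.of_d] at this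
  exact this.symm

variable (W : Subgroup G) [W.Normal] (hWV : W ≤ V)

/-- The inclusion `M^V ⊆ M^W` for `W ≤ V`, as a morphism of `G ⧸ W`-representations. -/
noncomputable def invariantsInclusion :
    Rep.res (QuotientGroup.map W V (MonoidHom.id G) hWV) (M.quotientToInvariants V) ⟶
      M.quotientToInvariants W :=
  Rep.ofHom ⟨LinearMap.codRestrict _ (Submodule.subtype _) (fun x s => x.2 ⟨s.1, hWV s.2⟩),
    fun q => by
      induction q using QuotientGroup.induction_on with
      | H g =>
        ext x
        rfl⟩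

/-- Inflation between finite levels. -/
noncomputable def inflLevels :
    inhomogeneousCochains (M.quotientToInvariants V) ⟶
      inhomogeneousCochains (M.quotientToInvariants W) :=
  cochainsMap (QuotientGroup.map W V (MonoidHom.id G) hWV) (invariantsInclusion M V W hWV)

theorem inflLevels_apply {n : ℕ} (c : (Fin n → G ⧸ V) → M.quotientToInvariants V)
    (q : Fin n → G ⧸ W) :
    (((inflLevels M V W hWV).f n).hom c q).1 =
      (c (fun i => QuotientGroup.map W V (MonoidHom.id G) hWV (q i))).1 := rfl

theorem inflLevels_comp_inflCochains :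
    inflLevels M V W hWV ≫ inflCochains M W = inflCochains M V := by
  ext n c g
  rfl

end infl

namespace LevelFamily

variable (𝒰 : LevelFamily G) (M : Rep.{u} k G) (V : Subgroup G) [V.Normal] (hV : V ∈ 𝒰.levels)

/-- The inflation chain map from a finite level into the level complex. -/
noncomputable def levelInfl :
    inhomogeneousCochains (M.quotientToInvariants V) ⟶ 𝒰.levelComplex M :=
  CochainComplex.ofHom (X := inhomogeneousCochains (M.quotientToInvariants V))
    (Y := 𝒰.levelComplex M)
    (fun n => ModuleCat.ofHom (((inflCochains M V).f n).hom.codRestrict (𝒰.levelCochains M n)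
      (fun c => ⟨V, hV, inflCochains_isCochainOn M V c⟩))) (fun n => by
      ext c : 2
      apply Subtype.ext
      rw [levelComplex_d]
      simp only [CochainComplex.of_d, ModuleCat.hom_comp, LinearMap.coe_comp, Function.comp_apply]
      exact (inflCochains_d M V c).symm)

@[simp]
theorem levelInfl_apply_coe {n : ℕ} (c : (Fin n → G ⧸ V) → M.quotientToInvariants V) :
    (show 𝒰.levelCochains M n from ((𝒰.levelInfl M V hV).f n).hom c).1 =
      ((inflCochains M V).f n).hom c := rfl

theorem levelInfl_comp_ι : 𝒰.levelInfl M V hV ≫ 𝒰.levelComplexι M = inflCochains M V := by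
  ext n c : 3
  rfl

/-- Inflation from a finite level to level cohomology. -/
noncomputable def inflH (n : ℕ) :
    groupCohomology (M.quotientToInvariants V) n ⟶ 𝒰.levelCohomology M n :=
  HomologicalComplex.homologyMap (𝒰.levelInfl M V hV) n

section main

variable {𝒰 M}

/-- A cochain on `G ⧸ V` whose inflation is a cocycle is a cocycle. -/
theorem mem_Z_of_inflCochains {V : Subgroup G} [V.Normal] {n : ℕ}
    (c : (Fin n → G ⧸ V) → M.quotientToInvariants V)
    (h : (inhomogeneousCochains.d M n).hom (((inflCochains M V).f n).hom c) = 0) :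
    c ∈ Z (inhomogeneousCochains (M.quotientToInvariants V)) n := by
  rw [mem_Z_iff, inhomogeneousCochains.d_def]
  apply inflCochains_injective M V (n + 1)
  rw [inflCochains_d, h, map_zero]

/-- **Every level cohomology class is inflated from a finite level** (which can be taken inside
any prescribed level). -/
theorem exists_inflH_eq (n : ℕ) (x : 𝒰.levelCohomology M n) {U₀ : Subgroup G}
    (hU₀ : U₀ ∈ 𝒰.levels) :
    ∃ (V : Subgroup G) (hV : V ∈ 𝒰.levels) (_ : V.Normal) (_ : V ≤ U₀),
      ∃ y : groupCohomology (M.quotientToInvariants V) n, (𝒰.inflH M V hV n).hom y = x := by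
  obtain ⟨f, rfl⟩ := 𝒰.classMk_surjective M n x
  obtain ⟨U, hU, hfU⟩ := (Submodule.mem_inf.mp f.2).1
  obtain ⟨V, hV, hVU, hVU₀, hn⟩ := 𝒰.exists_normal_le_inf hU hU₀
  haveI := hn
  obtain ⟨c, hc⟩ := exists_inflCochains_eq M V (hfU.mono hVU)
  have hcZ : c ∈ Z (inhomogeneousCochains (M.quotientToInvariants V)) n :=
    mem_Z_of_inflCochains c (by rw [hc]; exact (Submodule.mem_inf.mp f.2).2)
  refine ⟨V, hV, hn, hVU₀, classOf _ n ⟨c, hcZ⟩, ?_⟩
  have h := homologyMap_classOf (𝒰.levelInfl M V hV) n ⟨c, hcZ⟩
  refine h.trans ?_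
  show classOf (𝒰.levelComplex M) n _ = classOf (𝒰.levelComplex M) n (𝒰.levelCocyclesEquiv M n f)
  congr 1
  apply Subtype.ext
  apply Subtype.ext
  exact hc

/-- **A class that dies in level cohomology already dies at a finite level.** -/
theorem exists_inflLevels_eq_zero (n : ℕ) {V : Subgroup G} [V.Normal] (hV : V ∈ 𝒰.levels)
    (y : groupCohomology (M.quotientToInvariants V) n) (hy : (𝒰.inflH M V hV n).hom y = 0) :
    ∃ (W : Subgroup G) (_ : W ∈ 𝒰.levels) (_ : W.Normal) (hWV : W ≤ V),
      (HomologicalComplex.homologyMap (inflLevels M V W hWV) n).hom y = 0 := by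
  obtain ⟨⟨c, hcZ⟩, rfl⟩ := classOf_surjective (inhomogeneousCochains (M.quotientToInvariants V)) n y
  have h := homologyMap_classOf (𝒰.levelInfl M V hV) n ⟨c, hcZ⟩
  have h0 : classOf (𝒰.levelComplex M) n (mapZ (𝒰.levelInfl M V hV) n ⟨c, hcZ⟩) = 0 :=
    h.symm.trans hy
  cases n with
  | zero =>
    rw [classOf_eq_zero_iff_zero] at h0
    have hc0 : c = 0 := by
      apply inflCochains_injective M V 0
      rw [map_zero]
      have := congr_arg (fun z => (z.1 : 𝒰.levelCochains M 0).1) h0
      exact this
    refine ⟨V, hV, inferInstance, le_rfl, ?_⟩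
    have : (⟨c, hcZ⟩ : Z (inhomogeneousCochains (M.quotientToInvariants V)) 0) = 0 :=
      Subtype.ext hc0
    rw [this, map_zero, map_zero]
  | succ m =>
    rw [classOf_eq_zero_iff_succ] at h0
    obtain ⟨h', hh'⟩ := h0
    rw [levelComplex_d] at hh'
    have hh'' : (inhomogeneousCochains.d M m).hom h'.1 = ((inflCochains M V).f (m + 1)).hom c :=
      congr_arg Subtype.val hh'
    obtain ⟨U, hU, hU'⟩ := h'.2
    obtain ⟨W, hW, hWU, hWV, hn⟩ := 𝒰.exists_normal_le_inf hU hV
    haveI := hn
    obtain ⟨b, hb⟩ := exists_inflCochains_eq M W (hU'.mono hWU)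
    refine ⟨W, hW, hn, hWV, ?_⟩
    rw [homologyMap_classOf, classOf_eq_zero_iff_succ]
    refine ⟨b, ?_⟩
    rw [mapZ_coe]
    apply inflCochains_injective M W (m + 1)
    rw [inhomogeneousCochains.d_def, inflCochains_d, hb, hh'']
    exact congr($(inflLevels_comp_inflCochains M V W hWV).f (m + 1) c).symm


/-- Transitivity of inflation. -/
theorem inflLevels_comp_levelInfl {V W : Subgroup G} [V.Normal] [W.Normal] (hV : V ∈ 𝒰.levels)
    (hW : W ∈ 𝒰.levels) (hWV : W ≤ V) :
    inflLevels M V W hWV ≫ 𝒰.levelInfl M W hW = 𝒰.levelInfl M V hV := by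
  ext n c : 3
  rfl

theorem inflLevels_comp_inflH {V W : Subgroup G} [V.Normal] [W.Normal] (hV : V ∈ 𝒰.levels)
    (hW : W ∈ 𝒰.levels) (hWV : W ≤ V) (n : ℕ) :
    HomologicalComplex.homologyMap (inflLevels M V W hWV) n ≫ 𝒰.inflH M W hW n =
      𝒰.inflH M V hV n := by
  have h := HomologicalComplex.homologyMap_comp (inflLevels M V W hWV) (𝒰.levelInfl M W hW) n
  rw [inflLevels_comp_levelInfl hV hW hWV] at h
  exact h.symm

/-- Composing with the comparison map gives Mathlib's inflation map. -/
theorem inflH_comp_toGroupCohomology {V : Subgroup G} [V.Normal] (hV : V ∈ 𝒰.levels) (n : ℕ) :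
    𝒰.inflH M V hV n ≫ 𝒰.toGroupCohomology M n =
      groupCohomology.map (QuotientGroup.mk' V) (Rep.ofHom (M.ρ.quotientToInvariants_lift V)) n := by
  have h := HomologicalComplex.homologyMap_comp (𝒰.levelInfl M V hV) (𝒰.levelComplexι M) n
  rw [levelInfl_comp_ι] at h
  exact h.symm

/-- If an element of `k` kills the cohomology of all finite levels, it kills level cohomology. -/
theorem smul_eq_zero_of_forall_finite_level (n : ℕ) (a : k)
    (h : ∀ (V : Subgroup G) (_ : V ∈ 𝒰.levels) (_ : V.Normal)
      (y : groupCohomology (M.quotientToInvariants V) n), a • y = 0)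
    (x : 𝒰.levelCohomology M n) : a • x = 0 := by
  obtain ⟨U₀, hU₀⟩ := 𝒰.nonempty
  obtain ⟨V, hV, hn, -, y, rfl⟩ := exists_inflH_eq n x hU₀
  rw [← map_smul, h V hV hn y, map_zero]

/-- If the cohomology of all finite levels vanishes, so does level cohomology. -/
theorem eq_zero_of_forall_finite_level (n : ℕ)
    (h : ∀ (V : Subgroup G) (_ : V ∈ 𝒰.levels) (_ : V.Normal)
      (y : groupCohomology (M.quotientToInvariants V) n), y = 0)
    (x : 𝒰.levelCohomology M n) : x = 0 := by
  have := smul_eq_zero_of_forall_finite_level (𝒰 := 𝒰) (M := M) n (1 : k)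
    (fun V hV hn y => by rw [h V hV hn y, smul_zero]) x
  simpa using this

end main

end LevelFamily

end Fermat.Agent.Lib.CFT.Profinite
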