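import Fermat.Agent.Lib.CFT.Profinite.Shapiro

/-!
# Restriction and corestriction for level cohomology (P-CFT, Profinite/Cores)

For an open subgroup `V` of `(G, 𝒰)` and a discrete `G`-module `M`:
* `res 𝒰 V M n : Hⁿ(G, M) ⟶ Hⁿ(V, M)` (restriction);
* `cores hV hM n : Hⁿ(V, M) ⟶ Hⁿ(G, M)` (corestriction), defined through Shapiro's lemma and the
  trace `coind (res M) ⟶ M`;
* `res_comp_cores : res ≫ cores = V.index • 𝟙`, hence restriction is injective when the index is
  invertible in `k` (`res_injective_of_isUnit`), and on `ZMod p`-modules when `p ∤ V.index`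
  (`res_injective_of_not_dvd`).
-/

set_option autoImplicit false

universe u

open CategoryTheory groupCohomology

namespace Fermat.Agent.Lib.CFT.Profinite.LES

open LevelFamily Fermat.Agent.Lib.CFT.Coh.InfRes

variable {k G : Type u} [CommRing k] [Group G]

/-! ### Unit and trace -/

section Trace

variable (V : Subgroup G) (M : Rep.{u} k G)

/-- The unit `M ⟶ coind (res M)`, `m ↦ (x ↦ ρ x m)`. -/
noncomputable def coindUnit : M ⟶ Rep.coind V.subtype (Rep.res V.subtype M) :=
  Rep.resCoindToHom V.subtype M (Rep.res V.subtype M) (𝟙 _)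

@[simp]
theorem coindUnit_apply_coe (m : M) (x : G) : ((coindUnit V M).hom m).1 x = M.ρ x m := rfl

theorem coindUnit_comp_coindEval :
    (Rep.resFunctor V.subtype).map (coindUnit V M) ≫ coindEval V (Rep.res V.subtype M) = 𝟙 _ := by
  ext m
  show M.ρ 1 m = m
  simp

/-- The function `y ↦ ρ y (F y⁻¹)` on `G ⧸ V` attached to an element of `coind (res M)`. -/
noncomputable def traceFun (F : Rep.coind V.subtype (Rep.res V.subtype M)) : G ⧸ V → M :=
  fun c => Quotient.liftOn' c (fun y => M.ρ y (F.1 y⁻¹)) (by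
    intro a b hab
    have hab' : a⁻¹ * b ∈ V := QuotientGroup.leftRel_apply.1 hab
    have h1 : b⁻¹ = (⟨a⁻¹ * b, hab'⟩ : V)⁻¹.1 * a⁻¹ := by
      show b⁻¹ = (a⁻¹ * b)⁻¹ * a⁻¹
      group
    have h2 : F.1 b⁻¹ = M.ρ ((a⁻¹ * b)⁻¹) (F.1 a⁻¹) := by
      rw [h1]
      exact F.2 (⟨a⁻¹ * b, hab'⟩ : V)⁻¹ a⁻¹
    show M.ρ a (F.1 a⁻¹) = M.ρ b (F.1 b⁻¹)
    rw [h2, ← Module.End.mul_apply, ← map_mul]
    congr 2
    group)

@[simp]
theorem traceFun_mk (F : Rep.coind V.subtype (Rep.res V.subtype M)) (y : G) :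
    traceFun V M F (y : G ⧸ V) = M.ρ y (F.1 y⁻¹) := rfl

theorem traceFun_add (F F' : Rep.coind V.subtype (Rep.res V.subtype M)) (c : G ⧸ V) :
    traceFun V M (F + F') c = traceFun V M F c + traceFun V M F' c := by
  induction c using QuotientGroup.induction_on with
  | H y => simp only [traceFun_mk]; exact map_add _ _ _

theorem traceFun_smul (r : k) (F : Rep.coind V.subtype (Rep.res V.subtype M)) (c : G ⧸ V) :
    traceFun V M (r • F) c = r • traceFun V M F c := by
  induction c using QuotientGroup.induction_on with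
  | H y => simp only [traceFun_mk]; exact map_smul _ _ _

theorem traceFun_ρ (γ : G) (F : Rep.coind V.subtype (Rep.res V.subtype M)) (c : G ⧸ V) :
    traceFun V M ((Rep.coind V.subtype (Rep.res V.subtype M)).ρ γ F) c =
      M.ρ γ (traceFun V M F (γ⁻¹ • c)) := by
  induction c using QuotientGroup.induction_on with
  | H y =>
    show M.ρ y (F.1 (y⁻¹ * γ)) = M.ρ γ (M.ρ (γ⁻¹ * y) (F.1 (γ⁻¹ * y)⁻¹))
    rw [← Module.End.mul_apply, ← map_mul]
    congr 2
    · group
    · group

variable [V.FiniteIndex]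

/-- The trace `coind (res M) ⟶ M`, `F ↦ ∑_{y ∈ G ⧸ V} ρ y (F y⁻¹)`. -/
noncomputable def coindTrace : Rep.coind V.subtype (Rep.res V.subtype M) ⟶ M :=
  letI : Fintype (G ⧸ V) := Fintype.ofFinite _
  Rep.ofHom ⟨{ toFun := fun F => ∑ c : G ⧸ V, traceFun V M F c
               map_add' := fun F F' => by
                  rw [← Finset.sum_add_distrib]
                  exact Finset.sum_congr rfl (fun c _ => traceFun_add V M F F' c)
               map_smul' := fun r F => by
                  rw [RingHom.id_apply, Finset.smul_sum]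
                  exact Finset.sum_congr rfl (fun c _ => traceFun_smul V M r F c) },
    fun γ => by
      ext F
      show ∑ c : G ⧸ V, traceFun V M ((Rep.coind V.subtype (Rep.res V.subtype M)).ρ γ F) c =
        M.ρ γ (∑ c : G ⧸ V, traceFun V M F c)
      rw [map_sum]
      refine (Finset.sum_congr rfl (fun c _ => traceFun_ρ V M γ F c)).trans ?_
      exact Equiv.sum_comp (MulAction.toPerm (γ⁻¹ : G)) (fun c => M.ρ γ (traceFun V M F c))⟩

theorem coindUnit_comp_coindTrace : coindUnit V M ≫ coindTrace V M = V.index • 𝟙 M := by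
  letI : Fintype (G ⧸ V) := Fintype.ofFinite _
  ext m
  show ∑ c : G ⧸ V, traceFun V M ((coindUnit V M).hom m) c = (V.index • 𝟙 M : M ⟶ M).hom m
  have h : ∀ c : G ⧸ V, traceFun V M ((coindUnit V M).hom m) c = m := by
    intro c
    induction c using QuotientGroup.induction_on with
    | H y =>
      show M.ρ y (M.ρ y⁻¹ m) = m
      rw [← Module.End.mul_apply, ← map_mul]
      simp
  simp only [h, Finset.sum_const, Finset.card_univ]
  rw [Subgroup.index_eq_card, Nat.card_eq_fintype_card, Rep.nsmul_hom]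
  rfl

end Trace

/-! ### Restriction and corestriction -/

section ResCores

variable (𝒰 : LevelFamily G) (V : Subgroup G) (M : Rep.{u} k G)

theorem isDiscrete_res (hM : 𝒰.IsDiscrete M) :
    (restrict 𝒰 V).IsDiscrete (Rep.res V.subtype M) := by
  intro m
  obtain ⟨U, hU, h⟩ := hM m
  exact ⟨U.comap V.subtype, comap_mem_comap_levels _ hU, fun s hs => h s hs⟩

/-- Level cohomology as a functor of the module, in a fixed degree. -/
noncomputable abbrev levelCohomologyFunctor (n : ℕ) : Rep.{u} k G ⥤ ModuleCat.{u} k :=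
  𝒰.levelComplexFunctor (k := k) ⋙
    HomologicalComplex.homologyFunctor (ModuleCat k) (ComplexShape.up ℕ) n

theorem levelCohomologyMap_eq_functor_map {M M' : Rep.{u} k G} (φ : M ⟶ M') (n : ℕ) :
    𝒰.levelCohomologyMap φ n = (levelCohomologyFunctor (k := k) 𝒰 n).map φ := rfl

theorem levelCohomologyMap_comp {M M' M'' : Rep.{u} k G} (φ : M ⟶ M') (ψ : M' ⟶ M'') (n : ℕ) :
    𝒰.levelCohomologyMap (φ ≫ ψ) n = 𝒰.levelCohomologyMap φ n ≫ 𝒰.levelCohomologyMap ψ n :=
  (levelCohomologyFunctor (k := k) 𝒰 n).map_comp φ ψ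

theorem levelCohomologyMap_id (n : ℕ) :
    𝒰.levelCohomologyMap (𝟙 M) n = 𝟙 (𝒰.levelCohomology M n) :=
  (levelCohomologyFunctor (k := k) 𝒰 n).map_id M

theorem levelCohomologyMap_nsmul {M M' : Rep.{u} k G} (φ : M ⟶ M') (a n : ℕ) :
    𝒰.levelCohomologyMap (a • φ) n = a • 𝒰.levelCohomologyMap φ n :=
  (levelCohomologyFunctor (k := k) 𝒰 n).map_nsmul

/-- Restriction to a subgroup on level cohomology. -/
noncomputable def res (n : ℕ) :
    𝒰.levelCohomology M n ⟶ (restrict 𝒰 V).levelCohomology (Rep.res V.subtype M) n :=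
  map V.subtype (isCompatible_comap 𝒰 V.subtype) (𝟙 (Rep.res V.subtype M)) n

/-- Restriction is the unit `M ⟶ coind (res M)` followed by the Shapiro map. -/
theorem res_eq (n : ℕ) :
    res 𝒰 V M n =
      𝒰.levelCohomologyMap (coindUnit V M) n ≫ shapiro 𝒰 V (Rep.res V.subtype M) n := by
  have h1 := map_comp (𝒰 := 𝒰) (𝒰' := 𝒰) (𝒰'' := restrict 𝒰 V)
    (M := M) (M' := Rep.coind V.subtype (Rep.res V.subtype M)) (M'' := Rep.res V.subtype M)
    (MonoidHom.id G) 𝒰.isCompatible_id (coindUnit V M) V.subtype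
    (isCompatible_comap 𝒰 V.subtype) (coindEval V (Rep.res V.subtype M)) n
  rw [levelCohomologyMap_eq_map, shapiro, ← h1]
  exact map_congr rfl _ (by
    have := coindUnit_comp_coindEval V M
    exact congrArg (fun f => f.hom.toLinearMap) this.symm) n

variable {𝒰 V M}

/-- Corestriction from an open subgroup on level cohomology of a discrete module, defined through
Shapiro's lemma and the trace map. -/
noncomputable def cores (hV : IsOpenSubgroup 𝒰 V) (hM : 𝒰.IsDiscrete M) (n : ℕ) :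
    (restrict 𝒰 V).levelCohomology (Rep.res V.subtype M) n ⟶ 𝒰.levelCohomology M n :=
  haveI := hV.finiteIndex
  (shapiroIso hV (isDiscrete_res 𝒰 V M hM) n).inv ≫ 𝒰.levelCohomologyMap (coindTrace V M) n

/-- `cor ∘ res` is multiplication by the index. -/
theorem res_comp_cores (hV : IsOpenSubgroup 𝒰 V) (hM : 𝒰.IsDiscrete M) (n : ℕ) :
    res 𝒰 V M n ≫ cores hV hM n = V.index • 𝟙 (𝒰.levelCohomology M n) := by
  have := hV.finiteIndex
  rw [res_eq, cores, Category.assoc, ← shapiroIso_hom hV (isDiscrete_res 𝒰 V M hM) n,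
    Iso.hom_inv_id_assoc, ← levelCohomologyMap_comp, coindUnit_comp_coindTrace,
    levelCohomologyMap_nsmul, levelCohomologyMap_id]

theorem cores_res_apply (hV : IsOpenSubgroup 𝒰 V) (hM : 𝒰.IsDiscrete M) (n : ℕ)
    (x : 𝒰.levelCohomology M n) :
    (cores hV hM n).hom ((res 𝒰 V M n).hom x) = V.index • x := by
  have := congr($(res_comp_cores hV hM n) x)
  exact this

/-- Restriction to an open subgroup whose index is invertible in `k` is injective. -/
theorem res_injective_of_isUnit (hV : IsOpenSubgroup 𝒰 V) (hM : 𝒰.IsDiscrete M) (n : ℕ)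
    (hu : IsUnit (V.index : k)) : Function.Injective (res 𝒰 V M n).hom := by
  rw [injective_iff_map_eq_zero]
  intro x hx
  have h1 : V.index • x = 0 := by
    rw [← cores_res_apply hV hM n x, hx, map_zero]
  obtain ⟨c, hc⟩ := hu.exists_left_inv
  have h2 : (V.index : k) • x = 0 := by
    rw [Nat.cast_smul_eq_nsmul]
    exact h1
  calc x = (c * (V.index : k)) • x := by rw [hc, one_smul]
    _ = c • ((V.index : k) • x) := mul_smul _ _ _
    _ = 0 := by rw [h2, smul_zero]

end ResCores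

section ZModp

variable {G : Type} [Group G] {p : ℕ} [Fact p.Prime] {𝒰 : LevelFamily G} {V : Subgroup G}
  {M : Rep.{0} (ZMod p) G}

/-- Restriction to an open subgroup of index prime to `p` is injective on the level cohomology of
discrete `ZMod p`-modules. -/
theorem res_injective_of_not_dvd (hV : IsOpenSubgroup 𝒰 V) (hM : 𝒰.IsDiscrete M) (n : ℕ)
    (hp : ¬ p ∣ V.index) : Function.Injective (res 𝒰 V M n).hom := by
  apply res_injective_of_isUnit hV hM n
  rw [isUnit_iff_ne_zero, Ne, ZMod.natCast_eq_zero_iff]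
  exact hp

end ZModp

/-! ### Naturality and compatibility with connecting homomorphisms -/

section Naturality

variable {𝒰 : LevelFamily G} {V : Subgroup G}

theorem coindTrace_naturality [V.FiniteIndex] {M M' : Rep.{u} k G} (φ : M ⟶ M') :
    Rep.coindMap V.subtype ((Rep.resFunctor V.subtype).map φ) ≫ coindTrace V M' =
      coindTrace V M ≫ φ := by
  letI : Fintype (G ⧸ V) := Fintype.ofFinite _
  ext F
  show ∑ c : G ⧸ V, traceFun V M'
      ((Rep.coindMap V.subtype ((Rep.resFunctor V.subtype).map φ)).hom F) c =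
    φ.hom (∑ c : G ⧸ V, traceFun V M F c)
  rw [map_sum]
  refine Finset.sum_congr rfl (fun c _ => ?_)
  induction c using QuotientGroup.induction_on with
  | H y =>
    show M'.ρ y (φ.hom (F.1 y⁻¹)) = φ.hom (M.ρ y (F.1 y⁻¹))
    rw [Rep.hom_comm_apply]

theorem res_naturality {M M' : Rep.{u} k G} (φ : M ⟶ M') (n : ℕ) :
    𝒰.levelCohomologyMap φ n ≫ res 𝒰 V M' n =
      res 𝒰 V M n ≫ (restrict 𝒰 V).levelCohomologyMap ((Rep.resFunctor V.subtype).map φ) n := by
  have h1 := map_comp (𝒰 := 𝒰) (𝒰' := 𝒰) (𝒰'' := restrict 𝒰 V)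
    (M := M) (M' := M') (M'' := Rep.res V.subtype M')
    (MonoidHom.id G) 𝒰.isCompatible_id φ V.subtype
    (isCompatible_comap 𝒰 V.subtype) (𝟙 _) n
  have h2 := map_comp (𝒰 := 𝒰) (𝒰' := restrict 𝒰 V) (𝒰'' := restrict 𝒰 V)
    (M := M) (M' := Rep.res V.subtype M) (M'' := Rep.res V.subtype M') V.subtype
    (isCompatible_comap 𝒰 V.subtype) (𝟙 _) (MonoidHom.id V)
    (restrict 𝒰 V).isCompatible_id ((Rep.resFunctor V.subtype).map φ) n
  rw [levelCohomologyMap_eq_map, levelCohomologyMap_eq_map, res, res, ← h1, ← h2]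
  exact map_congr rfl _ rfl n

/-- Compatibility of the Shapiro map with connecting homomorphisms. -/
theorem shapiro_δ (hV : IsOpenSubgroup 𝒰 V) {X : ShortComplex (Rep.{u} k V)} (hX : X.ShortExact)
    (hd : (restrict 𝒰 V).IsDiscrete X.X₂) (i j : ℕ) (hij : i + 1 = j) :
    𝒰.δ (shortExact_map_coindFunctor hX) (isDiscrete_coind hV hd) i j hij ≫ shapiro 𝒰 V X.X₁ j =
      shapiro 𝒰 V X.X₃ i ≫ (restrict 𝒰 V).δ hX hd i j hij :=
  δ_naturality V.subtype (isCompatible_comap 𝒰 V.subtype) (shortExact_map_coindFunctor hX)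
    (isDiscrete_coind hV hd) hX hd (coindEval V _) (coindEval V _) (coindEval V _)
    (coindEval_naturality _) (coindEval_naturality _) i j hij

/-- Compatibility of restriction with connecting homomorphisms. -/
theorem res_δ {X : ShortComplex (Rep.{u} k G)} (hX : X.ShortExact) (hd : 𝒰.IsDiscrete X.X₂)
    (i j : ℕ) (hij : i + 1 = j) :
    𝒰.δ hX hd i j hij ≫ res 𝒰 V X.X₁ j =
      res 𝒰 V X.X₃ i ≫ (restrict 𝒰 V).δ ((Rep.shortExact_res V.subtype).2 hX)
        (isDiscrete_res 𝒰 V X.X₂ hd) i j hij :=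
  δ_naturality V.subtype (isCompatible_comap 𝒰 V.subtype) hX hd
    ((Rep.shortExact_res V.subtype).2 hX) (isDiscrete_res 𝒰 V X.X₂ hd) (𝟙 _) (𝟙 _) (𝟙 _)
    ((Category.comp_id _).trans (Category.id_comp _).symm)
    ((Category.comp_id _).trans (Category.id_comp _).symm) i j hij

theorem comp_inv_square {C : Type*} [Category C] {P Q P' Q' R S : C} (I : P ≅ P') (J : Q ≅ Q')
    (d : P ⟶ Q) (d' : P' ⟶ Q') (T₃ : P ⟶ R) (T₁ : Q ⟶ S) (dX : R ⟶ S)
    (h : d ≫ J.hom = I.hom ≫ d') (htr : d ≫ T₁ = T₃ ≫ dX) :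
    d' ≫ (J.inv ≫ T₁) = (I.inv ≫ T₃) ≫ dX := by
  have e : I.inv ≫ d = d' ≫ J.inv := by
    rw [Iso.inv_comp_eq, ← Category.assoc, Iso.eq_comp_inv]
    exact h
  rw [← Category.assoc, ← e, Category.assoc, htr, Category.assoc]

theorem cores_naturality (hV : IsOpenSubgroup 𝒰 V) {M M' : Rep.{u} k G} (hM : 𝒰.IsDiscrete M)
    (hM' : 𝒰.IsDiscrete M') (φ : M ⟶ M') (n : ℕ) :
    (restrict 𝒰 V).levelCohomologyMap ((Rep.resFunctor V.subtype).map φ) n ≫ cores hV hM' n =
      cores hV hM n ≫ 𝒰.levelCohomologyMap φ n := by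
  have := hV.finiteIndex
  have h := shapiro_naturality 𝒰 ((Rep.resFunctor V.subtype).map φ) n
  rw [← shapiroIso_hom hV (isDiscrete_res 𝒰 V M hM) n,
    ← shapiroIso_hom hV (isDiscrete_res 𝒰 V M' hM') n] at h
  have e : (shapiroIso hV (isDiscrete_res 𝒰 V M hM) n).inv ≫
      𝒰.levelCohomologyMap (Rep.coindMap V.subtype ((Rep.resFunctor V.subtype).map φ)) n =
      (restrict 𝒰 V).levelCohomologyMap ((Rep.resFunctor V.subtype).map φ) n ≫
        (shapiroIso hV (isDiscrete_res 𝒰 V M' hM') n).inv := by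
    rw [Iso.inv_comp_eq, ← Category.assoc, Iso.eq_comp_inv]
    exact h
  rw [cores, cores, ← Category.assoc, ← e, Category.assoc, Category.assoc,
    ← levelCohomologyMap_comp, ← levelCohomologyMap_comp, coindTrace_naturality]

/-- Compatibility of corestriction with connecting homomorphisms. -/
theorem cores_δ (hV : IsOpenSubgroup 𝒰 V) {X : ShortComplex (Rep.{u} k G)} (hX : X.ShortExact)
    (hd : 𝒰.IsDiscrete X.X₂) (i j : ℕ) (hij : i + 1 = j) :
    (restrict 𝒰 V).δ ((Rep.shortExact_res V.subtype).2 hX) (isDiscrete_res 𝒰 V X.X₂ hd) i j hij ≫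
        cores hV (isDiscrete_X₁ hX hd) j =
      cores hV (isDiscrete_X₃ hX hd) i ≫ 𝒰.δ hX hd i j hij := by
  have := hV.finiteIndex
  have hY := (Rep.shortExact_res V.subtype).2 hX
  have hdY := isDiscrete_res 𝒰 V X.X₂ hd
  have hcY := shortExact_map_coindFunctor hY
  have hdcY := isDiscrete_coind hV hdY
  have h : 𝒰.δ hcY hdcY i j hij ≫
      (shapiroIso hV (isDiscrete_res 𝒰 V X.X₁ (isDiscrete_X₁ hX hd)) j).hom =
      (shapiroIso hV (isDiscrete_res 𝒰 V X.X₃ (isDiscrete_X₃ hX hd)) i).hom ≫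
        (restrict 𝒰 V).δ hY hdY i j hij := shapiro_δ hV hY hdY i j hij
  have htr := δ_naturality (MonoidHom.id G) 𝒰.isCompatible_id hcY hdcY hX hd
    (coindTrace V X.X₁) (coindTrace V X.X₂) (coindTrace V X.X₃)
    (coindTrace_naturality X.f) (coindTrace_naturality X.g) i j hij
  exact comp_inv_square (shapiroIso hV (isDiscrete_res 𝒰 V X.X₃ (isDiscrete_X₃ hX hd)) i)
    (shapiroIso hV (isDiscrete_res 𝒰 V X.X₁ (isDiscrete_X₁ hX hd)) j)
    (𝒰.δ hcY hdcY i j hij) ((restrict 𝒰 V).δ hY hdY i j hij)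
    (𝒰.levelCohomologyMap (coindTrace V X.X₃) i) (𝒰.levelCohomologyMap (coindTrace V X.X₁) j)
    (𝒰.δ hX hd i j hij) h htr

end Naturality

section CoresShapiro

variable {G : Type u} [Group G] {𝒰 : LevelFamily G} {V : Subgroup G} {M : Rep.{u} k G}

/-- Corestriction after the Shapiro map is the map induced by the trace
`coind V (res V M) ⟶ M`. -/
theorem cores_shapiro (hV : IsOpenSubgroup 𝒰 V) (hM : 𝒰.IsDiscrete M) (n : ℕ) :
    haveI := hV.finiteIndex
    shapiro 𝒰 V (Rep.res V.subtype M) n ≫ cores hV hM n =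
      𝒰.levelCohomologyMap (coindTrace V M) n := by
  have := hV.finiteIndex
  rw [cores, ← shapiroIso_hom hV (isDiscrete_res 𝒰 V M hM) n, Iso.hom_inv_id_assoc]

theorem cores_shapiro_apply (hV : IsOpenSubgroup 𝒰 V) (hM : 𝒰.IsDiscrete M) (n : ℕ)
    (x : 𝒰.levelCohomology (Rep.coind V.subtype (Rep.res V.subtype M)) n) :
    haveI := hV.finiteIndex
    (cores hV hM n).hom ((shapiro 𝒰 V (Rep.res V.subtype M) n).hom x) =
      (𝒰.levelCohomologyMap (coindTrace V M) n).hom x := by
  have := hV.finiteIndex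
  exact congr($(cores_shapiro hV hM n) x)

end CoresShapiro

end Fermat.Agent.Lib.CFT.Profinite.LES
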