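import Mathlib

/-!
# Concrete (element-level) access to the homology of a cochain complex of modules
-/

set_option autoImplicit false

universe u

open CategoryTheory

namespace Fermat.Agent.Lib.CFT.ConcreteHomology

variable {k : Type u} [CommRing k] (K L : CochainComplex (ModuleCat.{u} k) ℕ)

/-- The cocycles of degree `n`, as a submodule of `K.X n`. -/
def Z (n : ℕ) : Submodule k (K.X n) := LinearMap.ker (K.d n (n + 1)).hom

theorem mem_Z_iff {n : ℕ} (x : K.X n) : x ∈ Z K n ↔ (K.d n (n + 1)).hom x = 0 := Iff.rfl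

/-- The canonical map from the concrete cocycles to the abstract cycles. -/
noncomputable def toCycles (n : ℕ) : ModuleCat.of k (Z K n) ⟶ K.cycles n :=
  K.liftCycles (ModuleCat.ofHom (Z K n).subtype) (n + 1) (by simp) (by
    ext x
    exact x.2)

@[simp]
theorem toCycles_i_apply {n : ℕ} (x : Z K n) : (K.iCycles n).hom ((toCycles K n).hom x) = x.1 := by
  have := congr($(K.liftCycles_i (ModuleCat.ofHom (Z K n).subtype) (n + 1) (by simp) (by
    ext x
    exact x.2)) x)
  exact this

theorem iCycles_injective (n : ℕ) : Function.Injective (K.iCycles n).hom :=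
  (ModuleCat.mono_iff_injective _).1 inferInstance

theorem iCycles_mem_Z {n : ℕ} (c : K.cycles n) : (K.iCycles n).hom c ∈ Z K n := by
  rw [mem_Z_iff]
  have := congr($(K.iCycles_d n (n + 1)) c)
  exact this

theorem toCycles_surjective (n : ℕ) : Function.Surjective (toCycles K n).hom := by
  intro c
  refine ⟨⟨(K.iCycles n).hom c, iCycles_mem_Z K c⟩, ?_⟩
  apply iCycles_injective
  rw [toCycles_i_apply]

/-- The class of a cocycle in homology. -/
noncomputable def classOf (n : ℕ) : Z K n →ₗ[k] K.homology n :=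
  (toCycles K n ≫ K.homologyπ n).hom

theorem classOf_surjective (n : ℕ) : Function.Surjective (classOf K n) := by
  have h1 : Function.Surjective (K.homologyπ n).hom :=
    (ModuleCat.epi_iff_surjective _).1 inferInstance
  intro x
  obtain ⟨c, rfl⟩ := h1 x
  obtain ⟨z, rfl⟩ := toCycles_surjective K n c
  exact ⟨z, rfl⟩

theorem classOf_apply (n : ℕ) (x : Z K n) :
    classOf K n x = (K.homologyπ n).hom ((toCycles K n).hom x) := rfl

theorem homologyπ_eq_zero_iff (i j : ℕ) (hi : (ComplexShape.up ℕ).prev j = i) (c : K.cycles j) :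
    (K.homologyπ j).hom c = 0 ↔ ∃ y : K.X i, (K.toCycles i j).hom y = c := by
  have hex : (ShortComplex.mk (K.toCycles i j) (K.homologyπ j)
      (K.toCycles_comp_homologyπ i j)).Exact :=
    ShortComplex.exact_of_g_is_cokernel _ (K.homologyIsCokernel i j hi)
  rw [ShortComplex.moduleCat_exact_iff] at hex
  constructor
  · intro h
    exact hex c h
  · rintro ⟨y, rfl⟩
    exact congr($(K.toCycles_comp_homologyπ i j) y)

theorem classOf_eq_zero_iff_succ (n : ℕ) (x : Z K (n + 1)) :
    classOf K (n + 1) x = 0 ↔ ∃ y : K.X n, (K.d n (n + 1)).hom y = x.1 := by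
  have : classOf K (n + 1) x = (K.homologyπ (n + 1)).hom ((toCycles K (n + 1)).hom x) := rfl
  rw [this, homologyπ_eq_zero_iff K n (n + 1) (by simp)]
  constructor
  · rintro ⟨y, hy⟩
    refine ⟨y, ?_⟩
    have h1 := congr($(K.toCycles_i n (n + 1)) y)
    have h2 := congr_arg (K.iCycles (n + 1)).hom hy
    rw [toCycles_i_apply] at h2
    rw [← h2]
    exact h1.symm
  · rintro ⟨y, hy⟩
    refine ⟨y, iCycles_injective K _ ?_⟩
    rw [toCycles_i_apply, ← hy]
    exact congr($(K.toCycles_i n (n + 1)) y)

theorem classOf_eq_zero_iff_zero (x : Z K 0) : classOf K 0 x = 0 ↔ x = 0 := by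
  have : classOf K 0 x = (K.homologyπ 0).hom ((toCycles K 0).hom x) := rfl
  rw [this, homologyπ_eq_zero_iff K 0 0 (by simp)]
  have hd : K.d 0 0 = 0 := K.shape _ _ (by simp)
  constructor
  · rintro ⟨y, hy⟩
    have h1 := congr($(K.toCycles_i 0 0) y)
    have h2 := congr_arg (K.iCycles 0).hom hy
    rw [toCycles_i_apply] at h2
    apply Subtype.ext
    rw [← h2]
    simp only [ModuleCat.hom_comp, LinearMap.coe_comp, Function.comp_apply] at h1
    rw [h1, hd]
    rfl
  · rintro rfl
    exact ⟨0, by simp⟩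

variable {K L} (φ : K ⟶ L)

/-- A chain map sends cocycles to cocycles. -/
def mapZ (n : ℕ) : Z K n →ₗ[k] Z L n :=
  (φ.f n).hom.restrict (fun x hx => by
    rw [mem_Z_iff] at hx ⊢
    have := congr($(φ.comm n (n + 1)) x)
    simp only [ModuleCat.hom_comp, LinearMap.coe_comp, Function.comp_apply] at this
    rw [this, hx, map_zero])

@[simp]
theorem mapZ_coe (n : ℕ) (x : Z K n) : (mapZ φ n x).1 = (φ.f n).hom x.1 := rfl

theorem cyclesMap_toCycles (n : ℕ) (x : Z K n) :
    (HomologicalComplex.cyclesMap φ n).hom ((toCycles K n).hom x) =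
      (toCycles L n).hom (mapZ φ n x) := by
  apply iCycles_injective
  rw [toCycles_i_apply, mapZ_coe]
  have := congr($(HomologicalComplex.cyclesMap_i φ n) ((toCycles K n).hom x))
  simp only [ModuleCat.hom_comp, LinearMap.coe_comp, Function.comp_apply] at this
  rw [this, toCycles_i_apply]

theorem homologyMap_classOf (n : ℕ) (x : Z K n) :
    (HomologicalComplex.homologyMap φ n).hom (classOf K n x) = classOf L n (mapZ φ n x) := by
  rw [classOf_apply, classOf_apply, ← cyclesMap_toCycles]
  exact congr($(HomologicalComplex.homologyπ_naturality φ n) ((toCycles K n).hom x))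

theorem cyclesMk_eq_toCycles {n : ℕ} (x : K.X n) (hx : x ∈ Z K n) :
    K.cyclesMk x (n + 1) (by simp) hx = (toCycles K n).hom ⟨x, hx⟩ := by
  apply iCycles_injective
  rw [toCycles_i_apply]
  exact K.i_cyclesMk x (n + 1) (by simp) hx

section delta

variable {S : ShortComplex (CochainComplex (ModuleCat.{u} k) ℕ)} (hS : S.ShortExact)

include hS in
theorem mem_Z_of_f_eq_d {i : ℕ} (y : S.X₂.X i) (x : S.X₁.X (i + 1))
    (hx : (S.f.f (i + 1)).hom x = (S.X₂.d i (i + 1)).hom y) : x ∈ Z S.X₁ (i + 1) :=
  hS.d_eq_zero_of_f_eq_d_apply i (i + 1) y x hx (i + 1 + 1)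

/-- Cochain-level description of the connecting homomorphism. -/
theorem δ_classOf (i : ℕ) (z : Z S.X₃ i) (y : S.X₂.X i) (hy : (S.g.f i).hom y = z.1)
    (x : S.X₁.X (i + 1)) (hx : (S.f.f (i + 1)).hom x = (S.X₂.d i (i + 1)).hom y) :
    (hS.δ i (i + 1) rfl).hom (classOf S.X₃ i z) =
      classOf S.X₁ (i + 1) ⟨x, mem_Z_of_f_eq_d hS y x hx⟩ := by
  have := hS.δ_apply i (i + 1) rfl z.1 z.2 y hy x hx (i + 1 + 1) (by simp)
  have e1 := cyclesMk_eq_toCycles z.1 z.2
  have e2 := cyclesMk_eq_toCycles x (mem_Z_of_f_eq_d hS y x hx)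
  rw [classOf_apply, classOf_apply, ← e2]
  change (hS.δ i (i + 1) rfl).hom ((S.X₃.homologyπ i).hom ((toCycles S.X₃ i).hom ⟨z.1, z.2⟩)) = _
  rw [← e1]
  exact this

end delta


section desc

variable (K : CochainComplex (ModuleCat.{u} k) ℕ)

/-- Homology as the quotient of cocycles by the kernel of the class map. -/
noncomputable def homologyEquiv (n : ℕ) :
    (Z K n ⧸ LinearMap.ker (classOf K n)) ≃ₗ[k] K.homology n :=
  (classOf K n).quotKerEquivOfSurjective (classOf_surjective K n)

variable {K}

/-- Descend a linear map on cocycles that kills the classes of coboundaries to homology. -/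
noncomputable def descH {N : Type*} [AddCommGroup N] [Module k N] {n : ℕ} (f : Z K n →ₗ[k] N)
    (hf : ∀ x, classOf K n x = 0 → f x = 0) : K.homology n →ₗ[k] N :=
  (Submodule.liftQ _ f (fun x hx => hf x (LinearMap.mem_ker.mp hx))) ∘ₗ (homologyEquiv K n).symm.toLinearMap

@[simp]
theorem descH_classOf {N : Type*} [AddCommGroup N] [Module k N] {n : ℕ} (f : Z K n →ₗ[k] N)
    (hf : ∀ x, classOf K n x = 0 → f x = 0) (x : Z K n) :
    descH f hf (classOf K n x) = f x := by
  unfold descH
  rw [LinearMap.comp_apply]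
  have : (homologyEquiv K n).symm (classOf K n x) = Submodule.Quotient.mk x := by
    rw [LinearEquiv.symm_apply_eq]
    rfl
  rw [LinearEquiv.coe_coe, this]
  exact Submodule.liftQ_apply _ _ _

/-- Two linear maps out of homology agreeing on classes of cocycles are equal. -/
theorem hom_ext_classOf {N : Type*} [AddCommGroup N] [Module k N] {n : ℕ}
    {f g : K.homology n →ₗ[k] N} (h : ∀ x, f (classOf K n x) = g (classOf K n x)) : f = g := by
  ext y
  obtain ⟨x, rfl⟩ := classOf_surjective K n y
  exact h x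

end desc

end Fermat.Agent.Lib.CFT.ConcreteHomology
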