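import Fermat.Agent.Lib.CFT.Profinite.LevelLES
import Fermat.Agent.Lib.CFT.Profinite.ConcreteHomology

set_option autoImplicit false

universe u

open CategoryTheory groupCohomology

namespace Fermat.Agent.Lib.CFT.Profinite

open ConcreteHomology

variable {k G : Type u} [CommRing k] [Group G]

namespace LevelFamily

variable (𝒰 : LevelFamily G) (M : Rep.{u} k G)

/-- The level cocycles of degree `n`: level cochains killed by the differential. -/
def levelCocycles (n : ℕ) : Submodule k ((Fin n → G) → M) :=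
  𝒰.levelCochains M n ⊓ LinearMap.ker (inhomogeneousCochains.d M n).hom

theorem mem_levelCocycles_iff {n : ℕ} (f : (Fin n → G) → M) :
    f ∈ 𝒰.levelCocycles M n ↔
      𝒰.IsLevelCochain M f ∧ (inhomogeneousCochains.d M n).hom f = 0 := Iff.rfl

/-- The level cocycles are the concrete cocycles of the level complex. -/
def levelCocyclesEquiv (n : ℕ) : 𝒰.levelCocycles M n ≃ₗ[k] Z (𝒰.levelComplex M) n where
  toFun f := ⟨⟨f.1, (Submodule.mem_inf.mp f.2).1⟩, by
    have h2 := (Submodule.mem_inf.mp f.2).2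
    show (HomologicalComplex.d (𝒰.levelComplex M) n (n + 1)).hom _ = 0
    rw [levelComplex_d]
    apply Subtype.ext
    exact h2⟩
  invFun x := ⟨x.1.1, Submodule.mem_inf.mpr ⟨x.1.2, by
    have h : (HomologicalComplex.d (𝒰.levelComplex M) n (n + 1)).hom x.1 = 0 := x.2
    rw [levelComplex_d] at h
    exact congr_arg Subtype.val h⟩⟩
  map_add' _ _ := rfl
  map_smul' _ _ := rfl
  left_inv _ := rfl
  right_inv _ := rfl

@[simp]
theorem levelCocyclesEquiv_apply_coe {n : ℕ} (f : 𝒰.levelCocycles M n) :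
    ((𝒰.levelCocyclesEquiv M n f).1 : 𝒰.levelCochains M n).1 = f.1 := rfl

/-- The class of a level cocycle in level cohomology. -/
noncomputable def classMk (n : ℕ) : 𝒰.levelCocycles M n →ₗ[k] 𝒰.levelCohomology M n :=
  classOf (𝒰.levelComplex M) n ∘ₗ (𝒰.levelCocyclesEquiv M n).toLinearMap

theorem classMk_surjective (n : ℕ) : Function.Surjective (𝒰.classMk M n) :=
  (classOf_surjective _ n).comp (𝒰.levelCocyclesEquiv M n).surjective

theorem classMk_eq_zero_iff_succ (n : ℕ) (f : 𝒰.levelCocycles M (n + 1)) :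
    𝒰.classMk M (n + 1) f = 0 ↔
      ∃ h ∈ 𝒰.levelCochains M n, (inhomogeneousCochains.d M n).hom h = f.1 := by
  change classOf (𝒰.levelComplex M) (n + 1) (𝒰.levelCocyclesEquiv M (n + 1) f) = 0 ↔ _
  rw [classOf_eq_zero_iff_succ]
  constructor
  · rintro ⟨y, hy⟩
    rw [levelComplex_d] at hy
    exact ⟨y.1, y.2, congr_arg Subtype.val hy⟩
  · rintro ⟨h, hh, hd⟩
    refine ⟨⟨h, hh⟩, ?_⟩
    rw [levelComplex_d]
    exact Subtype.ext hd

theorem classMk_eq_zero_iff_zero (f : 𝒰.levelCocycles M 0) : 𝒰.classMk M 0 f = 0 ↔ f = 0 := by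
  change classOf (𝒰.levelComplex M) 0 (𝒰.levelCocyclesEquiv M 0 f) = 0 ↔ _
  rw [classOf_eq_zero_iff_zero]
  exact (𝒰.levelCocyclesEquiv M 0).map_eq_zero_iff

section functoriality

variable {𝒰 M} {G' : Type u} [Group G'] {𝒰' : LevelFamily G'} {M' : Rep.{u} k G'}
  (f : G' →* G) (hf : IsCompatible 𝒰' 𝒰 f) (φ : Rep.res f M ⟶ M')

/-- The map on level cohomology induced by a compatible group homomorphism and a morphism of
representations. -/
noncomputable def levelCohomologyMapOfHom (n : ℕ) :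
    𝒰.levelCohomology M n ⟶ 𝒰'.levelCohomology M' n :=
  HomologicalComplex.homologyMap (levelCochainsMap f hf φ) n

/-- The induced map on level cocycles. -/
noncomputable def levelCocyclesMap (n : ℕ) : 𝒰.levelCocycles M n →ₗ[k] 𝒰'.levelCocycles M' n :=
  (𝒰'.levelCocyclesEquiv M' n).symm.toLinearMap ∘ₗ mapZ (levelCochainsMap f hf φ) n ∘ₗ
    (𝒰.levelCocyclesEquiv M n).toLinearMap

@[simp]
theorem levelCocyclesMap_coe (n : ℕ) (x : 𝒰.levelCocycles M n) :
    (levelCocyclesMap f hf φ n x).1 = ((cochainsMap f φ).f n).hom x.1 := by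
  have h := 𝒰'.levelCocyclesEquiv_apply_coe M' (levelCocyclesMap f hf φ n x)
  rw [← h]
  simp only [levelCocyclesMap, LinearMap.comp_apply, LinearEquiv.coe_coe,
    LinearEquiv.apply_symm_apply]
  have h2 := levelCochainsMap_f_apply_coe f hf φ (𝒰.levelCocyclesEquiv M n x).1
  rw [levelCocyclesEquiv_apply_coe] at h2
  exact h2

theorem levelCohomologyMapOfHom_classMk (n : ℕ) (x : 𝒰.levelCocycles M n) :
    (levelCohomologyMapOfHom f hf φ n).hom (𝒰.classMk M n x) =
      𝒰'.classMk M' n (levelCocyclesMap f hf φ n x) := by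
  unfold classMk levelCohomologyMapOfHom
  rw [LinearMap.comp_apply, homologyMap_classOf, LinearMap.comp_apply]
  rfl

/-- Compatibility of the change-of-group maps with the comparison to abstract cohomology. -/
theorem levelCohomologyMapOfHom_comp_toGroupCohomology (n : ℕ) :
    levelCohomologyMapOfHom f hf φ n ≫ 𝒰'.toGroupCohomology M' n =
      𝒰.toGroupCohomology M n ≫ groupCohomology.map f φ n := by
  have h1 := HomologicalComplex.homologyMap_comp (levelCochainsMap f hf φ) (𝒰'.levelComplexι M') n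
  have h2 := HomologicalComplex.homologyMap_comp (𝒰.levelComplexι M) (cochainsMap f φ) n
  rw [levelCochainsMap_comp_ι] at h1
  exact h1.symm.trans h2

end functoriality

/-- A level cocycle is in particular a cocycle of the full complex. -/
def levelCocyclesToZ (n : ℕ) : 𝒰.levelCocycles M n →ₗ[k] Z (inhomogeneousCochains M) n where
  toFun f := ⟨f.1, by
    have h2 := (Submodule.mem_inf.mp f.2).2
    show (HomologicalComplex.d (inhomogeneousCochains M) n (n + 1)).hom f.1 = 0
    rw [inhomogeneousCochains.d_def]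
    exact h2⟩
  map_add' _ _ := rfl
  map_smul' _ _ := rfl

theorem toGroupCohomology_classMk (n : ℕ) (f : 𝒰.levelCocycles M n) :
    (𝒰.toGroupCohomology M n).hom (𝒰.classMk M n f) =
      classOf (inhomogeneousCochains M) n (𝒰.levelCocyclesToZ M n f) := by
  have h := homologyMap_classOf (𝒰.levelComplexι M) n (𝒰.levelCocyclesEquiv M n f)
  exact h

section delta

variable {𝒰} {X : ShortComplex (Rep.{u} k G)} (hX : X.ShortExact) (hd : 𝒰.IsDiscrete X.X₂)

include hX in
theorem mem_levelCocycles_of_comp_eq_d {i : ℕ} {y : (Fin i → G) → X.X₂}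
    {x : (Fin (i + 1) → G) → X.X₁} (hx : x ∈ 𝒰.levelCochains X.X₁ (i + 1))
    (hxy : ∀ g, X.f.hom (x g) = (inhomogeneousCochains.d X.X₂ i).hom y g) :
    x ∈ 𝒰.levelCocycles X.X₁ (i + 1) := by
  refine Submodule.mem_inf.mpr ⟨hx, ?_⟩
  rw [LinearMap.mem_ker]
  have hinj : Function.Injective X.f.hom := (Rep.mono_iff_injective X.f).1 hX.2
  have hcomm := (cochainsMap (MonoidHom.id G) X.f).comm (i + 1) (i + 1 + 1)
  have h1 := congr($hcomm x)
  simp only [ModuleCat.hom_comp, LinearMap.coe_comp, Function.comp_apply,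
    CochainComplex.of_d] at h1
  have h2 : ((cochainsMap (MonoidHom.id G) X.f).f (i + 1)).hom x =
      (inhomogeneousCochains.d X.X₂ i).hom y := by
    funext g
    exact hxy g
  rw [h2] at h1
  have h3 := congr($(inhomogeneousCochains.d_comp_d (A := X.X₂) (n := i)) y)
  simp only [ModuleCat.hom_comp, LinearMap.coe_comp, Function.comp_apply, ModuleCat.hom_zero,
    LinearMap.zero_apply] at h3
  rw [h3] at h1
  funext g
  apply hinj
  have := congr_fun h1 g
  rw [Pi.zero_apply, map_zero]
  exact this.symm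

/-- Cochain-level description of the connecting homomorphism of level cohomology. -/
theorem δ_classMk (i : ℕ) (z : 𝒰.levelCocycles X.X₃ i) (y : (Fin i → G) → X.X₂)
    (hy : y ∈ 𝒰.levelCochains X.X₂ i) (hyz : ∀ g, X.g.hom (y g) = z.1 g)
    (x : (Fin (i + 1) → G) → X.X₁) (hx : x ∈ 𝒰.levelCochains X.X₁ (i + 1))
    (hxy : ∀ g, X.f.hom (x g) = (inhomogeneousCochains.d X.X₂ i).hom y g) :
    (𝒰.δ hX hd i (i + 1) rfl).hom (𝒰.classMk X.X₃ i z) =
      𝒰.classMk X.X₁ (i + 1) ⟨x, mem_levelCocycles_of_comp_eq_d hX hx hxy⟩ := by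
  have := δ_classOf (𝒰.map_levelComplexFunctor_shortExact hX hd) i
    (𝒰.levelCocyclesEquiv X.X₃ i z) ⟨y, hy⟩ (by
      apply Subtype.ext
      rw [levelCocyclesEquiv_apply_coe]
      funext g
      exact hyz g) ⟨x, hx⟩ (by
      have e : (X.map (𝒰.levelComplexFunctor (k := k))).X₂.d i (i + 1) = 𝒰.levelD X.X₂ i :=
        𝒰.levelComplex_d X.X₂ i
      rw [e]
      apply Subtype.ext
      funext g
      exact hxy g)
  refine this.trans ?_
  show classOf (𝒰.levelComplex X.X₁) (i + 1) _ =
    classOf (𝒰.levelComplex X.X₁) (i + 1) (𝒰.levelCocyclesEquiv X.X₁ (i + 1) _)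
  rfl

end delta

end LevelFamily

end Fermat.Agent.Lib.CFT.Profinite
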