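import Fermat.Agent.Lib.CFT.Profinite.LevelLES
import Fermat.Agent.Lib.CFT.Profinite.LevelClasses

/-!
# Level cohomology: change of group, naturality of connecting maps (P-CFT, Profinite/LES)

On top of the level-cochain interface (`LevelFamily`, `levelComplex`, `levelCohomology`, `δ`):

* `comap 𝒰 f`: the pulled-back level family along `f : G' →* G`; `restrict 𝒰 V` for a subgroup;
  `quot 𝒰 N`: the image level family on `G ⧸ N`;
* `map f hf φ n`: the map on level cohomology induced by a compatible group homomorphism and a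
  morphism of representations; functoriality and compatibility with `toGroupCohomology`;
* `δ_naturality`: naturality of the connecting homomorphisms under change of group;
* elementwise criteria: vanishing of level cohomology, degree zero comparison, and the
  dimension-shifting comparison lemma `bijective_succ_of_ladder`.
-/

set_option autoImplicit false

universe u

open CategoryTheory groupCohomology ShortComplex

namespace Fermat.Agent.Lib.CFT.Profinite.LES

open LevelFamily

variable {k G : Type u} [CommRing k] [Group G]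

/-! ### Pulled-back and image level families -/

section Families

variable {G' : Type u} [Group G']

/-- The level family on `G'` pulled back along `f : G' →* G`. -/
def comap (𝒰 : LevelFamily G) (f : G' →* G) : LevelFamily G' where
  levels := {U' | ∃ U ∈ 𝒰.levels, U.comap f = U'}
  nonempty := by
    obtain ⟨U, hU⟩ := 𝒰.nonempty
    exact ⟨U.comap f, U, hU, rfl⟩
  directed := by
    rintro _ ⟨U, hU, rfl⟩ _ ⟨V, hV, rfl⟩
    obtain ⟨W, hW, hle⟩ := 𝒰.directed U hU V hV
    refine ⟨W.comap f, ⟨W, hW, rfl⟩, ?_⟩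
    rw [← Subgroup.comap_inf]
    exact Subgroup.comap_mono hle
  finiteIndex := by
    rintro _ ⟨U, hU, rfl⟩
    have := 𝒰.finiteIndex U hU
    rw [Subgroup.finiteIndex_iff, Subgroup.index_comap]
    exact (Subgroup.finiteIndex_iff (H := U.subgroupOf f.range)).1 inferInstance
  normal_le := by
    rintro _ ⟨U, hU, rfl⟩
    obtain ⟨V, hV, hle, hn⟩ := 𝒰.normal_le U hU
    exact ⟨V.comap f, ⟨V, hV, rfl⟩, Subgroup.comap_mono hle, hn.comap f⟩

theorem mem_comap_levels {𝒰 : LevelFamily G} {f : G' →* G} {U' : Subgroup G'} :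
    U' ∈ (comap 𝒰 f).levels ↔ ∃ U ∈ 𝒰.levels, U.comap f = U' := Iff.rfl

theorem comap_mem_comap_levels {𝒰 : LevelFamily G} (f : G' →* G) {U : Subgroup G}
    (hU : U ∈ 𝒰.levels) : U.comap f ∈ (comap 𝒰 f).levels := ⟨U, hU, rfl⟩

theorem isCompatible_comap (𝒰 : LevelFamily G) (f : G' →* G) :
    IsCompatible (comap 𝒰 f) 𝒰 f :=
  fun U hU => ⟨U.comap f, ⟨U, hU, rfl⟩, le_rfl⟩

/-- The level family induced on a subgroup. -/
abbrev restrict (𝒰 : LevelFamily G) (V : Subgroup G) : LevelFamily V := comap 𝒰 V.subtype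

/-- The image level family along a surjective homomorphism. -/
def mapSurj (𝒰 : LevelFamily G) (f : G →* G') (hf : Function.Surjective f) : LevelFamily G' where
  levels := {U' | ∃ U ∈ 𝒰.levels, U.map f = U'}
  nonempty := by
    obtain ⟨U, hU⟩ := 𝒰.nonempty
    exact ⟨U.map f, U, hU, rfl⟩
  directed := by
    rintro _ ⟨U, hU, rfl⟩ _ ⟨V, hV, rfl⟩
    obtain ⟨W, hW, hle⟩ := 𝒰.directed U hU V hV
    refine ⟨W.map f, ⟨W, hW, rfl⟩, le_inf ?_ ?_⟩
    · exact Subgroup.map_mono (hle.trans inf_le_left)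
    · exact Subgroup.map_mono (hle.trans inf_le_right)
  finiteIndex := by
    rintro _ ⟨U, hU, rfl⟩
    have := 𝒰.finiteIndex U hU
    rw [Subgroup.finiteIndex_iff]
    intro h0
    have := U.index_map_dvd hf
    rw [h0, zero_dvd_iff] at this
    exact Subgroup.finiteIndex_iff.1 inferInstance this
  normal_le := by
    rintro _ ⟨U, hU, rfl⟩
    obtain ⟨V, hV, hle, hn⟩ := 𝒰.normal_le U hU
    exact ⟨V.map f, ⟨V, hV, rfl⟩, Subgroup.map_mono hle, hn.map f hf⟩

theorem isCompatible_mapSurj (𝒰 : LevelFamily G) (f : G →* G') (hf : Function.Surjective f) :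
    IsCompatible 𝒰 (mapSurj 𝒰 f hf) f := by
  rintro _ ⟨U, hU, rfl⟩
  exact ⟨U, hU, Subgroup.le_comap_map f U⟩

/-- The level family on the quotient by a normal subgroup. -/
abbrev quot (𝒰 : LevelFamily G) (N : Subgroup G) [N.Normal] : LevelFamily (G ⧸ N) :=
  mapSurj 𝒰 (QuotientGroup.mk' N) (QuotientGroup.mk'_surjective N)

end Families

/-! ### Change of group on level cohomology -/

section Map

variable {G' : Type u} [Group G'] {𝒰 : LevelFamily G} {𝒰' : LevelFamily G'}
  {M : Rep.{u} k G} {M' : Rep.{u} k G'}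

theorem IsCompatible.comp {G'' : Type u} [Group G''] {𝒰'' : LevelFamily G''} {f : G' →* G}
    {f' : G'' →* G'} (hf : IsCompatible 𝒰' 𝒰 f) (hf' : IsCompatible 𝒰'' 𝒰' f') :
    IsCompatible 𝒰'' 𝒰 (f.comp f') := fun U hU => by
  obtain ⟨U', hU', h⟩ := hf U hU
  obtain ⟨U'', hU'', h'⟩ := hf' U' hU'
  exact ⟨U'', hU'', fun x hx => h (h' hx)⟩

/-- The map on level cohomology induced by a compatible homomorphism `f : G' →* G` and a morphism
of representations `φ : res f M ⟶ M'` (a short name for `levelCohomologyMapOfHom`). -/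
noncomputable abbrev map (f : G' →* G) (hf : IsCompatible 𝒰' 𝒰 f) (φ : Rep.res f M ⟶ M') (n : ℕ) :
    𝒰.levelCohomology M n ⟶ 𝒰'.levelCohomology M' n :=
  levelCohomologyMapOfHom f hf φ n

theorem map_def (f : G' →* G) (hf : IsCompatible 𝒰' 𝒰 f) (φ : Rep.res f M ⟶ M') (n : ℕ) :
    map f hf φ n = HomologicalComplex.homologyMap (levelCochainsMap f hf φ) n := rfl

theorem map_id (n : ℕ) :
    map (MonoidHom.id G) 𝒰.isCompatible_id (𝟙 M) n = 𝟙 (𝒰.levelCohomology M n) := by
  have h := levelCochainsMap_id (𝒰 := 𝒰) (M := M)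
  exact (congrArg (fun F => HomologicalComplex.homologyMap F n) h).trans
    (HomologicalComplex.homologyMap_id _ n)

theorem map_comp {G'' : Type u} [Group G''] {𝒰'' : LevelFamily G''} {M'' : Rep.{u} k G''}
    (f : G' →* G) (hf : IsCompatible 𝒰' 𝒰 f) (φ : Rep.res f M ⟶ M')
    (f' : G'' →* G') (hf' : IsCompatible 𝒰'' 𝒰' f') (φ' : Rep.res f' M' ⟶ M'') (n : ℕ) :
    map (f.comp f') (IsCompatible.comp hf hf') ((Rep.resFunctor f').map φ ≫ φ') n =
      map f hf φ n ≫ map f' hf' φ' n := by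
  have h := levelCochainsMap_comp f hf φ f' hf' φ'
  exact (congrArg (fun F => HomologicalComplex.homologyMap F n) h).trans
    (HomologicalComplex.homologyMap_comp _ _ n)

theorem map_congr {f₁ f₂ : G' →* G} (h : f₁ = f₂) (hf₁ : IsCompatible 𝒰' 𝒰 f₁)
    {φ₁ : Rep.res f₁ M ⟶ M'} {φ₂ : Rep.res f₂ M ⟶ M'} (hφ : φ₁.hom.toLinearMap = φ₂.hom.toLinearMap)
    (n : ℕ) : map f₁ hf₁ φ₁ n = map f₂ (h ▸ hf₁) φ₂ n := by
  subst h
  have : φ₁ = φ₂ := by
    ext x
    exact congr($hφ x)
  rw [this]

/-- Same-group functoriality of level cohomology is a special case of `map`. -/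
theorem levelCohomologyMap_eq_map {M'' : Rep.{u} k G} (φ : M ⟶ M'') (n : ℕ) :
    𝒰.levelCohomologyMap φ n = map (MonoidHom.id G) 𝒰.isCompatible_id φ n := rfl

theorem map_comp_toGroupCohomology (f : G' →* G) (hf : IsCompatible 𝒰' 𝒰 f)
    (φ : Rep.res f M ⟶ M') (n : ℕ) :
    map f hf φ n ≫ 𝒰'.toGroupCohomology M' n =
      𝒰.toGroupCohomology M n ≫ groupCohomology.map f φ n := by
  have h := levelCochainsMap_comp_ι f hf φ
  exact (HomologicalComplex.homologyMap_comp _ _ n).symm.trans
    ((congrArg (fun F => HomologicalComplex.homologyMap F n) h).trans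
      (HomologicalComplex.homologyMap_comp _ _ n))

/-- Naturality of the connecting homomorphisms of level cohomology under change of group. -/
theorem δ_naturality (f : G' →* G) (hf : IsCompatible 𝒰' 𝒰 f)
    {X : ShortComplex (Rep.{u} k G)} (hX : X.ShortExact) (hd : 𝒰.IsDiscrete X.X₂)
    {Y : ShortComplex (Rep.{u} k G')} (hY : Y.ShortExact) (hd' : 𝒰'.IsDiscrete Y.X₂)
    (φ₁ : Rep.res f X.X₁ ⟶ Y.X₁) (φ₂ : Rep.res f X.X₂ ⟶ Y.X₂) (φ₃ : Rep.res f X.X₃ ⟶ Y.X₃)
    (h₁₂ : (Rep.resFunctor f).map X.f ≫ φ₂ = φ₁ ≫ Y.f)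
    (h₂₃ : (Rep.resFunctor f).map X.g ≫ φ₃ = φ₂ ≫ Y.g)
    (i j : ℕ) (hij : i + 1 = j) :
    𝒰.δ hX hd i j hij ≫ map f hf φ₁ j = map f hf φ₃ i ≫ 𝒰'.δ hY hd' i j hij := by
  let F : X.map (𝒰.levelComplexFunctor (k := k)) ⟶ Y.map (𝒰'.levelComplexFunctor (k := k)) :=
    { τ₁ := levelCochainsMap f hf φ₁
      τ₂ := levelCochainsMap f hf φ₂
      τ₃ := levelCochainsMap f hf φ₃
      comm₁₂ := by
        show levelCochainsMap f hf φ₁ ≫
            levelCochainsMap (MonoidHom.id G') 𝒰'.isCompatible_id Y.f =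
          levelCochainsMap (MonoidHom.id G) 𝒰.isCompatible_id X.f ≫ levelCochainsMap f hf φ₂
        ext n x : 3
        apply Subtype.ext
        funext g
        exact congr($h₁₂ (x.1 (f ∘ g))).symm
      comm₂₃ := by
        show levelCochainsMap f hf φ₂ ≫
            levelCochainsMap (MonoidHom.id G') 𝒰'.isCompatible_id Y.g =
          levelCochainsMap (MonoidHom.id G) 𝒰.isCompatible_id X.g ≫ levelCochainsMap f hf φ₃
        ext n x : 3
        apply Subtype.ext
        funext g
        exact congr($h₂₃ (x.1 (f ∘ g))).symm }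
  exact HomologicalComplex.HomologySequence.δ_naturality F
    (𝒰.map_levelComplexFunctor_shortExact hX hd) (𝒰'.map_levelComplexFunctor_shortExact hY hd')
    i j hij

end Map

/-! ### Concrete description of the homology of a cochain complex of modules -/

section Concrete

variable (K : CochainComplex (ModuleCat.{u} k) ℕ) (n : ℕ)

theorem iCycles_injective : Function.Injective (K.iCycles n).hom :=
  (ModuleCat.mono_iff_injective _).1 inferInstance

theorem d_iCycles (c : K.cycles n) : (K.d n (n + 1)).hom ((K.iCycles n).hom c) = 0 :=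
  congr($(K.iCycles_d n (n + 1)) c)

theorem exists_cycle (x : K.X n) (hx : (K.d n (n + 1)).hom x = 0) :
    ∃ c : K.cycles n, (K.iCycles n).hom c = x := by
  let A := ModuleCat.of k (LinearMap.ker (K.d n (n + 1)).hom)
  let f : A ⟶ K.X n := ModuleCat.ofHom (LinearMap.ker (K.d n (n + 1)).hom).subtype
  have hf : f ≫ K.d n (n + 1) = 0 := by
    ext y
    exact y.2
  refine ⟨(K.liftCycles f (n + 1) (by simp) hf).hom ⟨x, hx⟩, ?_⟩
  exact congr($(K.liftCycles_i f (n + 1) (by simp) hf) ⟨x, hx⟩)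

theorem homologyπ_surjective : Function.Surjective (K.homologyπ n).hom :=
  (ModuleCat.epi_iff_surjective _).1 inferInstance

theorem homologyπ_eq_zero_iff (c : K.cycles (n + 1)) :
    (K.homologyπ (n + 1)).hom c = 0 ↔
      ∃ y : K.X n, (K.d n (n + 1)).hom y = (K.iCycles (n + 1)).hom c := by
  constructor
  · intro h
    have hex : (ShortComplex.mk (K.toCycles n (n + 1)) (K.homologyπ (n + 1))
        (K.toCycles_comp_homologyπ n (n + 1))).Exact :=
      ShortComplex.exact_of_g_is_cokernel _ (K.homologyIsCokernel n (n + 1) (by simp))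
    obtain ⟨y, hy⟩ := (ShortComplex.moduleCat_exact_iff _).1 hex c h
    refine ⟨y, ?_⟩
    have := congr($(K.toCycles_i n (n + 1)) y)
    rw [← this]
    exact congrArg (K.iCycles (n + 1)).hom hy
  · rintro ⟨y, hy⟩
    have h1 : (K.toCycles n (n + 1)).hom y = c := by
      apply iCycles_injective
      rw [← hy]
      exact congr($(K.toCycles_i n (n + 1)) y)
    rw [← h1]
    exact congr($(K.toCycles_comp_homologyπ n (n + 1)) y)

theorem homologyπ_zero_injective : Function.Injective (K.homologyπ 0).hom :=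
  (ConcreteCategory.bijective_of_isIso (K.homologyπ 0)).1

/-- Positive-degree homology vanishes iff every cocycle is a coboundary. -/
theorem isZero_homology_succ_iff :
    Limits.IsZero (K.homology (n + 1)) ↔
      ∀ x : K.X (n + 1), (K.d (n + 1) (n + 2)).hom x = 0 →
        ∃ y : K.X n, (K.d n (n + 1)).hom y = x := by
  rw [← K.exactAt_iff_isZero_homology, K.exactAt_iff' n (n + 1) (n + 2) (by simp) (by simp),
    ShortComplex.moduleCat_exact_iff]
  rfl

variable {K} {L : CochainComplex (ModuleCat.{u} k) ℕ} (φ : K ⟶ L)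

theorem iCycles_cyclesMap (c : K.cycles n) :
    (L.iCycles n).hom ((HomologicalComplex.cyclesMap φ n).hom c) =
      (φ.f n).hom ((K.iCycles n).hom c) :=
  congr($(HomologicalComplex.cyclesMap_i φ n) c)

theorem homologyMap_homologyπ (c : K.cycles n) :
    (HomologicalComplex.homologyMap φ n).hom ((K.homologyπ n).hom c) =
      (L.homologyπ n).hom ((HomologicalComplex.cyclesMap φ n).hom c) :=
  congr($(HomologicalComplex.homologyπ_naturality φ n) c)

/-- Degree zero comparison: a morphism of cochain complexes which is bijective on `0`-cocycles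
is bijective on `H⁰`. -/
theorem homologyMap_zero_bijective
    (hinj : ∀ x : K.X 0, (K.d 0 1).hom x = 0 → (φ.f 0).hom x = 0 → x = 0)
    (hsurj : ∀ y : L.X 0, (L.d 0 1).hom y = 0 →
      ∃ x : K.X 0, (K.d 0 1).hom x = 0 ∧ (φ.f 0).hom x = y) :
    Function.Bijective (HomologicalComplex.homologyMap φ 0).hom := by
  constructor
  · rw [injective_iff_map_eq_zero]
    intro c hc
    obtain ⟨z, rfl⟩ := homologyπ_surjective K 0 c
    rw [homologyMap_homologyπ] at hc
    have h1 : (HomologicalComplex.cyclesMap φ 0).hom z = 0 :=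
      homologyπ_zero_injective L (hc.trans (map_zero _).symm)
    have h2 : (φ.f 0).hom ((K.iCycles 0).hom z) = 0 := by
      rw [← iCycles_cyclesMap, h1, map_zero]
    have h3 : (K.iCycles 0).hom z = 0 := hinj _ (d_iCycles K 0 z) h2
    have h4 : z = 0 := iCycles_injective K 0 (h3.trans (map_zero _).symm)
    rw [h4, map_zero]
  · intro c'
    obtain ⟨z', rfl⟩ := homologyπ_surjective L 0 c'
    obtain ⟨x, hx, hxy⟩ := hsurj _ (d_iCycles L 0 z')
    obtain ⟨z, hz⟩ := exists_cycle K 0 x hx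
    refine ⟨(K.homologyπ 0).hom z, ?_⟩
    rw [homologyMap_homologyπ]
    congr 1
    apply iCycles_injective
    rw [iCycles_cyclesMap, hz, hxy]

end Concrete

/-! ### Criteria for level cohomology -/

section LevelCriteria

variable (𝒰 : LevelFamily G) (M : Rep.{u} k G)

/-- The differential of the level complex, on underlying functions. -/
theorem levelComplex_d_hom_coe (n : ℕ) (x : 𝒰.levelCochains M n) :
    ((((𝒰.levelComplex M).d n (n + 1)).hom x : 𝒰.levelCochains M (n + 1)) : (Fin (n + 1) → G) → M) =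
      (inhomogeneousCochains.d M n).hom x.1 :=
  congrArg (fun F : ModuleCat.of k (𝒰.levelCochains M n) ⟶
    ModuleCat.of k (𝒰.levelCochains M (n + 1)) => ((F.hom x).1 : (Fin (n + 1) → G) → M))
    (𝒰.levelComplex_d M n)

theorem levelComplex_d_hom_eq_zero_iff (n : ℕ) (x : 𝒰.levelCochains M n) :
    ((𝒰.levelComplex M).d n (n + 1)).hom x = 0 ↔ (inhomogeneousCochains.d M n).hom x.1 = 0 := by
  rw [← levelComplex_d_hom_coe]
  exact Subtype.ext_iff

/-- Positive-degree level cohomology vanishes iff every level cocycle is the differential of a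
level cochain. -/
theorem isZero_levelCohomology_succ_iff (n : ℕ) :
    Limits.IsZero (𝒰.levelCohomology M (n + 1)) ↔
      ∀ f ∈ 𝒰.levelCochains M (n + 1), (inhomogeneousCochains.d M (n + 1)).hom f = 0 →
        ∃ e ∈ 𝒰.levelCochains M n, (inhomogeneousCochains.d M n).hom e = f := by
  refine (isZero_homology_succ_iff (𝒰.levelComplex M) n).trans ?_
  constructor
  · intro h f hf hdf
    obtain ⟨y, hy⟩ := h ⟨f, hf⟩ ((levelComplex_d_hom_eq_zero_iff 𝒰 M (n + 1) ⟨f, hf⟩).2 hdf)
    exact ⟨y.1, y.2, (levelComplex_d_hom_coe 𝒰 M n y).symm.trans (congrArg Subtype.val hy)⟩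
  · intro h x hx
    obtain ⟨e, he, hde⟩ := h x.1 x.2 ((levelComplex_d_hom_eq_zero_iff 𝒰 M (n + 1) x).1 hx)
    exact ⟨⟨e, he⟩, Subtype.ext ((levelComplex_d_hom_coe 𝒰 M n ⟨e, he⟩).trans hde)⟩

variable {M} in
theorem d_zero_apply (x : (Fin 0 → G) → M) (g : Fin 1 → G) :
    (inhomogeneousCochains.d M 0).hom x g = M.ρ (g 0) (x default) - x default := by
  rw [inhomogeneousCochains.d_hom_apply]
  have h1 : ∀ a : Fin 0 → G, x a = x default := fun a => congrArg x (Subsingleton.elim _ _)
  simp [h1, sub_eq_add_neg]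

variable {M} in
theorem d_zero_eq_zero_iff (x : (Fin 0 → G) → M) :
    (inhomogeneousCochains.d M 0).hom x = 0 ↔ ∀ g : G, M.ρ g (x default) = x default := by
  constructor
  · intro h g
    have := congr_fun h (fun _ => g)
    rw [d_zero_apply] at this
    exact sub_eq_zero.1 this
  · intro h
    funext g
    rw [d_zero_apply, h, sub_self]
    rfl

variable {M} in
theorem const_mem_levelCochains_zero {m : M} (hm : ∀ g : G, M.ρ g m = m) :
    (fun _ : Fin 0 → G => m) ∈ 𝒰.levelCochains M 0 := by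
  obtain ⟨U, hU⟩ := 𝒰.nonempty
  exact ⟨U, hU, fun _ _ _ => rfl, fun _ s _ => hm s⟩

end LevelCriteria

section MapZero

variable {G' : Type u} [Group G'] {𝒰 : LevelFamily G} {𝒰' : LevelFamily G'}
  {M : Rep.{u} k G} {M' : Rep.{u} k G'}

/-- Degree zero: `map f hf φ 0` is bijective as soon as `φ` induces a bijection between the
invariants. -/
theorem map_zero_bijective (f : G' →* G) (hf : IsCompatible 𝒰' 𝒰 f) (φ : Rep.res f M ⟶ M')
    (hinj : ∀ m : M, (∀ g : G, M.ρ g m = m) → φ.hom m = 0 → m = 0)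
    (hsurj : ∀ m' : M', (∀ g' : G', M'.ρ g' m' = m') →
      ∃ m : M, (∀ g : G, M.ρ g m = m) ∧ φ.hom m = m') :
    Function.Bijective (map f hf φ 0).hom := by
  have key : ∀ x : (Fin 0 → G) → M, ((cochainsMap f φ).f 0).hom x default = φ.hom (x default) := by
    intro x
    have h0 : (⇑f ∘ (default : Fin 0 → G')) = (default : Fin 0 → G) := Subsingleton.elim _ _
    simp only [cochainsMap_f_hom, LinearMap.coe_comp, Function.comp_apply,
      LinearMap.funLeft_apply, LinearMap.compLeft_apply, h0]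
    rfl
  apply homologyMap_zero_bijective
  · intro x hx hφx
    have hx' : (inhomogeneousCochains.d M 0).hom x.1 = 0 :=
      (levelComplex_d_hom_eq_zero_iff 𝒰 M 0 x).1 hx
    rw [d_zero_eq_zero_iff] at hx'
    have h1 : φ.hom (x.1 default) = 0 := by
      rw [← key]
      exact congr_fun (congrArg Subtype.val hφx) default
    have h2 := hinj _ hx' h1
    apply Subtype.ext
    funext a
    rw [Subsingleton.elim a default, h2]
    rfl
  · intro y hy
    have hy' : (inhomogeneousCochains.d M' 0).hom y.1 = 0 :=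
      (levelComplex_d_hom_eq_zero_iff 𝒰' M' 0 y).1 hy
    rw [d_zero_eq_zero_iff] at hy'
    obtain ⟨m, hm, hmy⟩ := hsurj _ hy'
    refine ⟨⟨fun _ => m, const_mem_levelCochains_zero 𝒰 hm⟩, ?_, ?_⟩
    · exact (levelComplex_d_hom_eq_zero_iff 𝒰 M 0 _).2 ((d_zero_eq_zero_iff _).2 hm)
    · apply Subtype.ext
      funext a
      rw [Subsingleton.elim a default]
      exact (key _).trans hmy

end MapZero

/-! ### The dimension-shifting ladder -/

section Ladder

variable {T₂ T₃ T₁' S₂ S₃ S₁' : ModuleCat.{u} k}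

/-- A four-lemma step: in a commutative ladder with exact rows
`T₂ ⟶ T₃ ⟶ T₁' ⟶ 0` and `S₂ ⟶ S₃ ⟶ S₁' ⟶ 0`, if `v₂` is surjective and `v₃` is bijective then
`v₁'` is bijective. -/
theorem bijective_of_ladder (a : T₂ ⟶ T₃) (δT : T₃ ⟶ T₁') (b : S₂ ⟶ S₃) (δS : S₃ ⟶ S₁')
    (v₂ : T₂ ⟶ S₂) (v₃ : T₃ ⟶ S₃) (v₁' : T₁' ⟶ S₁')
    (haδ : a ≫ δT = 0)
    (hTsurj : Function.Surjective δT.hom)
    (hSex : ∀ s : S₃, δS.hom s = 0 → ∃ s₂ : S₂, b.hom s₂ = s)
    (hSsurj : Function.Surjective δS.hom)
    (comm₂₃ : a ≫ v₃ = v₂ ≫ b) (comm₃₁ : δT ≫ v₁' = v₃ ≫ δS)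
    (hv₂ : Function.Surjective v₂.hom) (hv₃ : Function.Bijective v₃.hom) :
    Function.Bijective v₁'.hom := by
  constructor
  · rw [injective_iff_map_eq_zero]
    intro x hx
    obtain ⟨t₃, rfl⟩ := hTsurj x
    have h1 : δS.hom (v₃.hom t₃) = 0 := by
      have := congr($comm₃₁ t₃)
      exact this.symm.trans hx
    obtain ⟨s₂, hs₂⟩ := hSex _ h1
    obtain ⟨t₂, rfl⟩ := hv₂ s₂
    have h2 : v₃.hom (a.hom t₂) = v₃.hom t₃ := by
      have := congr($comm₂₃ t₂)
      exact this.trans hs₂
    have h3 : a.hom t₂ = t₃ := hv₃.1 h2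
    rw [← h3]
    exact congr($haδ t₂)
  · intro y
    obtain ⟨s₃, rfl⟩ := hSsurj y
    obtain ⟨t₃, rfl⟩ := hv₃.2 s₃
    exact ⟨δT.hom t₃, congr($comm₃₁ t₃)⟩

end Ladder

end Fermat.Agent.Lib.CFT.Profinite.LES
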