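import Mathlib
import Fermat.Prelude.Def_GaloisRep_CompletionBridge

/-!
P-CFT, Profinite/Bridge, part (c): Krasner cofinality.  Every finite extension of `ℚ_q` inside
`PadicAlgCl q` is contained in the field generated over `ℚ_q` by the image of a finite extension
of `ℚ` inside `AlgebraicClosure ℚ`.
-/

set_option autoImplicit false

open Polynomial IntermediateField

namespace Fermat.Agent.Lib.CFT.Profinite.Bridge

section General

variable {K₀ K L : Type*} [Field K₀] [NontriviallyNormedField K] [CompleteSpace K]
  [IsUltrametricDist K] [CharZero K] [NormedField L] [NormedAlgebra K L] [IsAlgClosed L]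
  [Algebra.IsAlgebraic K L] [Algebra K₀ K]

/-- **Krasner approximation.** If `K₀` is dense in the complete ultrametric field `K` of
characteristic zero and `L` is an algebraically closed algebraic normed extension of `K`, then
every `a : L` lies in `K⟮b⟯` for some root `b : L` of a monic polynomial with coefficients in
`K₀`. -/
theorem exists_root_mem_adjoin (hd : DenseRange (algebraMap K₀ K)) (a : L) :
    ∃ (g : K₀[X]) (b : L), g.Monic ∧
      ((g.map (algebraMap K₀ K)).map (algebraMap K L)).IsRoot b ∧ a ∈ K⟮b⟯ := by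
  have haint : IsIntegral K a := (Algebra.IsAlgebraic.isAlgebraic a).isIntegral
  set f := minpoly K a with hf
  have fmon : f.Monic := minpoly.monic haint
  have firr : Irreducible f := minpoly.irreducible haint
  have fa0 : f.aeval a = 0 := minpoly.aeval K a
  have fnatdeg0 : f.natDegree ≠ 0 := (Irreducible.natDegree_pos firr).ne'
  classical
  let S : Finset L := {x ∈ (f.rootSet L).toFinset | x ≠ a}
  let δ : ℝ := if hS : S.Nonempty then Finset.min' (S.image fun x => ‖a - x‖)
      (Finset.image_nonempty.mpr hS) else 1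
  have norm_sub_le : ∀ a' : L, IsConjRoot K a a' → a ≠ a' → δ ≤ ‖a - a'‖ := by
    intro a' conj ne
    by_cases hS : S.Nonempty <;> simp only [hS, ↓reduceDIte, δ]
    · apply Finset.min'_le (S.image fun x => ‖a - x‖) (‖a - a'‖)
      apply Finset.mem_image_of_mem
      simp only [Finset.mem_filter, Set.mem_toFinset, S]
      rw [← (isConjRoot_iff_mem_minpoly_rootSet haint)]
      exact ⟨conj, ne.symm⟩
    · simp only [ne_eq, Finset.not_nonempty_iff_eq_empty, Finset.filter_eq_empty_iff,
        Set.mem_toFinset, not_not, S] at hS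
      rw [isConjRoot_iff_mem_minpoly_rootSet haint] at conj
      exact (ne (hS conj).symm).elim
  have δpos : δ > 0 := by
    by_cases hS : S.Nonempty <;> simp only [hS, ↓reduceDIte, δ]
    · simp only [gt_iff_lt, Finset.lt_min'_iff, Finset.mem_image, forall_exists_index, and_imp,
        forall_apply_eq_imp_iff₂]
      rintro a' ha'
      simp only [Finset.mem_filter, Set.mem_toFinset, S] at ha'
      rw [norm_pos_iff, sub_ne_zero]
      exact ha'.2.symm
    · linarith
  have hε : (δ / (max ‖a‖ 1)) ^ f.natDegree / (f.natDegree + 1) > 0 := by positivity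
  obtain ⟨g, gmon, gdeg, gcoeff⟩ :=
    exists_monic_and_natDegree_eq_and_norm_map_algebraMap_coeff_sub_lt hd fmon hε
  obtain ⟨b, hb, hab⟩ := exists_aroots_norm_sub_lt_of_norm_coeff_sub_lt
      hε fa0 fmon (gmon.map _) (gdeg ▸ (g.natDegree_map _)) gcoeff
      (IsAlgClosed.splits _)
  have hab : ‖a - b‖ < δ := by
    rw [← Real.rpow_natCast, ← mul_comm_div, div_self, one_mul,
        ← Real.rpow_mul (div_pos δpos (by positivity)).le, mul_inv_cancel₀] at hab
    · simpa [mul_assoc, div_mul_cancel₀ _ (by positivity : (max ‖a‖ 1) > 0).ne'] using hab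
    · simp [fnatdeg0]
    · positivity
  simp only [Polynomial.mem_roots', ne_eq, Polynomial.map_eq_zero, Polynomial.aroots_def] at hb
  refine ⟨g, b, gmon, hb.2, ?_⟩
  have masp : ((minpoly K a).map (algebraMap K L)).Splits := IsAlgClosed.splits _
  have hbint : IsIntegral K b := ⟨g.map (algebraMap K₀ K), gmon.map _, by
    have := hb.2
    rwa [Polynomial.IsRoot.def, Polynomial.eval_map_algebraMap] at this⟩
  exact IsKrasner.krasner firr.separable masp hbint
    fun a' h1 h2 ↦ lt_of_lt_of_le hab (norm_sub_le a' h1 h2)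

end General

section Padic

variable (q : ℕ) [Fact q.Prime]

local notation "Qbar" => AlgebraicClosure ℚ

theorem denseRange_algebraMap_rat_padic : DenseRange (algebraMap ℚ ℚ_[q]) := by
  have h : (algebraMap ℚ ℚ_[q] : ℚ → ℚ_[q]) = ((↑) : ℚ → ℚ_[q]) :=
    funext fun r => eq_ratCast _ r
  rw [h]
  exact Padic.denseRange_ratCast q

/-- Every element of `PadicAlgCl q` lies in `ℚ_q(ι β)` for some `β : Qbar`. -/
theorem exists_mem_adjoin_padicEmbedding (a : PadicAlgCl q) :
    ∃ β : Qbar, a ∈ ℚ_[q]⟮padicEmbedding q β⟯ := by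
  obtain ⟨g, b, gmon, hb, hab⟩ :=
    exists_root_mem_adjoin (K₀ := ℚ) (K := ℚ_[q]) (L := PadicAlgCl q)
      (denseRange_algebraMap_rat_padic q) a
  have hg0 : g.map (algebraMap ℚ Qbar) ≠ 0 := (gmon.map _).ne_zero
  have hmap : (g.map (algebraMap ℚ Qbar)).map ((padicEmbedding q : Qbar →ₐ[ℚ] PadicAlgCl q) :
      Qbar →+* PadicAlgCl q) =
      (g.map (algebraMap ℚ ℚ_[q])).map (algebraMap ℚ_[q] (PadicAlgCl q)) := by
    rw [Polynomial.map_map, Polynomial.map_map]
    congr 1
    exact Subsingleton.elim _ _
  have hroot : ((g.map (algebraMap ℚ Qbar)).map ((padicEmbedding q : Qbar →ₐ[ℚ] PadicAlgCl q) :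
      Qbar →+* PadicAlgCl q)).IsRoot b := by
    rw [hmap]; exact hb
  obtain ⟨β, hβ⟩ := (IsAlgClosed.splits (g.map (algebraMap ℚ Qbar))).mem_range_of_isRoot hg0 hroot
  refine ⟨β, ?_⟩
  have hβ' : padicEmbedding q β = b := hβ
  rw [hβ']
  exact hab

/-- **Krasner cofinality**: every finite extension of `ℚ_q` inside `PadicAlgCl q` is contained in
`ℚ_q(ι F)` for a finite extension `F` of `ℚ` inside `Qbar`. -/
theorem exists_finite_le_adjoin (E : IntermediateField ℚ_[q] (PadicAlgCl q))
    [FiniteDimensional ℚ_[q] E] :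
    ∃ F : IntermediateField ℚ Qbar, FiniteDimensional ℚ F ∧
      E ≤ IntermediateField.adjoin ℚ_[q] ((padicEmbedding q) '' (F : Set Qbar)) := by
  obtain ⟨α, hα⟩ := Field.exists_primitive_element ℚ_[q] E
  obtain ⟨β, hβ⟩ := exists_mem_adjoin_padicEmbedding q (α : PadicAlgCl q)
  have hβint : IsIntegral ℚ β :=
    ((AlgebraicClosure.isAlgebraic ℚ).isAlgebraic β).isIntegral
  refine ⟨ℚ⟮β⟯, IntermediateField.adjoin.finiteDimensional hβint, ?_⟩
  have hE : E = ℚ_[q]⟮(α : PadicAlgCl q)⟯ := by
    have h1 := congrArg (IntermediateField.map E.val) hα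
    rw [IntermediateField.adjoin_map, Set.image_singleton, ← AlgHom.fieldRange_eq_map,
      IntermediateField.fieldRange_val] at h1
    exact h1.symm
  rw [hE]
  refine (IntermediateField.adjoin_simple_le_iff.mpr hβ).trans ?_
  refine IntermediateField.adjoin.mono _ _ _ ?_
  rw [Set.singleton_subset_iff]
  exact ⟨β, IntermediateField.mem_adjoin_simple_self ℚ β, rfl⟩

/-- An automorphism fixes `K(S)` pointwise iff it fixes `S` pointwise. -/
theorem mem_fixingSubgroup_adjoin_iff {K L : Type*} [Field K] [Field L] [Algebra K L]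
    (S : Set L) (τ : L ≃ₐ[K] L) :
    τ ∈ (IntermediateField.adjoin K S).fixingSubgroup ↔ ∀ s ∈ S, τ s = s := by
  rw [IntermediateField.mem_fixingSubgroup_iff]
  constructor
  · intro h s hs
    exact h s (IntermediateField.subset_adjoin K S hs)
  · intro h x hx
    induction hx using IntermediateField.adjoin_induction with
    | mem x hx => exact h x hx
    | algebraMap r => exact τ.commutes r
    | add x y _ _ hx hy => rw [map_add, hx, hy]
    | inv x _ hx => rw [map_inv₀, hx]
    | mul x y _ _ hx hy => rw [map_mul, hx, hy]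

/-- The pulled-back global level attached to `F` is the fixing subgroup of `ℚ_q(ι F)`. -/
theorem comap_fixingSubgroup_eq (F : IntermediateField ℚ Qbar) :
    F.fixingSubgroup.comap (localGaloisToGlobal q) =
      (IntermediateField.adjoin ℚ_[q] ((padicEmbedding q) '' (F : Set Qbar))).fixingSubgroup := by
  ext τ
  rw [Subgroup.mem_comap, IntermediateField.mem_fixingSubgroup_iff,
    mem_fixingSubgroup_adjoin_iff]
  constructor
  · rintro h _ ⟨x, hx, rfl⟩
    rw [← padicEmbedding_localGaloisToGlobal, h x hx]
  · intro h x hx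
    apply (padicEmbedding q).toRingHom.injective
    show padicEmbedding q (localGaloisToGlobal q τ x) = padicEmbedding q x
    rw [padicEmbedding_localGaloisToGlobal]
    exact h _ ⟨x, hx, rfl⟩

/-- Pulled-back global levels are cofinal among the fixing subgroups of finite extensions of
`ℚ_q`. -/
theorem exists_comap_fixingSubgroup_le (E : IntermediateField ℚ_[q] (PadicAlgCl q))
    [FiniteDimensional ℚ_[q] E] :
    ∃ F : IntermediateField ℚ Qbar, FiniteDimensional ℚ F ∧
      F.fixingSubgroup.comap (localGaloisToGlobal q) ≤ E.fixingSubgroup := by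
  obtain ⟨F, hF, hle⟩ := exists_finite_le_adjoin q E
  refine ⟨F, hF, ?_⟩
  rw [comap_fixingSubgroup_eq]
  exact IntermediateField.fixingSubgroup_antitone hle

/-- The field `ℚ_q(ι F)` is finite over `ℚ_q` when `F` is finite over `ℚ`. -/
theorem finiteDimensional_adjoin_padicEmbedding (F : IntermediateField ℚ Qbar)
    [FiniteDimensional ℚ F] :
    FiniteDimensional ℚ_[q]
      (IntermediateField.adjoin ℚ_[q] ((padicEmbedding q) '' (F : Set Qbar))) := by
  obtain ⟨T, hT⟩ : F.FG := IntermediateField.essFiniteType_iff.mp inferInstance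
  -- `ι '' F ⊆ ℚ_q(ι T)`
  have hsub : (padicEmbedding q) '' (F : Set Qbar) ⊆
      IntermediateField.adjoin ℚ_[q] ((padicEmbedding q) '' (T : Set Qbar)) := by
    rintro _ ⟨x, hx, rfl⟩
    rw [SetLike.mem_coe, ← hT] at hx
    induction hx using IntermediateField.adjoin_induction with
    | mem x hx => exact IntermediateField.subset_adjoin _ _ ⟨x, hx, rfl⟩
    | algebraMap r =>
      have : padicEmbedding q (algebraMap ℚ Qbar r) = algebraMap ℚ_[q] (PadicAlgCl q) (r : ℚ_[q]) := by
        rw [AlgHom.commutes]
        simp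
      rw [this]
      exact IntermediateField.algebraMap_mem _ _
    | add x y _ _ hx hy => rw [map_add]; exact add_mem hx hy
    | inv x _ hx => rw [map_inv₀]; exact inv_mem hx
    | mul x y _ _ hx hy => rw [map_mul]; exact mul_mem hx hy
  have heq : IntermediateField.adjoin ℚ_[q] ((padicEmbedding q) '' (F : Set Qbar)) =
      IntermediateField.adjoin ℚ_[q] ((padicEmbedding q) '' (T : Set Qbar)) := by
    apply le_antisymm
    · rw [IntermediateField.adjoin_le_iff]; exact hsub
    · apply IntermediateField.adjoin.mono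
      apply Set.image_mono
      rw [← hT]
      exact IntermediateField.subset_adjoin ℚ _
  rw [heq]
  have : Finite ((padicEmbedding q) '' (T : Set Qbar)) :=
    (T.finite_toSet.image _).to_subtype
  apply IntermediateField.finiteDimensional_adjoin
  intro x _
  exact (Algebra.IsAlgebraic.isAlgebraic x).isIntegral

end Padic

end Fermat.Agent.Lib.CFT.Profinite.Bridge
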