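import Mathlib
import Fermat.Prelude.Def_GroupCohomology_ContinuousUnramified

/-!
P-CFT, Profinite/Bridge, part (a): conjugation of valuation subrings, inertia groups, and
stability of `IsUnramifiedOutside` under normal closure.
-/

set_option autoImplicit false

open scoped Pointwise

namespace Fermat.Agent.Lib.CFT.Profinite.Bridge

section General

variable {K L : Type*} [Field K] [Field L] [Algebra K L]

/-- Membership in the (global) inertia subgroup, in elementary terms. -/
theorem mem_inertiaSubgroupIn_iff (A : ValuationSubring L) (τ : L ≃ₐ[K] L) :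
    τ ∈ A.inertiaSubgroupIn K ↔ τ • A = A ∧ ∀ x ∈ A, τ x - x ∈ A.nonunits := by
  unfold ValuationSubring.inertiaSubgroupIn
  rw [Subgroup.mem_map]
  constructor
  · rintro ⟨g, hg, rfl⟩
    refine ⟨g.2, fun x hx => ?_⟩
    rw [ValuationSubring.inertiaSubgroup, MonoidHom.mem_ker] at hg
    have h1 : g • (IsLocalRing.residue A ⟨x, hx⟩) = IsLocalRing.residue A ⟨x, hx⟩ := by
      have := congrArg (fun f : RingAut (IsLocalRing.ResidueField A) =>
        f (IsLocalRing.residue A ⟨x, hx⟩)) hg
      exact this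
    rw [← IsLocalRing.ResidueField.residue_smul, ← sub_eq_zero, ← map_sub,
      IsLocalRing.residue_eq_zero_iff, ← ValuationSubring.coe_mem_nonunits_iff] at h1
    exact h1
  · rintro ⟨hA, h⟩
    refine ⟨⟨τ, hA⟩, ?_, rfl⟩
    rw [ValuationSubring.inertiaSubgroup, MonoidHom.mem_ker]
    ext y
    obtain ⟨x, rfl⟩ := IsLocalRing.residue_surjective y
    show (⟨τ, hA⟩ : A.decompositionSubgroup K) • IsLocalRing.residue A x = IsLocalRing.residue A x
    rw [← IsLocalRing.ResidueField.residue_smul, ← sub_eq_zero, ← map_sub,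
      IsLocalRing.residue_eq_zero_iff, ← ValuationSubring.coe_mem_nonunits_iff]
    exact h x x.2

theorem mem_nonunits_smul_iff (σ : L ≃ₐ[K] L) (A : ValuationSubring L) (x : L) :
    x ∈ (σ • A).nonunits ↔ σ.symm x ∈ A.nonunits := by
  rw [ValuationSubring.mem_nonunits_iff_or, ValuationSubring.mem_nonunits_iff_or,
    ValuationSubring.mem_pointwise_smul_iff_inv_smul_mem]
  have h1 : σ.symm x = 0 ↔ x = 0 := by
    rw [map_eq_zero_iff _ σ.symm.injective]
  have h2 : (σ⁻¹ • x⁻¹ : L) = (σ.symm x)⁻¹ := by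
    show σ.symm x⁻¹ = _
    rw [map_inv₀]
  rw [h1, h2]

theorem mem_smul_iff (σ : L ≃ₐ[K] L) (A : ValuationSubring L) (x : L) :
    x ∈ σ • A ↔ σ.symm x ∈ A :=
  ValuationSubring.mem_pointwise_smul_iff_inv_smul_mem

/-- Conjugation of inertia groups. -/
theorem mem_inertiaSubgroupIn_smul_iff (σ : L ≃ₐ[K] L) (A : ValuationSubring L)
    (τ : L ≃ₐ[K] L) :
    τ ∈ (σ • A).inertiaSubgroupIn K ↔ σ⁻¹ * τ * σ ∈ A.inertiaSubgroupIn K := by
  rw [mem_inertiaSubgroupIn_iff, mem_inertiaSubgroupIn_iff]
  constructor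
  · rintro ⟨h1, h2⟩
    refine ⟨?_, fun x hx => ?_⟩
    · rw [mul_smul, mul_smul, h1, inv_smul_smul]
    · have hσx : σ x ∈ σ • A := by
        rw [mem_smul_iff]; simpa using hx
      have := h2 (σ x) hσx
      rw [mem_nonunits_smul_iff, map_sub] at this
      simpa [AlgEquiv.mul_apply] using this
  · rintro ⟨h1, h2⟩
    refine ⟨?_, fun x hx => ?_⟩
    · rw [mul_smul, mul_smul] at h1
      have := congrArg (fun B => σ • B) h1
      simpa using this
    · rw [mem_smul_iff] at hx
      rw [mem_nonunits_smul_iff, map_sub]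
      have := h2 _ hx
      simpa [AlgEquiv.mul_apply] using this

theorem liesOverPrime_smul_iff (σ : L ≃ₐ[K] L) (A : ValuationSubring L) (q : ℕ) :
    (σ • A).LiesOverPrime q ↔ A.LiesOverPrime q := by
  unfold ValuationSubring.LiesOverPrime
  rw [mem_nonunits_smul_iff, map_natCast]

end General

section Rat

local notation "Qbar" => AlgebraicClosure ℚ
local notation "Γℚ" => (AlgebraicClosure ℚ ≃ₐ[ℚ] AlgebraicClosure ℚ)

local instance isAlgebraicQbar_bn : Algebra.IsAlgebraic ℚ (AlgebraicClosure ℚ) :=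
  AlgebraicClosure.isAlgebraic ℚ
local instance isAlgClosureQbar_bn : IsAlgClosure ℚ (AlgebraicClosure ℚ) :=
  ⟨inferInstance, inferInstance⟩
local instance normalQbar_bn : Normal ℚ (AlgebraicClosure ℚ) :=
  IsAlgClosure.normal ℚ (AlgebraicClosure ℚ)
local instance isGaloisQbar_bn : IsGalois ℚ (AlgebraicClosure ℚ) := ⟨⟩

theorem isGalois_qbar : IsGalois ℚ Qbar := inferInstance

theorem normal_qbar : Normal ℚ Qbar := inferInstance

theorem mem_fixingSubgroup_map_iff (F : IntermediateField ℚ Qbar) (σ τ : Γℚ) :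
    τ ∈ (F.map (σ : Qbar →ₐ[ℚ] Qbar)).fixingSubgroup ↔ σ⁻¹ * τ * σ ∈ F.fixingSubgroup := by
  rw [IntermediateField.mem_fixingSubgroup_iff, IntermediateField.mem_fixingSubgroup_iff]
  constructor
  · intro h x hx
    have hm : σ x ∈ F.map (σ : Qbar →ₐ[ℚ] Qbar) := ⟨x, hx, rfl⟩
    have h1 : τ (σ x) = σ x := h (σ x) hm
    show σ.symm (τ (σ x)) = x
    rw [h1]; simp
  · intro h y hy
    obtain ⟨x, hx, rfl⟩ := hy
    have h2 : σ.symm (τ (σ x)) = x := h x hx
    show τ (σ x) = σ x
    have h3 := congrArg σ h2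
    simpa using h3

variable {S : Finset Nat.Primes}

/-- `IsUnramifiedOutside` is stable under Galois conjugation. -/
theorem isUnramifiedOutside_map {F : IntermediateField ℚ Qbar} (hF : F.IsUnramifiedOutside S)
    (σ : Γℚ) : (F.map (σ : Qbar →ₐ[ℚ] Qbar)).IsUnramifiedOutside S := by
  have := hF.1
  refine ⟨?_, fun q hq A hA τ hτ => ?_⟩
  · exact LinearEquiv.finiteDimensional (F.equivMap (σ : Qbar →ₐ[ℚ] Qbar)).toLinearEquiv
  · rw [mem_fixingSubgroup_map_iff]
    have hA' : (σ⁻¹ • A).LiesOverPrime (q : ℕ) := (liesOverPrime_smul_iff σ⁻¹ A q).mpr hA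
    refine hF.2 q hq (σ⁻¹ • A) hA' ?_
    rw [mem_inertiaSubgroupIn_smul_iff]
    have h3 : (σ⁻¹)⁻¹ * (σ⁻¹ * τ * σ) * σ⁻¹ = τ := by group
    rw [h3]
    exact hτ

/-- A supremum of fields all of whose members have inertia acting trivially has the same
property (no finiteness claim). -/
theorem inertia_le_fixingSubgroup_iSup {ι : Sort*} (E : ι → IntermediateField ℚ Qbar)
    (H : Subgroup Γℚ) (h : ∀ i, H ≤ (E i).fixingSubgroup) : H ≤ (⨆ i, E i).fixingSubgroup := by
  rw [← IntermediateField.le_iff_le, iSup_le_iff]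
  intro i
  rw [IntermediateField.le_iff_le]
  exact h i

/-- `IsUnramifiedOutside` is stable under normal closure. -/
theorem isUnramifiedOutside_normalClosure {F : IntermediateField ℚ Qbar}
    (hF : F.IsUnramifiedOutside S) :
    (IntermediateField.normalClosure ℚ F Qbar).IsUnramifiedOutside S := by
  have := hF.1
  refine ⟨inferInstance, fun q hq A hA => ?_⟩
  have hdef : IntermediateField.normalClosure ℚ F Qbar =
      ⨆ σ : Γℚ, F.map (σ : Qbar →ₐ[ℚ] Qbar) :=
    IntermediateField.normalClosure_def'' (F := ℚ) (L := Qbar) F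
  rw [hdef]
  refine inertia_le_fixingSubgroup_iSup _ _ fun σ => ?_
  exact (isUnramifiedOutside_map hF σ).2 q hq A hA

/-- The fixing subgroup of a finite extension has finite index. -/
theorem finiteIndex_fixingSubgroup (F : IntermediateField ℚ Qbar) [FiniteDimensional ℚ F] :
    F.fixingSubgroup.FiniteIndex := by
  have : Finite (Γℚ ⧸ F.fixingSubgroup) :=
    Subgroup.quotient_finite_of_isOpen F.fixingSubgroup F.fixingSubgroup_isOpen
  exact Subgroup.finiteIndex_of_finite_quotient

/-- The fixing subgroup of the normal closure of a finite extension is a normal subgroup of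
finite index contained in the fixing subgroup of the extension. -/
theorem normal_fixingSubgroup_normalClosure (F : IntermediateField ℚ Qbar) :
    (IntermediateField.normalClosure ℚ F Qbar).fixingSubgroup.Normal := by
  have : Normal ℚ (IntermediateField.normalClosure ℚ F Qbar) :=
    normalClosure.normal ℚ F Qbar
  have : Algebra.IsSeparable ℚ (IntermediateField.normalClosure ℚ F Qbar) :=
    Algebra.isSeparable_tower_bot_of_isSeparable ℚ _ Qbar
  have : IsGalois ℚ (IntermediateField.normalClosure ℚ F Qbar) := ⟨⟩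
  infer_instance

theorem fixingSubgroup_normalClosure_le (F : IntermediateField ℚ Qbar) :
    (IntermediateField.normalClosure ℚ F Qbar).fixingSubgroup ≤ F.fixingSubgroup :=
  IntermediateField.fixingSubgroup_antitone F.le_normalClosure

end Rat

end Fermat.Agent.Lib.CFT.Profinite.Bridge
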