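import Fermat.Agent.Lib.CFT.Profinite.Levels
import Fermat.Agent.Lib.CFT.Profinite.BridgeNormal
import Fermat.Agent.Lib.CFT.Profinite.BridgeKrasner
import Fermat.Prelude.Def_GroupCohomology_ContinuousUnramified

/-!
P-CFT, Profinite/Bridge, part (b): the level families of the Prelude as instances of
`LevelFamily`.

* `galLevels r` : for `r : G →* Gal(Qbar/ℚ)`, the preimages of the fixing subgroups of finite
  extensions of `ℚ` (the levels of `IsLevelConstant₁ r`, `IsLevelConstant₂ r`).
* `levelsS S` : the fixing subgroups of the finite extensions unramified outside `S`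
  (the levels of `IsLevelConstantS₁ S`, `IsLevelConstantS₂ S`).
* `localLevels q` : the fixing subgroups of finite extensions of `ℚ_q` in `Gal(PadicAlgCl q/ℚ_q)`,
  and its comparison with `galLevels (localGaloisToGlobal q)` (Krasner).
-/

set_option autoImplicit false

namespace Fermat.Agent.Lib.CFT.Profinite.Bridge

open Fermat.Agent.Lib.CFT.Profinite

local notation "Qbar" => AlgebraicClosure ℚ
local notation "Γℚ" => (AlgebraicClosure ℚ ≃ₐ[ℚ] AlgebraicClosure ℚ)

theorem finiteIndex_comap {G H : Type*} [Group G] [Group H] (f : G →* H) (U : Subgroup H)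
    [U.FiniteIndex] : (U.comap f).FiniteIndex := by
  constructor
  rw [Subgroup.index_comap]
  exact (Subgroup.instFiniteIndex_subgroupOf U f.range).index_ne_zero

section Gal

variable {G : Type} [Group G] (r : G →* Γℚ)

/-- The level family of `IsLevelConstant₁ r` / `IsLevelConstant₂ r`. -/
noncomputable def galLevels : LevelFamily G where
  levels := {U | ∃ F : IntermediateField ℚ Qbar, FiniteDimensional ℚ F ∧
    U = F.fixingSubgroup.comap r}
  nonempty := ⟨_, ⊥, inferInstance, rfl⟩
  directed := by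
    rintro _ ⟨F, hF, rfl⟩ _ ⟨F', hF', rfl⟩
    have := hF; have := hF'
    refine ⟨_, ⟨F ⊔ F', inferInstance, rfl⟩, ?_⟩
    rw [IntermediateField.fixingSubgroup_sup, Subgroup.comap_inf]
  finiteIndex := by
    rintro _ ⟨F, hF, rfl⟩
    have := hF
    have := finiteIndex_fixingSubgroup F
    exact finiteIndex_comap r _
  normal_le := by
    rintro _ ⟨F, hF, rfl⟩
    have := hF
    refine ⟨_, ⟨IntermediateField.normalClosure ℚ F Qbar, inferInstance, rfl⟩,
      Subgroup.comap_mono (fixingSubgroup_normalClosure_le F), ?_⟩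
    have := normal_fixingSubgroup_normalClosure F
    exact Subgroup.Normal.comap this r

theorem mem_galLevels_iff (U : Subgroup G) :
    U ∈ (galLevels r).levels ↔ ∃ F : IntermediateField ℚ Qbar, FiniteDimensional ℚ F ∧
      U = F.fixingSubgroup.comap r := Iff.rfl

theorem isLevelConstant₁_iff {X : Type*} (f : G → X) :
    groupCohomology.IsLevelConstant₁ r f ↔ (galLevels r).IsConst₁ f := by
  constructor
  · rintro ⟨F, hF, h⟩
    exact ⟨_, ⟨F, hF, rfl⟩, fun g s hs => h g s hs⟩
  · rintro ⟨_, ⟨F, hF, rfl⟩, h⟩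
    exact ⟨F, hF, fun g s hs => h g s hs⟩

theorem isLevelConstant₂_iff {X : Type*} (f : G × G → X) :
    groupCohomology.IsLevelConstant₂ r f ↔ (galLevels r).IsConst₂ f := by
  constructor
  · rintro ⟨F, hF, h⟩
    exact ⟨_, ⟨F, hF, rfl⟩, fun g g' s s' hs hs' => h g g' s s' hs hs'⟩
  · rintro ⟨_, ⟨F, hF, rfl⟩, h⟩
    exact ⟨F, hF, fun g g' s s' hs hs' => h g g' s s' hs hs'⟩

end Gal

section LevelsS

variable (S : Finset Nat.Primes)

/-- The level family of `IsLevelConstantS₁ S` / `IsLevelConstantS₂ S`. -/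
noncomputable def levelsS : LevelFamily Γℚ where
  levels := {U | ∃ F : IntermediateField ℚ Qbar, F.IsUnramifiedOutside S ∧ U = F.fixingSubgroup}
  nonempty := ⟨_, ⊥, IntermediateField.isUnramifiedOutside_bot S, rfl⟩
  directed := by
    rintro _ ⟨F, hF, rfl⟩ _ ⟨F', hF', rfl⟩
    refine ⟨_, ⟨F ⊔ F', hF.sup hF', rfl⟩, ?_⟩
    rw [IntermediateField.fixingSubgroup_sup]
  finiteIndex := by
    rintro _ ⟨F, hF, rfl⟩
    have := hF.1
    exact finiteIndex_fixingSubgroup F
  normal_le := by
    rintro _ ⟨F, hF, rfl⟩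
    exact ⟨_, ⟨IntermediateField.normalClosure ℚ F Qbar, isUnramifiedOutside_normalClosure hF,
      rfl⟩, fixingSubgroup_normalClosure_le F, normal_fixingSubgroup_normalClosure F⟩

theorem mem_levelsS_iff (U : Subgroup Γℚ) :
    U ∈ (levelsS S).levels ↔ ∃ F : IntermediateField ℚ Qbar, F.IsUnramifiedOutside S ∧
      U = F.fixingSubgroup := Iff.rfl

theorem isLevelConstantS₁_iff {X : Type*} (f : Γℚ → X) :
    groupCohomology.IsLevelConstantS₁ S f ↔ (levelsS S).IsConst₁ f := by
  constructor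
  · rintro ⟨F, hF, h⟩
    exact ⟨_, ⟨F, hF, rfl⟩, fun g s hs => h g s hs⟩
  · rintro ⟨_, ⟨F, hF, rfl⟩, h⟩
    exact ⟨F, hF, fun g s hs => h g s hs⟩

theorem isLevelConstantS₂_iff {X : Type*} (f : Γℚ × Γℚ → X) :
    groupCohomology.IsLevelConstantS₂ S f ↔ (levelsS S).IsConst₂ f := by
  constructor
  · rintro ⟨F, hF, h⟩
    exact ⟨_, ⟨F, hF, rfl⟩, fun g g' s s' hs hs' => h g g' s s' hs hs'⟩
  · rintro ⟨_, ⟨F, hF, rfl⟩, h⟩
    exact ⟨F, hF, fun g g' s s' hs hs' => h g g' s s' hs hs'⟩

/-- Restriction along any `r : G →* Γℚ` is compatible with `galLevels r` and `levelsS S`. -/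
theorem isCompatible_galLevels_levelsS {G : Type} [Group G] (r : G →* Γℚ) :
    LevelFamily.IsCompatible (galLevels r) (levelsS S) r := by
  rintro _ ⟨F, hF, rfl⟩
  exact ⟨_, ⟨F, hF.1, rfl⟩, le_rfl⟩

/-- The identity is compatible with `galLevels id` (all finite levels) and `levelsS S`. -/
theorem isCompatible_id_levelsS :
    LevelFamily.IsCompatible (galLevels (MonoidHom.id Γℚ)) (levelsS S) (MonoidHom.id Γℚ) :=
  isCompatible_galLevels_levelsS S (MonoidHom.id Γℚ)

end LevelsS

section Local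

variable (q : ℕ) [Fact q.Prime]

local notation "Gq" => (PadicAlgCl q ≃ₐ[ℚ_[q]] PadicAlgCl q)

/-- The levels of `galLevels (localGaloisToGlobal q)` are fixing subgroups of finite extensions of
`ℚ_q`. -/
theorem exists_eq_fixingSubgroup_of_mem_galLevels {U : Subgroup Gq}
    (hU : U ∈ (galLevels (localGaloisToGlobal q)).levels) :
    ∃ E : IntermediateField ℚ_[q] (PadicAlgCl q), FiniteDimensional ℚ_[q] E ∧
      U = E.fixingSubgroup := by
  obtain ⟨F, hF, rfl⟩ := hU
  have := hF
  exact ⟨_, finiteDimensional_adjoin_padicEmbedding q F, comap_fixingSubgroup_eq q F⟩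

/-- Krasner: every fixing subgroup of a finite extension of `ℚ_q` contains a level of
`galLevels (localGaloisToGlobal q)`. -/
theorem exists_mem_galLevels_le (E : IntermediateField ℚ_[q] (PadicAlgCl q))
    [FiniteDimensional ℚ_[q] E] :
    ∃ U ∈ (galLevels (localGaloisToGlobal q)).levels, U ≤ E.fixingSubgroup := by
  obtain ⟨F, hF, hle⟩ := exists_comap_fixingSubgroup_le q E
  exact ⟨_, ⟨F, hF, rfl⟩, hle⟩

/-- `IsLevelConstant₁` for the local Galois group, in purely local terms. -/
theorem isLevelConstant₁_local_iff {X : Type*} (f : Gq → X) :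
    groupCohomology.IsLevelConstant₁ (localGaloisToGlobal q) f ↔
      ∃ E : IntermediateField ℚ_[q] (PadicAlgCl q), FiniteDimensional ℚ_[q] E ∧
        ∀ g s : Gq, s ∈ E.fixingSubgroup → f (g * s) = f g := by
  rw [isLevelConstant₁_iff]
  constructor
  · rintro ⟨U, hU, h⟩
    obtain ⟨E, hE, rfl⟩ := exists_eq_fixingSubgroup_of_mem_galLevels q hU
    exact ⟨E, hE, h⟩
  · rintro ⟨E, hE, h⟩
    have := hE
    obtain ⟨U, hU, hle⟩ := exists_mem_galLevels_le q E
    exact ⟨U, hU, fun g s hs => h g s (hle hs)⟩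

/-- `IsLevelConstant₂` for the local Galois group, in purely local terms. -/
theorem isLevelConstant₂_local_iff {X : Type*} (f : Gq × Gq → X) :
    groupCohomology.IsLevelConstant₂ (localGaloisToGlobal q) f ↔
      ∃ E : IntermediateField ℚ_[q] (PadicAlgCl q), FiniteDimensional ℚ_[q] E ∧
        ∀ g g' s s' : Gq, s ∈ E.fixingSubgroup → s' ∈ E.fixingSubgroup →
          f (g * s, g' * s') = f (g, g') := by
  rw [isLevelConstant₂_iff]
  constructor
  · rintro ⟨U, hU, h⟩
    obtain ⟨E, hE, rfl⟩ := exists_eq_fixingSubgroup_of_mem_galLevels q hU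
    exact ⟨E, hE, h⟩
  · rintro ⟨E, hE, h⟩
    have := hE
    obtain ⟨U, hU, hle⟩ := exists_mem_galLevels_le q E
    exact ⟨U, hU, fun g g' s s' hs hs' => h g g' s s' (hle hs) (hle hs')⟩

end Local

end Fermat.Agent.Lib.CFT.Profinite.Bridge
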