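import Fermat.Agent.Lib.CFT.Profinite.LevelCochains
import Fermat.Agent.Lib.CFT.Profinite.BridgeLevels

/-!
P-CFT, Profinite/Bridge: level families of Galois groups in general, the local level family, and
comparison of level complexes for mutually cofinal level families.
-/

set_option autoImplicit false

universe u

open CategoryTheory

namespace Fermat.Agent.Lib.CFT.Profinite.Bridge

open Fermat.Agent.Lib.CFT.Profinite LevelFamily

section Generic

variable (K L : Type u) [Field K] [Field L] [Algebra K L] [IsGalois K L]

/-- The fixing subgroups of the finite subextensions of a Galois extension form a level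
family. -/
noncomputable def fixingLevels : LevelFamily (L ≃ₐ[K] L) where
  levels := {U | ∃ E : IntermediateField K L, FiniteDimensional K E ∧ U = E.fixingSubgroup}
  nonempty := ⟨_, ⊥, inferInstance, rfl⟩
  directed := by
    rintro _ ⟨E, hE, rfl⟩ _ ⟨E', hE', rfl⟩
    have := hE; have := hE'
    refine ⟨_, ⟨E ⊔ E', inferInstance, rfl⟩, ?_⟩
    rw [IntermediateField.fixingSubgroup_sup]
  finiteIndex := by
    rintro _ ⟨E, hE, rfl⟩
    have := hE
    have : Finite ((L ≃ₐ[K] L) ⧸ E.fixingSubgroup) :=
      Subgroup.quotient_finite_of_isOpen E.fixingSubgroup E.fixingSubgroup_isOpen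
    exact Subgroup.finiteIndex_of_finite_quotient
  normal_le := by
    rintro _ ⟨E, hE, rfl⟩
    have := hE
    have hN : Normal K (IntermediateField.normalClosure K E L) := normalClosure.normal K E L
    have hS : Algebra.IsSeparable K (IntermediateField.normalClosure K E L) :=
      Algebra.isSeparable_tower_bot_of_isSeparable K _ L
    have hG : IsGalois K (IntermediateField.normalClosure K E L) := ⟨⟩
    exact ⟨_, ⟨IntermediateField.normalClosure K E L, inferInstance, rfl⟩,
      IntermediateField.fixingSubgroup_antitone E.le_normalClosure, inferInstance⟩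

theorem mem_fixingLevels_iff (U : Subgroup (L ≃ₐ[K] L)) :
    U ∈ (fixingLevels K L).levels ↔
      ∃ E : IntermediateField K L, FiniteDimensional K E ∧ U = E.fixingSubgroup := Iff.rfl

end Generic

section Mutual

variable {k G : Type u} [CommRing k] [Group G] {𝒰 𝒱 : LevelFamily G}

/-- Mutually cofinal level families have the same level-constant functions. -/
theorem isConst_iff_of_mutual (h1 : IsCompatible 𝒱 𝒰 (MonoidHom.id G))
    (h2 : IsCompatible 𝒰 𝒱 (MonoidHom.id G)) {X : Type*} {n : ℕ} (f : (Fin n → G) → X) :
    𝒰.IsConst f ↔ 𝒱.IsConst f := by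
  constructor
  · rintro ⟨U, hU, h⟩
    obtain ⟨V, hV, hle⟩ := h1 U hU
    exact ⟨V, hV, h.mono hle⟩
  · rintro ⟨V, hV, h⟩
    obtain ⟨U, hU, hle⟩ := h2 V hV
    exact ⟨U, hU, h.mono hle⟩

/-- Mutually cofinal level families have the same level cochains. -/
theorem levelCochains_eq_of_mutual (h1 : IsCompatible 𝒱 𝒰 (MonoidHom.id G))
    (h2 : IsCompatible 𝒰 𝒱 (MonoidHom.id G)) (M : Rep.{u} k G) (n : ℕ) :
    𝒰.levelCochains M n = 𝒱.levelCochains M n := by
  ext f
  constructor
  · rintro ⟨U, hU, h⟩
    obtain ⟨V, hV, hle⟩ := h1 U hU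
    exact ⟨V, hV, h.mono hle⟩
  · rintro ⟨V, hV, h⟩
    obtain ⟨U, hU, hle⟩ := h2 V hV
    exact ⟨U, hU, h.mono hle⟩

/-- Mutually cofinal level families have isomorphic level complexes. -/
noncomputable def levelComplexIsoOfMutual (h1 : IsCompatible 𝒱 𝒰 (MonoidHom.id G))
    (h2 : IsCompatible 𝒰 𝒱 (MonoidHom.id G)) (M : Rep.{u} k G) :
    𝒰.levelComplex M ≅ 𝒱.levelComplex M where
  hom := levelCochainsMap (MonoidHom.id G) h1 (𝟙 M)
  inv := levelCochainsMap (MonoidHom.id G) h2 (𝟙 M)
  hom_inv_id := by
    ext n x : 3
    rfl
  inv_hom_id := by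
    ext n x : 3
    rfl

/-- Mutually cofinal level families have isomorphic level cohomology. -/
noncomputable def levelCohomologyIsoOfMutual (h1 : IsCompatible 𝒱 𝒰 (MonoidHom.id G))
    (h2 : IsCompatible 𝒰 𝒱 (MonoidHom.id G)) (M : Rep.{u} k G) (n : ℕ) :
    𝒰.levelCohomology M n ≅ 𝒱.levelCohomology M n :=
  (HomologicalComplex.homologyFunctor _ _ n).mapIso (levelComplexIsoOfMutual h1 h2 M)

end Mutual

section Local

variable (q : ℕ) [Fact q.Prime]

local notation "Gq" => (PadicAlgCl q ≃ₐ[ℚ_[q]] PadicAlgCl q)

instance isGalois_padicAlgCl : IsGalois ℚ_[q] (PadicAlgCl q) :=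
  haveI : IsAlgClosure ℚ_[q] (PadicAlgCl q) := ⟨inferInstance, inferInstance⟩
  haveI : Normal ℚ_[q] (PadicAlgCl q) := IsAlgClosure.normal ℚ_[q] (PadicAlgCl q)
  ⟨⟩

/-- The level family of all open subgroups (fixing subgroups of finite extensions) of the local
Galois group. -/
noncomputable def localLevels : LevelFamily Gq := fixingLevels ℚ_[q] (PadicAlgCl q)

/-- Krasner: the pulled-back global levels are cofinal in the local levels. -/
theorem isCompatible_galLevels_localLevels :
    IsCompatible (galLevels (localGaloisToGlobal q)) (localLevels q) (MonoidHom.id Gq) := by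
  rintro _ ⟨E, hE, rfl⟩
  have := hE
  exact exists_mem_galLevels_le q E

/-- The pulled-back global levels are local levels. -/
theorem isCompatible_localLevels_galLevels :
    IsCompatible (localLevels q) (galLevels (localGaloisToGlobal q)) (MonoidHom.id Gq) := by
  intro U hU
  obtain ⟨E, hE, rfl⟩ := exists_eq_fixingSubgroup_of_mem_galLevels q hU
  exact ⟨_, ⟨E, hE, rfl⟩, le_rfl⟩

/-- The level cochains of the local Galois group with respect to the pulled-back global levels
(the Prelude's convention) are the level cochains for all open subgroups. -/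
theorem levelCochains_galLevels_eq_localLevels {k : Type} [CommRing k] (M : Rep k Gq) (n : ℕ) :
    (galLevels (localGaloisToGlobal q)).levelCochains M n = (localLevels q).levelCochains M n :=
  levelCochains_eq_of_mutual (isCompatible_localLevels_galLevels q)
    (isCompatible_galLevels_localLevels q) M n

/-- The level cohomology of the local Galois group for the Prelude's levels is the level
cohomology for all open subgroups. -/
noncomputable def levelCohomologyIsoLocal {k : Type} [CommRing k] (M : Rep k Gq) (n : ℕ) :
    (galLevels (localGaloisToGlobal q)).levelCohomology M n ≅ (localLevels q).levelCohomology M n :=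
  levelCohomologyIsoOfMutual (isCompatible_localLevels_galLevels q)
    (isCompatible_galLevels_localLevels q) M n

end Local

end Fermat.Agent.Lib.CFT.Profinite.Bridge
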