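import Fermat.Agent.Lib.CFT.Profinite.Levels

set_option autoImplicit false

universe u

open CategoryTheory groupCohomology

namespace Fermat.Agent.Lib.CFT.Profinite

variable {k G : Type u} [CommRing k] [Group G]

namespace LevelFamily

variable (𝒰 : LevelFamily G) (M : Rep.{u} k G)

/-- Every element of `M` is fixed by some level. -/
def IsDiscrete : Prop := ∀ m : M, ∃ U ∈ 𝒰.levels, ∀ s ∈ U, M.ρ s m = m

/-- The cochain `f` is inflated from level `U`: it is `U`-constant in every argument and all its
values are fixed by `U`. -/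
def IsCochainOn (U : Subgroup G) {n : ℕ} (f : (Fin n → G) → M) : Prop :=
  IsConstOn U f ∧ ∀ g, ∀ s ∈ U, M.ρ s (f g) = f g

/-- The cochain `f` is inflated from some level. -/
def IsLevelCochain {n : ℕ} (f : (Fin n → G) → M) : Prop :=
  ∃ U ∈ 𝒰.levels, IsCochainOn M U f

variable {M} in
theorem IsCochainOn.mono {U V : Subgroup G} (hVU : V ≤ U) {n : ℕ} {f : (Fin n → G) → M}
    (hf : IsCochainOn M U f) : IsCochainOn M V f :=
  ⟨hf.1.mono hVU, fun g s hs => hf.2 g s (hVU hs)⟩

variable {𝒰 M} in
theorem IsLevelCochain.exists_normal {n : ℕ} {f : (Fin n → G) → M} (hf : 𝒰.IsLevelCochain M f) :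
    ∃ W ∈ 𝒰.levels, W.Normal ∧ IsCochainOn M W f := by
  obtain ⟨U, hU, h⟩ := hf
  obtain ⟨W, hW, h1, hn⟩ := 𝒰.normal_le U hU
  exact ⟨W, hW, hn, h.mono h1⟩

variable {𝒰 M} in
theorem IsLevelCochain.exists_common {n m : ℕ} {f : (Fin n → G) → M} {f' : (Fin m → G) → M}
    (hf : 𝒰.IsLevelCochain M f) (hf' : 𝒰.IsLevelCochain M f') :
    ∃ W ∈ 𝒰.levels, W.Normal ∧ IsCochainOn M W f ∧ IsCochainOn M W f' := by
  obtain ⟨U, hU, h⟩ := hf
  obtain ⟨U', hU', h'⟩ := hf'
  obtain ⟨W, hW, h1, h2, hn⟩ := 𝒰.exists_normal_le_inf hU hU'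
  exact ⟨W, hW, hn, h.mono h1, h'.mono h2⟩

variable {𝒰 M} in
theorem IsLevelCochain.isConst {n : ℕ} {f : (Fin n → G) → M} (hf : 𝒰.IsLevelCochain M f) :
    𝒰.IsConst f := by
  obtain ⟨U, hU, h⟩ := hf
  exact ⟨U, hU, h.1⟩

variable {𝒰 M} in
/-- For a discrete module, level cochains are the same as level-constant cochains. -/
theorem isLevelCochain_iff_of_isDiscrete (hM : 𝒰.IsDiscrete M) {n : ℕ} {f : (Fin n → G) → M} :
    𝒰.IsLevelCochain M f ↔ 𝒰.IsConst f := by
  refine ⟨fun h => h.isConst, fun h => ?_⟩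
  obtain ⟨U, hU, hc⟩ := h
  have hfin : (Set.range f).Finite := by
    have := 𝒰.finiteIndex U hU
    exact hc.finite_range
  have : Finite (Set.range f) := hfin
  choose V hV hfix using fun x : Set.range f => hM x.1
  obtain ⟨W, hW, -, hle⟩ := 𝒰.exists_normal_le_of_finite V hV
  obtain ⟨W', hW', h1, h2, -⟩ := 𝒰.exists_normal_le_inf hW hU
  refine ⟨W', hW', hc.mono h2, fun g s hs => ?_⟩
  exact hfix ⟨f g, ⟨g, rfl⟩⟩ s (hle _ (h1 hs))

/-- The submodule of level cochains of degree `n`. -/
def levelCochains (n : ℕ) : Submodule k ((Fin n → G) → M) where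
  carrier := {f | 𝒰.IsLevelCochain M f}
  add_mem' := by
    intro f f' hf hf'
    obtain ⟨W, hW, -, h, h'⟩ := hf.exists_common hf'
    refine ⟨W, hW, fun g s hs => ?_, fun g s hs => ?_⟩
    · show f (fun i => g i * s i) + f' (fun i => g i * s i) = f g + f' g
      rw [h.1 g s hs, h'.1 g s hs]
    · simp only [Pi.add_apply, map_add, h.2 g s hs, h'.2 g s hs]
  zero_mem' := by
    obtain ⟨U, hU⟩ := 𝒰.nonempty
    exact ⟨U, hU, fun _ _ _ => rfl, fun _ _ _ => by simp⟩
  smul_mem' := by
    rintro c f ⟨U, hU, h⟩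
    refine ⟨U, hU, fun g s hs => ?_, fun g s hs => ?_⟩
    · show c • f (fun i => g i * s i) = c • f g
      rw [h.1 g s hs]
    · simp only [Pi.smul_apply, map_smul, h.2 g s hs]

theorem mem_levelCochains_iff {n : ℕ} (f : (Fin n → G) → M) :
    f ∈ 𝒰.levelCochains M n ↔ 𝒰.IsLevelCochain M f := Iff.rfl

/-- Contracting a pointwise product `g * s` with `s` in a normal subgroup gives the contraction
of `g` times something in the subgroup. -/
theorem contractNth_mul_mem {V : Subgroup G} [hV : V.Normal] {n : ℕ} (j : Fin (n + 1))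
    (g s : Fin (n + 1) → G) (hs : ∀ i, s i ∈ V) (i : Fin n) :
    (Fin.contractNth j (· * ·) g i)⁻¹ * Fin.contractNth j (· * ·) (fun i => g i * s i) i ∈ V := by
  unfold Fin.contractNth
  split_ifs with h1 h2
  · simpa using hs _
  · have : (g (Fin.castSucc i) * g i.succ)⁻¹ * (g (Fin.castSucc i) * s (Fin.castSucc i) *
        (g i.succ * s i.succ)) = ((g i.succ)⁻¹ * s (Fin.castSucc i) * g i.succ) * s i.succ := by
      group
    rw [this]
    exact V.mul_mem (hV.conj_mem' _ (hs _) _) (hs _)
  · simpa using hs _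

variable {M} in
/-- The differential preserves cochains inflated from a normal subgroup. -/
theorem IsCochainOn.d {V : Subgroup G} [hV : V.Normal] {n : ℕ} {f : (Fin n → G) → M}
    (hf : IsCochainOn M V f) : IsCochainOn M V ((inhomogeneousCochains.d M n).hom f) := by
  refine ⟨fun g s hs => ?_, fun g t ht => ?_⟩
  · simp only [inhomogeneousCochains.d_hom_apply]
    congr 1
    · rw [map_mul, Module.End.mul_apply]
      congr 1
      rw [hf.1 (fun i => g i.succ) (fun i => s i.succ) (fun i => hs _)]
      exact hf.2 _ _ (hs 0)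
    · refine Finset.sum_congr rfl fun j _ => ?_
      congr 1
      have := hf.1 (Fin.contractNth j (· * ·) g)
        (fun i => (Fin.contractNth j (· * ·) g i)⁻¹ *
          Fin.contractNth j (· * ·) (fun i => g i * s i) i)
        (contractNth_mul_mem j g s hs)
      rw [← this]
      congr 1
      funext i
      simp
  · simp only [inhomogeneousCochains.d_hom_apply, map_add, map_sum, map_smul]
    congr 1
    · rw [← Module.End.mul_apply, ← map_mul]
      have : t * g 0 = g 0 * ((g 0)⁻¹ * t * g 0) := by group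
      rw [this, map_mul, Module.End.mul_apply, hf.2 _ _ (hV.conj_mem' _ ht _)]
    · refine Finset.sum_congr rfl fun j _ => ?_
      rw [hf.2 _ _ ht]

theorem d_mem_levelCochains {n : ℕ} {f : (Fin n → G) → M} (hf : f ∈ 𝒰.levelCochains M n) :
    (inhomogeneousCochains.d M n).hom f ∈ 𝒰.levelCochains M (n + 1) := by
  obtain ⟨W, hW, hn, h⟩ := IsLevelCochain.exists_normal hf
  haveI := hn
  exact ⟨W, hW, h.d⟩

/-- The differential of the level complex. -/
noncomputable def levelD (n : ℕ) :
    ModuleCat.of k (𝒰.levelCochains M n) ⟶ ModuleCat.of k (𝒰.levelCochains M (n + 1)) :=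
  ModuleCat.ofHom ((inhomogeneousCochains.d M n).hom.restrict
    fun _ hf => 𝒰.d_mem_levelCochains M hf)

@[simp]
theorem levelD_apply_coe {n : ℕ} (f : 𝒰.levelCochains M n) :
    ((𝒰.levelD M n).hom f : (Fin (n + 1) → G) → M) = (inhomogeneousCochains.d M n).hom f.1 := rfl

theorem levelD_comp_levelD (n : ℕ) : 𝒰.levelD M n ≫ 𝒰.levelD M (n + 1) = 0 := by
  ext f : 2
  apply Subtype.ext
  have := congr($(inhomogeneousCochains.d_comp_d (A := M) (n := n)) f.1)
  simp only [ModuleCat.hom_comp, LinearMap.coe_comp, Function.comp_apply, ModuleCat.hom_zero,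
    LinearMap.zero_apply] at this
  show (inhomogeneousCochains.d M (n + 1)).hom ((inhomogeneousCochains.d M n).hom f.1) = 0
  exact this

/-- The complex of level cochains: the subcomplex of the inhomogeneous cochains of `M` consisting
of the cochains inflated from some level of `𝒰`. -/
noncomputable abbrev levelComplex : CochainComplex (ModuleCat k) ℕ :=
  CochainComplex.of (fun n => ModuleCat.of k (𝒰.levelCochains M n)) (fun n => 𝒰.levelD M n)
    (fun n => 𝒰.levelD_comp_levelD M n)

/-- The inclusion of the level complex into the complex of all inhomogeneous cochains. -/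
noncomputable def levelComplexι : 𝒰.levelComplex M ⟶ inhomogeneousCochains M :=
  CochainComplex.ofHom (X := 𝒰.levelComplex M) (Y := inhomogeneousCochains M)
    (fun n => ModuleCat.ofHom (𝒰.levelCochains M n).subtype) (fun n => by
      ext f : 2
      simp [levelComplex]
      rfl)

section functoriality

variable {𝒰 M} {G' : Type u} [Group G'] {𝒰' : LevelFamily G'} {M' : Rep.{u} k G'}
  (f : G' →* G) (hf : IsCompatible 𝒰' 𝒰 f) (φ : Rep.res f M ⟶ M')

include hf in
theorem cochainsMap_mem_levelCochains {n : ℕ} {x : (Fin n → G) → M}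
    (hx : x ∈ 𝒰.levelCochains M n) :
    ((cochainsMap f φ).f n).hom x ∈ 𝒰'.levelCochains M' n := by
  obtain ⟨U, hU, hc, hfix⟩ := hx
  obtain ⟨U', hU', hle⟩ := hf U hU
  refine ⟨U', hU', fun g s hs => ?_, fun g s hs => ?_⟩
  · simp only [cochainsMap_f_hom, LinearMap.coe_comp, Function.comp_apply, LinearMap.funLeft_apply,
      LinearMap.compLeft_apply]
    congr 1
    have := hc (fun i => f (g i)) (fun i => f (s i)) (fun i => hle (hs i))
    have e1 : (⇑f ∘ fun i => g i * s i) = fun i => f (g i) * f (s i) := by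
      funext i; simp
    have e2 : (⇑f ∘ g) = fun i => f (g i) := rfl
    rw [e1, e2, this]
  · simp only [cochainsMap_f_hom, LinearMap.coe_comp, Function.comp_apply, LinearMap.funLeft_apply,
      LinearMap.compLeft_apply]
    have h1 := Rep.hom_comm_apply φ s (x (⇑f ∘ g))
    have h2 : ((Rep.res f M).ρ s) (x (⇑f ∘ g)) = x (⇑f ∘ g) := hfix _ _ (hle hs)
    rw [h2] at h1
    exact h1.symm

/-- Functoriality of the level complex (restriction of Mathlib's `cochainsMap`). -/
noncomputable def levelCochainsMap : 𝒰.levelComplex M ⟶ 𝒰'.levelComplex M' :=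
  CochainComplex.ofHom (X := 𝒰.levelComplex M) (Y := 𝒰'.levelComplex M')
    (fun n => ModuleCat.ofHom (((cochainsMap f φ).f n).hom.restrict
      fun _ hx => cochainsMap_mem_levelCochains f hf φ hx)) (fun n => by
      ext x : 2
      apply Subtype.ext
      have := congr($((cochainsMap f φ).comm n (n + 1)) x.1)
      simp only [CochainComplex.of_d, ModuleCat.hom_comp, LinearMap.coe_comp,
        Function.comp_apply] at this
      simp only [levelComplex, CochainComplex.of_d]
      exact this)

end functoriality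

@[simp]
theorem levelComplex_X (n : ℕ) :
    (𝒰.levelComplex M).X n = ModuleCat.of k (𝒰.levelCochains M n) := rfl

@[simp]
theorem levelComplex_d (n : ℕ) : (𝒰.levelComplex M).d n (n + 1) = 𝒰.levelD M n := by
  simp [levelComplex]

@[simp]
theorem levelComplexι_f_apply {n : ℕ} (x : 𝒰.levelCochains M n) :
    ((𝒰.levelComplexι M).f n).hom x = x.1 := rfl

theorem levelComplexι_f_injective (n : ℕ) :
    Function.Injective ((𝒰.levelComplexι M).f n).hom := Subtype.val_injective

instance (n : ℕ) : Mono ((𝒰.levelComplexι M).f n) :=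
  (ModuleCat.mono_iff_injective _).2 (𝒰.levelComplexι_f_injective M n)

section functoriality

variable {𝒰 M} {G' : Type u} [Group G'] {𝒰' : LevelFamily G'} {M' : Rep.{u} k G'}
  (f : G' →* G) (hf : IsCompatible 𝒰' 𝒰 f) (φ : Rep.res f M ⟶ M')

@[simp]
theorem levelCochainsMap_f_apply_coe {n : ℕ} (x : 𝒰.levelCochains M n) :
    (show 𝒰'.levelCochains M' n from ((levelCochainsMap f hf φ).f n).hom x).1 =
      ((cochainsMap f φ).f n).hom x.1 := rfl

@[reassoc]
theorem levelCochainsMap_comp_ι :
    levelCochainsMap f hf φ ≫ 𝒰'.levelComplexι M' = 𝒰.levelComplexι M ≫ cochainsMap f φ := by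
  ext n x : 3
  rfl

theorem levelCochainsMap_id :
    levelCochainsMap (MonoidHom.id G) 𝒰.isCompatible_id (𝟙 M) = 𝟙 (𝒰.levelComplex M) := by
  ext n x : 3
  rfl

theorem levelCochainsMap_comp {G'' : Type u} [Group G''] {𝒰'' : LevelFamily G''}
    {M'' : Rep.{u} k G''} (f' : G'' →* G') (hf' : IsCompatible 𝒰'' 𝒰' f')
    (φ' : Rep.res f' M' ⟶ M'') :
    levelCochainsMap (f.comp f') (fun U hU => by
        obtain ⟨U', hU', h⟩ := hf U hU
        obtain ⟨U'', hU'', h'⟩ := hf' U' hU'
        exact ⟨U'', hU'', fun x hx => h (h' hx)⟩)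
      ((Rep.resFunctor f').map φ ≫ φ') =
      levelCochainsMap f hf φ ≫ levelCochainsMap f' hf' φ' := by
  ext n x : 3
  rfl

end functoriality

/-- The level complex as a functor on representations of a fixed group. -/
noncomputable def levelComplexFunctor : Rep.{u} k G ⥤ CochainComplex (ModuleCat k) ℕ where
  obj M := 𝒰.levelComplex M
  map φ := levelCochainsMap (MonoidHom.id G) 𝒰.isCompatible_id φ
  map_id _ := levelCochainsMap_id
  map_comp φ ψ := levelCochainsMap_comp (MonoidHom.id G) 𝒰.isCompatible_id φ (MonoidHom.id G)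
    𝒰.isCompatible_id ψ

/-- The level cohomology: the cohomology of the complex of level cochains. -/
noncomputable abbrev levelCohomology (n : ℕ) : ModuleCat k := (𝒰.levelComplex M).homology n

/-- The comparison map from level cohomology to abstract group cohomology. -/
noncomputable def toGroupCohomology (n : ℕ) : 𝒰.levelCohomology M n ⟶ groupCohomology M n :=
  HomologicalComplex.homologyMap (𝒰.levelComplexι M) n

end LevelFamily

end Fermat.Agent.Lib.CFT.Profinite
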