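import Fermat.Agent.Lib.CFT.Profinite.MackeyT

/-!
# Corestriction for the cone of multiplication by `p` (P-CFT, Profinite/CoresT)

`coresT p hV hM r : T^r(V, res M) ⟶ T^r(G, M)` for an open subgroup `V` and a discrete module `M`,
defined through `shapiroT` and the trace `coind V (res V M) ⟶ M`; compatibility with `toH`, `ofH`,
`cores`, restriction, and naturality.
-/

set_option autoImplicit false

universe u

open CategoryTheory

namespace Fermat.Agent.Lib.CFT.Profinite.LES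

open LevelFamily Fermat.Agent.Lib.CFT.Duality Fermat.Agent.Lib.CFT.Duality.KCalc ConcreteHomology
  HomologicalComplex

variable {k G : Type u} [CommRing k] [Group G] {𝒰 : LevelFamily G} {V : Subgroup G}
  {M : Rep.{u} k G} (p : ℕ)

/-- Corestriction on `T`: the inverse of the Shapiro map followed by the trace. -/
noncomputable def coresT (hV : IsOpenSubgroup 𝒰 V) (hM : 𝒰.IsDiscrete M) (r : ℕ) :
    T (restrict 𝒰 V) p (Rep.res V.subtype M) r →ₗ[k] T 𝒰 p M r :=
  haveI := hV.finiteIndex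
  (TMap 𝒰 p (coindTrace V M) r).comp
    (shapiroTEquiv p hV (Rep.res V.subtype M) (isDiscrete_res 𝒰 V M hM) r).symm.toLinearMap

/-- Corestriction after the Shapiro map is the map induced by the trace. -/
theorem coresT_shapiroT (hV : IsOpenSubgroup 𝒰 V) (hM : 𝒰.IsDiscrete M) (r : ℕ)
    (t : T 𝒰 p (Rep.coind V.subtype (Rep.res V.subtype M)) r) :
    haveI := hV.finiteIndex
    coresT p hV hM r (shapiroT 𝒰 p V (Rep.res V.subtype M) r t) =
      TMap 𝒰 p (coindTrace V M) r t := by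
  have := hV.finiteIndex
  unfold coresT
  rw [LinearMap.comp_apply]
  congr 1
  exact (shapiroTEquiv p hV (Rep.res V.subtype M) (isDiscrete_res 𝒰 V M hM) r).symm_apply_apply t

theorem exists_shapiroT_eq (hV : IsOpenSubgroup 𝒰 V) (hM : 𝒰.IsDiscrete M) (r : ℕ)
    (t : T (restrict 𝒰 V) p (Rep.res V.subtype M) r) :
    ∃ s, shapiroT 𝒰 p V (Rep.res V.subtype M) r s = t :=
  (shapiroT_bijective p hV _ (isDiscrete_res 𝒰 V M hM) r).2 t

/-- `toH` intertwines corestriction on `T` and on level cohomology. -/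
theorem toH_coresT (hV : IsOpenSubgroup 𝒰 V) (hM : 𝒰.IsDiscrete M) (r : ℕ)
    (t : T (restrict 𝒰 V) p (Rep.res V.subtype M) r) :
    toH 𝒰 p M r (coresT p hV hM r t) =
      (cores hV hM r).hom (toH (restrict 𝒰 V) p (Rep.res V.subtype M) r t) := by
  have := hV.finiteIndex
  obtain ⟨s, rfl⟩ := exists_shapiroT_eq p hV hM r t
  rw [coresT_shapiroT, toH_TMap, toH_shapiroT, cores_shapiro_apply]

/-- `ofH` intertwines corestriction on level cohomology and on `T`. -/
theorem coresT_ofH (hV : IsOpenSubgroup 𝒰 V) (hM : 𝒰.IsDiscrete M) (r : ℕ)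
    (y : (restrict 𝒰 V).levelCohomology (Rep.res V.subtype M) r) :
    coresT p hV hM (r + 1) (ofH (restrict 𝒰 V) p (Rep.res V.subtype M) r y) =
      ofH 𝒰 p M r ((cores hV hM r).hom y) := by
  have := hV.finiteIndex
  obtain ⟨y', rfl⟩ := (shapiro_bijective hV r _ (isDiscrete_res 𝒰 V M hM)).2 y
  rw [← shapiroT_ofH, coresT_shapiroT, TMap_ofH, cores_shapiro_apply]

/-- Naturality of corestriction on `T` in the module. -/
theorem coresT_naturality (hV : IsOpenSubgroup 𝒰 V) {M' : Rep.{u} k G} (hM : 𝒰.IsDiscrete M)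
    (hM' : 𝒰.IsDiscrete M') (φ : M ⟶ M') (r : ℕ)
    (t : T (restrict 𝒰 V) p (Rep.res V.subtype M) r) :
    coresT p hV hM' r (TMap (restrict 𝒰 V) p ((Rep.resFunctor V.subtype).map φ) r t) =
      TMap 𝒰 p φ r (coresT p hV hM r t) := by
  have := hV.finiteIndex
  obtain ⟨s, rfl⟩ := exists_shapiroT_eq p hV hM r t
  rw [← shapiroT_naturality, coresT_shapiroT, coresT_shapiroT, ← TMap_comp, ← TMap_comp,
    coindTrace_naturality]

variable (𝒰 V M) in
/-- Restriction on `T`. -/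
noncomputable def resT (r : ℕ) :
    T 𝒰 p M r →ₗ[k] T (restrict 𝒰 V) p (Rep.res V.subtype M) r :=
  TMapOfHom 𝒰 p (restrict 𝒰 V) V.subtype (isCompatible_comap 𝒰 V.subtype)
    (𝟙 (Rep.res V.subtype M)) r

/-- Restriction on `T` is the unit `M ⟶ coind (res M)` followed by the Shapiro map. -/
theorem resT_eq (r : ℕ) (t : T 𝒰 p M r) :
    resT 𝒰 V M p r t =
      shapiroT 𝒰 p V (Rep.res V.subtype M) r (TMap 𝒰 p (coindUnit V M) r t) := by
  rw [TMap_eq_TMapOfHom, shapiroT, ← TMapOfHom_comp, resT]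
  refine congr_fun (congr_arg DFunLike.coe (TMapOfHom_congr 𝒰 _ p _ rfl _ _ ?_ r)) t
  have := coindUnit_comp_coindEval V M
  exact congrArg (fun f => f.hom.toLinearMap) this.symm

theorem toH_resT (r : ℕ) (t : T 𝒰 p M r) :
    toH (restrict 𝒰 V) p (Rep.res V.subtype M) r (resT 𝒰 V M p r t) =
      (res 𝒰 V M r).hom (toH 𝒰 p M r t) :=
  toH_TMapOfHom 𝒰 p (restrict 𝒰 V) V.subtype (isCompatible_comap 𝒰 V.subtype)
    (𝟙 (Rep.res V.subtype M)) r t

theorem resT_ofH (r : ℕ) (y : 𝒰.levelCohomology M r) :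
    resT 𝒰 V M p (r + 1) (ofH 𝒰 p M r y) =
      ofH (restrict 𝒰 V) p (Rep.res V.subtype M) r ((res 𝒰 V M r).hom y) :=
  TMapOfHom_ofH 𝒰 p (restrict 𝒰 V) V.subtype (isCompatible_comap 𝒰 V.subtype)
    (𝟙 (Rep.res V.subtype M)) r y

/-- `cor ∘ res` is multiplication by the index on `T`. -/
theorem coresT_resT (hV : IsOpenSubgroup 𝒰 V) (hM : 𝒰.IsDiscrete M) (r : ℕ) (t : T 𝒰 p M r) :
    coresT p hV hM r (resT 𝒰 V M p r t) = V.index • t := by
  have := hV.finiteIndex
  rw [resT_eq, coresT_shapiroT, ← TMap_comp, coindUnit_comp_coindTrace]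
  have h : (TFunctor (k := k) 𝒰 p r).map (V.index • 𝟙 M) =
      V.index • (TFunctor (k := k) 𝒰 p r).map (𝟙 M) := Functor.map_nsmul _
  have h2 := congr($h t)
  rw [CategoryTheory.Functor.map_id] at h2
  exact h2

theorem coresT_surjective_iff (hV : IsOpenSubgroup 𝒰 V) (hM : 𝒰.IsDiscrete M) (r : ℕ) :
    haveI := hV.finiteIndex
    Function.Surjective (coresT p hV hM r) ↔
      Function.Surjective (TMap 𝒰 p (coindTrace V M) r) := by
  have := hV.finiteIndex
  constructor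
  · intro h z
    obtain ⟨t, rfl⟩ := h z
    obtain ⟨s, rfl⟩ := exists_shapiroT_eq p hV hM r t
    exact ⟨s, (coresT_shapiroT p hV hM r s).symm⟩
  · intro h z
    obtain ⟨s, rfl⟩ := h z
    exact ⟨shapiroT 𝒰 p V (Rep.res V.subtype M) r s, coresT_shapiroT p hV hM r s⟩

/-- **Corestriction on `T` is surjective in the top degree**: if `ι : K ⟶ coind (res M)` is a
kernel of the trace map (in short exact form) and `T^{r+1}(K) = 0`, then
`coresT : T^r(V, M) → T^r(G, M)` is surjective. -/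
theorem coresT_surjective (hV : IsOpenSubgroup 𝒰 V) (hM : 𝒰.IsDiscrete M) (r : ℕ)
    {K : Rep.{u} k G} (ι : K ⟶ Rep.coind V.subtype (Rep.res V.subtype M))
    (w : haveI := hV.finiteIndex; ι ≫ coindTrace V M = 0)
    (hS : haveI := hV.finiteIndex; (ShortComplex.mk ι (coindTrace V M) w).ShortExact)
    (hvan : Subsingleton (T 𝒰 p K (r + 1))) :
    Function.Surjective (coresT p hV hM r) := by
  have := hV.finiteIndex
  rw [coresT_surjective_iff]
  intro z
  have hd : 𝒰.IsDiscrete (ShortComplex.mk ι (coindTrace V M) w).X₂ :=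
    isDiscrete_coind hV (isDiscrete_res 𝒰 V M hM)
  have hz : Tδ 𝒰 p hS hd r (r + 1) rfl z = 0 := Subsingleton.elim _ _
  exact (exact_TMap_g_Tδ 𝒰 p hS hd r (r + 1) rfl z).1 hz

/-! ### Compatibility with connecting homomorphisms -/

/-- Restriction on `T` commutes with connecting homomorphisms. -/
theorem resT_Tδ {S : ShortComplex (Rep.{u} k G)} (hS : S.ShortExact) (hd : 𝒰.IsDiscrete S.X₂)
    (i j : ℕ) (hij : i + 1 = j) (t : T 𝒰 p S.X₃ i) :
    resT 𝒰 V S.X₁ p j (Tδ 𝒰 p hS hd i j hij t) =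
      Tδ (restrict 𝒰 V) p ((Rep.shortExact_res V.subtype).2 hS) (isDiscrete_res 𝒰 V S.X₂ hd)
        i j hij (resT 𝒰 V S.X₃ p i t) :=
  Tδ_naturality p V.subtype (isCompatible_comap 𝒰 V.subtype) hS hd
    ((Rep.shortExact_res V.subtype).2 hS) (isDiscrete_res 𝒰 V S.X₂ hd) (𝟙 _) (𝟙 _) (𝟙 _)
    ((Category.comp_id _).trans (Category.id_comp _).symm)
    ((Category.comp_id _).trans (Category.id_comp _).symm) i j hij t

/-- Corestriction on `T` commutes with connecting homomorphisms. -/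
theorem coresT_Tδ (hV : IsOpenSubgroup 𝒰 V) {S : ShortComplex (Rep.{u} k G)} (hS : S.ShortExact)
    (hd : 𝒰.IsDiscrete S.X₂) (i j : ℕ) (hij : i + 1 = j)
    (t : T (restrict 𝒰 V) p (Rep.res V.subtype S.X₃) i) :
    coresT p hV (isDiscrete_X₁ hS hd) j
        (Tδ (restrict 𝒰 V) p ((Rep.shortExact_res V.subtype).2 hS)
          (isDiscrete_res 𝒰 V S.X₂ hd) i j hij t) =
      Tδ 𝒰 p hS hd i j hij (coresT p hV (isDiscrete_X₃ hS hd) i t) := by
  have := hV.finiteIndex
  have hY := (Rep.shortExact_res V.subtype).2 hS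
  have hdY := isDiscrete_res 𝒰 V S.X₂ hd
  have hcY := shortExact_map_coindFunctor hY
  have hdcY := isDiscrete_coind hV hdY
  obtain ⟨s, rfl⟩ := exists_shapiroT_eq p hV (isDiscrete_X₃ hS hd) i t
  have h1 := shapiroT_Tδ p hV hY hdY i j hij s
  have h2 := Tδ_naturality p (MonoidHom.id G) 𝒰.isCompatible_id hcY hdcY hS hd
    (coindTrace V S.X₁) (coindTrace V S.X₂) (coindTrace V S.X₃)
    (coindTrace_naturality S.f) (coindTrace_naturality S.g) i j hij s
  have h2' : TMap 𝒰 p (coindTrace V S.X₁) j (Tδ 𝒰 p hcY hdcY i j hij s) =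
      Tδ 𝒰 p hS hd i j hij (TMap 𝒰 p (coindTrace V S.X₃) i s) := by
    rw [TMap_eq_TMapOfHom, TMap_eq_TMapOfHom]
    exact h2
  have h1' : Tδ (restrict 𝒰 V) p hY hdY i j hij (shapiroT 𝒰 p V (Rep.res V.subtype S.X₃) i s) =
      shapiroT 𝒰 p V (Rep.res V.subtype S.X₁) j (Tδ 𝒰 p hcY hdcY i j hij s) := h1.symm
  exact (congr_arg (coresT p hV (isDiscrete_X₁ hS hd) j) h1').trans
    ((coresT_shapiroT p hV (isDiscrete_X₁ hS hd) j _).trans
      (h2'.trans (congr_arg (Tδ 𝒰 p hS hd i j hij)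
        (coresT_shapiroT p hV (isDiscrete_X₃ hS hd) i s).symm)))

end Fermat.Agent.Lib.CFT.Profinite.LES
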