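import Fermat.Agent.Lib.CFT.Profinite.Cup
import Fermat.Agent.Lib.CFT.Profinite.LevelClasses

/-!
# Cup products on level cohomology: naturality and connecting homomorphisms
-/

set_option autoImplicit false
set_option linter.unusedSectionVars false

universe u

open CategoryTheory groupCohomology

namespace Fermat.Agent.Lib.CFT.Profinite

open Fermat.Agent.Lib.CFT.Coh.Cup Fermat.Agent.Lib.CFT.Coh.Elem

variable {k G : Type u} [CommRing k] [Group G]

namespace LevelFamily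

variable (𝒰 : LevelFamily G)

/-! ### Comparison with `classMk` -/

section bridge

variable {M : Rep.{u} k G}

theorem IsLevelCocycle.mem_levelCocycles {n : ℕ} {x : (Fin n → G) → M}
    (hx : 𝒰.IsLevelCocycle M x) : x ∈ 𝒰.levelCocycles M n :=
  Submodule.mem_inf.mpr ⟨hx.1, hx.2⟩

theorem isLevelCocycle_of_mem {n : ℕ} {x : (Fin n → G) → M}
    (hx : x ∈ 𝒰.levelCocycles M n) : 𝒰.IsLevelCocycle M x :=
  ⟨(Submodule.mem_inf.mp hx).1, (Submodule.mem_inf.mp hx).2⟩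

theorem cls_eq_classMk {n : ℕ} (x : (Fin n → G) → M) (hx : 𝒰.IsLevelCocycle M x) :
    𝒰.cls x hx = 𝒰.classMk M n ⟨x, hx.mem_levelCocycles 𝒰⟩ := by
  unfold cls mkH cyc classMk
  rw [LinearMap.comp_apply, ConcreteHomology.classOf_apply]
  congr 1
  exact ConcreteHomology.cyclesMk_eq_toCycles (K := 𝒰.levelComplex M)
    (⟨x, hx.1⟩ : 𝒰.levelCochains M n) (𝒰.levelComplex_d_eq_zero hx)

theorem classMk_eq_cls {n : ℕ} (x : 𝒰.levelCocycles M n) :
    𝒰.classMk M n x = 𝒰.cls x.1 (𝒰.isLevelCocycle_of_mem x.2) :=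
  (𝒰.cls_eq_classMk x.1 (𝒰.isLevelCocycle_of_mem x.2)).symm

end bridge

/-! ### Naturality -/

section naturality

variable {𝒰} {G' : Type u} [Group G'] {𝒰' : LevelFamily G'}
  {M : Rep.{u} k G} {M' : Rep.{u} k G'}
  (f : G' →* G) (hf : IsCompatible 𝒰' 𝒰 f) (φ : Rep.res f M ⟶ M')

include hf in
theorem IsLevelCocycle.map {n : ℕ} {x : (Fin n → G) → M} (hx : 𝒰.IsLevelCocycle M x) :
    𝒰'.IsLevelCocycle M' (((cochainsMap f φ).f n).hom x) := by
  refine ⟨cochainsMap_mem_levelCochains f hf φ hx.1, ?_⟩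
  have := congr($((cochainsMap f φ).comm n (n + 1)) x)
  simp only [CochainComplex.of_d, ModuleCat.hom_comp, LinearMap.coe_comp,
    Function.comp_apply] at this
  rw [this, hx.2, map_zero]

/-- Elementwise description of the change-of-group map on level cohomology. -/
theorem homologyMap_cls {n : ℕ} (x : (Fin n → G) → M) (hx : 𝒰.IsLevelCocycle M x) :
    (HomologicalComplex.homologyMap (levelCochainsMap f hf φ) n).hom (𝒰.cls x hx) =
      𝒰'.cls (((cochainsMap f φ).f n).hom x) (hx.map f hf φ) := by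
  unfold cls
  exact homologyMap_mkH (levelCochainsMap f hf φ) (⟨x, hx.1⟩ : 𝒰.levelCochains M n) _

variable {A B C : Rep.{u} k G} {A' B' C' : Rep.{u} k G'}

/-- Naturality of the cup product under change of group and of coefficients. -/
theorem homologyMap_cupH (φ : Pairing A B C) (φ' : Pairing A' B' C')
    (α : Rep.res f A ⟶ A') (β : Rep.res f B ⟶ B') (γ : Rep.res f C ⟶ C')
    (hγ : ∀ (a : A) (b : B), γ.hom (φ.toLin a b) = φ'.toLin (α.hom a) (β.hom b))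
    {m n l : ℕ} (h : m + n = l) (a : 𝒰.levelCohomology A m) (b : 𝒰.levelCohomology B n) :
    (HomologicalComplex.homologyMap (levelCochainsMap f hf γ) l).hom (𝒰.cupH φ h a b) =
      𝒰'.cupH φ' h ((HomologicalComplex.homologyMap (levelCochainsMap f hf α) m).hom a)
        ((HomologicalComplex.homologyMap (levelCochainsMap f hf β) n).hom b) := by
  obtain ⟨x, hx, rfl⟩ := 𝒰.cls_surjective a
  obtain ⟨y, hy, rfl⟩ := 𝒰.cls_surjective b
  rw [cupH_cls, homologyMap_cls, homologyMap_cls, homologyMap_cls, cupH_cls]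
  exact 𝒰'.cls_congr (cupTo_map f φ φ' α β γ hγ h x y) _

end naturality

/-! ### Connecting homomorphisms -/

section delta

open inhomogeneousCochains in
/-- The differential commutes with postcomposition by a morphism of representations. -/
theorem d_postcomp {M M' : Rep.{u} k G} (φ : M ⟶ M') {n : ℕ} (x : (Fin n → G) → M) :
    (d M' n).hom (fun g => φ.hom (x g)) = fun g => φ.hom ((d M n).hom x g) := by
  funext g
  simp only [d_hom_apply, map_add, map_sum, map_smul]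
  rw [Rep.hom_comm_apply]

variable {X Z : ShortComplex (Rep.{u} k G)} (hX : X.ShortExact) (hZ : Z.ShortExact)
  (hdX : 𝒰.IsDiscrete X.X₂) (hdZ : 𝒰.IsDiscrete Z.X₂)

/-- Cochain-level description of the connecting homomorphism, in terms of `cls`. -/
theorem δ_cls {i : ℕ} {z : (Fin i → G) → X.X₃} (hz : 𝒰.IsLevelCocycle X.X₃ z)
    {y : (Fin i → G) → X.X₂} (hy : y ∈ 𝒰.levelCochains X.X₂ i)
    (hyz : ∀ g, X.g.hom (y g) = z g)
    {x : (Fin (i + 1) → G) → X.X₁} (hx : x ∈ 𝒰.levelCochains X.X₁ (i + 1))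
    (hxy : ∀ g, X.f.hom (x g) = (inhomogeneousCochains.d X.X₂ i).hom y g) :
    (𝒰.δ hX hdX i (i + 1) rfl).hom (𝒰.cls z hz) =
      𝒰.cls x (𝒰.isLevelCocycle_of_mem (mem_levelCocycles_of_comp_eq_d hX hx hxy)) := by
  rw [cls_eq_classMk, cls_eq_classMk]
  exact δ_classMk hX hdX i ⟨z, hz.mem_levelCocycles 𝒰⟩ y hy hyz x hx hxy

include hX in
/-- Every level cocycle of the quotient has a level cochain lift whose differential comes from a
level cocycle of the sub. -/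
theorem exists_lift_data (hdX : 𝒰.IsDiscrete X.X₂) {i : ℕ} {z : (Fin i → G) → X.X₃}
    (hz : 𝒰.IsLevelCocycle X.X₃ z) :
    ∃ y ∈ 𝒰.levelCochains X.X₂ i, (∀ g, X.g.hom (y g) = z g) ∧
      ∃ x ∈ 𝒰.levelCochains X.X₁ (i + 1),
        ∀ g, X.f.hom (x g) = (inhomogeneousCochains.d X.X₂ i).hom y g := by
  obtain ⟨y, hy, hyz⟩ := 𝒰.exists_levelCochain_lift hX hdX hz.1
  refine ⟨y, hy, hyz, ?_⟩
  have hdy : (inhomogeneousCochains.d X.X₂ i).hom y ∈ 𝒰.levelCochains X.X₂ (i + 1) :=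
    𝒰.d_mem_levelCochains X.X₂ hy
  have h0 : ∀ g, X.g.hom ((inhomogeneousCochains.d X.X₂ i).hom y g) = 0 := by
    intro g
    have h1 := congr_fun (d_postcomp X.g y) g
    rw [← h1]
    have h2 : (fun g => X.g.hom (y g)) = z := funext hyz
    rw [h2, hz.2]
    rfl
  exact 𝒰.exists_levelCochain_of_comp_eq_zero hX hdy h0

variable {B : Rep.{u} k G}

/-- Compatibility of the cup product with connecting homomorphisms in the first variable:
`δ(a'' ∪ b) = δ(a'') ∪ b`. -/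
theorem δ_cupH_left (φ₁ : Pairing X.X₁ B Z.X₁) (φ₂ : Pairing X.X₂ B Z.X₂)
    (φ₃ : Pairing X.X₃ B Z.X₃)
    (hf : ∀ (a : X.X₁) (b : B), Z.f.hom (φ₁.toLin a b) = φ₂.toLin (X.f.hom a) b)
    (hg : ∀ (a : X.X₂) (b : B), Z.g.hom (φ₂.toLin a b) = φ₃.toLin (X.g.hom a) b)
    {m n l : ℕ} (h : m + n = l) (a : 𝒰.levelCohomology X.X₃ m) (b : 𝒰.levelCohomology B n) :
    (𝒰.δ hZ hdZ l (l + 1) rfl).hom (𝒰.cupH φ₃ h a b) =
      𝒰.cupH φ₁ (show m + 1 + n = l + 1 by omega) ((𝒰.δ hX hdX m (m + 1) rfl).hom a) b := by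
  obtain ⟨z, hz, rfl⟩ := 𝒰.cls_surjective a
  obtain ⟨w, hw, rfl⟩ := 𝒰.cls_surjective b
  obtain ⟨y, hy, hyz, x, hx, hxy⟩ := 𝒰.exists_lift_data hX hdX hz
  rw [cupH_cls, 𝒰.δ_cls hX hdX hz hy hyz hx hxy, cupH_cls]
  have hyw : cupTo φ₂ h y w ∈ 𝒰.levelCochains Z.X₂ l := 𝒰.cupTo_mem_levelCochains φ₂ h hy hw.1
  have hxw : cupTo φ₁ (show m + 1 + n = l + 1 by omega) x w ∈ 𝒰.levelCochains Z.X₁ (l + 1) :=
    𝒰.cupTo_mem_levelCochains φ₁ _ hx hw.1
  refine 𝒰.δ_cls hZ hdZ _ hyw ?_ hxw ?_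
  · intro g
    rw [cupTo_apply, cupTo_apply, hg, hyz]
  · intro g
    rw [d_cupTo, hw.2, cupTo_zero_right, smul_zero, add_zero, cupTo_apply, cupTo_apply, hf, hxy]

variable {A : Rep.{u} k G}

/-- Compatibility of the cup product with connecting homomorphisms in the second variable:
`δ(a ∪ b'') = (-1)^m • (a ∪ δ(b''))` for `a` of degree `m`. -/
theorem δ_cupH_right (ψ₁ : Pairing A X.X₁ Z.X₁) (ψ₂ : Pairing A X.X₂ Z.X₂)
    (ψ₃ : Pairing A X.X₃ Z.X₃)
    (hf : ∀ (a : A) (b : X.X₁), Z.f.hom (ψ₁.toLin a b) = ψ₂.toLin a (X.f.hom b))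
    (hg : ∀ (a : A) (b : X.X₂), Z.g.hom (ψ₂.toLin a b) = ψ₃.toLin a (X.g.hom b))
    {m n l : ℕ} (h : m + n = l) (a : 𝒰.levelCohomology A m) (b : 𝒰.levelCohomology X.X₃ n) :
    (𝒰.δ hZ hdZ l (l + 1) rfl).hom (𝒰.cupH ψ₃ h a b) =
      (-1 : k) ^ m • 𝒰.cupH ψ₁ (show m + (n + 1) = l + 1 by omega) a
        ((𝒰.δ hX hdX n (n + 1) rfl).hom b) := by
  obtain ⟨z, hz, rfl⟩ := 𝒰.cls_surjective a
  obtain ⟨w, hw, rfl⟩ := 𝒰.cls_surjective b
  obtain ⟨y, hy, hyw, x, hx, hxy⟩ := 𝒰.exists_lift_data hX hdX hw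
  rw [cupH_cls, 𝒰.δ_cls hX hdX hw hy hyw hx hxy, cupH_cls, ← cls_smul]
  have hzy : cupTo ψ₂ h z y ∈ 𝒰.levelCochains Z.X₂ l := 𝒰.cupTo_mem_levelCochains ψ₂ h hz.1 hy
  have hzx : (-1 : k) ^ m • cupTo ψ₁ (show m + (n + 1) = l + 1 by omega) z x ∈
      𝒰.levelCochains Z.X₁ (l + 1) :=
    Submodule.smul_mem _ _ (𝒰.cupTo_mem_levelCochains ψ₁ _ hz.1 hx)
  refine 𝒰.δ_cls hZ hdZ _ hzy ?_ hzx ?_
  · intro g
    rw [cupTo_apply, cupTo_apply, hg]
    simp only [Rep.hom_comm_apply, hyw]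
  · intro g
    rw [d_cupTo, hz.2, cupTo_zero_left, zero_add, Pi.smul_apply, Pi.smul_apply, map_smul,
      cupTo_apply, cupTo_apply, hf]
    simp only [Rep.hom_comm_apply, hxy]

end delta

end LevelFamily

end Fermat.Agent.Lib.CFT.Profinite
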