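import Fermat.Agent.Lib.CFT.Profinite.LevelClasses

/-!
# Level cohomology in low degrees: reindexing, `H⁰`, `H¹`
-/

set_option autoImplicit false

universe u

open CategoryTheory groupCohomology Rep

namespace Fermat.Agent.Lib.CFT.Profinite

open ConcreteHomology

variable {k G : Type u} [CommRing k] [Group G]

namespace LevelFamily

variable (𝒰 : LevelFamily G)

section reindex

variable {X : Type*}

theorem isConst_one_iff (f : G → X) :
    𝒰.IsConst (fun g : Fin 1 → G => f (g 0)) ↔ 𝒰.IsConst₁ f := by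
  constructor
  · rintro ⟨U, hU, h⟩
    exact ⟨U, hU, fun g s hs => h (fun _ => g) (fun _ => s) (fun _ => hs)⟩
  · rintro ⟨U, hU, h⟩
    exact ⟨U, hU, fun g s hs => h (g 0) (s 0) (hs 0)⟩

theorem isConst_two_iff (f : G × G → X) :
    𝒰.IsConst (fun g : Fin 2 → G => f (g 0, g 1)) ↔ 𝒰.IsConst₂ f := by
  constructor
  · rintro ⟨U, hU, h⟩
    refine ⟨U, hU, fun g g' s s' hs hs' => ?_⟩
    have := h ![g, g'] ![s, s'] (fun i => by fin_cases i <;> simpa)
    simpa using this
  · rintro ⟨U, hU, h⟩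
    exact ⟨U, hU, fun g s hs => h (g 0) (g 1) (s 0) (s 1) (hs 0) (hs 1)⟩

theorem isConst_three_iff (f : G × G × G → X) :
    𝒰.IsConst (fun g : Fin 3 → G => f (g 0, g 1, g 2)) ↔ 𝒰.IsConst₃ f := by
  constructor
  · rintro ⟨U, hU, h⟩
    refine ⟨U, hU, fun g g' g'' s s' s'' hs hs' hs'' => ?_⟩
    have := h ![g, g', g''] ![s, s', s''] (fun i => by fin_cases i <;> simpa)
    simpa using this
  · rintro ⟨U, hU, h⟩
    exact ⟨U, hU, fun g s hs => h (g 0) (g 1) (g 2) (s 0) (s 1) (s 2) (hs 0) (hs 1) (hs 2)⟩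

end reindex

variable (M : Rep.{u} k G)

section H0

theorem d_zero_apply (f : (Fin 0 → G) → M) (g : Fin 1 → G) :
    (inhomogeneousCochains.d M 0).hom f g = M.ρ (g 0) (f default) - f default := by
  rw [inhomogeneousCochains.d_hom_apply, Fin.sum_univ_one]
  have e1 : (fun i : Fin 0 => g i.succ) = default := Subsingleton.elim _ _
  have e2 : (Fin.contractNth 0 (fun x1 x2 => x1 * x2) g) = default := Subsingleton.elim _ _
  rw [e1, e2]
  simp [sub_eq_add_neg]

/-- A `0`-cochain is a level cocycle iff its value is `G`-invariant. -/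
theorem mem_levelCocycles_zero_iff (f : (Fin 0 → G) → M) :
    f ∈ 𝒰.levelCocycles M 0 ↔ f default ∈ M.ρ.invariants := by
  rw [mem_levelCocycles_iff]
  constructor
  · rintro ⟨-, h⟩ g
    have := congr_fun h (fun _ => g)
    rw [d_zero_apply] at this
    exact sub_eq_zero.mp this
  · intro h
    refine ⟨?_, ?_⟩
    · obtain ⟨U, hU⟩ := 𝒰.nonempty
      refine ⟨U, hU, fun g s _ => ?_, fun g s _ => ?_⟩
      · congr 1
        exact Subsingleton.elim _ _
      · rw [Subsingleton.elim g default]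
        exact h s
    · funext g
      rw [d_zero_apply]
      exact sub_eq_zero.mpr (h (g 0))

/-- The level `0`-cocycles are the invariants. -/
noncomputable def levelCocyclesZeroEquiv : 𝒰.levelCocycles M 0 ≃ₗ[k] M.ρ.invariants where
  toFun f := ⟨f.1 default, (𝒰.mem_levelCocycles_zero_iff M f.1).mp f.2⟩
  invFun m := ⟨fun _ => m.1, (𝒰.mem_levelCocycles_zero_iff M _).mpr m.2⟩
  map_add' _ _ := rfl
  map_smul' _ _ := rfl
  left_inv f := by
    apply Subtype.ext
    funext g
    show f.1 default = f.1 g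
    rw [Subsingleton.elim g default]
  right_inv _ := rfl

/-- `H⁰` of the level complex is the module of invariants. -/
noncomputable def H0Equiv : 𝒰.levelCohomology M 0 ≃ₗ[k] M.ρ.invariants :=
  (LinearEquiv.ofBijective (𝒰.classMk M 0)
    ⟨(injective_iff_map_eq_zero _).2 fun f hf => (𝒰.classMk_eq_zero_iff_zero M f).1 hf,
      𝒰.classMk_surjective M 0⟩).symm ≪≫ₗ 𝒰.levelCocyclesZeroEquiv M

theorem H0Equiv_classMk (f : 𝒰.levelCocycles M 0) :
    (𝒰.H0Equiv M (𝒰.classMk M 0 f)).1 = f.1 default := by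
  unfold H0Equiv
  rw [LinearEquiv.trans_apply]
  have : (LinearEquiv.ofBijective (𝒰.classMk M 0)
    ⟨(injective_iff_map_eq_zero _).2 fun f hf => (𝒰.classMk_eq_zero_iff_zero M f).1 hf,
      𝒰.classMk_surjective M 0⟩).symm (𝒰.classMk M 0 f) = f := by
    rw [LinearEquiv.symm_apply_eq]
    rfl
  rw [this]
  rfl

end H0

section H1

theorem cochainsIso₁_inv_apply (c : G → M) (g : Fin 1 → G) :
    (cochainsIso₁ M).inv c g = c (g 0) := rfl

theorem cochainsIso₁_hom_apply (f : (Fin 1 → G) → M) (g : G) :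
    (cochainsIso₁ M).hom f g = f (fun _ => g) := rfl

theorem cochainsIso₁_inv_mem_Z (c : cocycles₁ M) :
    (cochainsIso₁ M).inv c.1 ∈ Z (inhomogeneousCochains M) 1 := by
  rw [mem_Z_iff]
  have := congr($(eq_d₁₂_comp_inv M) c.1)
  simp only [ModuleCat.hom_comp, LinearMap.coe_comp, Function.comp_apply] at this
  have hc : (d₁₂ M).hom c.1 = 0 := cocycles₁.d₁₂_apply c
  rw [this, hc, map_zero]

theorem cochainsIso₁_hom_mem_cocycles₁ (f : Z (inhomogeneousCochains M) 1) :
    (cochainsIso₁ M).hom f.1 ∈ cocycles₁ M := by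
  have := congr($(comp_d₁₂_eq M) f.1)
  simp only [ModuleCat.hom_comp, LinearMap.coe_comp, Function.comp_apply] at this
  have h2 : ((inhomogeneousCochains M).d 1 2).hom f.1 = 0 := f.2
  rw [h2, map_zero] at this
  exact this

/-- Mathlib's `H1π` in terms of `classOf`. -/
theorem H1π_eq_classOf (c : cocycles₁ M) :
    (H1π M).hom c =
      classOf (inhomogeneousCochains M) 1 ⟨(cochainsIso₁ M).inv c.1, cochainsIso₁_inv_mem_Z M c⟩ := by
  have h1 : (H1π M).hom c = (π M 1).hom ((isoCocycles₁ M).inv c) := rfl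
  rw [h1, ← cocyclesMk₁_eq, classOf_apply, ← cyclesMk_eq_toCycles]
  rfl

/-- The comparison map from level cohomology to abstract cohomology is injective in degree one. -/
theorem toGroupCohomology_one_injective :
    Function.Injective (𝒰.toGroupCohomology M 1).hom := by
  rw [injective_iff_map_eq_zero]
  intro x hx
  obtain ⟨f, rfl⟩ := 𝒰.classMk_surjective M 1 x
  rw [toGroupCohomology_classMk] at hx
  obtain ⟨y, hy⟩ := (classOf_eq_zero_iff_succ (inhomogeneousCochains M) 0 _).mp hx
  rw [inhomogeneousCochains.d_def] at hy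
  have hy' : (inhomogeneousCochains.d M 0).hom y = f.1 := hy
  rw [classMk_eq_zero_iff_succ]
  refine ⟨y, ?_, hy'⟩
  obtain ⟨U, hU, hc, -⟩ := (Submodule.mem_inf.mp f.2).1
  refine ⟨U, hU, fun g s _ => ?_, fun g s hs => ?_⟩
  · congr 1
    exact Subsingleton.elim _ _
  · rw [Subsingleton.elim g default]
    have h1 := hc (fun _ => 1) (fun _ => s) (fun _ => hs)
    rw [← hy', d_zero_apply, d_zero_apply] at h1
    simp only [one_mul, map_one, Module.End.one_apply, sub_self] at h1
    exact sub_eq_zero.mp h1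

/-- The image of level cohomology in `H¹(G, M)`: classes of level 1-cocycles. -/
theorem mem_range_toGroupCohomology_one_iff (x : H1 M) :
    x ∈ LinearMap.range (𝒰.toGroupCohomology M 1).hom ↔
      ∃ c : cocycles₁ M, 𝒰.IsLevelCochain M (fun g : Fin 1 → G => c.1 (g 0)) ∧
        (H1π M).hom c = x := by
  constructor
  · rintro ⟨y, rfl⟩
    obtain ⟨f, rfl⟩ := 𝒰.classMk_surjective M 1 y
    rw [toGroupCohomology_classMk]
    refine ⟨⟨(cochainsIso₁ M).hom f.1,
      cochainsIso₁_hom_mem_cocycles₁ M (𝒰.levelCocyclesToZ M 1 f)⟩, ?_, ?_⟩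
    · have : (fun g : Fin 1 → G => (cochainsIso₁ M).hom f.1 (g 0)) = f.1 := by
        funext g
        rw [cochainsIso₁_hom_apply]
        exact congr_arg f.1 (funext fun i => by rw [Subsingleton.elim i 0])
      rw [this]
      exact (Submodule.mem_inf.mp f.2).1
    · rw [H1π_eq_classOf]
      congr 1
      apply Subtype.ext
      show (cochainsIso₁ M).inv ((cochainsIso₁ M).hom f.1) = f.1
      exact congr($((cochainsIso₁ M).hom_inv_id) f.1)
  · rintro ⟨c, hc, rfl⟩
    have hf : (cochainsIso₁ M).inv c.1 ∈ 𝒰.levelCocycles M 1 :=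
      Submodule.mem_inf.mpr ⟨hc, by
        have := cochainsIso₁_inv_mem_Z M c
        rw [mem_Z_iff, inhomogeneousCochains.d_def] at this
        exact this⟩
    refine ⟨𝒰.classMk M 1 ⟨_, hf⟩, ?_⟩
    rw [toGroupCohomology_classMk, H1π_eq_classOf]
    rfl

/-- For a discrete module: the image of level cohomology in `H¹(G, M)` consists of the classes
having a level-constant representative (the shape of the Prelude's `continuousH1`). -/
theorem mem_range_toGroupCohomology_one_iff_of_isDiscrete (hM : 𝒰.IsDiscrete M) (x : H1 M) :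
    x ∈ LinearMap.range (𝒰.toGroupCohomology M 1).hom ↔
      ∃ c : cocycles₁ M, 𝒰.IsConst₁ (c : G → M) ∧ (H1π M).hom c = x := by
  rw [mem_range_toGroupCohomology_one_iff]
  constructor
  · rintro ⟨c, hc, h⟩
    exact ⟨c, (𝒰.isConst_one_iff _).mp ((isLevelCochain_iff_of_isDiscrete hM).mp hc), h⟩
  · rintro ⟨c, hc, h⟩
    exact ⟨c, (isLevelCochain_iff_of_isDiscrete hM).mpr ((𝒰.isConst_one_iff _).mpr hc), h⟩

end H1

end LevelFamily

end Fermat.Agent.Lib.CFT.Profinite
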