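import Fermat.Agent.Lib.CFT.Profinite.Cores
import Fermat.Agent.Lib.CFT.Profinite.CupNat
import Fermat.Agent.Lib.CFT.Profinite.LevelLowDegree
import Fermat.Agent.Lib.CFT.Coh.CupLow
import Fermat.Agent.Lib.CFT.Duality.CupDeltaAdjoint

/-!
# Cup products, Shapiro's lemma and corestriction

Let `V` be an open subgroup of `G` (for a level family `𝒰`), `A B D` representations of `V` and
`ψ : A × B → D` a `V`-equivariant pairing.

* `coindPairing V ψ` is the pointwise pairing `Coind A × Coind B → Coind D`;
* `shapiro_cupH`: Shapiro's map is multiplicative,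
  `sh (x ∪ y) = sh x ∪ sh y` in `H^{m+n}(V, D)`;
* for `D = C|_V`, `tracePairing V ψ` is the pairing `Coind A × Coind B → C`,
  `(f, g) ↦ ∑_{y ∈ G/V} y • ψ (f y⁻¹, g y⁻¹)`, and `cupH_tracePairing` says that the cup product for
  this pairing is the corestriction of the cup product on `V`:
  `x ∪ y = cor (sh x ∪ sh y)` in `H^{m+n}(G, C)`.
-/

set_option autoImplicit false
set_option linter.unusedSectionVars false

universe u

open CategoryTheory

namespace Fermat.Agent.Lib.CFT.Profinite.LES

open LevelFamily Fermat.Agent.Lib.CFT.Coh.Cup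

variable {k G : Type u} [CommRing k] [Group G]

/-! ### Postcomposition of a pairing with a morphism -/

section Postcomp

variable (𝒰 : LevelFamily G) {A B C C' : Rep.{u} k G}

/-- Postcomposition of a pairing with a morphism of the target. -/
def _root_.Fermat.Agent.Lib.CFT.Coh.Cup.Pairing.postcomp (φ : Pairing A B C) (γ : C ⟶ C') :
    Pairing A B C' where
  toLin := φ.toLin.compr₂ γ.hom.toLinearMap
  equivariant g a b := by
    simp only [LinearMap.compr₂_apply]
    rw [φ.equivariant]
    exact Rep.hom_comm_apply γ g _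

@[simp]
theorem _root_.Fermat.Agent.Lib.CFT.Coh.Cup.Pairing.postcomp_toLin_apply (φ : Pairing A B C)
    (γ : C ⟶ C') (a : A) (b : B) : (φ.postcomp γ).toLin a b = γ.hom (φ.toLin a b) := rfl

/-- The cup product for a postcomposed pairing. -/
theorem cupH_postcomp (φ : Pairing A B C) (γ : C ⟶ C') {m n l : ℕ} (h : m + n = l)
    (x : 𝒰.levelCohomology A m) (y : 𝒰.levelCohomology B n) :
    𝒰.cupH (φ.postcomp γ) h x y = (𝒰.levelCohomologyMap γ l).hom (𝒰.cupH φ h x y) := by
  obtain ⟨z, hz, rfl⟩ := 𝒰.cls_surjective x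
  obtain ⟨w, hw, rfl⟩ := 𝒰.cls_surjective y
  rw [cupH_cls, cupH_cls, levelCohomologyMap_cls]
  exact 𝒰.cls_congr rfl _

end Postcomp

/-! ### The pointwise pairing on coinduced modules -/

section Coind

variable (V : Subgroup G) {A B D : Rep.{u} k V} (ψ : Pairing A B D)

/-- The pointwise pairing of two coinduced functions. -/
noncomputable def coindPairingFun (f : Rep.coind V.subtype A) (g : Rep.coind V.subtype B) :
    Rep.coind V.subtype D :=
  ⟨fun x => ψ.toLin (f.1 x) (g.1 x), fun v x => by
    show ψ.toLin (f.1 (V.subtype v * x)) (g.1 (V.subtype v * x)) = D.ρ v (ψ.toLin (f.1 x) (g.1 x))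
    rw [f.2 v x, g.2 v x]
    exact ψ.equivariant v _ _⟩

@[simp]
theorem coindPairingFun_coe (f : Rep.coind V.subtype A) (g : Rep.coind V.subtype B) (x : G) :
    (coindPairingFun V ψ f g).1 x = ψ.toLin (f.1 x) (g.1 x) := rfl

/-- The pointwise pairing `Coind A × Coind B → Coind D` induced by a pairing `A × B → D`. -/
noncomputable def coindPairing : Pairing (Rep.coind V.subtype A) (Rep.coind V.subtype B)
    (Rep.coind V.subtype D) where
  toLin := LinearMap.mk₂ k (coindPairingFun V ψ)
    (fun f f' g => Subtype.ext (funext fun x => by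
      show ψ.toLin ((f + f').1 x) (g.1 x) = ψ.toLin (f.1 x) (g.1 x) + ψ.toLin (f'.1 x) (g.1 x)
      rw [← LinearMap.add_apply, ← map_add]
      rfl))
    (fun c f g => Subtype.ext (funext fun x => by
      show ψ.toLin ((c • f).1 x) (g.1 x) = c • ψ.toLin (f.1 x) (g.1 x)
      rw [← LinearMap.smul_apply, ← map_smul]
      rfl))
    (fun f g g' => Subtype.ext (funext fun x => by
      show ψ.toLin (f.1 x) ((g + g').1 x) = ψ.toLin (f.1 x) (g.1 x) + ψ.toLin (f.1 x) (g'.1 x)
      rw [← map_add]
      rfl))
    (fun c f g => Subtype.ext (funext fun x => by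
      show ψ.toLin (f.1 x) ((c • g).1 x) = c • ψ.toLin (f.1 x) (g.1 x)
      rw [← map_smul]
      rfl))
  equivariant γ f g := Subtype.ext (funext fun x => rfl)

@[simp]
theorem coindPairing_toLin_apply_coe (f : Rep.coind V.subtype A) (g : Rep.coind V.subtype B)
    (x : G) : ((coindPairing V ψ).toLin f g).1 x = ψ.toLin (f.1 x) (g.1 x) := rfl

variable (𝒰 : LevelFamily G)

/-- **Shapiro's map is multiplicative.** -/
theorem shapiro_cupH {m n l : ℕ} (h : m + n = l)
    (x : 𝒰.levelCohomology (Rep.coind V.subtype A) m)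
    (y : 𝒰.levelCohomology (Rep.coind V.subtype B) n) :
    (shapiro 𝒰 V D l).hom (𝒰.cupH (coindPairing V ψ) h x y) =
      (restrict 𝒰 V).cupH ψ h ((shapiro 𝒰 V A m).hom x) ((shapiro 𝒰 V B n).hom y) :=
  homologyMap_cupH V.subtype (isCompatible_comap 𝒰 V.subtype) (coindPairing V ψ) ψ
    (coindEval V A) (coindEval V B) (coindEval V D) (fun _ _ => rfl) h x y

end Coind

/-! ### The trace pairing and corestriction -/

section Trace

variable (V : Subgroup G) [V.FiniteIndex] {A B : Rep.{u} k V} {C : Rep.{u} k G}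
  (ψ : Pairing A B (Rep.res V.subtype C))

/-- The trace pairing `Coind A × Coind B → C`, `(f, g) ↦ ∑_{y ∈ G/V} y • ψ (f y⁻¹, g y⁻¹)`. -/
noncomputable def tracePairing : Pairing (Rep.coind V.subtype A) (Rep.coind V.subtype B) C :=
  (coindPairing V ψ).postcomp (coindTrace V C)

theorem tracePairing_toLin_apply (f : Rep.coind V.subtype A) (g : Rep.coind V.subtype B) :
    (tracePairing V ψ).toLin f g = (coindTrace V C).hom ((coindPairing V ψ).toLin f g) := rfl

variable {V} {𝒰 : LevelFamily G}

/-- **Projection formula.**  The cup product on coinduced modules with respect to the trace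
pairing is the corestriction of the cup product on the subgroup. -/
theorem cupH_tracePairing (hV : IsOpenSubgroup 𝒰 V) (hC : 𝒰.IsDiscrete C) {m n l : ℕ}
    (h : m + n = l) (x : 𝒰.levelCohomology (Rep.coind V.subtype A) m)
    (y : 𝒰.levelCohomology (Rep.coind V.subtype B) n) :
    𝒰.cupH (tracePairing V ψ) h x y =
      (cores hV hC l).hom ((restrict 𝒰 V).cupH ψ h ((shapiro 𝒰 V A m).hom x)
        ((shapiro 𝒰 V B n).hom y)) := by
  rw [← shapiro_cupH, tracePairing, cupH_postcomp, cores]
  have e : (shapiroIso hV (isDiscrete_res 𝒰 V C hC) l).inv.hom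
      ((shapiro 𝒰 V (Rep.res V.subtype C) l).hom (𝒰.cupH (coindPairing V ψ) h x y)) =
      𝒰.cupH (coindPairing V ψ) h x y := by
    rw [← shapiroIso_hom hV (isDiscrete_res 𝒰 V C hC) l]
    exact congr($((shapiroIso hV (isDiscrete_res 𝒰 V C hC) l).hom_inv_id) _)
  rw [ModuleCat.hom_comp, LinearMap.comp_apply, e]

end Trace

/-! ### Cup products with classes of degree zero -/

section Zero

variable (𝒰 : LevelFamily G) {A B C : Rep.{u} k G} (φ : Pairing A B C)

/-- For an invariant element `a`, the morphism `b ↦ φ (a, b)`. -/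
noncomputable def _root_.Fermat.Agent.Lib.CFT.Coh.Cup.Pairing.applyLeft (a : A.ρ.invariants) :
    B ⟶ C :=
  Rep.ofHom ⟨φ.toLin a.1, fun g => by
    ext b
    show φ.toLin a.1 (B.ρ g b) = C.ρ g (φ.toLin a.1 b)
    rw [← φ.equivariant, a.2 g]⟩

@[simp]
theorem _root_.Fermat.Agent.Lib.CFT.Coh.Cup.Pairing.applyLeft_hom_apply (a : A.ρ.invariants)
    (b : B) : (φ.applyLeft a).hom b = φ.toLin a.1 b := rfl

/-- The cup product with a class of degree zero is the map induced by the corresponding invariant
element. -/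
theorem cupH_zero_left (n : ℕ) (x : 𝒰.levelCohomology A 0) (y : 𝒰.levelCohomology B n) :
    𝒰.cupH φ (zero_add n) x y =
      (𝒰.levelCohomologyMap (φ.applyLeft (𝒰.H0Equiv A x)) n).hom y := by
  obtain ⟨f, rfl⟩ := 𝒰.classMk_surjective A 0 x
  obtain ⟨w, hw, rfl⟩ := 𝒰.cls_surjective y
  rw [classMk_eq_cls, cupH_cls, levelCohomologyMap_cls]
  refine 𝒰.cls_congr ?_ _
  funext g
  rw [cupTo_zero_left_apply]
  have e : (fun j : Fin n => g (Fin.cast (zero_add n) (Fin.natAdd 0 j))) = g := by
    funext j
    congr 1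
    apply Fin.ext
    simp
  rw [e]
  show φ.toLin (f.1 default) (w g) = φ.toLin (𝒰.H0Equiv A (𝒰.cls f.1 _)).1 (w g)
  rw [← classMk_eq_cls, H0Equiv_classMk]

end Zero

section ZeroTrace

variable (V : Subgroup G) {A B : Rep.{u} k V} {C : Rep.{u} k G}

/-- The value at `1` of an invariant element of a coinduced module is invariant. -/
noncomputable def coindInvariantEval (c : (Rep.coind V.subtype A).ρ.invariants) :
    A.ρ.invariants :=
  ⟨c.1.1 1, fun v => by
    have h1 := c.1.2 v 1
    have h2 := congrArg (fun f : Rep.coind V.subtype A => f.1 1) (c.2 (V.subtype v))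
    rw [mul_one] at h1
    have h3 : c.1.1 (V.subtype v) = c.1.1 1 := by
      have : ((Rep.coind V.subtype A).ρ (V.subtype v) c.1).1 1 = c.1.1 (1 * V.subtype v) := rfl
      rw [one_mul] at this
      rw [← this]
      exact h2
    rw [← h1, h3]⟩

@[simp]
theorem coindInvariantEval_coe (c : (Rep.coind V.subtype A).ρ.invariants) :
    (coindInvariantEval V c).1 = c.1.1 1 := rfl

theorem coind_invariant_apply (c : (Rep.coind V.subtype A).ρ.invariants) (x : G) :
    c.1.1 x = c.1.1 1 := by
  have h2 := congrArg (fun f : Rep.coind V.subtype A => f.1 1) (c.2 x)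
  have : ((Rep.coind V.subtype A).ρ x c.1).1 1 = c.1.1 (1 * x) := rfl
  rw [one_mul] at this
  rw [← this]
  exact h2

variable [V.FiniteIndex] (ψ : Pairing A B (Rep.res V.subtype C))

/-- For an invariant element `c` of `Coind A`, the morphism `tracePairing (c, ·)` is the trace of
the morphism coinduced from `ψ (c 1, ·)`. -/
theorem tracePairing_applyLeft (c : (Rep.coind V.subtype A).ρ.invariants) :
    (tracePairing V ψ).applyLeft c =
      Rep.coindMap V.subtype (ψ.applyLeft (coindInvariantEval V c)) ≫ coindTrace V C := by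
  ext f
  show (coindTrace V C).hom ((coindPairing V ψ).toLin c.1 f) =
    (coindTrace V C).hom ((Rep.coindMap V.subtype (ψ.applyLeft (coindInvariantEval V c))).hom f)
  congr 1
  apply Subtype.ext
  funext x
  show ψ.toLin (c.1.1 x) (f.1 x) = ψ.toLin (c.1.1 1) (f.1 x)
  rw [coind_invariant_apply]

variable {V} {𝒰 : LevelFamily G}

/-- **Degree zero projection formula.**  For an invariant element `c` of `Coind A` the map induced
on cohomology by `tracePairing (c, ·) : Coind B ⟶ C` is the corestriction of the map induced by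
`ψ (c 1, ·) : B ⟶ C|_V`, after Shapiro's isomorphism. -/
theorem levelCohomologyMap_tracePairing_applyLeft (hV : IsOpenSubgroup 𝒰 V)
    (hC : 𝒰.IsDiscrete C) (c : (Rep.coind V.subtype A).ρ.invariants) (n : ℕ)
    (y : 𝒰.levelCohomology (Rep.coind V.subtype B) n) :
    (𝒰.levelCohomologyMap ((tracePairing V ψ).applyLeft c) n).hom y =
      (cores hV hC n).hom (((restrict 𝒰 V).levelCohomologyMap
        (ψ.applyLeft (coindInvariantEval V c)) n).hom ((shapiro 𝒰 V B n).hom y)) := by
  rw [tracePairing_applyLeft, levelCohomologyMap_comp, cores]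
  have hnat := LinearMap.congr_fun (congrArg ModuleCat.Hom.hom
    (shapiro_naturality 𝒰 (ψ.applyLeft (coindInvariantEval V c)) n)) y
  rw [ModuleCat.hom_comp, LinearMap.comp_apply, ModuleCat.hom_comp, LinearMap.comp_apply] at hnat
  rw [← hnat, ModuleCat.hom_comp, LinearMap.comp_apply, ModuleCat.hom_comp, LinearMap.comp_apply]
  congr 1
  rw [← shapiroIso_hom hV (isDiscrete_res 𝒰 V C hC) n]
  exact (congr($((shapiroIso hV (isDiscrete_res 𝒰 V C hC) n).hom_inv_id) _)).symm

end ZeroTrace

end Fermat.Agent.Lib.CFT.Profinite.LES
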