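import Fermat.Agent.Lib.CFT.Profinite.MackeyCompat
import Fermat.Agent.Lib.CFT.Duality.BaseCase.KCalcSeq
import Fermat.Agent.Lib.CFT.Duality.NatConeMap

/-!
# Shapiro, Mackey and conjugation for the cone of multiplication by `p` (P-CFT, Profinite/ShapiroT)

For the `K(X)`-calculus of `Duality/BaseCase/KCalc*` (`Kp 𝒰 p X` the cone of multiplication by `p`
on the level complex, `T 𝒰 p X r` its cohomology):

* generic: a change-of-group map which is bijective on level cohomology in all degrees is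
  bijective on `T` in all degrees (`TMapOfHom_bijective`); functoriality of `KpMapOfHom`,
  `TMapOfHom` and compatibility with `TMap`, `Tδ`;
* `shapiroT 𝒰 p V B r : T 𝒰 p (coind B) r → T (restrict 𝒰 V) p B r` and its bijectivity,
  naturality, compatibility with `toH`, `ofH`, `Tδ`;
* `mackeyMapT` and `mackeyT_bijective`;
* `conjMapT_eq_id`: inner automorphisms act trivially on `T`.
-/

set_option autoImplicit false

universe u

open CategoryTheory

namespace Fermat.Agent.Lib.CFT.Profinite.LES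

open LevelFamily Fermat.Agent.Lib.CFT.Duality Fermat.Agent.Lib.CFT.Duality.KCalc ConcreteHomology
  HomologicalComplex

variable {k : Type u} [CommRing k]

/-! ### Cones: bijectivity in all degrees -/

section ConeGeneric

variable {K L K' L' : CochainComplex (ModuleCat.{u} k) ℕ} (φ : K ⟶ L) (φ' : K' ⟶ L')
  (α : K ⟶ K') (β : L ⟶ L') (h : φ ≫ β = α ≫ φ')

/-- Degree zero complement to `natCone.map_homology_bijective`. -/
theorem natCone_map_homology_zero_bijective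
    (hα₀ : Function.Bijective (homologyMap α 0).hom)
    (hβ₀ : Function.Injective (homologyMap β 0).hom) :
    Function.Bijective (homologyMap (natCone.map φ φ' α β h) 0).hom := by
  constructor
  · intro x y hxy
    apply natCone.homologyMap_fst_zero_injective φ
    apply hα₀.1
    rw [← natCone.homologyMap_map_fst φ φ' α β h 0 x, ← natCone.homologyMap_map_fst φ φ' α β h 0 y,
      hxy]
  · intro y
    obtain ⟨x, hx⟩ := hα₀.2 ((homologyMap (natCone.fst φ') 0).hom y)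
    have h1 : (homologyMap φ 0).hom x = 0 := by
      apply hβ₀
      rw [natCone.homologyMap_sq φ φ' α β h 0 x, hx, natCone.homologyMap_homologyMap_fst, map_zero]
    obtain ⟨t, ht⟩ := (natCone.homologyMap_eq_zero_iff φ 0 x).1 h1
    refine ⟨t, ?_⟩
    apply natCone.homologyMap_fst_zero_injective φ'
    rw [natCone.homologyMap_map_fst φ φ' α β h 0 t, ht, hx]

/-- If `α` and `β` are quasi-isomorphisms then so is the induced map of cones. -/
theorem natCone_map_homology_bijective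
    (hα : ∀ n, Function.Bijective (homologyMap α n).hom)
    (hβ : ∀ n, Function.Bijective (homologyMap β n).hom) (n : ℕ) :
    Function.Bijective (homologyMap (natCone.map φ φ' α β h) n).hom := by
  cases n with
  | zero => exact natCone_map_homology_zero_bijective φ φ' α β h (hα 0) (hβ 0).1
  | succ m =>
    exact natCone.map_homology_bijective φ φ' α β h m (hα m).2 (hβ m) (hα (m + 1)) (hβ (m + 1)).1

end ConeGeneric

/-! ### Change of group on `T`: generalities -/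

section ChangeOfGroup

variable {G H : Type u} [Group G] [Group H] (𝒰 : LevelFamily G) (𝒱 : LevelFamily H) (p : ℕ)
  {X X' : Rep.{u} k G} {Y Y' : Rep.{u} k H} (φ : H →* G) (hφ : IsCompatible 𝒱 𝒰 φ)

/-- A change-of-group map which is bijective on level cohomology in all degrees is bijective on
the cohomology of the cones of multiplication by `p`. -/
theorem TMapOfHom_bijective (lam : Rep.res φ X ⟶ Y)
    (hb : ∀ n, Function.Bijective (map φ hφ lam n).hom) (r : ℕ) :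
    Function.Bijective (TMapOfHom 𝒰 p 𝒱 φ hφ lam r) :=
  natCone_map_homology_bijective _ _ _ _ _ hb hb r

/-- Naturality of the change-of-group maps of cones in the coefficient modules. -/
theorem KpMap_comp_KpMapOfHom (f : X ⟶ X') (f' : Y ⟶ Y') (lam : Rep.res φ X ⟶ Y)
    (lam' : Rep.res φ X' ⟶ Y') (hc : (Rep.resFunctor φ).map f ≫ lam' = lam ≫ f') :
    KpMap 𝒰 p f ≫ KpMapOfHom 𝒰 p 𝒱 φ hφ lam' = KpMapOfHom 𝒰 p 𝒱 φ hφ lam ≫ KpMap 𝒱 p f' := by
  refine natCone.hom_ext _ (fun n x => ?_) (fun n x => ?_)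
  · apply Subtype.ext
    funext g
    exact congr($hc ((natCone.fstL (mulP 𝒰 p X) n x).1 (φ ∘ g)))
  · apply Subtype.ext
    funext g
    exact congr($hc ((natCone.sndL (mulP 𝒰 p X) n x).1 (φ ∘ g)))

theorem TMap_TMapOfHom (f : X ⟶ X') (f' : Y ⟶ Y') (lam : Rep.res φ X ⟶ Y)
    (lam' : Rep.res φ X' ⟶ Y') (hc : (Rep.resFunctor φ).map f ≫ lam' = lam ≫ f') (r : ℕ)
    (t : T 𝒰 p X r) :
    TMapOfHom 𝒰 p 𝒱 φ hφ lam' r (TMap 𝒰 p f r t) =
      TMap 𝒱 p f' r (TMapOfHom 𝒰 p 𝒱 φ hφ lam r t) := by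
  have h := congr_arg (fun F => homologyMap F r)
    (KpMap_comp_KpMapOfHom 𝒰 𝒱 p φ hφ f f' lam lam' hc)
  simp only [homologyMap_comp] at h
  exact congr($h t)

/-- `KpMap` is the change-of-group map along the identity. -/
theorem KpMap_eq_KpMapOfHom (f : X ⟶ X') :
    KpMap 𝒰 p f = KpMapOfHom 𝒰 p 𝒰 (MonoidHom.id G) 𝒰.isCompatible_id f :=
  natCone.hom_ext _ (fun _ _ => rfl) (fun _ _ => rfl)

theorem TMap_eq_TMapOfHom (f : X ⟶ X') (r : ℕ) :
    TMap 𝒰 p f r = TMapOfHom 𝒰 p 𝒰 (MonoidHom.id G) 𝒰.isCompatible_id f r := by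
  unfold TMap TMapOfHom
  rw [KpMap_eq_KpMapOfHom]

variable {φ} in
theorem KpMapOfHom_congr {φ' : H →* G} (hφφ' : φ = φ') (lam : Rep.res φ X ⟶ Y)
    (lam' : Rep.res φ' X ⟶ Y) (hl : lam.hom.toLinearMap = lam'.hom.toLinearMap) :
    KpMapOfHom 𝒰 p 𝒱 φ hφ lam = KpMapOfHom 𝒰 p 𝒱 φ' (hφφ' ▸ hφ) lam' := by
  subst hφφ'
  have : lam = lam' := by
    ext x
    exact congr($hl x)
  rw [this]

variable {φ} in
theorem TMapOfHom_congr {φ' : H →* G} (hφφ' : φ = φ') (lam : Rep.res φ X ⟶ Y)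
    (lam' : Rep.res φ' X ⟶ Y) (hl : lam.hom.toLinearMap = lam'.hom.toLinearMap) (r : ℕ) :
    TMapOfHom 𝒰 p 𝒱 φ hφ lam r = TMapOfHom 𝒰 p 𝒱 φ' (hφφ' ▸ hφ) lam' r := by
  unfold TMapOfHom
  rw [KpMapOfHom_congr 𝒰 𝒱 p hφ hφφ' lam lam' hl]

variable {K' : Type u} [Group K'] (𝒲 : LevelFamily K') {W : Rep.{u} k K'} (ψ : K' →* H)
  (hψ : IsCompatible 𝒲 𝒱 ψ)

/-- Functoriality of the change-of-group maps of cones. -/
theorem KpMapOfHom_comp (lam : Rep.res φ X ⟶ Y) (mu : Rep.res ψ Y ⟶ W) :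
    KpMapOfHom 𝒰 p 𝒲 (φ.comp ψ) (IsCompatible.comp hφ hψ) ((Rep.resFunctor ψ).map lam ≫ mu) =
      KpMapOfHom 𝒰 p 𝒱 φ hφ lam ≫ KpMapOfHom 𝒱 p 𝒲 ψ hψ mu :=
  natCone.hom_ext _ (fun _ _ => rfl) (fun _ _ => rfl)

theorem TMapOfHom_comp (lam : Rep.res φ X ⟶ Y) (mu : Rep.res ψ Y ⟶ W) (r : ℕ) (t : T 𝒰 p X r) :
    TMapOfHom 𝒰 p 𝒲 (φ.comp ψ) (IsCompatible.comp hφ hψ) ((Rep.resFunctor ψ).map lam ≫ mu) r t =
      TMapOfHom 𝒱 p 𝒲 ψ hψ mu r (TMapOfHom 𝒰 p 𝒱 φ hφ lam r t) := by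
  have h := congr_arg (fun F => homologyMap F r) (KpMapOfHom_comp 𝒰 𝒱 p φ hφ 𝒲 ψ hψ lam mu)
  simp only [homologyMap_comp] at h
  exact congr($h t)

end ChangeOfGroup

/-! ### Naturality of the connecting homomorphisms of `T` under change of group -/

section TδNaturality

variable {G H : Type u} [Group G] [Group H] {𝒰 : LevelFamily G} {𝒱 : LevelFamily H} (p : ℕ)
  (φ : H →* G) (hφ : IsCompatible 𝒱 𝒰 φ)

theorem Tδ_naturality {S : ShortComplex (Rep.{u} k G)} (hS : S.ShortExact)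
    (hd : 𝒰.IsDiscrete S.X₂) {S' : ShortComplex (Rep.{u} k H)} (hS' : S'.ShortExact)
    (hd' : 𝒱.IsDiscrete S'.X₂)
    (φ₁ : Rep.res φ S.X₁ ⟶ S'.X₁) (φ₂ : Rep.res φ S.X₂ ⟶ S'.X₂) (φ₃ : Rep.res φ S.X₃ ⟶ S'.X₃)
    (h₁₂ : (Rep.resFunctor φ).map S.f ≫ φ₂ = φ₁ ≫ S'.f)
    (h₂₃ : (Rep.resFunctor φ).map S.g ≫ φ₃ = φ₂ ≫ S'.g)
    (i j : ℕ) (hij : i + 1 = j) (t : T 𝒰 p S.X₃ i) :
    TMapOfHom 𝒰 p 𝒱 φ hφ φ₁ j (Tδ 𝒰 p hS hd i j hij t) =
      Tδ 𝒱 p hS' hd' i j hij (TMapOfHom 𝒰 p 𝒱 φ hφ φ₃ i t) := by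
  let F : KpShort 𝒰 p S ⟶ KpShort 𝒱 p S' :=
    { τ₁ := KpMapOfHom 𝒰 p 𝒱 φ hφ φ₁
      τ₂ := KpMapOfHom 𝒰 p 𝒱 φ hφ φ₂
      τ₃ := KpMapOfHom 𝒰 p 𝒱 φ hφ φ₃
      comm₁₂ := (KpMap_comp_KpMapOfHom 𝒰 𝒱 p φ hφ S.f S'.f φ₁ φ₂ h₁₂).symm
      comm₂₃ := (KpMap_comp_KpMapOfHom 𝒰 𝒱 p φ hφ S.g S'.g φ₂ φ₃ h₂₃).symm }
  have h := HomologicalComplex.HomologySequence.δ_naturality F
    (KpShort_shortExact 𝒰 p hS hd) (KpShort_shortExact 𝒱 p hS' hd') i j hij
  exact congr($h t)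

end TδNaturality

/-! ### Shapiro's lemma for `T` -/

section ShapiroT

variable {G : Type u} [Group G] (𝒰 : LevelFamily G) (p : ℕ) (V : Subgroup G)

/-- The Shapiro map on the cones of multiplication by `p`: restrict to `V`, evaluate at `1`. -/
noncomputable def shapiroKp (B : Rep.{u} k V) :
    Kp 𝒰 p (Rep.coind V.subtype B) ⟶ Kp (restrict 𝒰 V) p B :=
  KpMapOfHom 𝒰 p (restrict 𝒰 V) V.subtype (isCompatible_comap 𝒰 V.subtype) (coindEval V B)

/-- The Shapiro map `T^r(G, coind B) ⟶ T^r(V, B)`. -/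
noncomputable def shapiroT (B : Rep.{u} k V) (r : ℕ) :
    T 𝒰 p (Rep.coind V.subtype B) r →ₗ[k] T (restrict 𝒰 V) p B r :=
  TMapOfHom 𝒰 p (restrict 𝒰 V) V.subtype (isCompatible_comap 𝒰 V.subtype) (coindEval V B) r

theorem shapiroT_eq (B : Rep.{u} k V) (r : ℕ) :
    shapiroT 𝒰 p V B r = (homologyMap (shapiroKp 𝒰 p V B) r).hom := rfl

variable {𝒰 V} in
/-- **Shapiro's lemma for the cone of multiplication by `p`.** -/
theorem shapiroT_bijective (hV : IsOpenSubgroup 𝒰 V) (B : Rep.{u} k V)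
    (hB : (restrict 𝒰 V).IsDiscrete B) (r : ℕ) : Function.Bijective (shapiroT 𝒰 p V B r) :=
  TMapOfHom_bijective 𝒰 (restrict 𝒰 V) p V.subtype (isCompatible_comap 𝒰 V.subtype)
    (coindEval V B) (fun n => shapiro_bijective hV n B hB) r

variable {𝒰 V} in
/-- The Shapiro map on `T` as a linear equivalence. -/
noncomputable def shapiroTEquiv (hV : IsOpenSubgroup 𝒰 V) (B : Rep.{u} k V)
    (hB : (restrict 𝒰 V).IsDiscrete B) (r : ℕ) :
    T 𝒰 p (Rep.coind V.subtype B) r ≃ₗ[k] T (restrict 𝒰 V) p B r :=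
  LinearEquiv.ofBijective (shapiroT 𝒰 p V B r) (shapiroT_bijective p hV B hB r)

variable {𝒰 V} in
@[simp]
theorem shapiroTEquiv_apply (hV : IsOpenSubgroup 𝒰 V) (B : Rep.{u} k V)
    (hB : (restrict 𝒰 V).IsDiscrete B) (r : ℕ) (t : T 𝒰 p (Rep.coind V.subtype B) r) :
    shapiroTEquiv p hV B hB r t = shapiroT 𝒰 p V B r t := rfl

/-- `toH` intertwines the Shapiro maps on `T` and on level cohomology. -/
theorem toH_shapiroT (B : Rep.{u} k V) (r : ℕ) (t : T 𝒰 p (Rep.coind V.subtype B) r) :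
    toH (restrict 𝒰 V) p B r (shapiroT 𝒰 p V B r t) =
      (shapiro 𝒰 V B r).hom (toH 𝒰 p (Rep.coind V.subtype B) r t) :=
  toH_TMapOfHom 𝒰 p (restrict 𝒰 V) V.subtype (isCompatible_comap 𝒰 V.subtype) (coindEval V B) r t

/-- `ofH` intertwines the Shapiro maps on level cohomology and on `T`. -/
theorem shapiroT_ofH (B : Rep.{u} k V) (r : ℕ)
    (y : 𝒰.levelCohomology (Rep.coind V.subtype B) r) :
    shapiroT 𝒰 p V B (r + 1) (ofH 𝒰 p (Rep.coind V.subtype B) r y) =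
      ofH (restrict 𝒰 V) p B r ((shapiro 𝒰 V B r).hom y) :=
  TMapOfHom_ofH 𝒰 p (restrict 𝒰 V) V.subtype (isCompatible_comap 𝒰 V.subtype) (coindEval V B) r y

variable {V} in
/-- Naturality of the Shapiro map on `T` in the coefficient module. -/
theorem shapiroT_naturality {B B' : Rep.{u} k V} (α : B ⟶ B') (r : ℕ)
    (t : T 𝒰 p (Rep.coind V.subtype B) r) :
    shapiroT 𝒰 p V B' r (TMap 𝒰 p (Rep.coindMap V.subtype α) r t) =
      TMap (restrict 𝒰 V) p α r (shapiroT 𝒰 p V B r t) :=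
  TMap_TMapOfHom 𝒰 (restrict 𝒰 V) p V.subtype (isCompatible_comap 𝒰 V.subtype)
    (Rep.coindMap V.subtype α) α (coindEval V B) (coindEval V B') (coindEval_naturality α) r t

variable {𝒰 V} in
/-- Compatibility of the Shapiro map on `T` with connecting homomorphisms. -/
theorem shapiroT_Tδ (hV : IsOpenSubgroup 𝒰 V) {S : ShortComplex (Rep.{u} k V)}
    (hS : S.ShortExact) (hd : (restrict 𝒰 V).IsDiscrete S.X₂) (i j : ℕ) (hij : i + 1 = j)
    (t : T 𝒰 p (Rep.coind V.subtype S.X₃) i) :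
    shapiroT 𝒰 p V S.X₁ j
        (Tδ 𝒰 p (shortExact_map_coindFunctor hS) (isDiscrete_coind hV hd) i j hij t) =
      Tδ (restrict 𝒰 V) p hS hd i j hij (shapiroT 𝒰 p V S.X₃ i t) :=
  Tδ_naturality p V.subtype (isCompatible_comap 𝒰 V.subtype) (shortExact_map_coindFunctor hS)
    (isDiscrete_coind hV hd) hS hd (coindEval V _) (coindEval V _) (coindEval V _)
    (coindEval_naturality _) (coindEval_naturality _) i j hij t

end ShapiroT

end Fermat.Agent.Lib.CFT.Profinite.LES
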