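import Fermat.Agent.Lib.CFT.Profinite.BridgeOrbitsGeneric
import Fermat.Agent.Lib.CFT.Profinite.BridgeKrasner
import Fermat.Agent.Lib.CFT.Profinite.BridgeNormal
import Fermat.Agent.Lib.CFT.Profinite.BridgeLocalLevels

/-!
# P-CFT Profinite/BridgePlaces: double cosets `G_q \ Γℚ / V` and the places of `F` above `q`

`F` a finite extension of `ℚ` inside `Qbar`, `V = F.fixingSubgroup`, `q` a prime,
`Ωq = PadicAlgCl q`, `ι = padicEmbedding q : Qbar → Ωq`, `φ = localGaloisToGlobal q : G_q → Γℚ`.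

* (b) the stabiliser in `G_q` of a coset of `V` is the fixing subgroup of the finite extension
  `ℚ_q(ι(σF))` of `ℚ_q`, in particular a level of `localLevels q`;
* (a) `g ↦ ker (ℚ_q ⊗ F → Ωq, a ⊗ x ↦ a · ι(g x))` induces a bijection from the double cosets
  `G_q \ Γℚ / V` onto `MaximalSpectrum (ℚ_q ⊗ F)`;
* (c) the residue field of `ℚ_q ⊗ F` at that maximal ideal is `ℚ_q(ι(gF))`.
-/

set_option autoImplicit false

open scoped TensorProduct

namespace Fermat.Agent.Lib.CFT.Profinite.Bridge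

local notation "Qbar" => AlgebraicClosure ℚ
local notation "Γℚ" => (AlgebraicClosure ℚ ≃ₐ[ℚ] AlgebraicClosure ℚ)

variable (q : ℕ) [Fact q.Prime]

local notation "Ωq" => PadicAlgCl q
local notation "Gq" => (PadicAlgCl q ≃ₐ[ℚ_[q]] PadicAlgCl q)

section Stab

variable (F : IntermediateField ℚ Qbar)

/-- The finite extension `ℚ_q(ι F')` of `ℚ_q` generated by a subfield `F'` of `Qbar`. -/
noncomputable def localFieldOf : IntermediateField ℚ_[q] Ωq :=
  IntermediateField.adjoin ℚ_[q] ((padicEmbedding q) '' (F : Set Qbar))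

instance finiteDimensional_localFieldOf [FiniteDimensional ℚ F] :
    FiniteDimensional ℚ_[q] (localFieldOf q F) :=
  finiteDimensional_adjoin_padicEmbedding q F

theorem comap_fixingSubgroup_eq_localFieldOf :
    F.fixingSubgroup.comap (localGaloisToGlobal q) = (localFieldOf q F).fixingSubgroup :=
  comap_fixingSubgroup_eq q F

/-- (b), left cosets `gV` with `G_q` acting by left multiplication through `φ`:
the stabiliser of `gV` is the fixing subgroup of `ℚ_q(ι(gF))`. -/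
theorem stabilizer_left_coset (g : Γℚ) (h : Gq) :
    g⁻¹ * localGaloisToGlobal q h * g ∈ F.fixingSubgroup ↔
      h ∈ (localFieldOf q (F.map (g : Qbar →ₐ[ℚ] Qbar))).fixingSubgroup := by
  rw [← comap_fixingSubgroup_eq_localFieldOf, Subgroup.mem_comap, mem_fixingSubgroup_map_iff]

/-- (b), right cosets `Vg` with `G_q` acting by right multiplication through `φ` (the convention
of `Rep.coind`): the stabiliser of `Vg` is the fixing subgroup of `ℚ_q(ι(g⁻¹F))`. -/
theorem stabilizer_right_coset (g : Γℚ) (h : Gq) :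
    g * localGaloisToGlobal q h * g⁻¹ ∈ F.fixingSubgroup ↔
      h ∈ (localFieldOf q (F.map ((g⁻¹ : Γℚ) : Qbar →ₐ[ℚ] Qbar))).fixingSubgroup := by
  rw [← comap_fixingSubgroup_eq_localFieldOf, Subgroup.mem_comap, mem_fixingSubgroup_map_iff,
    inv_inv]

end Stab

section Embeddings

local instance isAlgebraicQbar_bp : Algebra.IsAlgebraic ℚ (AlgebraicClosure ℚ) :=
  AlgebraicClosure.isAlgebraic ℚ
local instance isAlgClosureQbar_bp : IsAlgClosure ℚ (AlgebraicClosure ℚ) :=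
  ⟨inferInstance, inferInstance⟩
local instance normalQbar_bp : Normal ℚ (AlgebraicClosure ℚ) :=
  IsAlgClosure.normal ℚ (AlgebraicClosure ℚ)

/-- The image of `ι : Qbar → Ωq` consists of all elements of `Ωq` algebraic over `ℚ`. -/
theorem mem_range_padicEmbedding_of_isAlgebraic {y : Ωq} (hy : IsAlgebraic ℚ y) :
    ∃ β : Qbar, padicEmbedding q β = y := by
  set f := minpoly ℚ y with hf
  have hf0 : f.map (algebraMap ℚ Qbar) ≠ 0 :=
    (Polynomial.map_ne_zero_iff (algebraMap ℚ Qbar).injective).2 (minpoly.ne_zero hy.isIntegral)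
  have hmap : (f.map (algebraMap ℚ Qbar)).map ((padicEmbedding q : Qbar →ₐ[ℚ] Ωq) : Qbar →+* Ωq) =
      f.map (algebraMap ℚ Ωq) := by
    rw [Polynomial.map_map]
    congr 1
    exact Subsingleton.elim _ _
  have hroot : ((f.map (algebraMap ℚ Qbar)).map
      ((padicEmbedding q : Qbar →ₐ[ℚ] Ωq) : Qbar →+* Ωq)).IsRoot y := by
    rw [hmap, Polynomial.IsRoot.def, Polynomial.eval_map_algebraMap]
    exact minpoly.aeval ℚ y
  obtain ⟨β, hβ⟩ := (IsAlgClosed.splits (f.map (algebraMap ℚ Qbar))).mem_range_of_isRoot hf0 hroot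
  exact ⟨β, hβ⟩

variable (F : IntermediateField ℚ Qbar)

/-- The embedding `x ↦ ι(g x)` of `F` into `Ωq` attached to `g ∈ Γℚ`. -/
noncomputable def embAt (g : Γℚ) : F →ₐ[ℚ] Ωq :=
  (padicEmbedding q).comp ((g : Qbar →ₐ[ℚ] Qbar).comp F.val)

@[simp]
theorem embAt_apply (g : Γℚ) (x : F) : embAt q F g x = padicEmbedding q (g (x : Qbar)) := rfl

/-- Every embedding of `F` into `Ωq` comes from an element of `Γℚ`. -/
theorem exists_embAt_eq [FiniteDimensional ℚ F] (τ : F →ₐ[ℚ] Ωq) : ∃ g : Γℚ, embAt q F g = τ := by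
  have halg : ∀ x : F, ∃ β : Qbar, padicEmbedding q β = τ x := fun x =>
    mem_range_padicEmbedding_of_isAlgebraic q
      (IsAlgebraic.algHom τ (Algebra.IsAlgebraic.isAlgebraic (R := ℚ) x))
  -- the embedding into `Qbar`
  let ι' := (padicEmbedding q).equivFieldRange
  have hmem : ∀ x : F, τ x ∈ (padicEmbedding q).fieldRange := fun x => by
    obtain ⟨β, hβ⟩ := halg x
    exact ⟨β, hβ⟩
  let τ₀ : F →ₐ[ℚ] (padicEmbedding q).fieldRange :=
    τ.codRestrict (padicEmbedding q).fieldRange.toSubalgebra hmem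
  let τ' : F →ₐ[ℚ] Qbar := ι'.symm.toAlgHom.comp τ₀
  have hτ' : ∀ x : F, padicEmbedding q (τ' x) = τ x := by
    intro x
    have h1 : (ι' (ι'.symm (τ₀ x)) : Ωq) = padicEmbedding q (ι'.symm (τ₀ x)) :=
      AlgHom.equivFieldRange_apply_coe _ _
    rw [AlgEquiv.apply_symm_apply] at h1
    exact h1.symm.trans rfl
  let g₀ : Qbar →ₐ[ℚ] Qbar := τ'.liftNormal Qbar
  let g : Γℚ := AlgEquiv.ofBijective g₀ (Algebra.IsAlgebraic.algHom_bijective g₀)
  refine ⟨g, AlgHom.ext fun x => ?_⟩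
  rw [embAt_apply, ← hτ' x]
  congr 1
  exact τ'.liftNormal_commutes Qbar x

end Embeddings

section Places

local instance instTowerQqPadic_bp : IsScalarTower ℚ ℚ_[q] (PadicAlgCl q) :=
  IsScalarTower.of_algebraMap_eq' (Subsingleton.elim _ _)

variable (F : IntermediateField ℚ Qbar)

/-- The `ℚ_q`-algebra homomorphism `ℚ_q ⊗ F → Ωq`, `a ⊗ x ↦ a · ι(g x)`, attached to `g ∈ Γℚ`. -/
noncomputable def locHom (g : Γℚ) : ℚ_[q] ⊗[ℚ] F →ₐ[ℚ_[q]] Ωq :=
  Algebra.TensorProduct.lift (Algebra.ofId ℚ_[q] Ωq) (embAt q F g) (fun _ _ => Commute.all _ _)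

theorem locHom_tmul (g : Γℚ) (a : ℚ_[q]) (x : F) :
    locHom q F g (a ⊗ₜ[ℚ] x) = algebraMap ℚ_[q] Ωq a * padicEmbedding q (g (x : Qbar)) := by
  unfold locHom
  rw [Algebra.TensorProduct.lift_tmul]
  rfl

theorem locHom_one_tmul (g : Γℚ) (x : F) :
    locHom q F g ((1 : ℚ_[q]) ⊗ₜ[ℚ] x) = padicEmbedding q (g (x : Qbar)) := by
  rw [locHom_tmul, map_one, one_mul]

/-- Two `ℚ_q`-algebra homomorphisms out of `ℚ_q ⊗ F` agreeing on `F` are equal. -/
theorem algHom_tensor_ext {ψ ψ' : ℚ_[q] ⊗[ℚ] F →ₐ[ℚ_[q]] Ωq}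
    (h : ∀ x : F, ψ ((1 : ℚ_[q]) ⊗ₜ[ℚ] x) = ψ' ((1 : ℚ_[q]) ⊗ₜ[ℚ] x)) : ψ = ψ' := by
  apply Algebra.TensorProduct.ext
  · ext
  · ext x
    exact h x

theorem locHom_mul_of_mem_fixingSubgroup (g : Γℚ) {s : Γℚ} (hs : s ∈ F.fixingSubgroup) :
    locHom q F (g * s) = locHom q F g := by
  apply algHom_tensor_ext
  intro x
  rw [locHom_one_tmul, locHom_one_tmul, AlgEquiv.mul_apply]
  congr 2
  exact (IntermediateField.mem_fixingSubgroup_iff F s).1 hs x x.2

theorem locHom_localGaloisToGlobal_mul (h : Gq) (g : Γℚ) :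
    locHom q F (localGaloisToGlobal q h * g) = (h : Ωq →ₐ[ℚ_[q]] Ωq).comp (locHom q F g) := by
  apply algHom_tensor_ext
  intro x
  rw [locHom_one_tmul, AlgHom.comp_apply, locHom_one_tmul, AlgEquiv.mul_apply,
    padicEmbedding_localGaloisToGlobal]
  rfl

/-- Every `ℚ_q`-algebra homomorphism `ℚ_q ⊗ F → Ωq` is of the form `locHom g`. -/
theorem exists_locHom_eq [FiniteDimensional ℚ F] (ψ : ℚ_[q] ⊗[ℚ] F →ₐ[ℚ_[q]] Ωq) :
    ∃ g : Γℚ, locHom q F g = ψ := by
  let τ : F →ₐ[ℚ] Ωq :=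
    (ψ.restrictScalars ℚ).comp (Algebra.TensorProduct.includeRight : F →ₐ[ℚ] ℚ_[q] ⊗[ℚ] F)
  obtain ⟨g, hg⟩ := exists_embAt_eq q F τ
  refine ⟨g, algHom_tensor_ext q F fun x => ?_⟩
  rw [locHom_one_tmul]
  have := congr($hg x)
  rw [embAt_apply] at this
  exact this

/-- The place of `F` above `q` attached to `g ∈ Γℚ`, as a maximal ideal of `ℚ_q ⊗ F`. -/
noncomputable def placeAt [FiniteDimensional ℚ F] (g : Γℚ) :=
  kerMax (K := ℚ_[q]) (E := ℚ_[q] ⊗[ℚ] F) (Ω := PadicAlgCl q) (locHom q F g)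

/-- (a) The places attached to `g` and `g'` coincide iff `g'` lies in the double coset
`φ(G_q) g V`. -/
theorem placeAt_eq_iff [FiniteDimensional ℚ F] (g g' : Γℚ) :
    placeAt q F g = placeAt q F g' ↔
      ∃ h : Gq, ∃ s ∈ F.fixingSubgroup, g' = localGaloisToGlobal q h * g * s := by
  unfold placeAt
  rw [kerMax_eq_iff]
  constructor
  · rintro ⟨h, hh⟩
    rw [← locHom_localGaloisToGlobal_mul] at hh
    refine ⟨h, (localGaloisToGlobal q h * g)⁻¹ * g', ?_, by group⟩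
    rw [IntermediateField.mem_fixingSubgroup_iff]
    intro x hx
    have h1 := congr($hh ((1 : ℚ_[q]) ⊗ₜ[ℚ] (⟨x, hx⟩ : F)))
    rw [locHom_one_tmul, locHom_one_tmul] at h1
    have h2 := (padicEmbedding q).toRingHom.injective h1
    show (localGaloisToGlobal q h * g)⁻¹ (g' x) = x
    rw [show g' x = (localGaloisToGlobal q h * g) x from h2]
    exact AlgEquiv.symm_apply_apply _ x
  · rintro ⟨h, s, hs, rfl⟩
    refine ⟨h, ?_⟩
    rw [locHom_mul_of_mem_fixingSubgroup q F _ hs, locHom_localGaloisToGlobal_mul]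

/-- (a) Every maximal ideal of `ℚ_q ⊗ F` is the place attached to some `g ∈ Γℚ`. -/
theorem exists_placeAt_eq [FiniteDimensional ℚ F] (m : MaximalSpectrum (ℚ_[q] ⊗[ℚ] F)) :
    ∃ g : Γℚ, placeAt q F g = m := by
  obtain ⟨ψ, hψ⟩ := exists_algHom_kerMax_eq (K := ℚ_[q]) (E := ℚ_[q] ⊗[ℚ] F) (Ω := PadicAlgCl q) m
  obtain ⟨g, rfl⟩ := exists_locHom_eq q F ψ
  exact ⟨g, hψ⟩

/-! ### (c) the residue field at `placeAt g` is `ℚ_q(ι(gF))` -/

theorem padicEmbedding_mem_localFieldOf_map (g : Γℚ) (x : F) :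
    padicEmbedding q (g (x : Qbar)) ∈ localFieldOf q (F.map (g : Qbar →ₐ[ℚ] Qbar)) := by
  apply IntermediateField.subset_adjoin
  exact ⟨g x, ⟨x, x.2, rfl⟩, rfl⟩

theorem locHom_mem_localFieldOf (g : Γℚ) (e : ℚ_[q] ⊗[ℚ] F) :
    locHom q F g e ∈ localFieldOf q (F.map (g : Qbar →ₐ[ℚ] Qbar)) := by
  induction e using TensorProduct.induction_on with
  | zero => rw [map_zero]; exact zero_mem _
  | tmul a x =>
    rw [locHom_tmul]
    exact mul_mem (IntermediateField.algebraMap_mem _ a) (padicEmbedding_mem_localFieldOf_map q F g x)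
  | add e e' he he' => rw [map_add]; exact add_mem he he'

/-- `locHom g`, with values in the local field `ℚ_q(ι(gF))`. -/
noncomputable def locHomField (g : Γℚ) :
    ℚ_[q] ⊗[ℚ] F →ₐ[ℚ_[q]] localFieldOf q (F.map (g : Qbar →ₐ[ℚ] Qbar)) :=
  (locHom q F g).codRestrict (localFieldOf q (F.map (g : Qbar →ₐ[ℚ] Qbar))).toSubalgebra
    (locHom_mem_localFieldOf q F g)

@[simp]
theorem locHomField_coe (g : Γℚ) (e : ℚ_[q] ⊗[ℚ] F) :
    (locHomField q F g e : Ωq) = locHom q F g e := rfl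

theorem locHomField_surjective (g : Γℚ) : Function.Surjective (locHomField q F g) := by
  have halg : ∀ y ∈ (padicEmbedding q) '' ((F.map (g : Qbar →ₐ[ℚ] Qbar) :
      IntermediateField ℚ Qbar) : Set Qbar), IsAlgebraic ℚ_[q] y :=
    fun y _ => Algebra.IsAlgebraic.isAlgebraic y
  have hle : (localFieldOf q (F.map (g : Qbar →ₐ[ℚ] Qbar))).toSubalgebra ≤ (locHom q F g).range := by
    unfold localFieldOf
    rw [IntermediateField.adjoin_toSubalgebra_of_isAlgebraic halg, Algebra.adjoin_le_iff]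
    rintro _ ⟨_, ⟨x, hx, rfl⟩, rfl⟩
    exact ⟨(1 : ℚ_[q]) ⊗ₜ[ℚ] (⟨x, hx⟩ : F), locHom_one_tmul q F g ⟨x, hx⟩⟩
  intro y
  obtain ⟨e, he⟩ := hle y.2
  exact ⟨e, Subtype.ext he⟩

theorem ker_locHomField (g : Γℚ) :
    RingHom.ker (locHomField q F g) = RingHom.ker (locHom q F g) := by
  ext e
  rw [RingHom.mem_ker, RingHom.mem_ker]
  constructor
  · intro h
    have := congr_arg Subtype.val h
    exact this
  · intro h
    exact Subtype.ext h

/-- (c) The residue field of `ℚ_q ⊗ F` at the place attached to `g` is the local field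
`ℚ_q(ι(gF)) ⊆ Ωq`. -/
noncomputable def placeResidueEquiv [FiniteDimensional ℚ F] (g : Γℚ) :
    ((ℚ_[q] ⊗[ℚ] F) ⧸ (placeAt q F g).asIdeal) ≃ₐ[ℚ_[q]]
      localFieldOf q (F.map (g : Qbar →ₐ[ℚ] Qbar)) :=
  (Ideal.quotientEquivAlgOfEq ℚ_[q]
    (show (placeAt q F g).asIdeal = RingHom.ker (locHomField q F g) from
      (ker_locHomField q F g).symm)).trans
    (Ideal.quotientKerAlgEquivOfSurjective (locHomField_surjective q F g))

theorem placeResidueEquiv_mk [FiniteDimensional ℚ F] (g : Γℚ) (e : ℚ_[q] ⊗[ℚ] F) :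
    (placeResidueEquiv q F g (Ideal.Quotient.mk _ e) : Ωq) = locHom q F g e := rfl

theorem placeResidueEquiv_mk_one_tmul [FiniteDimensional ℚ F] (g : Γℚ) (x : F) :
    (placeResidueEquiv q F g (Ideal.Quotient.mk _ ((1 : ℚ_[q]) ⊗ₜ[ℚ] x)) : Ωq) =
      padicEmbedding q (g (x : Qbar)) := by
  rw [placeResidueEquiv_mk, locHom_one_tmul]

/-! ### (a) packaged: double cosets `φ(G_q) \ Γℚ / V` ≃ maximal ideals of `ℚ_q ⊗ F` -/

theorem placeAt_eq_iff_doubleCoset [FiniteDimensional ℚ F] (g g' : Γℚ) :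
    placeAt q F g = placeAt q F g' ↔
      DoubleCoset.mk (localGaloisToGlobal q).range F.fixingSubgroup g =
        DoubleCoset.mk (localGaloisToGlobal q).range F.fixingSubgroup g' := by
  rw [placeAt_eq_iff, DoubleCoset.eq]
  constructor
  · rintro ⟨h, s, hs, rfl⟩
    exact ⟨_, ⟨h, rfl⟩, s, hs, rfl⟩
  · rintro ⟨_, ⟨h, rfl⟩, s, hs, rfl⟩
    exact ⟨h, s, hs, rfl⟩

/-- (a) The bijection between the double cosets `φ(G_q) \ Γℚ / V` and the maximal ideals of
`ℚ_q ⊗ F` (the places of `F` above `q`). -/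
noncomputable def placeEquiv [FiniteDimensional ℚ F] :
    DoubleCoset.Quotient ((localGaloisToGlobal q).range : Set Γℚ) (F.fixingSubgroup : Set Γℚ) ≃
      MaximalSpectrum (ℚ_[q] ⊗[ℚ] F) :=
  Equiv.ofBijective
    (Quotient.lift (s := DoubleCoset.setoid _ _) (placeAt q F) (fun g g' h =>
      (placeAt_eq_iff_doubleCoset q F g g').2 (Quotient.sound h)))
    ⟨by
      rintro ⟨g⟩ ⟨g'⟩ h
      exact (placeAt_eq_iff_doubleCoset q F g g').1 h,
    fun m => by
      obtain ⟨g, hg⟩ := exists_placeAt_eq q F m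
      exact ⟨DoubleCoset.mk _ _ g, hg⟩⟩

@[simp]
theorem placeEquiv_mk [FiniteDimensional ℚ F] (g : Γℚ) :
    placeEquiv q F (DoubleCoset.mk (localGaloisToGlobal q).range F.fixingSubgroup g) =
      placeAt q F g := rfl

/-! ### Compatibility with the Galois action on `ℚ_q ⊗ F` and decomposition groups (d) -/

/-- If `σ ∈ Γℚ` restricts to the endomorphism `θ` of `F`, then `locHom (g σ) = locHom g ∘ (1 ⊗ θ)`. -/
theorem locHom_mul_eq_comp_map (g σ : Γℚ) (θ : F →ₐ[ℚ] F)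
    (hθ : ∀ x : F, σ (x : Qbar) = (θ x : Qbar)) :
    locHom q F (g * σ) =
      (locHom q F g).comp (Algebra.TensorProduct.map (AlgHom.id ℚ_[q] ℚ_[q]) θ) := by
  apply algHom_tensor_ext
  intro x
  rw [locHom_one_tmul, AlgHom.comp_apply, Algebra.TensorProduct.map_tmul, AlgHom.id_apply,
    locHom_one_tmul, AlgEquiv.mul_apply, hθ]

/-- The place attached to `g σ` is the pull-back of the place attached to `g` along `1 ⊗ θ`. -/
theorem placeAt_mul_asIdeal [FiniteDimensional ℚ F] (g σ : Γℚ) (θ : F →ₐ[ℚ] F)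
    (hθ : ∀ x : F, σ (x : Qbar) = (θ x : Qbar)) :
    (placeAt q F (g * σ)).asIdeal =
      (placeAt q F g).asIdeal.comap (Algebra.TensorProduct.map (AlgHom.id ℚ_[q] ℚ_[q]) θ) := by
  ext e
  show e ∈ RingHom.ker (locHom q F (g * σ)) ↔ _ ∈ RingHom.ker (locHom q F g)
  rw [RingHom.mem_ker, RingHom.mem_ker, locHom_mul_eq_comp_map q F g σ θ hθ]
  rfl

/-- (d) `σ ∈ Γℚ` fixes the place attached to `g` iff it lies in `g⁻¹ φ(G_q) g · V`:
the decomposition group of the place attached to `g` is the image of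
`h ↦ g⁻¹ φ(h) g` (modulo `V`). -/
theorem placeAt_mul_eq_self_iff [FiniteDimensional ℚ F] (g σ : Γℚ) :
    placeAt q F (g * σ) = placeAt q F g ↔
      ∃ h : Gq, ∃ s ∈ F.fixingSubgroup, σ = g⁻¹ * localGaloisToGlobal q h * g * s := by
  rw [eq_comm, placeAt_eq_iff]
  constructor
  · rintro ⟨h, s, hs, hh⟩
    refine ⟨h, s, hs, ?_⟩
    have : σ = g⁻¹ * (g * σ) := by group
    rw [this, hh]
    group
  · rintro ⟨h, s, hs, rfl⟩
    exact ⟨h, s, hs, by group⟩

/-- For `F` normal over `ℚ`, all conjugates of `F` coincide, so all the stabilisers of (b) are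
equal to `V.comap φ`, the fixing subgroup of `ℚ_q(ι F)`. -/
theorem localFieldOf_map_of_normal (hF : Normal ℚ F) (g : Γℚ) :
    localFieldOf q (F.map (g : Qbar →ₐ[ℚ] Qbar)) = localFieldOf q F := by
  have : Normal ℚ Qbar := normal_qbar
  have h := (IntermediateField.normal_iff_forall_map_eq (K := F)).mp hF (g : Qbar →ₐ[ℚ] Qbar)
  rw [h]

end Places

end Fermat.Agent.Lib.CFT.Profinite.Bridge
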