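import Fermat.Agent.Lib.CFT.Profinite.LevelCoind

/-!
# Shapiro's lemma for level cohomology (P-CFT, Profinite/Shapiro)

For an open subgroup `V` of `(G, 𝒰)` (a subgroup containing a level) and a discrete `V`-module `B`,
the coinduced module `Rep.coind V.subtype B` (Mathlib) is a discrete `G`-module and the Shapiro map
`Hⁿ(G, coind B) ⟶ Hⁿ(V, B)` (restriction to `V` followed by evaluation at `1`) is bijective in
every degree.  The proof is by dimension shifting along `levelShiftSES`.
-/

set_option autoImplicit false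

universe u

open CategoryTheory groupCohomology

namespace Fermat.Agent.Lib.CFT.Profinite.LES

open LevelFamily Fermat.Agent.Lib.CFT.Coh.InfRes

variable {k G : Type u} [CommRing k] [Group G]

/-! ### Open subgroups -/

section Open

variable (𝒰 : LevelFamily G) (V : Subgroup G)

/-- A subgroup is open for the level family `𝒰` if it contains a level. -/
def IsOpenSubgroup : Prop := ∃ U ∈ 𝒰.levels, U ≤ V

variable {𝒰 V}

theorem IsOpenSubgroup.finiteIndex (hV : IsOpenSubgroup 𝒰 V) : V.FiniteIndex := by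
  obtain ⟨U, hU, hle⟩ := hV
  have := 𝒰.finiteIndex U hU
  exact Subgroup.finiteIndex_of_le hle

theorem isOpenSubgroup_of_mem {U : Subgroup G} (hU : U ∈ 𝒰.levels) : IsOpenSubgroup 𝒰 U :=
  ⟨U, hU, le_rfl⟩

theorem IsOpenSubgroup.mono {V' : Subgroup G} (hV : IsOpenSubgroup 𝒰 V) (h : V ≤ V') :
    IsOpenSubgroup 𝒰 V' := by
  obtain ⟨U, hU, hle⟩ := hV
  exact ⟨U, hU, hle.trans h⟩

end Open

/-! ### Coinduction from an open subgroup -/

section Coind

variable {𝒰 : LevelFamily G} {V : Subgroup G}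

/-- Evaluation at `1`, as a morphism of `V`-representations `res (coind B) ⟶ B`. -/
noncomputable def coindEval (V : Subgroup G) (B : Rep.{u} k V) :
    Rep.res V.subtype (Rep.coind V.subtype B) ⟶ B :=
  Rep.ofHom ⟨LinearMap.proj 1 ∘ₗ (B.ρ.coindV V.subtype).subtype, fun v => by
    ext f
    have := f.2 v 1
    simp only [Subgroup.subtype_apply, mul_one] at this
    show f.1 (1 * (v : G)) = B.ρ v (f.1 1)
    rw [one_mul]
    exact this⟩

@[simp]
theorem coindEval_apply (B : Rep.{u} k V) (F : Rep.coind V.subtype B) :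
    (coindEval V B).hom F = F.1 1 := rfl

/-- Every element of the coinduced module of a discrete module from an open subgroup has all its
values fixed by a common normal level contained in `V`. -/
theorem exists_level_fixing_coind (hV : IsOpenSubgroup 𝒰 V) {B : Rep.{u} k V}
    (hB : (restrict 𝒰 V).IsDiscrete B) (F : Rep.coind V.subtype B) :
    ∃ W ∈ 𝒰.levels, W.Normal ∧ ∃ hWV : W ≤ V, ∀ (x t : G) (ht : t ∈ W),
      B.ρ ⟨t, hWV ht⟩ (F.1 x) = F.1 x := by
  classical
  have := hV.finiteIndex
  have hfin : Finite (G ⧸ V) := Subgroup.finite_quotient_of_finiteIndex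
  -- representatives
  have hex : ∀ c : G ⧸ V, ∃ U ∈ 𝒰.levels, ∀ (t : G) (ht : t ∈ V), t ∈ U →
      B.ρ ⟨t, ht⟩ (F.1 (c.out)⁻¹) = F.1 (c.out)⁻¹ := by
    intro c
    obtain ⟨U', ⟨U, hU, rfl⟩, h⟩ := hB (F.1 (c.out)⁻¹)
    exact ⟨U, hU, fun t ht htU => h ⟨t, ht⟩ htU⟩
  choose U hU hfix using hex
  obtain ⟨W₁, hW₁, -, hle₁⟩ := 𝒰.exists_normal_le_of_finite U hU
  obtain ⟨V₀, hV₀, hV₀le⟩ := hV
  obtain ⟨W, hW, h1, h2, hn⟩ := 𝒰.exists_normal_le_inf hW₁ hV₀
  refine ⟨W, hW, hn, h2.trans hV₀le, fun x t ht => ?_⟩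
  have hWV : W ≤ V := h2.trans hV₀le
  set c : G ⧸ V := ((x⁻¹ : G) : G ⧸ V) with hc
  have hv : x * c.out ∈ V := by
    have : ((c.out : G) : G ⧸ V) = ((x⁻¹ : G) : G ⧸ V) := QuotientGroup.out_eq' c
    have h3 := QuotientGroup.eq.1 this.symm
    simpa using h3
  have hx : x = x * c.out * (c.out)⁻¹ := by group
  have hFx : F.1 x = B.ρ ⟨x * c.out, hv⟩ (F.1 (c.out)⁻¹) := by
    conv_lhs => rw [hx]
    exact F.2 ⟨x * c.out, hv⟩ (c.out)⁻¹
  rw [hFx, ← Module.End.mul_apply, ← map_mul]
  have hconj : (x * c.out)⁻¹ * t * (x * c.out) ∈ W := hn.conj_mem' t ht _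
  have e : (⟨t, hWV ht⟩ : V) * ⟨x * c.out, hv⟩ =
      ⟨x * c.out, hv⟩ * ⟨(x * c.out)⁻¹ * t * (x * c.out), hWV hconj⟩ := by
    apply Subtype.ext
    show t * (x * c.out) = x * c.out * ((x * c.out)⁻¹ * t * (x * c.out))
    group
  rw [e, map_mul, Module.End.mul_apply, hfix c _ (hWV hconj) (hle₁ c (h1 hconj))]

/-- The coinduced module of a discrete module from an open subgroup is discrete. -/
theorem isDiscrete_coind (hV : IsOpenSubgroup 𝒰 V) {B : Rep.{u} k V}
    (hB : (restrict 𝒰 V).IsDiscrete B) : 𝒰.IsDiscrete (Rep.coind V.subtype B) := by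
  intro F
  obtain ⟨W, hW, hn, hWV, h⟩ := exists_level_fixing_coind hV hB F
  refine ⟨W, hW, fun s hs => ?_⟩
  apply Subtype.ext
  funext x
  show F.1 (x * s) = F.1 x
  have hconj : x * s * x⁻¹ ∈ W := hn.conj_mem s hs x
  have e : x * s = x * s * x⁻¹ * x := by group
  rw [e]
  have := F.2 ⟨x * s * x⁻¹, hWV hconj⟩ x
  rw [Subgroup.subtype_apply] at this
  rw [this]
  exact h x _ hconj

end Coind

/-! ### Exactness of coinduction -/

section CoindExact

variable {V : Subgroup G}

/-- Coinduction from a subgroup preserves short exact sequences. -/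
theorem shortExact_map_coindFunctor {X : ShortComplex (Rep.{u} k V)} (hX : X.ShortExact) :
    (X.map (Rep.coindFunctor k V.subtype)).ShortExact := by
  apply shortExact_of
  · intro F F' h
    apply Subtype.ext
    funext x
    apply shortExact_injective hX
    exact congr_fun (congrArg Subtype.val h) x
  · have : Epi X.g := hX.epi_g
    have : Epi ((Rep.coindFunctor k V.subtype).map X.g) := inferInstance
    exact (Rep.epi_iff_surjective _).1 this
  · intro F hF
    have h0 : ∀ x, X.g.hom (F.1 x) = 0 := fun x => congr_fun (congrArg Subtype.val hF) x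
    choose y hy using fun x => shortExact_exists_of_g_eq_zero hX (F.1 x) (h0 x)
    refine ⟨⟨y, fun v x => ?_⟩, ?_⟩
    · apply shortExact_injective hX
      rw [hy, Rep.hom_comm_apply, hy]
      exact F.2 v x
    · apply Subtype.ext
      funext x
      exact hy x

end CoindExact

/-! ### Coinduction of a level-coinduced module -/

section CoindCoindLevel

variable {𝒰 : LevelFamily G} {V : Subgroup G} (hV : IsOpenSubgroup 𝒰 V)
  (B : Type u) [AddCommGroup B] [Module k B]

/-- The coinduction to `G` of the level-coinduced module of an open subgroup `V` is the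
level-coinduced module of `G`. -/
noncomputable def coindCoindLevelEquiv :
    (Rep.coind V.subtype (coindLevel (k := k) (restrict 𝒰 V) B)).V ≃ₗ[k]
      levelFun (k := k) 𝒰 B where
  toFun F := ⟨fun x => (F.1 x).1 1, by
    obtain ⟨W, hW, hn, hWV, h⟩ :=
      exists_level_fixing_coind hV (isDiscrete_coindLevel (k := k) (restrict 𝒰 V) B) F
    refine ⟨W, hW, fun x s hs => ?_⟩
    have hconj : x * s * x⁻¹ ∈ W := hn.conj_mem s hs x
    have e : x * s = x * s * x⁻¹ * x := by group
    have h1 : F.1 (x * s * x⁻¹ * x) =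
        (coindLevel (k := k) (restrict 𝒰 V) B).ρ ⟨x * s * x⁻¹, hWV hconj⟩ (F.1 x) :=
      F.2 ⟨x * s * x⁻¹, hWV hconj⟩ x
    show (F.1 (x * s)).1 1 = (F.1 x).1 1
    rw [e, h1, h x _ hconj]⟩
  map_add' _ _ := rfl
  map_smul' _ _ := rfl
  invFun f := ⟨fun x => ⟨fun w => f.1 ((w : G) * x), by
      obtain ⟨U, hU, h⟩ := f.2
      obtain ⟨W, hW, hle, hn⟩ := 𝒰.normal_le U hU
      refine ⟨W.comap V.subtype, comap_mem_comap_levels _ hW, fun w t ht => ?_⟩
      have ht' : (t : G) ∈ W := ht
      show f.1 (((w * t : V) : G) * x) = f.1 ((w : G) * x)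
      have e : ((w * t : V) : G) * x = (w : G) * x * (x⁻¹ * (t : G) * x) := by
        rw [Subgroup.coe_mul]
        group
      rw [e]
      exact h _ _ (hle (hn.conj_mem' _ ht' x))⟩, fun v x => by
      apply Subtype.ext
      funext w
      show f.1 ((w : G) * ((v : G) * x)) = f.1 (((w * v : V) : G) * x)
      rw [Subgroup.coe_mul, mul_assoc]⟩
  left_inv F := by
    apply Subtype.ext
    funext x
    apply Subtype.ext
    funext w
    show (F.1 ((w : G) * x)).1 1 = (F.1 x).1 w
    have h1 := F.2 w x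
    rw [Subgroup.subtype_apply] at h1
    rw [h1]
    show (F.1 x).1 (1 * w) = (F.1 x).1 w
    rw [one_mul]
  right_inv f := by
    apply Subtype.ext
    funext x
    show f.1 (((1 : V) : G) * x) = f.1 x
    rw [Subgroup.coe_one, one_mul]

/-- The isomorphism of representations underlying `coindCoindLevelEquiv`. -/
noncomputable def coindCoindLevelIso :
    Rep.coind V.subtype (coindLevel (k := k) (restrict 𝒰 V) B) ≅ coindLevel (k := k) 𝒰 B :=
  Rep.mkIso <| Representation.Equiv.mk (coindCoindLevelEquiv hV B) (fun γ => by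
    ext F
    rfl)

include hV in
/-- The coinduction of a level-coinduced module is acyclic. -/
theorem isZero_levelCohomology_coind_coindLevel (n : ℕ) :
    Limits.IsZero (𝒰.levelCohomology
      (Rep.coind V.subtype (coindLevel (k := k) (restrict 𝒰 V) B)) (n + 1)) := by
  refine (isZero_levelCohomology_coindLevel (k := k) 𝒰 B n).of_iso ?_
  exact (𝒰.levelComplexFunctor (k := k) ⋙
    HomologicalComplex.homologyFunctor (ModuleCat k) (ComplexShape.up ℕ) (n + 1)).mapIso
      (coindCoindLevelIso hV B)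

end CoindCoindLevel

/-! ### The Shapiro map -/

section Shapiro

variable (𝒰 : LevelFamily G) (V : Subgroup G)

/-- The Shapiro map `Hⁿ(G, coind B) ⟶ Hⁿ(V, B)`: restriction to `V` followed by evaluation
at `1`. -/
noncomputable def shapiro (B : Rep.{u} k V) (n : ℕ) :
    𝒰.levelCohomology (Rep.coind V.subtype B) n ⟶ (restrict 𝒰 V).levelCohomology B n :=
  map V.subtype (isCompatible_comap 𝒰 V.subtype) (coindEval V B) n

variable {V} in
theorem coindEval_naturality {B B' : Rep.{u} k V} (φ : B ⟶ B') :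
    (Rep.resFunctor V.subtype).map (Rep.coindMap V.subtype φ) ≫ coindEval V B' =
      coindEval V B ≫ φ := by
  ext F
  rfl

variable {V} in
/-- Naturality of the Shapiro map in the module. -/
theorem shapiro_naturality {B B' : Rep.{u} k V} (φ : B ⟶ B') (n : ℕ) :
    𝒰.levelCohomologyMap (Rep.coindMap V.subtype φ) n ≫ shapiro 𝒰 V B' n =
      shapiro 𝒰 V B n ≫ (restrict 𝒰 V).levelCohomologyMap φ n := by
  have h1 := map_comp (𝒰 := 𝒰) (𝒰' := 𝒰) (𝒰'' := restrict 𝒰 V)
    (M := Rep.coind V.subtype B) (M' := Rep.coind V.subtype B') (M'' := B') (MonoidHom.id G)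
    𝒰.isCompatible_id (Rep.coindMap V.subtype φ) V.subtype (isCompatible_comap 𝒰 V.subtype)
    (coindEval V B') n
  have h2 := map_comp (𝒰 := 𝒰) (𝒰' := restrict 𝒰 V) (𝒰'' := restrict 𝒰 V)
    (M := Rep.coind V.subtype B) (M' := B) (M'' := B') V.subtype
    (isCompatible_comap 𝒰 V.subtype) (coindEval V B) (MonoidHom.id V)
    (restrict 𝒰 V).isCompatible_id φ n
  rw [levelCohomologyMap_eq_map, levelCohomologyMap_eq_map, shapiro, shapiro, ← h1, ← h2]
  exact map_congr rfl _ (by rw [coindEval_naturality]; rfl) n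

theorem shapiro_zero_bijective (B : Rep.{u} k V) :
    Function.Bijective (shapiro 𝒰 V B 0).hom := by
  apply map_zero_bijective
  · intro F hF h1
    apply Subtype.ext
    funext x
    have h2 : F.1 (1 * x) = F.1 1 := congr_fun (congrArg Subtype.val (hF x)) 1
    rw [one_mul] at h2
    rw [h2]
    exact h1
  · intro b hb
    refine ⟨⟨fun _ => b, fun v x => (hb v).symm⟩, fun g => Subtype.ext rfl, rfl⟩

variable {𝒰 V}

/-- **Shapiro's lemma** for level cohomology: for an open subgroup `V` and a discrete `V`-module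
`B`, the Shapiro map is bijective in every degree. -/
theorem shapiro_bijective (hV : IsOpenSubgroup 𝒰 V) (n : ℕ) :
    ∀ (B : Rep.{u} k V) (_ : (restrict 𝒰 V).IsDiscrete B),
      Function.Bijective (shapiro 𝒰 V B n).hom := by
  induction n with
  | zero => exact fun B _ => shapiro_zero_bijective 𝒰 V B
  | succ n ih =>
    intro B hB
    have hS := levelShiftSES_shortExact hB
    have hdS := isDiscrete_levelShiftSES_X₂ hB
    have hcS := shortExact_map_coindFunctor hS
    have hdcS : 𝒰.IsDiscrete ((levelShiftSES hB).map (Rep.coindFunctor k V.subtype)).X₂ :=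
      isDiscrete_coind hV hdS
    exact bijective_of_ladder
      (𝒰.levelCohomologyMap ((levelShiftSES hB).map (Rep.coindFunctor k V.subtype)).g n)
      (𝒰.δ hcS hdcS n (n + 1) rfl)
      ((restrict 𝒰 V).levelCohomologyMap (levelShiftSES hB).g n)
      ((restrict 𝒰 V).δ hS hdS n (n + 1) rfl)
      (shapiro 𝒰 V (levelShiftSES hB).X₂ n) (shapiro 𝒰 V (levelShiftSES hB).X₃ n)
      (shapiro 𝒰 V (levelShiftSES hB).X₁ (n + 1))
      (𝒰.map_g_comp_δ hcS hdcS rfl)
      (δ_surjective_of_isZero hcS hdcS n (isZero_levelCohomology_coind_coindLevel hV B.V n))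
      (fun s hs => (restrict 𝒰 V).exists_of_δ_eq_zero hS hdS rfl s hs)
      (δ_levelShiftSES_surjective hB n)
      (shapiro_naturality 𝒰 (levelShiftSES hB).g n)
      (δ_naturality V.subtype (isCompatible_comap 𝒰 V.subtype) hcS hdcS hS hdS
        (coindEval V _) (coindEval V _) (coindEval V _)
        (coindEval_naturality _) (coindEval_naturality _) n (n + 1) rfl)
      (ih _ hdS).2 (ih _ (isDiscrete_levelShiftSES_X₃ hB))

/-- Shapiro's lemma as an isomorphism. -/
noncomputable def shapiroIso (hV : IsOpenSubgroup 𝒰 V) {B : Rep.{u} k V}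
    (hB : (restrict 𝒰 V).IsDiscrete B) (n : ℕ) :
    𝒰.levelCohomology (Rep.coind V.subtype B) n ≅ (restrict 𝒰 V).levelCohomology B n :=
  (LinearEquiv.ofBijective (shapiro 𝒰 V B n).hom (shapiro_bijective hV n B hB)).toModuleIso

@[simp]
theorem shapiroIso_hom (hV : IsOpenSubgroup 𝒰 V) {B : Rep.{u} k V}
    (hB : (restrict 𝒰 V).IsDiscrete B) (n : ℕ) :
    (shapiroIso hV hB n).hom = shapiro 𝒰 V B n := rfl

end Shapiro

end Fermat.Agent.Lib.CFT.Profinite.LES
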