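import Fermat.Agent.Lib.CFT.Profinite.ShapiroT

/-!
# Mutually cofinal level families and the cone of multiplication by `p` (P-CFT, Profinite/MutualT)

For two mutually cofinal level families `𝒰`, `𝒱` on `G` (compatible both ways for the identity),
the `T`-version of `levelCohomologyIsoOfMutual`: `TMutual p h1 M r : T 𝒰 p M r →ₗ T 𝒱 p M r`
is bijective (`TEquivOfMutual`), and is compatible with `toH`, `ofH`, `TMap`, `Tδ` and with
`TMapOfHom` along further homomorphisms (change of the source or of the target family).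
The analogous statements for level cohomology are included (`mapMutual`).
-/

set_option autoImplicit false

universe u

open CategoryTheory

namespace Fermat.Agent.Lib.CFT.Profinite.LES

open LevelFamily Fermat.Agent.Lib.CFT.Duality Fermat.Agent.Lib.CFT.Duality.KCalc ConcreteHomology
  HomologicalComplex

variable {k G : Type u} [CommRing k] [Group G]

section Mutual

variable {𝒰 𝒱 : LevelFamily G} (p : ℕ) (h1 : IsCompatible 𝒱 𝒰 (MonoidHom.id G))
  (h2 : IsCompatible 𝒰 𝒱 (MonoidHom.id G)) (M : Rep.{u} k G)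

/-- The comparison map of cones for a finer level family. -/
noncomputable def KpMutual : Kp 𝒰 p M ⟶ Kp 𝒱 p M :=
  KpMapOfHom 𝒰 p 𝒱 (MonoidHom.id G) h1 (𝟙 M)

theorem KpMutual_comp : KpMutual p h1 M ≫ KpMutual p h2 M = 𝟙 (Kp 𝒰 p M) :=
  natCone.hom_ext _ (fun _ _ => rfl) (fun _ _ => rfl)

/-- The comparison map on `T` for a finer level family. -/
noncomputable def TMutual (r : ℕ) : T 𝒰 p M r →ₗ[k] T 𝒱 p M r :=
  TMapOfHom 𝒰 p 𝒱 (MonoidHom.id G) h1 (𝟙 M) r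

theorem TMutual_TMutual (r : ℕ) (t : T 𝒰 p M r) :
    TMutual p h2 M r (TMutual p h1 M r t) = t := by
  have h := congr_arg (fun F => homologyMap F r) (KpMutual_comp p h1 h2 M)
  simp only [homologyMap_comp, homologyMap_id] at h
  exact congr($h t)

/-- Mutually cofinal level families have the same `T`. -/
noncomputable def TEquivOfMutual (r : ℕ) : T 𝒰 p M r ≃ₗ[k] T 𝒱 p M r :=
  { TMutual p h1 M r with
    invFun := TMutual p h2 M r
    left_inv := TMutual_TMutual p h1 h2 M r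
    right_inv := TMutual_TMutual p h2 h1 M r }

@[simp]
theorem TEquivOfMutual_apply (r : ℕ) (t : T 𝒰 p M r) :
    TEquivOfMutual p h1 h2 M r t = TMutual p h1 M r t := rfl

@[simp]
theorem TEquivOfMutual_symm_apply (r : ℕ) (t : T 𝒱 p M r) :
    (TEquivOfMutual p h1 h2 M r).symm t = TMutual p h2 M r t := rfl

include h2 in
theorem TMutual_bijective (r : ℕ) : Function.Bijective (TMutual p h1 M r) :=
  (TEquivOfMutual p h1 h2 M r).bijective

/-- The comparison map on level cohomology for a finer level family. -/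
noncomputable abbrev mapMutual (n : ℕ) : 𝒰.levelCohomology M n ⟶ 𝒱.levelCohomology M n :=
  map (MonoidHom.id G) h1 (𝟙 M) n

theorem mapMutual_mapMutual (n : ℕ) (x : 𝒰.levelCohomology M n) :
    (mapMutual h2 M n).hom ((mapMutual h1 M n).hom x) = x := by
  have h := map_comp (𝒰 := 𝒰) (𝒰' := 𝒱) (𝒰'' := 𝒰) (M := M) (M' := M) (M'' := M)
    (MonoidHom.id G) h1 (𝟙 M) (MonoidHom.id G) h2 (𝟙 M) n
  have h' : map (MonoidHom.id G) 𝒰.isCompatible_id (𝟙 M) n = 𝟙 _ := map_id n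
  have h3 : map ((MonoidHom.id G).comp (MonoidHom.id G)) (IsCompatible.comp h1 h2)
      ((Rep.resFunctor (MonoidHom.id G)).map (𝟙 M) ≫ 𝟙 M) n =
      map (MonoidHom.id G) 𝒰.isCompatible_id (𝟙 M) n := map_congr rfl _ rfl n
  rw [h3, h'] at h
  exact (congr($h x)).symm

include h2 in
theorem mapMutual_bijective (n : ℕ) : Function.Bijective (mapMutual h1 M n).hom :=
  ⟨Function.LeftInverse.injective (mapMutual_mapMutual h1 h2 M n),
    Function.RightInverse.surjective (mapMutual_mapMutual h2 h1 M n)⟩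

theorem toH_TMutual (r : ℕ) (t : T 𝒰 p M r) :
    toH 𝒱 p M r (TMutual p h1 M r t) = (mapMutual h1 M r).hom (toH 𝒰 p M r t) :=
  toH_TMapOfHom 𝒰 p 𝒱 (MonoidHom.id G) h1 (𝟙 M) r t

theorem TMutual_ofH (r : ℕ) (y : 𝒰.levelCohomology M r) :
    TMutual p h1 M (r + 1) (ofH 𝒰 p M r y) = ofH 𝒱 p M r ((mapMutual h1 M r).hom y) :=
  TMapOfHom_ofH 𝒰 p 𝒱 (MonoidHom.id G) h1 (𝟙 M) r y

variable {M} in
/-- Naturality of the comparison maps in the module. -/
theorem TMutual_TMap {M' : Rep.{u} k G} (f : M ⟶ M') (r : ℕ) (t : T 𝒰 p M r) :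
    TMutual p h1 M' r (TMap 𝒰 p f r t) = TMap 𝒱 p f r (TMutual p h1 M r t) :=
  TMap_TMapOfHom 𝒰 𝒱 p (MonoidHom.id G) h1 f f (𝟙 M) (𝟙 M') (by
    ext x
    rfl) r t

/-- Compatibility of the comparison maps with connecting homomorphisms. -/
theorem TMutual_Tδ {S : ShortComplex (Rep.{u} k G)} (hS : S.ShortExact) (hd : 𝒰.IsDiscrete S.X₂)
    (hd' : 𝒱.IsDiscrete S.X₂) (i j : ℕ) (hij : i + 1 = j) (t : T 𝒰 p S.X₃ i) :
    TMutual p h1 S.X₁ j (Tδ 𝒰 p hS hd i j hij t) =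
      Tδ 𝒱 p hS hd' i j hij (TMutual p h1 S.X₃ i t) :=
  Tδ_naturality p (MonoidHom.id G) h1 hS hd hS hd' (𝟙 _) (𝟙 _) (𝟙 _)
    (by ext x; rfl) (by ext x; rfl) i j hij t

include h1 in
/-- Discreteness only depends on the cofinality class of the level family. -/
theorem isDiscrete_of_isCompatible_id (hM : 𝒰.IsDiscrete M) : 𝒱.IsDiscrete M := by
  intro m
  obtain ⟨U, hU, h⟩ := hM m
  obtain ⟨U', hU', hle⟩ := h1 U hU
  exact ⟨U', hU', fun s hs => h s (hle hs)⟩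

end Mutual

/-! ### Change of the source or target family in `TMapOfHom` -/

section Change

variable {H : Type u} [Group H] {𝒰 𝒰₁ : LevelFamily G} {𝒱 𝒱₁ : LevelFamily H} (p : ℕ)
  {X : Rep.{u} k G} {Y : Rep.{u} k H} (φ : H →* G) (lam : Rep.res φ X ⟶ Y)

/-- Changing the target family: `TMutual ∘ TMapOfHom = TMapOfHom`. -/
theorem TMutual_TMapOfHom (hφ : IsCompatible 𝒱 𝒰 φ) (h1 : IsCompatible 𝒱₁ 𝒱 (MonoidHom.id H))
    (hφ₁ : IsCompatible 𝒱₁ 𝒰 φ) (r : ℕ) (t : T 𝒰 p X r) :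
    TMutual p h1 Y r (TMapOfHom 𝒰 p 𝒱 φ hφ lam r t) = TMapOfHom 𝒰 p 𝒱₁ φ hφ₁ lam r t := by
  rw [TMutual, ← TMapOfHom_comp]
  refine congr_fun (congr_arg DFunLike.coe (TMapOfHom_congr 𝒰 _ p _ rfl _ _ ?_ r)) t
  ext x
  rfl

/-- Changing the source family: `TMapOfHom ∘ TMutual = TMapOfHom`. -/
theorem TMapOfHom_TMutual (hφ : IsCompatible 𝒱 𝒰 φ) (h1 : IsCompatible 𝒰 𝒰₁ (MonoidHom.id G))
    (hφ₁ : IsCompatible 𝒱 𝒰₁ φ) (r : ℕ) (t : T 𝒰₁ p X r) :
    TMapOfHom 𝒰 p 𝒱 φ hφ lam r (TMutual p h1 X r t) = TMapOfHom 𝒰₁ p 𝒱 φ hφ₁ lam r t := by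
  rw [TMutual, ← TMapOfHom_comp]
  refine congr_fun (congr_arg DFunLike.coe (TMapOfHom_congr 𝒰₁ _ p _ rfl _ _ ?_ r)) t
  ext x
  rfl

/-- Changing the target family on level cohomology. -/
theorem mapMutual_map (hφ : IsCompatible 𝒱 𝒰 φ) (h1 : IsCompatible 𝒱₁ 𝒱 (MonoidHom.id H))
    (hφ₁ : IsCompatible 𝒱₁ 𝒰 φ) (n : ℕ) :
    map φ hφ lam n ≫ mapMutual h1 Y n = map φ hφ₁ lam n := by
  rw [mapMutual, ← map_comp]
  exact map_congr rfl _ (by ext x; rfl) n

/-- Changing the source family on level cohomology. -/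
theorem map_mapMutual (hφ : IsCompatible 𝒱 𝒰 φ) (h1 : IsCompatible 𝒰 𝒰₁ (MonoidHom.id G))
    (hφ₁ : IsCompatible 𝒱 𝒰₁ φ) (n : ℕ) :
    mapMutual h1 X n ≫ map φ hφ lam n = map φ hφ₁ lam n := by
  rw [mapMutual, ← map_comp]
  exact map_congr rfl _ (by ext x; rfl) n

/-- A change-of-group map is bijective on `T` iff it is after replacing source and target
families by mutually cofinal ones. -/
theorem TMapOfHom_bijective_iff_of_mutual (hφ : IsCompatible 𝒱 𝒰 φ)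
    (hφ₁ : IsCompatible 𝒱₁ 𝒰₁ φ)
    (hU : IsCompatible 𝒰 𝒰₁ (MonoidHom.id G)) (hU' : IsCompatible 𝒰₁ 𝒰 (MonoidHom.id G))
    (hV : IsCompatible 𝒱₁ 𝒱 (MonoidHom.id H)) (hV' : IsCompatible 𝒱 𝒱₁ (MonoidHom.id H))
    (r : ℕ) :
    Function.Bijective (TMapOfHom 𝒰 p 𝒱 φ hφ lam r) ↔
      Function.Bijective (TMapOfHom 𝒰₁ p 𝒱₁ φ hφ₁ lam r) := by
  have hφ₂ : IsCompatible 𝒱₁ 𝒰 φ := fun U hU₀ => by
    obtain ⟨W, hW, hle⟩ := hφ U hU₀
    obtain ⟨W', hW', hle'⟩ := hV W hW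
    exact ⟨W', hW', fun s hs => hle (hle' hs)⟩
  have e : ∀ t, TMapOfHom 𝒰₁ p 𝒱₁ φ hφ₁ lam r t =
      TMutual p hV Y r (TMapOfHom 𝒰 p 𝒱 φ hφ lam r (TMutual p hU X r t)) := by
    intro t
    rw [TMutual_TMapOfHom p φ lam hφ hV hφ₂, TMapOfHom_TMutual p φ lam hφ₂ hU hφ₁]
  have e' : ⇑(TMapOfHom 𝒰₁ p 𝒱₁ φ hφ₁ lam r) =
      ⇑(TMutual p hV Y r) ∘ ⇑(TMapOfHom 𝒰 p 𝒱 φ hφ lam r) ∘ ⇑(TMutual p hU X r) := funext e
  rw [e']
  have b1 := TMutual_bijective p hV hV' Y r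
  have b2 := TMutual_bijective p hU hU' X r
  constructor
  · intro h
    exact b1.comp (h.comp b2)
  · intro h
    have h3 := (Function.Bijective.of_comp_iff' b1 _).1 h
    exact (Function.Bijective.of_comp_iff _ b2).1 h3

end Change

end Fermat.Agent.Lib.CFT.Profinite.LES
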