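import Mathlib
import Fermat.Prelude.Def_GroupCohomology_ContinuousUnramified
import Fermat.Agent.Lib.CFT.Profinite.BridgeNormal
import Fermat.Agent.Lib.CFT.S14.Bridge

/-!
P-CFT, Profinite/Bridge: the ramification dictionary (helper77).

The Prelude says that a finite extension `F` of `ℚ` inside `Qbar` is unramified outside `S` when,
for every `q ∉ S` and every valuation subring `A` of `Qbar` over `q`, the inertia subgroup of `A`
fixes `F`.  This file translates that into ideal-theoretic language: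

* `ramificationIdx_under_eq_one_iff`: abstract key lemma (counting of inertia groups);
* `inertia_le_fixingSubgroup_iff_ramificationIdx`, `isUnramifiedOutside_iff_ramificationIdx`,
  `isUnramifiedOutside_iff_not_mem_sq`: **Theorem A**;
* `ramificationIdx_eq_one_of_isUnramifiedOutside`, `ramificationIdx_eq_one_of_le`: **Theorem B**;
* `isUnramifiedOutside_of_ramificationIdx_eq_one`, `isUnramifiedOutside_of_le`: **Theorem C**.
-/

set_option autoImplicit false

open NumberField
open scoped Pointwise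

namespace Fermat.Agent.Lib.CFT.Profinite.Bridge

section Abstract

variable (K L : Type*) [Field K] [Field L] [NumberField K] [NumberField L] [Algebra K L]

/-- Cardinality of the inertia group over `ℚ`. -/
theorem card_inertia_rat [IsGalois ℚ L] (Pt : Ideal (𝓞 L)) [Pt.IsPrime] (hPt : Pt ≠ ⊥) :
    Nat.card (Ideal.inertia Gal(L/ℚ) Pt) = Pt.ramificationIdx ℤ := by
  have hmax : Pt.IsMaximal := Ideal.IsPrime.isMaximal inferInstance hPt
  have : (Pt.under ℤ).IsMaximal := Ideal.IsMaximal.under ℤ Pt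
  have hp0 : Pt.under ℤ ≠ ⊥ := Ideal.IsMaximal.ne_bot_of_isIntegral_int _
  have : Finite (ℤ ⧸ Pt.under ℤ) := Ring.HasFiniteQuotients.finiteQuotient hp0
  rw [Ideal.card_inertia_eq_ramificationIdxIn (Pt.under ℤ) Pt,
    Ideal.ramificationIdxIn_eq_ramificationIdx (Pt.under ℤ) Pt Gal(L/ℚ)]

/-- Cardinality of the inertia group over `K`. -/
theorem card_inertia_rel [IsGalois K L] (Pt : Ideal (𝓞 L)) [Pt.IsPrime] (hPt : Pt ≠ ⊥) :
    Nat.card (Ideal.inertia Gal(L/K) Pt) = Pt.ramificationIdx (𝓞 K) := by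
  have hmax : Pt.IsMaximal := Ideal.IsPrime.isMaximal inferInstance hPt
  have : (Pt.under (𝓞 K)).IsMaximal := Ideal.IsMaximal.under (𝓞 K) Pt
  have hp0 : Pt.under (𝓞 K) ≠ ⊥ := by
    intro h
    exact hPt (Ideal.eq_bot_of_comap_eq_bot h)
  have : Finite (𝓞 K ⧸ Pt.under (𝓞 K)) := Ring.HasFiniteQuotients.finiteQuotient hp0
  rw [Ideal.card_inertia_eq_ramificationIdxIn (Pt.under (𝓞 K)) Pt,
    Ideal.ramificationIdxIn_eq_ramificationIdx (Pt.under (𝓞 K)) Pt Gal(L/K)]

/-- An automorphism of `L` over `ℚ` comes from an automorphism over `K` iff it fixes `K`. -/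
theorem mem_range_restrictScalarsHom_iff (σ : Gal(L/ℚ)) :
    σ ∈ (AlgEquiv.restrictScalarsHom ℚ : Gal(L/K) →* Gal(L/ℚ)).range ↔
      ∀ x : K, σ (algebraMap K L x) = algebraMap K L x := by
  constructor
  · rintro ⟨τ, rfl⟩ x
    exact τ.commutes x
  · intro h
    refine ⟨{ σ with commutes' := h }, ?_⟩
    ext x
    rfl

/-- The inertia group over `K` is the preimage of the inertia group over `ℚ`. -/
theorem inertia_rel_eq_comap (Pt : Ideal (𝓞 L)) :
    Ideal.inertia Gal(L/K) Pt =
      (Ideal.inertia Gal(L/ℚ) Pt).comap (AlgEquiv.restrictScalarsHom ℚ) := by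
  ext τ
  rfl

/-- **Key lemma.**  Let `L / ℚ` be a finite Galois extension, `K` a subfield and `Pt` a nonzero
prime of `𝓞 L`.  The prime of `𝓞 K` below `Pt` is unramified over `ℤ` if and only if the inertia
group of `Pt` in `Gal(L/ℚ)` acts trivially on `K`. -/
theorem ramificationIdx_under_eq_one_iff [IsGalois ℚ L] (Pt : Ideal (𝓞 L)) [Pt.IsPrime]
    (hPt : Pt ≠ ⊥) :
    (Pt.under (𝓞 K)).ramificationIdx ℤ = 1 ↔
      ∀ σ ∈ Ideal.inertia Gal(L/ℚ) Pt, ∀ x : K, σ (algebraMap K L x) = algebraMap K L x := by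
  have hKL : IsGalois K L := IsGalois.tower_top_of_isGalois ℚ K L
  have h1 := card_inertia_rat L Pt hPt
  have h2 := card_inertia_rel K L Pt hPt
  have h3 : Pt.ramificationIdx ℤ =
      (Pt.under (𝓞 K)).ramificationIdx ℤ * Pt.ramificationIdx (𝓞 K) :=
    Ideal.ramificationIdx_tower (Pt.under (𝓞 K)) Pt
  have hpos : 0 < Pt.ramificationIdx (𝓞 K) := Ideal.ramificationIdx_pos Pt (𝓞 K)
  set f : Gal(L/K) →* Gal(L/ℚ) := AlgEquiv.restrictScalarsHom ℚ with hf
  have hinj : Function.Injective f := AlgEquiv.restrictScalarsHom_injective ℚ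
  set IG := Ideal.inertia Gal(L/ℚ) Pt with hIG
  have h4 : Nat.card (Ideal.inertia Gal(L/K) Pt) = Nat.card (f.range ⊓ IG : Subgroup Gal(L/ℚ)) := by
    rw [inertia_rel_eq_comap, ← Subgroup.map_comap_eq]
    exact (Subgroup.card_map_of_injective hinj).symm
  have hfin : Finite Gal(L/ℚ) := inferInstance
  have key : (Pt.under (𝓞 K)).ramificationIdx ℤ = 1 ↔ IG ≤ f.range := by
    constructor
    · intro he
      rw [he, one_mul] at h3
      have hle : f.range ⊓ IG ≤ IG := inf_le_right
      have hcard : Nat.card IG ≤ Nat.card (f.range ⊓ IG : Subgroup Gal(L/ℚ)) := by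
        rw [← h4, h2, ← h3, ← h1]
      have := Subgroup.eq_of_le_of_card_ge hle hcard
      rw [← this]
      exact inf_le_left
    · intro hle
      have : f.range ⊓ IG = IG := inf_eq_right.mpr hle
      rw [this, h2, h1, h3] at h4
      have h5 : 1 * Pt.ramificationIdx (𝓞 K) =
          (Pt.under (𝓞 K)).ramificationIdx ℤ * Pt.ramificationIdx (𝓞 K) := by
        rw [one_mul]; exact h4
      exact (Nat.eq_of_mul_eq_mul_right hpos h5).symm
  rw [key]
  constructor
  · intro hle σ hσ
    exact (mem_range_restrictScalarsHom_iff K L σ).mp (hle hσ)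
  · intro h σ hσ
    exact (mem_range_restrictScalarsHom_iff K L σ).mpr (h σ hσ)

end Abstract

section Elementary

/-- Elementary form of "ramification index one over `ℤ`" for a prime of a Dedekind domain of
characteristic zero containing the rational prime `q`. -/
theorem ramificationIdx_int_eq_one_iff_not_mem_sq {O : Type*} [CommRing O] [IsDedekindDomain O]
    [CharZero O] (P : Ideal O) [hP : P.IsPrime] {q : ℕ} (hq : q.Prime) (hqP : (q : O) ∈ P) :
    P.ramificationIdx ℤ = 1 ↔ (q : O) ∉ P ^ 2 := by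
  have hqZ : Prime (q : ℤ) := Nat.prime_iff_prime_int.mp hq
  have hp0 : (Ideal.span {(q : ℤ)} : Ideal ℤ) ≠ ⊥ := by
    simp [hq.ne_zero]
  have hLO : P.LiesOver (Ideal.span {(q : ℤ)}) :=
    (Ideal.liesOver_span_iff hP.ne_top hqZ).mpr (by simpa using hqP)
  have hmap : (Ideal.span {(q : ℤ)}).map (algebraMap ℤ O) = Ideal.span {(q : O)} := by
    rw [Ideal.map_span, Set.image_singleton]
    simp
  have hle : (Ideal.span {(q : ℤ)}).map (algebraMap ℤ O) ≤ P := by
    rw [hmap, Ideal.span_singleton_le_iff_mem]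
    exact hqP
  rw [← Ideal.ramificationIdx'_eq_ramificationIdx (Ideal.span {(q : ℤ)}) P hp0,
    ← not_iff_not, not_not, ← ne_eq, Ideal.ramificationIdx'_ne_one_iff hle, hmap,
    Ideal.span_singleton_le_iff_mem]

end Elementary

section Concrete

local notation "Qbar" => AlgebraicClosure ℚ
local notation "Γℚ" => (AlgebraicClosure ℚ ≃ₐ[ℚ] AlgebraicClosure ℚ)

local instance isAlgebraicQbar_br : Algebra.IsAlgebraic ℚ (AlgebraicClosure ℚ) :=
  AlgebraicClosure.isAlgebraic ℚ
local instance isAlgClosureQbar_br : IsAlgClosure ℚ (AlgebraicClosure ℚ) :=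
  ⟨inferInstance, inferInstance⟩
local instance normalQbar_br : Normal ℚ (AlgebraicClosure ℚ) :=
  IsAlgClosure.normal ℚ (AlgebraicClosure ℚ)
local instance isGaloisQbar_br : IsGalois ℚ (AlgebraicClosure ℚ) := ⟨⟩

/-- The prime of `𝓞 M` cut out by a valuation subring of `Qbar`. -/
noncomputable def primeBelow (A : ValuationSubring Qbar) (M : IntermediateField ℚ Qbar) :
    Ideal (𝓞 M) :=
  (Fermat.Agent.Lib.primeOfValuationSubring A).comap (S14.Bridge.toIntegers M)

theorem mem_primeBelow_iff (A : ValuationSubring Qbar) (M : IntermediateField ℚ Qbar) (x : 𝓞 M) :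
    x ∈ primeBelow A M ↔ algebraMap M Qbar (x : M) ∈ A.nonunits := Iff.rfl

instance primeBelow_isPrime (A : ValuationSubring Qbar) (M : IntermediateField ℚ Qbar) :
    (primeBelow A M).IsPrime :=
  haveI := Fermat.Agent.Lib.primeOfValuationSubring_isPrime A
  Ideal.comap_isPrime _ _

theorem natCast_mem_primeBelow {A : ValuationSubring Qbar} {q : ℕ} (hA : A.LiesOverPrime q)
    (M : IntermediateField ℚ Qbar) : (q : 𝓞 M) ∈ primeBelow A M := by
  rw [mem_primeBelow_iff]
  have h : ((q : ℕ) : Qbar) ∈ A.nonunits := hA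
  simpa using h

/-- Restriction to a finite Galois subextension maps the inertia subgroup of a valuation subring
into the inertia group of the prime it cuts out. -/
theorem restrictNormalHom_mem_inertia (A : ValuationSubring Qbar) (M : IntermediateField ℚ Qbar)
    [FiniteDimensional ℚ M] [IsGalois ℚ M] (s : Γℚ) (hs : s ∈ A.inertiaSubgroupIn ℚ) :
    AlgEquiv.restrictNormalHom M s ∈ Ideal.inertia Gal(M/ℚ) (primeBelow A M) := by
  intro x
  rw [Submodule.mem_toAddSubgroup, mem_primeBelow_iff]
  have hx : algebraMap M Qbar (x : M) ∈ A :=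
    Fermat.Agent.Lib.mem_valuationSubring_of_isIntegral A
      ((RingOfIntegers.isIntegral_coe x).algebraMap)
  have h1 := ((mem_inertiaSubgroupIn_iff A s).mp hs).2 _ hx
  have h2 : algebraMap M Qbar (((AlgEquiv.restrictNormalHom M s) • x - x : 𝓞 M) : M) =
      s (algebraMap M Qbar (x : M)) - algebraMap M Qbar (x : M) := by
    have h3 : (((AlgEquiv.restrictNormalHom M s) • x - x : 𝓞 M) : M) =
        (AlgEquiv.restrictNormalHom M s) (x : M) - (x : M) := rfl
    rw [h3, map_sub]
    congr 1
    exact AlgEquiv.restrictNormal_commutes s M (x : M)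
  rw [h2]
  exact h1


/-- The algebra structure on a larger intermediate field (not an instance). -/
@[reducible] noncomputable def algebraOfLE {F M : IntermediateField ℚ Qbar} (hFM : F ≤ M) :
    Algebra F M :=
  (IntermediateField.inclusion hFM).toRingHom.toAlgebra

theorem natCast_eq_of_mem_prime {R : Type*} [CommRing R] {P : Ideal R} (hP : P.IsPrime)
    {l q : ℕ} (hl : l.Prime) (hq : q.Prime) (hlP : (l : R) ∈ P) (hqP : (q : R) ∈ P) : l = q := by
  by_contra hne
  have hcop : IsCoprime (l : ℤ) (q : ℤ) :=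
    Nat.isCoprime_iff_coprime.mpr ((Nat.coprime_primes hl hq).mpr hne)
  obtain ⟨a, b, hab⟩ := hcop
  apply hP.ne_top
  rw [Ideal.eq_top_iff_one]
  have h1 : ((a * l + b * q : ℤ) : R) = 1 := by rw [hab]; simp
  rw [← h1]
  push_cast
  exact P.add_mem (P.mul_mem_left _ hlP) (P.mul_mem_left _ hqP)

/-- **Dictionary, Galois level.**  Inertia subgroups of valuation subrings of `Qbar` over `q` fix
`F` if and only if the inertia groups of the primes over `q` of a finite Galois extension `M ⊇ F`
fix `F`. -/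
theorem inertia_le_fixingSubgroup_iff_of_le (F M : IntermediateField ℚ Qbar)
    [FiniteDimensional ℚ M] [IsGalois ℚ M] (hFM : F ≤ M) {q : ℕ} (hq : q.Prime) :
    (∀ A : ValuationSubring Qbar, A.LiesOverPrime q →
        A.inertiaSubgroupIn ℚ ≤ F.fixingSubgroup) ↔
      ∀ Pt : Ideal (𝓞 M), Pt.IsPrime → (q : 𝓞 M) ∈ Pt →
        ∀ σ ∈ Ideal.inertia Gal(M/ℚ) Pt, ∀ x : F,
          σ (IntermediateField.inclusion hFM x) = IntermediateField.inclusion hFM x := by
  constructor
  · intro h Pt hPt hqPt σ hσ x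
    have hPt0 : Pt ≠ ⊥ := by
      intro h0
      rw [h0, Ideal.mem_bot] at hqPt
      have : (q : 𝓞 M) ≠ 0 := Nat.cast_ne_zero.mpr hq.ne_zero
      exact this hqPt
    obtain ⟨l, A, hl, hAl, hlPt, s, hs, hsσ⟩ :=
      Fermat.Agent.Lib.CFT.S14.exists_inertia_lift M Pt hPt hPt0 σ hσ
    have hlq : l = q := natCast_eq_of_mem_prime hPt hl hq hlPt hqPt
    subst hlq
    have hsF := h A hAl hs
    rw [IntermediateField.mem_fixingSubgroup_iff] at hsF
    apply (algebraMap M Qbar).injective
    rw [← hsσ]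
    have h1 : algebraMap M Qbar ((AlgEquiv.restrictNormalHom M s) (IntermediateField.inclusion hFM x)) =
        s (algebraMap M Qbar (IntermediateField.inclusion hFM x)) :=
      AlgEquiv.restrictNormal_commutes s M _
    rw [h1]
    exact hsF _ x.2
  · intro h A hA s hs
    rw [IntermediateField.mem_fixingSubgroup_iff]
    intro x hx
    have h1 := h (primeBelow A M) inferInstance (natCast_mem_primeBelow hA M)
      (AlgEquiv.restrictNormalHom M s) (restrictNormalHom_mem_inertia A M s hs) ⟨x, hx⟩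
    have h2 := congrArg (algebraMap M Qbar) h1
    have h3 : algebraMap M Qbar ((AlgEquiv.restrictNormalHom M s)
        (IntermediateField.inclusion hFM ⟨x, hx⟩)) =
        s (algebraMap M Qbar (IntermediateField.inclusion hFM ⟨x, hx⟩)) :=
      AlgEquiv.restrictNormal_commutes s M _
    rw [h3] at h2
    exact h2

/-- **Dictionary, ramification level.**  For a finite Galois `M ⊇ F`: the inertia groups of the
primes of `M` over `q` fix `F` if and only if every prime of `F` over `q` has ramification index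
one over `ℤ`. -/
theorem forall_inertia_fix_iff_ramificationIdx (F M : IntermediateField ℚ Qbar)
    [FiniteDimensional ℚ F] [FiniteDimensional ℚ M] [IsGalois ℚ M] (hFM : F ≤ M) {q : ℕ}
    (hq : q.Prime) :
    (∀ Pt : Ideal (𝓞 M), Pt.IsPrime → (q : 𝓞 M) ∈ Pt →
        ∀ σ ∈ Ideal.inertia Gal(M/ℚ) Pt, ∀ x : F,
          σ (IntermediateField.inclusion hFM x) = IntermediateField.inclusion hFM x) ↔
      ∀ P : Ideal (𝓞 F), P.IsPrime → (q : 𝓞 F) ∈ P → P.ramificationIdx ℤ = 1 := by
  let _ := algebraOfLE hFM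
  have hne : ∀ Pt : Ideal (𝓞 M), (q : 𝓞 M) ∈ Pt → Pt ≠ ⊥ := by
    intro Pt hqPt h0
    rw [h0, Ideal.mem_bot] at hqPt
    have : (q : 𝓞 M) ≠ 0 := Nat.cast_ne_zero.mpr hq.ne_zero
    exact this hqPt
  constructor
  · intro h P hP hqP
    obtain ⟨⟨Pt, hPt, hPtP⟩⟩ := (inferInstance : Nonempty (Ideal.primesOver P (𝓞 M)))
    have hqPt : (q : 𝓞 M) ∈ Pt := by
      have h1 : (q : 𝓞 F) ∈ Pt.under (𝓞 F) := by rw [← hPtP.over]; exact hqP
      rw [Ideal.under_def, Ideal.mem_comap, map_natCast] at h1
      exact h1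
    have := (ramificationIdx_under_eq_one_iff F M Pt (hne Pt hqPt)).mpr (h Pt hPt hqPt)
    rw [← hPtP.over] at this
    exact this
  · intro h Pt hPt hqPt
    have hqP : (q : 𝓞 F) ∈ Pt.under (𝓞 F) := by
      rw [Ideal.under_def, Ideal.mem_comap, map_natCast]
      exact hqPt
    exact (ramificationIdx_under_eq_one_iff F M Pt (hne Pt hqPt)).mp
      (h (Pt.under (𝓞 F)) inferInstance hqP)

theorem isGalois_normalClosure (F : IntermediateField ℚ Qbar) :
    IsGalois ℚ (IntermediateField.normalClosure ℚ F Qbar) := by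
  have : Normal ℚ (IntermediateField.normalClosure ℚ F Qbar) :=
    normalClosure.normal ℚ F Qbar
  have : Algebra.IsSeparable ℚ (IntermediateField.normalClosure ℚ F Qbar) :=
    Algebra.isSeparable_tower_bot_of_isSeparable ℚ _ Qbar
  exact ⟨⟩

/-- **Theorem A.**  The inertia condition of the Prelude at a prime `q`, for a finite extension
`F` of `ℚ` inside `Qbar`, says exactly that every prime of `𝓞 F` over `q` is unramified. -/
theorem inertia_le_fixingSubgroup_iff_ramificationIdx (F : IntermediateField ℚ Qbar)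
    [FiniteDimensional ℚ F] (q : Nat.Primes) :
    (∀ A : ValuationSubring Qbar, A.LiesOverPrime q →
        A.inertiaSubgroupIn ℚ ≤ F.fixingSubgroup) ↔
      ∀ P : Ideal (𝓞 F), P.IsPrime → ((q : ℕ) : 𝓞 F) ∈ P → P.ramificationIdx ℤ = 1 := by
  have hG : IsGalois ℚ (IntermediateField.normalClosure ℚ F Qbar) := isGalois_normalClosure F
  have hfd : FiniteDimensional ℚ (IntermediateField.normalClosure ℚ F Qbar) := inferInstance
  rw [inertia_le_fixingSubgroup_iff_of_le F (IntermediateField.normalClosure ℚ F Qbar)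
      F.le_normalClosure q.2,
    forall_inertia_fix_iff_ramificationIdx F (IntermediateField.normalClosure ℚ F Qbar)
      F.le_normalClosure q.2]

/-- **Theorem A**, packaged for `IsUnramifiedOutside`. -/
theorem isUnramifiedOutside_iff_ramificationIdx (F : IntermediateField ℚ Qbar)
    [FiniteDimensional ℚ F] (S : Finset Nat.Primes) :
    F.IsUnramifiedOutside S ↔
      ∀ q : Nat.Primes, q ∉ S → ∀ P : Ideal (𝓞 F), P.IsPrime → ((q : ℕ) : 𝓞 F) ∈ P →
        P.ramificationIdx ℤ = 1 := by
  constructor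
  · intro h q hq
    exact (inertia_le_fixingSubgroup_iff_ramificationIdx F q).mp (h.2 q hq)
  · intro h
    exact ⟨inferInstance, fun q hq =>
      (inertia_le_fixingSubgroup_iff_ramificationIdx F q).mpr (h q hq)⟩

/-- **Theorem A**, elementary form: `F` is unramified outside `S` iff for every `q ∉ S` and every
prime `P` of `𝓞 F` containing `q`, we have `q ∉ P ^ 2`. -/
theorem isUnramifiedOutside_iff_not_mem_sq (F : IntermediateField ℚ Qbar)
    [FiniteDimensional ℚ F] (S : Finset Nat.Primes) :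
    F.IsUnramifiedOutside S ↔
      ∀ q : Nat.Primes, q ∉ S → ∀ P : Ideal (𝓞 F), P.IsPrime → ((q : ℕ) : 𝓞 F) ∈ P →
        ((q : ℕ) : 𝓞 F) ∉ P ^ 2 := by
  rw [isUnramifiedOutside_iff_ramificationIdx]
  refine forall_congr' fun q => forall_congr' fun _ => forall_congr' fun P =>
    forall_congr' fun hP => forall_congr' fun hqP => ?_
  exact ramificationIdx_int_eq_one_iff_not_mem_sq P q.2 hqP

/-- **Theorem B.**  If `F'` is unramified outside `S` and `q ∉ S`, then every prime of `𝓞 F'`
over `q` is unramified over any ring `R` over which `𝓞 F'` is flat; in particular over `𝓞 F` for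
every subfield `F` of `F'`. -/
theorem ramificationIdx_eq_one_of_isUnramifiedOutside {F' : IntermediateField ℚ Qbar}
    {S : Finset Nat.Primes} (hF' : F'.IsUnramifiedOutside S) {q : Nat.Primes} (hq : q ∉ S)
    (R : Type*) [CommRing R] [Algebra R (𝓞 F')] [Module.Flat R (𝓞 F')] (P' : Ideal (𝓞 F'))
    [P'.IsPrime] (hqP' : ((q : ℕ) : 𝓞 F') ∈ P') : P'.ramificationIdx R = 1 := by
  have := hF'.1
  have h1 : P'.ramificationIdx ℤ = 1 :=
    (isUnramifiedOutside_iff_ramificationIdx F' S).mp hF' q hq P' inferInstance hqP'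
  have h2 : P'.ramificationIdx R ∣ P'.ramificationIdx ℤ :=
    Ideal.ramificationIdx_above_dvd (P'.under R) P'
  rw [h1] at h2
  exact Nat.dvd_one.mp h2

/-- **Theorem B** for the canonical algebra structure attached to `F ≤ F'`. -/
theorem ramificationIdx_eq_one_of_le {F F' : IntermediateField ℚ Qbar} (hFF' : F ≤ F')
    {S : Finset Nat.Primes} (hF' : F'.IsUnramifiedOutside S) {q : Nat.Primes} (hq : q ∉ S)
    (P' : Ideal (𝓞 F')) [P'.IsPrime] (hqP' : ((q : ℕ) : 𝓞 F') ∈ P') :
    letI := algebraOfLE hFF'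
    P'.ramificationIdx (𝓞 F) = 1 := by
  let _ := algebraOfLE hFF'
  have := hF'.1
  have : FiniteDimensional ℚ F := by
    have : FiniteDimensional F F' := Module.Finite.of_restrictScalars_finite ℚ F F'
    exact FiniteDimensional.left ℚ F F'
  exact ramificationIdx_eq_one_of_isUnramifiedOutside hF' hq (𝓞 F) P' hqP'

/-- **Theorem C.**  If `F` is unramified outside `S` and every prime of `𝓞 F'` not over `S` is
unramified over `𝓞 F` (for any flat algebra structure), then `F'` is unramified outside `S`. -/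
theorem isUnramifiedOutside_of_ramificationIdx_eq_one {F F' : IntermediateField ℚ Qbar}
    {S : Finset Nat.Primes} [FiniteDimensional ℚ F'] (hF : F.IsUnramifiedOutside S)
    [Algebra (𝓞 F) (𝓞 F')] [Module.Flat (𝓞 F) (𝓞 F')]
    (h : ∀ q : Nat.Primes, q ∉ S → ∀ P' : Ideal (𝓞 F'), P'.IsPrime → ((q : ℕ) : 𝓞 F') ∈ P' →
      P'.ramificationIdx (𝓞 F) = 1) :
    F'.IsUnramifiedOutside S := by
  have := hF.1
  rw [isUnramifiedOutside_iff_ramificationIdx]
  intro q hq P' hP' hqP'
  have h1 : (P'.under (𝓞 F)).ramificationIdx ℤ = 1 :=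
    (isUnramifiedOutside_iff_ramificationIdx F S).mp hF q hq _ inferInstance
      (by rw [Ideal.under_def, Ideal.mem_comap, map_natCast]; exact hqP')
  rw [Ideal.ramificationIdx_tower (P'.under (𝓞 F)) P', h1, h q hq P' hP' hqP']

/-- **Theorem C** for the canonical algebra structure attached to `F ≤ F'`. -/
theorem isUnramifiedOutside_of_le {F F' : IntermediateField ℚ Qbar} (hFF' : F ≤ F')
    {S : Finset Nat.Primes} [FiniteDimensional ℚ F'] (hF : F.IsUnramifiedOutside S)
    (h : letI := algebraOfLE hFF'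
      ∀ q : Nat.Primes, q ∉ S → ∀ P' : Ideal (𝓞 F'), P'.IsPrime → ((q : ℕ) : 𝓞 F') ∈ P' →
        P'.ramificationIdx (𝓞 F) = 1) :
    F'.IsUnramifiedOutside S := by
  let _ := algebraOfLE hFF'
  have := hF.1
  exact isUnramifiedOutside_of_ramificationIdx_eq_one hF h

end Concrete

end Fermat.Agent.Lib.CFT.Profinite.Bridge
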