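import Fermat.Agent.Lib.CFT.Profinite.CupLevel
import Fermat.Agent.Lib.CFT.Profinite.LevelLowDegree

/-!
# Cup products with classes of degree `0`

For a pairing `φ : A × B → C` and an invariant `b ∈ B^G`, the map `φ(·, b) : A ⟶ C` is a morphism
of representations and cup product with the class of `b` in `H⁰(B)` is the map induced by it.
Similarly on the left.
-/

set_option autoImplicit false
set_option linter.unusedSectionVars false

universe u

open CategoryTheory groupCohomology

namespace Fermat.Agent.Lib.CFT.Coh.Cup.Pairing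

variable {k G : Type u} [CommRing k] [Group G] {A B C : Rep.{u} k G} (φ : Pairing A B C)

/-- The morphism `φ(·, b) : A ⟶ C` attached to an invariant `b` of `B`. -/
noncomputable def evalRight (b : B.ρ.invariants) : A ⟶ C :=
  Rep.ofHom (LinearMap.intertwiningMap_of_isIntertwiningMap (ρ := A.ρ) (σ := C.ρ)
    (f := φ.toLin.flip b.1) (fun g a => by
      show φ.toLin (A.ρ g a) b.1 = C.ρ g (φ.toLin a b.1)
      rw [← φ.equivariant g a b.1, b.2 g]))

@[simp]
theorem evalRight_hom_apply (b : B.ρ.invariants) (a : A) :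
    (φ.evalRight b).hom a = φ.toLin a b.1 := rfl

/-- The morphism `φ(a, ·) : B ⟶ C` attached to an invariant `a` of `A`. -/
noncomputable def evalLeft (a : A.ρ.invariants) : B ⟶ C :=
  Rep.ofHom (LinearMap.intertwiningMap_of_isIntertwiningMap (ρ := B.ρ) (σ := C.ρ)
    (f := φ.toLin a.1) (fun g b => by
      show φ.toLin a.1 (B.ρ g b) = C.ρ g (φ.toLin a.1 b)
      rw [← φ.equivariant g a.1 b, a.2 g]))

@[simp]
theorem evalLeft_hom_apply (a : A.ρ.invariants) (b : B) :
    (φ.evalLeft a).hom b = φ.toLin a.1 b := rfl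

end Fermat.Agent.Lib.CFT.Coh.Cup.Pairing

namespace Fermat.Agent.Lib.CFT.Profinite

open Fermat.Agent.Lib.CFT.Coh.Cup Fermat.Agent.Lib.CFT.Coh.Elem ConcreteHomology

variable {k G : Type u} [CommRing k] [Group G]

namespace LevelFamily

variable (𝒰 : LevelFamily G) {A B C : Rep.{u} k G} (φ : Pairing A B C)

/-- The constant `0`-cochain attached to an invariant is a level cocycle. -/
theorem isLevelCocycle_const (M : Rep.{u} k G) (b : M.ρ.invariants) :
    𝒰.IsLevelCocycle M (fun _ : Fin 0 → G => b.1) :=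
  𝒰.isLevelCocycle_of_mem ((𝒰.mem_levelCocycles_zero_iff M _).mpr b.2)

theorem H0Equiv_symm_apply (M : Rep.{u} k G) (b : M.ρ.invariants) :
    (𝒰.H0Equiv M).symm b = 𝒰.cls (fun _ : Fin 0 → G => b.1) (𝒰.isLevelCocycle_const M b) := by
  rw [LinearEquiv.symm_apply_eq, cls_eq_classMk]
  apply Subtype.ext
  rw [H0Equiv_classMk]

/-- The cochain-level formula: cup product with a constant `0`-cochain on the right. -/
theorem cupTo_const_right {m : ℕ} (h : m + 0 = m) (b : B.ρ.invariants) (x : (Fin m → G) → A) :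
    cupTo φ h x (fun _ : Fin 0 → G => b.1) =
      ((cochainsMap (MonoidHom.id G) (φ.evalRight b)).f m).hom x := by
  funext g
  rw [cupTo_zero_right_apply, b.2]
  simp only [cochainsMap_f_hom, LinearMap.coe_comp, Function.comp_apply, LinearMap.funLeft_apply,
    LinearMap.compLeft_apply]
  rfl

/-- The cochain-level formula: cup product with a constant `0`-cochain on the left. -/
theorem cupTo_const_left {n : ℕ} (h : 0 + n = n) (a : A.ρ.invariants) (y : (Fin n → G) → B) :
    cupTo φ h (fun _ : Fin 0 → G => a.1) y =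
      ((cochainsMap (MonoidHom.id G) (φ.evalLeft a)).f n).hom y := by
  funext g
  rw [cupTo_zero_left_apply]
  simp only [cochainsMap_f_hom, LinearMap.coe_comp, Function.comp_apply, LinearMap.funLeft_apply,
    LinearMap.compLeft_apply]
  have e : (fun j : Fin n => g (Fin.cast h (Fin.natAdd 0 j))) = g := by
    funext j
    congr 1
    exact Fin.ext (by simp)
  rw [e]
  rfl

/-- Cup product with the class of an invariant on the right is the map induced by `φ(·, b)`. -/
theorem cupH_H0_right {m : ℕ} (h : m + 0 = m) (x : 𝒰.levelCohomology A m) (b : B.ρ.invariants) :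
    𝒰.cupH φ h x ((𝒰.H0Equiv B).symm b) = (𝒰.levelCohomologyMap (φ.evalRight b) m).hom x := by
  obtain ⟨a, ha, rfl⟩ := 𝒰.cls_surjective x
  rw [H0Equiv_symm_apply, cupH_cls]
  have := homologyMap_cls (𝒰 := 𝒰) (𝒰' := 𝒰) (MonoidHom.id G) 𝒰.isCompatible_id (φ.evalRight b) a ha
  refine Eq.trans ?_ this.symm
  exact 𝒰.cls_congr (cupTo_const_right φ h b a) _

/-- Cup product with the class of an invariant on the left is the map induced by `φ(a, ·)`. -/
theorem cupH_H0_left {n : ℕ} (h : 0 + n = n) (a : A.ρ.invariants) (y : 𝒰.levelCohomology B n) :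
    𝒰.cupH φ h ((𝒰.H0Equiv A).symm a) y = (𝒰.levelCohomologyMap (φ.evalLeft a) n).hom y := by
  obtain ⟨c, hc, rfl⟩ := 𝒰.cls_surjective y
  rw [H0Equiv_symm_apply, cupH_cls]
  have := homologyMap_cls (𝒰 := 𝒰) (𝒰' := 𝒰) (MonoidHom.id G) 𝒰.isCompatible_id (φ.evalLeft a) c hc
  refine Eq.trans ?_ this.symm
  exact 𝒰.cls_congr (cupTo_const_left φ h a c) _

end LevelFamily

end Fermat.Agent.Lib.CFT.Profinite
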