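import Fermat.Agent.Lib.CFT.Profinite.LevelLES
import Fermat.Agent.Lib.CFT.Coh.CupCochain
import Fermat.Agent.Lib.CFT.Coh.ElemHomology

/-!
# Cup products on level cohomology
-/

set_option autoImplicit false
set_option linter.unusedSectionVars false

universe u

open CategoryTheory groupCohomology

namespace Fermat.Agent.Lib.CFT.Profinite

open Fermat.Agent.Lib.CFT.Coh.Cup Fermat.Agent.Lib.CFT.Coh.Elem

variable {k G : Type u} [CommRing k] [Group G]

/-- For a normal subgroup `V`, multiplying the entries of a tuple on the right by elements of `V`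
changes the ordered product by an element of `V`. -/
theorem tupProd_mul_mem {V : Subgroup G} [hV : V.Normal] :
    ∀ {m : ℕ} (g s : Fin m → G), (∀ i, s i ∈ V) →
      (tupProd g)⁻¹ * tupProd (fun i => g i * s i) ∈ V := by
  intro m
  induction m with
  | zero =>
    intro g s _
    simp [tupProd]
  | succ m ih =>
    intro g s hs
    rw [tupProd_succ g, tupProd_succ (fun i => g i * s i)]
    have h1 := ih (fun i => g i.succ) (fun i => s i.succ) (fun i => hs _)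
    set t := tupProd (fun i : Fin m => g i.succ) with ht
    set t' := tupProd (fun i : Fin m => g i.succ * s i.succ) with ht'
    have : (g 0 * t)⁻¹ * (g 0 * s 0 * t') = (t⁻¹ * s 0 * t) * (t⁻¹ * t') := by group
    rw [this]
    exact V.mul_mem (hV.conj_mem' _ (hs 0) _) h1

namespace LevelFamily

variable {A B C : Rep.{u} k G} (φ : Pairing A B C)

theorem IsCochainOn.cupTo {V : Subgroup G} [hV : V.Normal] {m n l : ℕ} (h : m + n = l)
    {f : (Fin m → G) → A} {f' : (Fin n → G) → B}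
    (hf : IsCochainOn A V f) (hf' : IsCochainOn B V f') :
    IsCochainOn C V (cupTo φ h f f') := by
  refine ⟨fun g s hs => ?_, fun g s hs => ?_⟩
  · rw [cupTo_apply, cupTo_apply]
    have e1 := hf.1 (fun i => g (Fin.cast h (Fin.castAdd n i)))
      (fun i => s (Fin.cast h (Fin.castAdd n i))) (fun i => hs _)
    have e2 := hf'.1 (fun j => g (Fin.cast h (Fin.natAdd m j)))
      (fun j => s (Fin.cast h (Fin.natAdd m j))) (fun j => hs _)
    rw [e1, e2]
    congr 1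
    have hv := tupProd_mul_mem (V := V) (fun i => g (Fin.cast h (Fin.castAdd n i)))
      (fun i => s (Fin.cast h (Fin.castAdd n i))) (fun i => hs _)
    set t := tupProd (fun i => g (Fin.cast h (Fin.castAdd n i))) with ht
    set t' := tupProd (fun i => g (Fin.cast h (Fin.castAdd n i)) * s (Fin.cast h (Fin.castAdd n i)))
      with ht'
    have : t' = t * (t⁻¹ * t') := by group
    rw [this, map_mul, Module.End.mul_apply, hf'.2 _ _ hv]
  · rw [cupTo_apply]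
    rw [← φ.equivariant, hf.2 _ _ hs, ← Module.End.mul_apply, ← map_mul]
    set t := tupProd (fun i => g (Fin.cast h (Fin.castAdd n i))) with ht
    have : s * t = t * (t⁻¹ * s * t) := by group
    rw [this, map_mul, Module.End.mul_apply, hf'.2 _ _ (hV.conj_mem' _ hs _)]

variable (𝒰 : LevelFamily G)

theorem cupTo_mem_levelCochains {m n l : ℕ} (h : m + n = l)
    {f : (Fin m → G) → A} {f' : (Fin n → G) → B}
    (hf : f ∈ 𝒰.levelCochains A m) (hf' : f' ∈ 𝒰.levelCochains B n) :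
    cupTo φ h f f' ∈ 𝒰.levelCochains C l := by
  obtain ⟨U, hU, hc⟩ := hf
  obtain ⟨U', hU', hc'⟩ := hf'
  obtain ⟨W, hW, h1, h2, hn⟩ := 𝒰.exists_normal_le_inf hU hU'
  have := hn
  exact ⟨W, hW, IsCochainOn.cupTo φ h (hc.mono h1) (hc'.mono h2)⟩

/-! ### Classes of level cocycles -/

section classes

variable (M : Rep.{u} k G)

/-- A level cocycle: a level cochain killed by the differential. -/
def IsLevelCocycle {n : ℕ} (x : (Fin n → G) → M) : Prop :=
  x ∈ 𝒰.levelCochains M n ∧ (inhomogeneousCochains.d M n).hom x = 0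

variable {M}

theorem levelComplex_d_eq_zero {n : ℕ} {x : (Fin n → G) → M} (hx : 𝒰.IsLevelCocycle M x) :
    ((𝒰.levelComplex M).d n (n + 1)).hom (⟨x, hx.1⟩ : 𝒰.levelCochains M n) = 0 := by
  rw [levelComplex_d]
  apply Subtype.ext
  exact hx.2

/-- The class of a level cocycle in level cohomology. -/
noncomputable def cls {n : ℕ} (x : (Fin n → G) → M) (hx : 𝒰.IsLevelCocycle M x) :
    𝒰.levelCohomology M n :=
  mkH (𝒰.levelComplex M) n (⟨x, hx.1⟩ : 𝒰.levelCochains M n) (𝒰.levelComplex_d_eq_zero hx)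

theorem cls_surjective {n : ℕ} (a : 𝒰.levelCohomology M n) :
    ∃ (x : (Fin n → G) → M) (hx : 𝒰.IsLevelCocycle M x), 𝒰.cls x hx = a := by
  obtain ⟨x, hx, rfl⟩ := mkH_surjective (K := 𝒰.levelComplex M) a
  obtain ⟨x, hxm⟩ : ∃ x' : 𝒰.levelCochains M n, x' = x := ⟨x, rfl⟩
  subst hxm
  refine ⟨x.1, ⟨x.2, ?_⟩, rfl⟩
  have := congrArg Subtype.val hx
  rw [levelComplex_d] at this
  exact this

variable (M) in
/-- Being a level coboundary (in degree `0`: being zero). -/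
def IsLevelCobdry : {n : ℕ} → ((Fin n → G) → M) → Prop
  | 0, x => x = 0
  | n + 1, x => ∃ y ∈ 𝒰.levelCochains M n, (inhomogeneousCochains.d M n).hom y = x

theorem isLevelCobdry_zero (n : ℕ) : 𝒰.IsLevelCobdry M (0 : (Fin n → G) → M) := by
  cases n with
  | zero => rfl
  | succ n => exact ⟨0, Submodule.zero_mem _, by simp⟩

theorem IsLevelCobdry.add {n : ℕ} {x y : (Fin n → G) → M} (hx : 𝒰.IsLevelCobdry M x)
    (hy : 𝒰.IsLevelCobdry M y) : 𝒰.IsLevelCobdry M (x + y) := by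
  cases n with
  | zero =>
    have hx0 : x = 0 := hx
    have hy0 : y = 0 := hy
    rw [hx0, hy0, add_zero]
    rfl
  | succ n =>
    obtain ⟨w, hw, rfl⟩ := hx
    obtain ⟨w', hw', rfl⟩ := hy
    exact ⟨w + w', Submodule.add_mem _ hw hw', by rw [map_add]⟩

theorem isBdry_iff {n : ℕ} (x : 𝒰.levelCochains M n) :
    IsBdry (K := 𝒰.levelComplex M) n x ↔ 𝒰.IsLevelCobdry M x.1 := by
  cases n with
  | zero =>
    show x = 0 ↔ x.1 = 0
    exact Subtype.ext_iff
  | succ n =>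
    show (∃ y : 𝒰.levelCochains M n, ((𝒰.levelComplex M).d n (n + 1)).hom y = x) ↔ _
    rw [levelComplex_d]
    constructor
    · rintro ⟨y, hy⟩
      exact ⟨y.1, y.2, congrArg Subtype.val hy⟩
    · rintro ⟨y, hy, hxy⟩
      exact ⟨⟨y, hy⟩, Subtype.ext hxy⟩

theorem cls_eq_zero_iff {n : ℕ} (x : (Fin n → G) → M) (hx : 𝒰.IsLevelCocycle M x) :
    𝒰.cls x hx = 0 ↔ 𝒰.IsLevelCobdry M x :=
  (mkH_eq_zero_iff (K := 𝒰.levelComplex M) (⟨x, hx.1⟩ : 𝒰.levelCochains M n) _).trans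
    (𝒰.isBdry_iff ⟨x, hx.1⟩)

theorem IsLevelCocycle.add {n : ℕ} {x y : (Fin n → G) → M} (hx : 𝒰.IsLevelCocycle M x)
    (hy : 𝒰.IsLevelCocycle M y) : 𝒰.IsLevelCocycle M (x + y) :=
  ⟨Submodule.add_mem _ hx.1 hy.1, by rw [map_add, hx.2, hy.2, add_zero]⟩

theorem IsLevelCocycle.sub {n : ℕ} {x y : (Fin n → G) → M} (hx : 𝒰.IsLevelCocycle M x)
    (hy : 𝒰.IsLevelCocycle M y) : 𝒰.IsLevelCocycle M (x - y) :=
  ⟨Submodule.sub_mem _ hx.1 hy.1, by rw [map_sub, hx.2, hy.2, sub_zero]⟩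

theorem IsLevelCocycle.smul {n : ℕ} (r : k) {x : (Fin n → G) → M} (hx : 𝒰.IsLevelCocycle M x) :
    𝒰.IsLevelCocycle M (r • x) :=
  ⟨Submodule.smul_mem _ r hx.1, by rw [map_smul, hx.2, smul_zero]⟩

theorem isLevelCocycle_zero (n : ℕ) : 𝒰.IsLevelCocycle M (0 : (Fin n → G) → M) :=
  ⟨Submodule.zero_mem _, by simp⟩

theorem cls_add {n : ℕ} (x y : (Fin n → G) → M) (hx : 𝒰.IsLevelCocycle M x)
    (hy : 𝒰.IsLevelCocycle M y) :
    𝒰.cls (x + y) (hx.add 𝒰 hy) = 𝒰.cls x hx + 𝒰.cls y hy :=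
  mkH_add (K := 𝒰.levelComplex M) (⟨x, hx.1⟩ : 𝒰.levelCochains M n) ⟨y, hy.1⟩ _ _ _

theorem cls_smul {n : ℕ} (r : k) (x : (Fin n → G) → M) (hx : 𝒰.IsLevelCocycle M x) :
    𝒰.cls (r • x) (hx.smul 𝒰 r) = r • 𝒰.cls x hx :=
  mkH_smul (K := 𝒰.levelComplex M) r (⟨x, hx.1⟩ : 𝒰.levelCochains M n) _ _

theorem cls_congr {n : ℕ} {x y : (Fin n → G) → M} (h : x = y) (hx : 𝒰.IsLevelCocycle M x) :
    𝒰.cls x hx = 𝒰.cls y (h ▸ hx) := by
  subst h; rfl

theorem cls_eq_iff {n : ℕ} (x y : (Fin n → G) → M) (hx : 𝒰.IsLevelCocycle M x)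
    (hy : 𝒰.IsLevelCocycle M y) :
    𝒰.cls x hx = 𝒰.cls y hy ↔ 𝒰.IsLevelCobdry M (x - y) :=
  (mkH_eq_iff (K := 𝒰.levelComplex M) (⟨x, hx.1⟩ : 𝒰.levelCochains M n) ⟨y, hy.1⟩ _ _).trans
    (𝒰.isBdry_iff ((⟨x, hx.1⟩ : 𝒰.levelCochains M n) - ⟨y, hy.1⟩))

end classes

/-! ### The cup product on level cohomology -/

section cupH

variable {m n l : ℕ} (h : m + n = l)

theorem IsLevelCocycle.cupTo {x : (Fin m → G) → A} {y : (Fin n → G) → B}
    (hx : 𝒰.IsLevelCocycle A x) (hy : 𝒰.IsLevelCocycle B y) :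
    𝒰.IsLevelCocycle C (cupTo φ h x y) :=
  ⟨𝒰.cupTo_mem_levelCochains φ h hx.1 hy.1, by
    rw [d_cupTo, hx.2, hy.2, cupTo_zero_left, cupTo_zero_right, smul_zero, add_zero]⟩

theorem isLevelCobdry_cupTo_left {x : (Fin m → G) → A} {y : (Fin n → G) → B}
    (hx : 𝒰.IsLevelCobdry A x) (hy : 𝒰.IsLevelCocycle B y) :
    𝒰.IsLevelCobdry C (cupTo φ h x y) := by
  cases m with
  | zero =>
    have hx0 : x = 0 := hx
    rw [hx0, cupTo_zero_left]
    exact 𝒰.isLevelCobdry_zero l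
  | succ m =>
    obtain ⟨w, hw, rfl⟩ := hx
    obtain ⟨l, rfl⟩ : ∃ l', l = l' + 1 := ⟨l - 1, by omega⟩
    refine ⟨cupTo φ (show m + n = l by omega) w y,
      𝒰.cupTo_mem_levelCochains φ _ hw hy.1, ?_⟩
    rw [d_cupTo, hy.2, cupTo_zero_right, smul_zero, add_zero]

theorem isLevelCobdry_cupTo_right {x : (Fin m → G) → A} {y : (Fin n → G) → B}
    (hx : 𝒰.IsLevelCocycle A x) (hy : 𝒰.IsLevelCobdry B y) :
    𝒰.IsLevelCobdry C (cupTo φ h x y) := by
  cases n with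
  | zero =>
    have hy0 : y = 0 := hy
    rw [hy0, cupTo_zero_right]
    exact 𝒰.isLevelCobdry_zero l
  | succ n =>
    obtain ⟨w, hw, rfl⟩ := hy
    obtain ⟨l, rfl⟩ : ∃ l', l = l' + 1 := ⟨l - 1, by omega⟩
    refine ⟨(-1 : k) ^ m • cupTo φ (show m + n = l by omega) x w,
      Submodule.smul_mem _ _ (𝒰.cupTo_mem_levelCochains φ _ hx.1 hw), ?_⟩
    rw [map_smul, d_cupTo, hx.2, cupTo_zero_left, zero_add, smul_smul, ← pow_add, ← two_mul,
      pow_mul]
    simp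

/-- The cup product on level cohomology, as a function (see `cupH` for the bilinear map). -/
noncomputable def cupFun (a : 𝒰.levelCohomology A m) (b : 𝒰.levelCohomology B n) :
    𝒰.levelCohomology C l :=
  𝒰.cls (cupTo φ h (Classical.choose (𝒰.cls_surjective a)) (Classical.choose (𝒰.cls_surjective b)))
    (IsLevelCocycle.cupTo φ 𝒰 h (Classical.choose (Classical.choose_spec (𝒰.cls_surjective a)))
      (Classical.choose (Classical.choose_spec (𝒰.cls_surjective b))))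

theorem cupFun_cls {x : (Fin m → G) → A} {y : (Fin n → G) → B}
    (hx : 𝒰.IsLevelCocycle A x) (hy : 𝒰.IsLevelCocycle B y) :
    𝒰.cupFun φ h (𝒰.cls x hx) (𝒰.cls y hy) =
      𝒰.cls (cupTo φ h x y) (IsLevelCocycle.cupTo φ 𝒰 h hx hy) := by
  unfold cupFun
  set x' := Classical.choose (𝒰.cls_surjective (𝒰.cls x hx)) with hx'def
  set y' := Classical.choose (𝒰.cls_surjective (𝒰.cls y hy)) with hy'def
  have hx' : 𝒰.IsLevelCocycle A x' :=
    Classical.choose (Classical.choose_spec (𝒰.cls_surjective (𝒰.cls x hx)))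
  have hy' : 𝒰.IsLevelCocycle B y' :=
    Classical.choose (Classical.choose_spec (𝒰.cls_surjective (𝒰.cls y hy)))
  have ex : 𝒰.cls x' hx' = 𝒰.cls x hx :=
    Classical.choose_spec (Classical.choose_spec (𝒰.cls_surjective (𝒰.cls x hx)))
  have ey : 𝒰.cls y' hy' = 𝒰.cls y hy :=
    Classical.choose_spec (Classical.choose_spec (𝒰.cls_surjective (𝒰.cls y hy)))
  rw [cls_eq_iff] at ex ey ⊢
  have : cupTo φ h x' y' - cupTo φ h x y = cupTo φ h (x' - x) y' + cupTo φ h x (y' - y) := by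
    rw [cupTo_sub_left, cupTo_sub_right]
    abel
  rw [this]
  exact (𝒰.isLevelCobdry_cupTo_left φ h ex hy').add 𝒰 (𝒰.isLevelCobdry_cupTo_right φ h hx ey)

/-- The cup product on level cohomology
`Hᵐ_𝒰(G, A) × Hⁿ_𝒰(G, B) → Hˡ_𝒰(G, C)`, `l = m + n`, attached to a pairing `A × B → C`. -/
noncomputable def cupH :
    𝒰.levelCohomology A m →ₗ[k] 𝒰.levelCohomology B n →ₗ[k] 𝒰.levelCohomology C l :=
  LinearMap.mk₂ k (𝒰.cupFun φ h)
    (by
      intro a₁ a₂ b
      obtain ⟨x₁, hx₁, rfl⟩ := 𝒰.cls_surjective a₁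
      obtain ⟨x₂, hx₂, rfl⟩ := 𝒰.cls_surjective a₂
      obtain ⟨y, hy, rfl⟩ := 𝒰.cls_surjective b
      rw [← cls_add, cupFun_cls, cupFun_cls, cupFun_cls, ← cls_add]
      exact 𝒰.cls_congr (cupTo_add_left φ h x₁ x₂ y) _)
    (by
      intro r a b
      obtain ⟨x, hx, rfl⟩ := 𝒰.cls_surjective a
      obtain ⟨y, hy, rfl⟩ := 𝒰.cls_surjective b
      rw [← cls_smul, cupFun_cls, cupFun_cls, ← cls_smul]
      exact 𝒰.cls_congr (cupTo_smul_left φ h r x y) _)
    (by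
      intro a b₁ b₂
      obtain ⟨x, hx, rfl⟩ := 𝒰.cls_surjective a
      obtain ⟨y₁, hy₁, rfl⟩ := 𝒰.cls_surjective b₁
      obtain ⟨y₂, hy₂, rfl⟩ := 𝒰.cls_surjective b₂
      rw [← cls_add, cupFun_cls, cupFun_cls, cupFun_cls, ← cls_add]
      exact 𝒰.cls_congr (cupTo_add_right φ h x y₁ y₂) _)
    (by
      intro r a b
      obtain ⟨x, hx, rfl⟩ := 𝒰.cls_surjective a
      obtain ⟨y, hy, rfl⟩ := 𝒰.cls_surjective b
      rw [← cls_smul, cupFun_cls, cupFun_cls, ← cls_smul]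
      exact 𝒰.cls_congr (cupTo_smul_right φ h r x y) _)

theorem cupH_cls {x : (Fin m → G) → A} {y : (Fin n → G) → B}
    (hx : 𝒰.IsLevelCocycle A x) (hy : 𝒰.IsLevelCocycle B y) :
    𝒰.cupH φ h (𝒰.cls x hx) (𝒰.cls y hy) =
      𝒰.cls (cupTo φ h x y) (IsLevelCocycle.cupTo φ 𝒰 h hx hy) :=
  𝒰.cupFun_cls φ h hx hy

end cupH

end LevelFamily

end Fermat.Agent.Lib.CFT.Profinite
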