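import Fermat.Agent.Lib.CFT.Profinite.LevelLowDegree

/-!
# Level cohomology in degree one with trivial coefficients = level characters (P-CFT)

For a trivial `G`-module `M`, `H¹_𝒰(G, M)` is the module of additive characters `G → M` vanishing
on some level (`levelChars`), via `H1TrivEquiv`; functoriality under change of group and
coefficients (`H1TrivEquiv_map_apply`).
-/

set_option autoImplicit false

universe u

open CategoryTheory groupCohomology

namespace Fermat.Agent.Lib.CFT.Profinite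

namespace LevelFamily

open ConcreteHomology

variable {k G : Type u} [CommRing k] [Group G] (𝒰 : LevelFamily G)

section Trivial

variable (M : Rep.{u} k G) [M.IsTrivial]

/-- The level characters with values in a trivial module: additive characters of `G` vanishing on
some level. -/
def levelChars : Submodule k (Additive G →+ M.V) where
  carrier := {χ | ∃ U ∈ 𝒰.levels, ∀ s ∈ U, χ (Additive.ofMul s) = 0}
  add_mem' := by
    rintro χ χ' ⟨U, hU, h⟩ ⟨U', hU', h'⟩
    obtain ⟨W, hW, h1, h2, -⟩ := 𝒰.exists_normal_le_inf hU hU'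
    exact ⟨W, hW, fun s hs => by
      rw [AddMonoidHom.add_apply, h s (h1 hs), h' s (h2 hs), add_zero]⟩
  zero_mem' := by
    obtain ⟨U, hU⟩ := 𝒰.nonempty
    exact ⟨U, hU, fun _ _ => rfl⟩
  smul_mem' := by
    rintro c χ ⟨U, hU, h⟩
    exact ⟨U, hU, fun s hs => by rw [AddMonoidHom.smul_apply, h s hs, smul_zero]⟩

omit [M.IsTrivial] in
variable {𝒰 M} in
theorem mem_levelChars_iff {χ : Additive G →+ M.V} :
    χ ∈ 𝒰.levelChars M ↔ ∃ U ∈ 𝒰.levels, ∀ s ∈ U, χ (Additive.ofMul s) = 0 := Iff.rfl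

theorem isDiscrete_of_isTrivial : 𝒰.IsDiscrete M := by
  intro m
  obtain ⟨U, hU⟩ := 𝒰.nonempty
  exact ⟨U, hU, fun s _ => Representation.isTrivial_apply M.ρ s m⟩

/-- The comparison `H¹_𝒰(G, M) → Hom(G, M)` for a trivial module. -/
noncomputable def H1TrivHom : 𝒰.levelCohomology M 1 →ₗ[k] (Additive G →+ M.V) :=
  (H1IsoOfIsTrivial M).hom.hom ∘ₗ (𝒰.toGroupCohomology M 1).hom

theorem H1TrivHom_injective : Function.Injective (𝒰.H1TrivHom M) := by
  have h1 : Function.Injective (H1IsoOfIsTrivial M).hom.hom :=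
    (ModuleCat.mono_iff_injective _).1 inferInstance
  exact h1.comp (𝒰.toGroupCohomology_one_injective M)

theorem range_H1TrivHom : LinearMap.range (𝒰.H1TrivHom M) = 𝒰.levelChars M := by
  ext χ
  constructor
  · rintro ⟨x, rfl⟩
    obtain ⟨c, ⟨U, hU, hc⟩, hcx⟩ :=
      (𝒰.mem_range_toGroupCohomology_one_iff_of_isDiscrete M (𝒰.isDiscrete_of_isTrivial M) _).1
        ⟨x, rfl⟩
    refine ⟨U, hU, fun s hs => ?_⟩
    show (H1IsoOfIsTrivial M).hom.hom ((𝒰.toGroupCohomology M 1).hom x) (Additive.ofMul s) = 0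
    rw [← hcx]
    have h2 := H1IsoOfIsTrivial_H1π_apply_apply c (Additive.ofMul s)
    have h3 : c s = 0 := by
      have := hc 1 s hs
      rw [one_mul] at this
      rw [this]
      exact cocycles₁_map_one c
    exact h2.trans h3
  · rintro ⟨U, hU, hχ⟩
    let c : cocycles₁ M := (cocycles₁IsoOfIsTrivial M).inv.hom χ
    have hc : 𝒰.IsConst₁ (c : G → M) := by
      refine ⟨U, hU, fun g s hs => ?_⟩
      show χ (Additive.ofMul (g * s)) = χ (Additive.ofMul g)
      rw [ofMul_mul, map_add, hχ s hs, add_zero]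
    obtain ⟨x, hx⟩ :=
      (𝒰.mem_range_toGroupCohomology_one_iff_of_isDiscrete M (𝒰.isDiscrete_of_isTrivial M) _).2
        ⟨c, hc, rfl⟩
    refine ⟨x, ?_⟩
    show (H1IsoOfIsTrivial M).hom.hom ((𝒰.toGroupCohomology M 1).hom x) = χ
    rw [hx]
    ext a
    exact H1IsoOfIsTrivial_H1π_apply_apply c a

/-- Level cohomology in degree one of a trivial module is the module of level characters. -/
noncomputable def H1TrivEquiv : 𝒰.levelCohomology M 1 ≃ₗ[k] 𝒰.levelChars M :=
  (LinearEquiv.ofInjective (𝒰.H1TrivHom M) (𝒰.H1TrivHom_injective M)).trans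
    (LinearEquiv.ofEq _ _ (𝒰.range_H1TrivHom M))

theorem H1TrivEquiv_coe (x : 𝒰.levelCohomology M 1) :
    ((𝒰.H1TrivEquiv M x : 𝒰.levelChars M) : Additive G →+ M.V) = 𝒰.H1TrivHom M x := rfl

/-- The value of the level character attached to the class of a level `1`-cocycle. -/
theorem H1TrivEquiv_classMk_apply (σ : 𝒰.levelCocycles M 1) (g : G) :
    (𝒰.H1TrivEquiv M (𝒰.classMk M 1 σ) : Additive G →+ M.V) (Additive.ofMul g) =
      σ.1 (fun _ => g) := by
  rw [H1TrivEquiv_coe]
  show (H1IsoOfIsTrivial M).hom.hom ((𝒰.toGroupCohomology M 1).hom (𝒰.classMk M 1 σ))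
    (Additive.ofMul g) = _
  rw [toGroupCohomology_classMk]
  let c : cocycles₁ M := ⟨(cochainsIso₁ M).hom σ.1,
    cochainsIso₁_hom_mem_cocycles₁ M (𝒰.levelCocyclesToZ M 1 σ)⟩
  have hc : (H1π M).hom c = classOf (inhomogeneousCochains M) 1 (𝒰.levelCocyclesToZ M 1 σ) := by
    rw [H1π_eq_classOf]
    congr 1
    apply Subtype.ext
    show (cochainsIso₁ M).inv ((cochainsIso₁ M).hom σ.1) = σ.1
    exact congr($((cochainsIso₁ M).hom_inv_id) σ.1)
  rw [← hc]
  exact H1IsoOfIsTrivial_H1π_apply_apply c (Additive.ofMul g)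

/-- The class of a level character. -/
noncomputable def charClass (χ : 𝒰.levelChars M) : 𝒰.levelCohomology M 1 :=
  (𝒰.H1TrivEquiv M).symm χ

@[simp]
theorem H1TrivEquiv_charClass (χ : 𝒰.levelChars M) : 𝒰.H1TrivEquiv M (𝒰.charClass M χ) = χ :=
  (𝒰.H1TrivEquiv M).apply_symm_apply χ

@[simp]
theorem charClass_H1TrivEquiv (x : 𝒰.levelCohomology M 1) :
    𝒰.charClass M (𝒰.H1TrivEquiv M x) = x :=
  (𝒰.H1TrivEquiv M).symm_apply_apply x

end Trivial

section Functoriality

variable {G' : Type u} [Group G'] {𝒰} {𝒰' : LevelFamily G'}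
  {M : Rep.{u} k G} [M.IsTrivial] {M' : Rep.{u} k G'} [M'.IsTrivial]

/-- Functoriality of the level characters: the map induced on `H¹` by a compatible homomorphism
`f` and a morphism `φ` of trivial modules is `χ ↦ φ ∘ χ ∘ f`. -/
theorem H1TrivEquiv_map_apply (f : G' →* G) (hf : IsCompatible 𝒰' 𝒰 f) (φ : Rep.res f M ⟶ M')
    (x : 𝒰.levelCohomology M 1) (g' : G') :
    (𝒰'.H1TrivEquiv M' ((levelCohomologyMapOfHom f hf φ 1).hom x) : Additive G' →+ M'.V)
        (Additive.ofMul g') =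
      φ.hom ((𝒰.H1TrivEquiv M x : Additive G →+ M.V) (Additive.ofMul (f g'))) := by
  obtain ⟨σ, rfl⟩ := 𝒰.classMk_surjective M 1 x
  rw [levelCohomologyMapOfHom_classMk, H1TrivEquiv_classMk_apply, H1TrivEquiv_classMk_apply,
    levelCocyclesMap_coe]
  simp only [cochainsMap_f_hom, LinearMap.coe_comp, Function.comp_apply,
    LinearMap.funLeft_apply, LinearMap.compLeft_apply]
  rfl

end Functoriality

end LevelFamily

end Fermat.Agent.Lib.CFT.Profinite
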