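import Fermat.Agent.Lib.CFT.Profinite.CupNat
import Fermat.Agent.Lib.CFT.Coh.CupLow

/-!
# The cup product as a bilinear map on level cochains

`𝒰.cupL φ h : 𝒰.levelCochains A m →ₗ 𝒰.levelCochains B n →ₗ 𝒰.levelCochains C l` (`h : m + n = l`),
its Leibniz rule with respect to the differential of the level complex, its naturality under
`levelCochainsMap`, and the description of `cupH` on `ConcreteHomology.classOf`.
-/

set_option autoImplicit false
set_option linter.unusedSectionVars false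

universe u

open CategoryTheory groupCohomology

namespace Fermat.Agent.Lib.CFT.Profinite

open Fermat.Agent.Lib.CFT.Coh.Cup Fermat.Agent.Lib.CFT.Coh.Elem ConcreteHomology

variable {k G : Type u} [CommRing k] [Group G]

namespace LevelFamily

variable (𝒰 : LevelFamily G) {A B C : Rep.{u} k G} (φ : Pairing A B C)

section cupL

variable {m n l : ℕ} (h : m + n = l)

/-- The cup product of level cochains, as a bilinear map. -/
def cupL : 𝒰.levelCochains A m →ₗ[k] 𝒰.levelCochains B n →ₗ[k] 𝒰.levelCochains C l :=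
  LinearMap.mk₂ k
    (fun a b => ⟨cupTo φ h a.1 b.1, 𝒰.cupTo_mem_levelCochains φ h a.2 b.2⟩)
    (fun a a' b => Subtype.ext (cupTo_add_left φ h a.1 a'.1 b.1))
    (fun r a b => Subtype.ext (cupTo_smul_left φ h r a.1 b.1))
    (fun a b b' => Subtype.ext (cupTo_add_right φ h a.1 b.1 b'.1))
    (fun r a b => Subtype.ext (cupTo_smul_right φ h r a.1 b.1))

@[simp]
theorem cupL_coe (a : 𝒰.levelCochains A m) (b : 𝒰.levelCochains B n) :
    (𝒰.cupL φ h a b : (Fin l → G) → C) = cupTo φ h a.1 b.1 := rfl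

/-- The Leibniz rule on level cochains. -/
theorem d_cupL (a : 𝒰.levelCochains A m) (b : 𝒰.levelCochains B n) :
    ((𝒰.levelComplex C).d l (l + 1)).hom (𝒰.cupL φ h a b) =
      𝒰.cupL φ (show m + 1 + n = l + 1 by omega) (((𝒰.levelComplex A).d m (m + 1)).hom a) b +
        (-1 : k) ^ m • 𝒰.cupL φ (show m + (n + 1) = l + 1 by omega) a
          (((𝒰.levelComplex B).d n (n + 1)).hom b) := by
  rw [levelComplex_d, levelComplex_d, levelComplex_d]
  apply Subtype.ext
  exact d_cupTo φ h a.1 b.1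

end cupL

/-! ### Naturality -/

section naturality

variable {𝒰} {G' : Type u} [Group G'] {𝒰' : LevelFamily G'} {A' B' C' : Rep.{u} k G'}
  (f : G' →* G) (hf : IsCompatible 𝒰' 𝒰 f)

theorem levelCochainsMap_cupL (φ : Pairing A B C) (φ' : Pairing A' B' C')
    (α : Rep.res f A ⟶ A') (β : Rep.res f B ⟶ B') (γ : Rep.res f C ⟶ C')
    (hγ : ∀ (a : A) (b : B), γ.hom (φ.toLin a b) = φ'.toLin (α.hom a) (β.hom b))
    {m n l : ℕ} (h : m + n = l) (a : 𝒰.levelCochains A m) (b : 𝒰.levelCochains B n) :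
    ((levelCochainsMap f hf γ).f l).hom (𝒰.cupL φ h a b) =
      𝒰'.cupL φ' h (((levelCochainsMap f hf α).f m).hom a)
        (((levelCochainsMap f hf β).f n).hom b) := by
  apply Subtype.ext
  exact cupTo_map f φ φ' α β γ hγ h a.1 b.1

/-- Restriction along a compatible group homomorphism commutes with the cup product. -/
theorem levelCochainsMap_id_cupL (φ : Pairing A B C)
    {m n l : ℕ} (h : m + n = l) (a : 𝒰.levelCochains A m) (b : 𝒰.levelCochains B n) :
    ((levelCochainsMap f hf (𝟙 (Rep.res f C))).f l).hom (𝒰.cupL φ h a b) =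
      𝒰'.cupL (φ.res f) h (((levelCochainsMap f hf (𝟙 (Rep.res f A))).f m).hom a)
        (((levelCochainsMap f hf (𝟙 (Rep.res f B))).f n).hom b) :=
  levelCochainsMap_cupL f hf φ (φ.res f) (𝟙 _) (𝟙 _) (𝟙 _) (fun _ _ => rfl) h a b

end naturality

/-! ### Cocycles and classes -/

section classes

variable {M : Rep.{u} k G}

theorem mem_Z_iff_isLevelCocycle {n : ℕ} (x : 𝒰.levelCochains M n) :
    x ∈ Z (𝒰.levelComplex M) n ↔ 𝒰.IsLevelCocycle M x.1 := by
  rw [mem_Z_iff, levelComplex_d]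
  constructor
  · intro hx
    exact ⟨x.2, congr_arg Subtype.val hx⟩
  · intro hx
    exact Subtype.ext hx.2

theorem isLevelCocycle_of_mem_Z {n : ℕ} (x : Z (𝒰.levelComplex M) n) :
    𝒰.IsLevelCocycle M (x.1 : 𝒰.levelCochains M n).1 :=
  (𝒰.mem_Z_iff_isLevelCocycle x.1).1 x.2

/-- `classOf` in terms of `cls`. -/
theorem classOf_eq_cls {n : ℕ} (x : Z (𝒰.levelComplex M) n) :
    classOf (𝒰.levelComplex M) n x =
      𝒰.cls (x.1 : 𝒰.levelCochains M n).1 (𝒰.isLevelCocycle_of_mem_Z x) := by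
  rw [cls_eq_classMk]
  rfl

/-- `cls` in terms of `classOf`. -/
theorem cls_eq_classOf {n : ℕ} (x : (Fin n → G) → M) (hx : 𝒰.IsLevelCocycle M x) :
    𝒰.cls x hx = classOf (𝒰.levelComplex M) n
      ⟨(⟨x, hx.1⟩ : 𝒰.levelCochains M n), (𝒰.mem_Z_iff_isLevelCocycle ⟨x, hx.1⟩).2 hx⟩ := by
  rw [classOf_eq_cls]

variable {m n l : ℕ} (h : m + n = l)

theorem cupL_mem_Z {a : 𝒰.levelCochains A m} {b : 𝒰.levelCochains B n}
    (ha : a ∈ Z (𝒰.levelComplex A) m) (hb : b ∈ Z (𝒰.levelComplex B) n) :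
    𝒰.cupL φ h a b ∈ Z (𝒰.levelComplex C) l := by
  rw [mem_Z_iff_isLevelCocycle] at ha hb ⊢
  exact IsLevelCocycle.cupTo φ 𝒰 h ha hb

/-- The cup product on level cohomology in terms of `classOf`. -/
theorem cupH_classOf (a : Z (𝒰.levelComplex A) m) (b : Z (𝒰.levelComplex B) n) :
    𝒰.cupH φ h (classOf (𝒰.levelComplex A) m a) (classOf (𝒰.levelComplex B) n b) =
      classOf (𝒰.levelComplex C) l ⟨𝒰.cupL φ h a.1 b.1, 𝒰.cupL_mem_Z φ h a.2 b.2⟩ := by
  rw [classOf_eq_cls, classOf_eq_cls, classOf_eq_cls, cupH_cls]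
  rfl

end classes

end LevelFamily

end Fermat.Agent.Lib.CFT.Profinite
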