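import Fermat.Agent.Lib.CFT.Profinite.CdBound
import Fermat.Agent.Lib.CFT.Profinite.Cores

/-!
# P-CFT Profinite/CdBound, part B: the Sylow criterion

Let `𝒰` be a level family on `G` and `p` a prime.  Restriction to open subgroups of index
prime to `p` is injective on degree-`n` level cohomology of discrete `𝔽_p`-modules
(`LES.res_injective_of_not_dvd`, helper35's `Cores.lean`).  Hence

* if `Hⁿ(W, 𝔽_p) = 0` for all open subgroups `W`, then `Hⁿ(G, M) = 0` for every finite discrete
  `𝔽_p[G]`-module `M`;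
* if `Hⁿ(W, 𝔽_p)` is finite for all open subgroups `W`, then `Hⁿ(G, M)` is finite for every
  finite discrete `𝔽_p[G]`-module `M`.
-/

set_option autoImplicit false

open CategoryTheory

namespace Fermat.Agent.Lib.CFT.Profinite

namespace CdBound

open LevelFamily LES

variable {p : ℕ} [Fact p.Prime] {G : Type} [Group G] {𝒰 : LevelFamily G}

/-- A finite discrete module is killed by a normal level. -/
theorem exists_normal_level_acting_trivially (M : Rep.{0} (ZMod p) G) [Module.Finite (ZMod p) M]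
    (hM : 𝒰.IsDiscrete M) :
    ∃ U ∈ 𝒰.levels, U.Normal ∧ ∀ s ∈ U, ∀ m : M, M.ρ s m = m := by
  haveI : Finite M := Module.finite_of_finite (ZMod p)
  choose U hU hfix using hM
  obtain ⟨W, hW, hn, hle⟩ := 𝒰.exists_normal_le_of_finite U hU
  exact ⟨W, hW, hn, fun s hs m => hfix m s (hle m hs)⟩

/-- The Sylow step: a finite discrete `𝔽_p[G]`-module, restricted to a suitable open subgroup `W`
of index prime to `p`, is killed by a normal level of `W` with `p`-group quotient. -/
theorem exists_sylow_open (M : Rep.{0} (ZMod p) G) [Module.Finite (ZMod p) M]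
    (hM : 𝒰.IsDiscrete M) :
    ∃ W : Subgroup G, IsOpenSubgroup 𝒰 W ∧ ¬ p ∣ W.index ∧
      ∃ U' : Subgroup W, U' ∈ (restrict 𝒰 W).levels ∧ ∃ _ : U'.Normal, IsPGroup p (W ⧸ U') ∧
        ∀ s ∈ U', ∀ m : Rep.res W.subtype M, (Rep.res W.subtype M).ρ s m = m := by
  obtain ⟨U, hU, hn, hfix⟩ := exists_normal_level_acting_trivially M hM
  haveI := hn
  haveI : U.FiniteIndex := 𝒰.finiteIndex U hU
  haveI : Finite (G ⧸ U) := Subgroup.finite_quotient_of_finiteIndex
  obtain ⟨P⟩ : Nonempty (Sylow p (G ⧸ U)) := inferInstance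
  set W : Subgroup G := (P : Subgroup (G ⧸ U)).comap (QuotientGroup.mk' U) with hW
  have hUW : U ≤ W := by
    intro u hu
    rw [hW, Subgroup.mem_comap]
    have : QuotientGroup.mk' U u = 1 := (QuotientGroup.eq_one_iff u).2 hu
    rw [this]
    exact one_mem _
  have hidx : ¬ p ∣ W.index := by
    rw [hW, Subgroup.index_comap_of_surjective _ (QuotientGroup.mk'_surjective U)]
    exact P.not_dvd_index
  refine ⟨W, ⟨U, hU, hUW⟩, hidx, U.comap W.subtype, comap_mem_comap_levels _ hU,
    hn.comap W.subtype, ?_, ?_⟩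
  · -- `W ⧸ (U ∩ W)` embeds into the Sylow subgroup `P`
    haveI : (U.comap W.subtype).Normal := hn.comap W.subtype
    let φ : W →* (P : Subgroup (G ⧸ U)) :=
      { toFun := fun w => ⟨QuotientGroup.mk' U w, w.2⟩
        map_one' := rfl
        map_mul' := fun a b => rfl }
    have hker : U.comap W.subtype ≤ φ.ker := by
      intro w hw
      rw [MonoidHom.mem_ker]
      apply Subtype.ext
      exact (QuotientGroup.eq_one_iff (w : G)).2 hw
    refine P.isPGroup'.of_injective (QuotientGroup.lift (U.comap W.subtype) φ hker) ?_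
    rw [injective_iff_map_eq_one]
    intro q hq
    obtain ⟨w, rfl⟩ := QuotientGroup.mk_surjective q
    rw [QuotientGroup.lift_mk] at hq
    have h1 : QuotientGroup.mk' U (w : G) = 1 := congrArg Subtype.val hq
    have h2 : (w : G) ∈ U := (QuotientGroup.eq_one_iff (w : G)).1 h1
    exact (QuotientGroup.eq_one_iff w).2 h2
  · intro s hs m
    exact hfix (s : G) hs m

/-- **Criterion for vanishing.**  If `Hⁿ(W, 𝔽_p) = 0` for every open subgroup `W`, then `Hⁿ(G, M) = 0` for every
finite discrete `𝔽_p[G]`-module `M`. -/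
theorem subsingleton_levelCohomology_of_forall_open (n : ℕ)
    (h : ∀ W : Subgroup G, IsOpenSubgroup 𝒰 W →
      Subsingleton ((restrict 𝒰 W).levelCohomology (Rep.trivial (ZMod p) W (ZMod p)) n))
    (M : Rep.{0} (ZMod p) G) [Module.Finite (ZMod p) M] (hM : 𝒰.IsDiscrete M) :
    Subsingleton (𝒰.levelCohomology M n) := by
  obtain ⟨W, hWo, hidx, U', hU', hn', hpg, hfix⟩ := exists_sylow_open M hM
  haveI := hn'
  haveI : Module.Finite (ZMod p) (Rep.res W.subtype M) := ‹Module.Finite (ZMod p) M›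
  haveI := subsingleton_levelCohomology_of_pGroup (restrict 𝒰 W) hU' hpg n (h W hWo)
    (Rep.res W.subtype M) hfix
  exact (res_injective_of_not_dvd hWo hM n hidx).subsingleton

/-- **Criterion for finiteness.**  If `Hⁿ(W, 𝔽_p)` is finite for every open subgroup `W`, then `Hⁿ(G, M)` is
finite for every finite discrete `𝔽_p[G]`-module `M`. -/
theorem finite_levelCohomology_of_forall_open (n : ℕ)
    (h : ∀ W : Subgroup G, IsOpenSubgroup 𝒰 W →
      Module.Finite (ZMod p) ((restrict 𝒰 W).levelCohomology (Rep.trivial (ZMod p) W (ZMod p)) n))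
    (M : Rep.{0} (ZMod p) G) [Module.Finite (ZMod p) M] (hM : 𝒰.IsDiscrete M) :
    Module.Finite (ZMod p) (𝒰.levelCohomology M n) := by
  obtain ⟨W, hWo, hidx, U', hU', hn', hpg, hfix⟩ := exists_sylow_open M hM
  haveI := hn'
  haveI : Module.Finite (ZMod p) (Rep.res W.subtype M) := ‹Module.Finite (ZMod p) M›
  haveI := finite_levelCohomology_of_pGroup (restrict 𝒰 W) hU' hpg n (h W hWo)
    (Rep.res W.subtype M) hfix
  haveI : IsNoetherian (ZMod p)
      ((restrict 𝒰 W).levelCohomology (Rep.res W.subtype M) n) :=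
    isNoetherian_of_isNoetherianRing_of_finite _ _
  exact Module.Finite.of_injective (LES.res 𝒰 W M n).hom (res_injective_of_not_dvd hWo hM n hidx)

/-! ### Variant relative to a normal open subgroup `G₁` of index prime to `p`

Here the trivial-coefficient hypothesis is only required for open subgroups contained in `G₁`
(for Galois groups: for fields containing the fixed field of `G₁`, e.g. `ℚ(ζ_p)`). -/

/-- The preimage of a `p`-subgroup of `G ⧸ U` lies in any normal subgroup `G₁ ≥ U` of index prime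
to `p`. -/
theorem comap_le_of_isPGroup {U G₁ : Subgroup G} [U.Normal] [G₁.Normal] (hUG : U ≤ G₁)
    (hidx : ¬ p ∣ G₁.index) (P : Subgroup (G ⧸ U)) (hP : IsPGroup p P) :
    P.comap (QuotientGroup.mk' U) ≤ G₁ := by
  intro x hx
  rw [Subgroup.mem_comap] at hx
  obtain ⟨k, hk⟩ := hP ⟨QuotientGroup.mk' U x, hx⟩
  have h1 : QuotientGroup.mk' U (x ^ p ^ k) = 1 := by
    have := congrArg Subtype.val hk
    simpa using this
  have h2 : x ^ p ^ k ∈ G₁ := hUG ((QuotientGroup.eq_one_iff _).1 h1)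
  have h3 : (QuotientGroup.mk' G₁ x) ^ p ^ k = 1 := by
    rw [← map_pow]
    exact (QuotientGroup.eq_one_iff _).2 h2
  have h4 : (QuotientGroup.mk' G₁ x) ^ G₁.index = 1 := by
    rw [← map_pow]
    exact (QuotientGroup.eq_one_iff _).2 (G₁.pow_index_mem x)
  have hcop : (p ^ k).gcd G₁.index = 1 :=
    Nat.Coprime.pow_left k ((Nat.Prime.coprime_iff_not_dvd Fact.out).2 hidx)
  have h5 : (QuotientGroup.mk' G₁ x) ^ (p ^ k).gcd G₁.index = 1 := pow_gcd_eq_one.2 ⟨h3, h4⟩
  rw [hcop, pow_one] at h5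
  exact (QuotientGroup.eq_one_iff _).1 h5

/-- The Sylow step relative to `G₁`: the open subgroup `W` can be chosen inside `G₁`. -/
theorem exists_sylow_open_le (G₁ : Subgroup G) [G₁.Normal] (hG₁ : IsOpenSubgroup 𝒰 G₁)
    (hidx₁ : ¬ p ∣ G₁.index) (M : Rep.{0} (ZMod p) G) [Module.Finite (ZMod p) M]
    (hM : 𝒰.IsDiscrete M) :
    ∃ W : Subgroup G, W ≤ G₁ ∧ IsOpenSubgroup 𝒰 W ∧ ¬ p ∣ W.index ∧
      ∃ U' : Subgroup W, U' ∈ (restrict 𝒰 W).levels ∧ ∃ _ : U'.Normal, IsPGroup p (W ⧸ U') ∧
        ∀ s ∈ U', ∀ m : Rep.res W.subtype M, (Rep.res W.subtype M).ρ s m = m := by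
  obtain ⟨U₀, hU₀, hn₀, hfix₀⟩ := exists_normal_level_acting_trivially M hM
  obtain ⟨U₁, hU₁, hU₁G⟩ := hG₁
  obtain ⟨U, hU, hUU₀, hUU₁, hn⟩ := 𝒰.exists_normal_le_inf hU₀ hU₁
  have hfix : ∀ s ∈ U, ∀ m : M, M.ρ s m = m := fun s hs m => hfix₀ s (hUU₀ hs) m
  haveI := hn
  haveI : U.FiniteIndex := 𝒰.finiteIndex U hU
  haveI : Finite (G ⧸ U) := Subgroup.finite_quotient_of_finiteIndex
  obtain ⟨P⟩ : Nonempty (Sylow p (G ⧸ U)) := inferInstance
  set W : Subgroup G := (P : Subgroup (G ⧸ U)).comap (QuotientGroup.mk' U) with hW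
  have hUW : U ≤ W := by
    intro u hu
    rw [hW, Subgroup.mem_comap]
    have : QuotientGroup.mk' U u = 1 := (QuotientGroup.eq_one_iff u).2 hu
    rw [this]
    exact one_mem _
  have hidx : ¬ p ∣ W.index := by
    rw [hW, Subgroup.index_comap_of_surjective _ (QuotientGroup.mk'_surjective U)]
    exact P.not_dvd_index
  refine ⟨W, comap_le_of_isPGroup (hUU₁.trans hU₁G) hidx₁ _ P.isPGroup', ⟨U, hU, hUW⟩, hidx,
    U.comap W.subtype, comap_mem_comap_levels _ hU, hn.comap W.subtype, ?_, ?_⟩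
  · haveI : (U.comap W.subtype).Normal := hn.comap W.subtype
    let φ : W →* (P : Subgroup (G ⧸ U)) :=
      { toFun := fun w => ⟨QuotientGroup.mk' U w, w.2⟩
        map_one' := rfl
        map_mul' := fun a b => rfl }
    have hker : U.comap W.subtype ≤ φ.ker := by
      intro w hw
      rw [MonoidHom.mem_ker]
      apply Subtype.ext
      exact (QuotientGroup.eq_one_iff (w : G)).2 hw
    refine P.isPGroup'.of_injective (QuotientGroup.lift (U.comap W.subtype) φ hker) ?_
    rw [injective_iff_map_eq_one]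
    intro q hq
    obtain ⟨w, rfl⟩ := QuotientGroup.mk_surjective q
    rw [QuotientGroup.lift_mk] at hq
    have h1 : QuotientGroup.mk' U (w : G) = 1 := congrArg Subtype.val hq
    have h2 : (w : G) ∈ U := (QuotientGroup.eq_one_iff (w : G)).1 h1
    exact (QuotientGroup.eq_one_iff w).2 h2
  · intro s hs m
    exact hfix (s : G) hs m

/-- **(CD1)**  Vanishing criterion relative to a normal open subgroup `G₁` of index prime to `p`:
if `Hⁿ(W, 𝔽_p) = 0` for every open subgroup `W ≤ G₁`, then `Hⁿ(G, M) = 0` for every finite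
discrete `𝔽_p[G]`-module `M`. -/
theorem levelCohomology_eq_zero_of_trivial (n : ℕ)
    (G₁ : Subgroup G) [G₁.Normal] (hG₁ : IsOpenSubgroup 𝒰 G₁) (hidx₁ : ¬ p ∣ G₁.index)
    (hbase : ∀ W : Subgroup G, W ≤ G₁ → IsOpenSubgroup 𝒰 W →
      Subsingleton ((restrict 𝒰 W).levelCohomology (Rep.trivial (ZMod p) W (ZMod p)) n))
    (M : Rep.{0} (ZMod p) G) [Module.Finite (ZMod p) M] (hM : 𝒰.IsDiscrete M) :
    Subsingleton (𝒰.levelCohomology M n) := by
  obtain ⟨W, hWG, hWo, hidx, U', hU', hn', hpg, hfix⟩ := exists_sylow_open_le G₁ hG₁ hidx₁ M hM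
  haveI := hn'
  haveI : Module.Finite (ZMod p) (Rep.res W.subtype M) := ‹Module.Finite (ZMod p) M›
  haveI := subsingleton_levelCohomology_of_pGroup (restrict 𝒰 W) hU' hpg n (hbase W hWG hWo)
    (Rep.res W.subtype M) hfix
  exact (res_injective_of_not_dvd hWo hM n hidx).subsingleton

/-- **(CD2)**  Finiteness criterion relative to a normal open subgroup `G₁` of index prime to
`p`: if `Hⁿ(W, 𝔽_p)` is finite for every open subgroup `W ≤ G₁`, then `Hⁿ(G, M)` is finite for
every finite discrete `𝔽_p[G]`-module `M`. -/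
theorem levelCohomology_finite_of_trivial (n : ℕ)
    (G₁ : Subgroup G) [G₁.Normal] (hG₁ : IsOpenSubgroup 𝒰 G₁) (hidx₁ : ¬ p ∣ G₁.index)
    (hbase : ∀ W : Subgroup G, W ≤ G₁ → IsOpenSubgroup 𝒰 W →
      Module.Finite (ZMod p)
        ((restrict 𝒰 W).levelCohomology (Rep.trivial (ZMod p) W (ZMod p)) n))
    (M : Rep.{0} (ZMod p) G) [Module.Finite (ZMod p) M] (hM : 𝒰.IsDiscrete M) :
    Module.Finite (ZMod p) (𝒰.levelCohomology M n) := by
  obtain ⟨W, hWG, hWo, hidx, U', hU', hn', hpg, hfix⟩ := exists_sylow_open_le G₁ hG₁ hidx₁ M hM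
  haveI := hn'
  haveI : Module.Finite (ZMod p) (Rep.res W.subtype M) := ‹Module.Finite (ZMod p) M›
  haveI := finite_levelCohomology_of_pGroup (restrict 𝒰 W) hU' hpg n (hbase W hWG hWo)
    (Rep.res W.subtype M) hfix
  haveI : IsNoetherian (ZMod p)
      ((restrict 𝒰 W).levelCohomology (Rep.res W.subtype M) n) :=
    isNoetherian_of_isNoetherianRing_of_finite _ _
  exact Module.Finite.of_injective (LES.res 𝒰 W M n).hom (res_injective_of_not_dvd hWo hM n hidx)

end CdBound

end Fermat.Agent.Lib.CFT.Profinite
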