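import Fermat.Agent.Lib.CFT.Profinite.ShapiroT
import Fermat.Agent.Lib.CFT.Profinite.LevelLowDegree

/-!
# Mackey decomposition and conjugation for the cone of multiplication by `p`
(P-CFT, Profinite/MackeyT)

* `KpFunctor`, `TFunctor`: the cone of multiplication by `p` and its cohomology as additive
  functors of the module;
* `mackeyMapT`, `mackeyT_bijective`: Mackey decomposition for `T`;
* `conjMapT_eq_id`: inner automorphisms act trivially on `T`;
* `mackeyMapT_comp`, `mackeyMapT_naturality`.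
-/

set_option autoImplicit false

universe u

open CategoryTheory groupCohomology

namespace Fermat.Agent.Lib.CFT.Profinite.LES

open LevelFamily Fermat.Agent.Lib.CFT.Duality Fermat.Agent.Lib.CFT.Duality.KCalc ConcreteHomology
  HomologicalComplex

variable {k : Type u} [CommRing k]

/-! ### `Kp` and `T` as additive functors -/

section Functors

variable {G : Type u} [Group G] (𝒰 : LevelFamily G) (p : ℕ)

/-- The cone of multiplication by `p` on level cochains, as a functor of the module. -/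
noncomputable def KpFunctor : Rep.{u} k G ⥤ CochainComplex (ModuleCat.{u} k) ℕ where
  obj X := Kp 𝒰 p X
  map f := KpMap 𝒰 p f
  map_id _ := KpMap_id 𝒰 p
  map_comp f g := KpMap_comp 𝒰 p f g

instance : (KpFunctor (k := k) 𝒰 p).Additive where
  map_add {X Y f g} := by
    show KpMap 𝒰 p (f + g) = KpMap 𝒰 p f + KpMap 𝒰 p g
    exact natCone.hom_ext _ (fun _ _ => rfl) (fun _ _ => rfl)

/-- The cohomology of the cone of multiplication by `p`, as a functor of the module. -/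
noncomputable def TFunctor (r : ℕ) : Rep.{u} k G ⥤ ModuleCat.{u} k :=
  KpFunctor 𝒰 p ⋙ HomologicalComplex.homologyFunctor _ _ r

instance (r : ℕ) : (TFunctor (k := k) 𝒰 p r).Additive := by
  unfold TFunctor
  infer_instance

theorem TFunctor_map_hom {X Y : Rep.{u} k G} (f : X ⟶ Y) (r : ℕ) :
    ((TFunctor 𝒰 p r).map f).hom = TMap 𝒰 p f r := rfl

end Functors

/-! ### The Mackey maps on `T` -/

section MackeyT

variable {G H : Type u} [Group G] [Group H] {𝒰 : LevelFamily G} {𝒱 : LevelFamily H} (p : ℕ)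
  (φ : H →* G) (V : Subgroup G) (A : Rep.{u} k V)

/-- The Mackey map on `T`: restriction to the stabiliser of the coset `V g`, followed by
evaluation at `g`. -/
noncomputable def mackeyMapT (𝒱 : LevelFamily H) (g : G) (r : ℕ) :
    T 𝒱 p (Rep.res φ (Rep.coind V.subtype A)) r →ₗ[k]
      T (restrict 𝒱 (mackeyStab φ V g)) p (mackeyTwist φ V A g) r :=
  TMapOfHom 𝒱 p (restrict 𝒱 (mackeyStab φ V g)) (mackeyStab φ V g).subtype
    (isCompatible_comap 𝒱 (mackeyStab φ V g).subtype) (mackeyEval φ V A g) r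

theorem mackeyMapT_eq (g : G) (r : ℕ) (t : T 𝒱 p (Rep.res φ (Rep.coind V.subtype A)) r) :
    mackeyMapT p φ V A 𝒱 g r t =
      shapiroT 𝒱 p (mackeyStab φ V g) (mackeyTwist φ V A g) r
        (TMap 𝒱 p (mackeyProj φ V A g) r t) := by
  rw [TMap_eq_TMapOfHom, shapiroT, ← TMapOfHom_comp, mackeyMapT]
  refine congr_fun (congr_arg DFunLike.coe (TMapOfHom_congr 𝒱 _ p _ rfl _ _ ?_ r)) t
  have := mackeyProj_comp_coindEval φ V A g
  exact congrArg (fun f => f.hom.toLinearMap) this.symm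

theorem toH_mackeyMapT (g : G) (r : ℕ) (t : T 𝒱 p (Rep.res φ (Rep.coind V.subtype A)) r) :
    toH (restrict 𝒱 (mackeyStab φ V g)) p (mackeyTwist φ V A g) r (mackeyMapT p φ V A 𝒱 g r t) =
      (mackeyMap φ V A 𝒱 g r).hom (toH 𝒱 p (Rep.res φ (Rep.coind V.subtype A)) r t) :=
  toH_TMapOfHom 𝒱 p (restrict 𝒱 (mackeyStab φ V g)) (mackeyStab φ V g).subtype
    (isCompatible_comap 𝒱 (mackeyStab φ V g).subtype) (mackeyEval φ V A g) r t

theorem mackeyMapT_ofH (g : G) (r : ℕ)
    (y : 𝒱.levelCohomology (Rep.res φ (Rep.coind V.subtype A)) r) :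
    mackeyMapT p φ V A 𝒱 g (r + 1) (ofH 𝒱 p (Rep.res φ (Rep.coind V.subtype A)) r y) =
      ofH (restrict 𝒱 (mackeyStab φ V g)) p (mackeyTwist φ V A g) r
        ((mackeyMap φ V A 𝒱 g r).hom y) :=
  TMapOfHom_ofH 𝒱 p (restrict 𝒱 (mackeyStab φ V g)) (mackeyStab φ V g).subtype
    (isCompatible_comap 𝒱 (mackeyStab φ V g).subtype) (mackeyEval φ V A g) r y

variable {φ V A}

/-- **Mackey decomposition for `T`**: for a finite system of representatives `r` of the double
cosets `V \ G / φ(H)`, the Mackey maps identify `T^n(H, res φ (coind A))` with the product of the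
`T^n(mackeyStab (r i), A)`. -/
theorem mackeyT_bijective (hφ : IsCompatible 𝒱 𝒰 φ) (hV : IsOpenSubgroup 𝒰 V)
    (hA : (restrict 𝒰 V).IsDiscrete A) {ι : Type*} [Finite ι] (r : ι → G)
    (hcover : ∀ x : G, ∃ i, InDoset φ V (r i) x)
    (hdisj : ∀ i j, InDoset φ V (r i) (r j) → i = j) (n : ℕ) :
    Function.Bijective (fun (t : T 𝒱 p (Rep.res φ (Rep.coind V.subtype A)) n)
      (i : ι) => mackeyMapT p φ V A 𝒱 (r i) n t) := by
  classical
  have := Fintype.ofFinite ι
  have hb1 := bijective_of_projectors (TFunctor (k := k) 𝒱 p n)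
    (fun i => mackeyProj φ V A (r i)) (fun i => mackeyExt φ V A (r i))
    (fun i => mackeyExt_comp_mackeyProj φ V A (r i))
    (fun i j hij => mackeyExt_comp_mackeyProj_of_not φ V A (fun h => hij (hdisj i j h)))
    (sum_mackeyProj_comp_mackeyExt φ V A r hcover hdisj)
  have hb2 : Function.Bijective (Pi.map (fun i =>
      ⇑(shapiroT 𝒱 p (mackeyStab φ V (r i)) (mackeyTwist φ V A (r i)) n))) :=
    Function.Bijective.piMap (fun i => shapiroT_bijective p
      (isOpenSubgroup_mackeyStab hφ hV (r i)) _ (isDiscrete_mackeyTwist hφ hA (r i)) n)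
  have hfun : (fun (t : T 𝒱 p (Rep.res φ (Rep.coind V.subtype A)) n)
      (i : ι) => mackeyMapT p φ V A 𝒱 (r i) n t) =
      (Pi.map (fun i => ⇑(shapiroT 𝒱 p (mackeyStab φ V (r i)) (mackeyTwist φ V A (r i)) n))) ∘
        (fun (x : T 𝒱 p (Rep.res φ (Rep.coind V.subtype A)) n) (i : ι) =>
          ((TFunctor (k := k) 𝒱 p n).map (mackeyProj φ V A (r i))).hom x) := by
    funext x i
    rw [mackeyMapT_eq]
    rfl
  rw [hfun]
  exact hb2.comp hb1

end MackeyT

/-! ### Inner automorphisms act trivially on `T` -/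

section ConjT

variable {G : Type u} [Group G] (𝒰 : LevelFamily G) (p : ℕ) (M : Rep.{u} k G) (g : G)

/-- The endomorphism of `T^r(G, M)` induced by conjugation by `g`. -/
noncomputable def conjMapT (r : ℕ) : T 𝒰 p M r →ₗ[k] T 𝒰 p M r :=
  TMapOfHom 𝒰 p 𝒰 (MulAut.conj g).toMonoidHom (isCompatible_conj 𝒰 g) (conjMor M g) r

variable {M}

theorem toH_conjMapT (hM : 𝒰.IsDiscrete M) (r : ℕ) (t : T 𝒰 p M r) :
    toH 𝒰 p M r (conjMapT 𝒰 p M g r t) = toH 𝒰 p M r t := by
  rw [conjMapT, toH_TMapOfHom]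
  have := conjMap_eq_id 𝒰 g r M hM
  exact congr($this _)

theorem conjMapT_zero (hM : 𝒰.IsDiscrete M) (t : T 𝒰 p M 0) : conjMapT 𝒰 p M g 0 t = t :=
  toH_zero_injective 𝒰 p M (toH_conjMapT 𝒰 p g hM 0 t)

theorem const_mem_levelCochains_zero_of_isDiscrete (hM : 𝒰.IsDiscrete M) (m : M) :
    (fun _ : Fin 0 → G => m) ∈ 𝒰.levelCochains M 0 := by
  obtain ⟨U, hU, h⟩ := hM m
  exact ⟨U, hU, fun _ _ _ => rfl, fun _ s hs => h s hs⟩

theorem conjMapT_one (hM : 𝒰.IsDiscrete M) (t : T 𝒰 p M 1) : conjMapT 𝒰 p M g 1 t = t := by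
  obtain ⟨z, rfl⟩ := classOf_surjective (Kp 𝒰 p M) 1 t
  rw [conjMapT, TMapOfHom, homologyMap_classOf, classOf_eq_classOf_iff_succ]
  have hz := (natCone.mem_Z_succ_iff (mulP 𝒰 p M) z.1).1 z.2
  -- the components of the cocycle
  let a : 𝒰.levelCochains M 1 := natCone.fstL (mulP 𝒰 p M) 1 z.1
  let b : 𝒰.levelCochains M 0 := natCone.sndL (mulP 𝒰 p M) 0 z.1
  have ha : (inhomogeneousCochains.d M 1).hom a.1 = 0 :=
    (levelComplex_d_hom_eq_zero_iff 𝒰 M 1 a).1 hz.1
  have hab : ∀ x : Fin 1 → G, p • a.1 x = (inhomogeneousCochains.d M 0).hom b.1 x := by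
    intro x
    have h1 := congr_arg (fun c : 𝒰.levelCochains M 1 => c.1 x) hz.2
    have h2 := congr_fun (levelComplex_d_hom_coe 𝒰 M 0 b) x
    exact h1.trans h2
  -- the cocycle relation
  have hcoc : ∀ x y : G, a.1 (fun _ => x * y) = M.ρ x (a.1 (fun _ => y)) + a.1 (fun _ => x) := by
    have h1 : (cochainsIso₁ M).hom a.1 ∈ cocycles₁ M :=
      cochainsIso₁_hom_mem_cocycles₁ M ⟨a.1, ha⟩
    intro x y
    exact (mem_cocycles₁_iff _).1 h1 x y
  have ha1 : a.1 (fun _ => 1) = 0 := by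
    have := hcoc 1 1
    rw [mul_one, map_one, Module.End.one_apply] at this
    exact left_eq_add.1 this
  let m : M := a.1 (fun _ => g⁻¹)
  have hconj : ∀ x : G, M.ρ g⁻¹ (a.1 (fun _ => g * x * g⁻¹)) = a.1 (fun _ => x) + (M.ρ x m - m) := by
    intro x
    have h1 := hcoc g (x * g⁻¹)
    have h2 := hcoc x g⁻¹
    have h3 := hcoc g⁻¹ g
    rw [inv_mul_cancel, ha1] at h3
    have e1 : ∀ v : M, M.ρ g⁻¹ (M.ρ g v) = v := fun v => by
      rw [← Module.End.mul_apply, ← map_mul, inv_mul_cancel, map_one, Module.End.one_apply]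
    have h4 : M.ρ g⁻¹ (a.1 (fun _ => g)) = - m := by
      rw [eq_neg_iff_add_eq_zero]
      exact h3.symm
    rw [mul_assoc, h1, h2, map_add, e1, h4]
    abel
  let w : 𝒰.levelCochains M 0 :=
    ⟨fun _ => m, const_mem_levelCochains_zero_of_isDiscrete 𝒰 hM m⟩
  refine ⟨natCone.inlL (mulP 𝒰 p M) 0 w, ?_⟩
  show ((natCone (mulP 𝒰 p M)).d 0 1).hom (natCone.inlL (mulP 𝒰 p M) 0 w) = _
  rw [natCone.d_inlL]
  refine natCone.ext_succ _ ?_ ?_
  · show ((𝒰.levelComplex M).d 0 1).hom w =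
      ((levelCochainsMap (MulAut.conj g).toMonoidHom (isCompatible_conj 𝒰 g) (conjMor M g)).f 1).hom a
        - a
    apply Subtype.ext
    funext x
    rw [levelComplex_d_hom_coe, LES.d_zero_apply]
    show M.ρ (x 0) m - m = M.ρ g⁻¹ (a.1 (fun i => g * x i * g⁻¹)) - a.1 x
    have hx : x = fun _ => x 0 := by
      funext i
      rw [Subsingleton.elim i 0]
    have h1 := hconj (x 0)
    rw [hx]
    rw [h1]
    abel
  · show ((mulP 𝒰 p M).f 0).hom w =
      ((levelCochainsMap (MulAut.conj g).toMonoidHom (isCompatible_conj 𝒰 g) (conjMor M g)).f 0).hom b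
        - b
    apply Subtype.ext
    funext x
    show p • m = M.ρ g⁻¹ (b.1 _) - b.1 x
    have h1 := hab (fun _ => g⁻¹)
    rw [LES.d_zero_apply] at h1
    rw [h1]
    have : ∀ y : Fin 0 → G, b.1 y = b.1 default := fun y => congrArg b.1 (Subsingleton.elim _ _)
    rw [this x, this (_ ∘ x)]

/-- `T^{r+2}` of a level-acyclic module vanishes. -/
theorem T_eq_zero_of_isZero (X : Rep.{u} k G) (r : ℕ)
    (h1 : Limits.IsZero (𝒰.levelCohomology X (r + 1)))
    (h2 : Limits.IsZero (𝒰.levelCohomology X (r + 2))) (t : T 𝒰 p X (r + 2)) : t = 0 := by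
  have ht : toH 𝒰 p X (r + 1 + 1) t = 0 := (ModuleCat.isZero_iff_subsingleton.1 h2).elim _ _
  obtain ⟨y, rfl⟩ := (toH_eq_zero_iff 𝒰 p X (r + 1) t).1 ht
  have hy : y = 0 := (ModuleCat.isZero_iff_subsingleton.1 h1).elim _ _
  rw [hy, map_zero]

/-- **Inner automorphisms act trivially on `T`.** -/
theorem conjMapT_apply (r : ℕ) : ∀ (M : Rep.{u} k G) (_ : 𝒰.IsDiscrete M) (t : T 𝒰 p M r),
    conjMapT 𝒰 p M g r t = t := by
  induction r using Nat.twoStepInduction with
  | zero => exact fun M hM t => conjMapT_zero 𝒰 p g hM t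
  | one => exact fun M hM t => conjMapT_one 𝒰 p g hM t
  | more r _ ih =>
    intro M hM s
    have hS := levelShiftSES_shortExact hM
    have hdS := isDiscrete_levelShiftSES_X₂ hM
    have h0 : TMap 𝒰 p (levelShiftSES hM).f (r + 2) s = 0 :=
      T_eq_zero_of_isZero 𝒰 p _ r (isZero_levelCohomology_levelShiftSES_X₂ hM r)
        (isZero_levelCohomology_levelShiftSES_X₂ hM (r + 1)) _
    obtain ⟨t, rfl⟩ := (exact_Tδ_TMap_f 𝒰 p hS hdS (r + 1) (r + 2) rfl s).1 h0
    have hnat := Tδ_naturality p (MulAut.conj g).toMonoidHom (isCompatible_conj 𝒰 g) hS hdS hS hdS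
      (conjMor _ g) (conjMor _ g) (conjMor _ g) (conjMor_naturality g _) (conjMor_naturality g _)
      (r + 1) (r + 2) rfl t
    have h3 := ih (levelShiftSES hM).X₃ (isDiscrete_levelShiftSES_X₃ hM) t
    rw [conjMapT] at h3
    exact hnat.trans (congr_arg _ h3)

variable (M) in
theorem conjMapT_eq_id (hM : 𝒰.IsDiscrete M) (r : ℕ) : conjMapT 𝒰 p M g r = LinearMap.id :=
  LinearMap.ext fun t => conjMapT_apply 𝒰 p g r M hM t

end ConjT

/-! ### Compatibility of the Mackey maps on `T` with the Shapiro map -/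

section CompatT

variable {G H : Type u} [Group G] [Group H] {𝒰 : LevelFamily G} {𝒱 : LevelFamily H} (p : ℕ)
  (φ : H →* G) (V : Subgroup G) (A : Rep.{u} k V)

/-- The Mackey map on `T` at `g` of the restriction along `φ` of a class of `T^r(G, coind A)` is
the restriction along `mackeyHom φ V g : mackeyStab φ V g →* V` of its image under the Shapiro
map. -/
theorem mackeyMapT_comp (hφ : IsCompatible 𝒱 𝒰 φ) (hV : IsOpenSubgroup 𝒰 V)
    (hA : (restrict 𝒰 V).IsDiscrete A) (g : G) (r : ℕ) (t : T 𝒰 p (Rep.coind V.subtype A) r) :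
    mackeyMapT p φ V A 𝒱 g r
        (TMapOfHom 𝒰 p 𝒱 φ hφ (𝟙 (Rep.res φ (Rep.coind V.subtype A))) r t) =
      TMapOfHom (restrict 𝒰 V) p (restrict 𝒱 (mackeyStab φ V g)) (mackeyHom φ V g)
        (isCompatible_mackeyHom V hφ g) (𝟙 (mackeyTwist φ V A g)) r (shapiroT 𝒰 p V A r t) := by
  have hc := conjMapT_apply 𝒰 p g r (Rep.coind V.subtype A) (isDiscrete_coind hV hA) t
  have h1 := TMapOfHom_comp 𝒰 𝒱 p φ hφ (restrict 𝒱 (mackeyStab φ V g))
    (mackeyStab φ V g).subtype (isCompatible_comap 𝒱 (mackeyStab φ V g).subtype)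
    (𝟙 (Rep.res φ (Rep.coind V.subtype A))) (mackeyEval φ V A g) r t
  have h2 := TMapOfHom_comp 𝒰 (restrict 𝒰 V) p V.subtype (isCompatible_comap 𝒰 V.subtype)
    (restrict 𝒱 (mackeyStab φ V g)) (mackeyHom φ V g) (isCompatible_mackeyHom V hφ g)
    (coindEval V A) (𝟙 (mackeyTwist φ V A g)) r t
  have h3 := TMapOfHom_comp 𝒰 𝒰 p (MulAut.conj g).toMonoidHom (isCompatible_conj 𝒰 g)
    (restrict 𝒱 (mackeyStab φ V g)) (φ.comp (mackeyStab φ V g).subtype)
    (IsCompatible.comp hφ (isCompatible_comap 𝒱 (mackeyStab φ V g).subtype))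
    (conjMor (Rep.coind V.subtype A) g)
    ((Rep.resFunctor (mackeyStab φ V g).subtype).map (𝟙 (Rep.res φ (Rep.coind V.subtype A))) ≫
      mackeyEval φ V A g) r t
  rw [mackeyMapT, shapiroT, ← h1, ← h2]
  rw [← conjMapT, hc] at h3
  rw [← h3]
  refine congr_fun (congr_arg DFunLike.coe
    (TMapOfHom_congr 𝒰 _ p _ (conj_comp_eq φ V g) _ _ ?_ r)) t
  ext F
  show F.1 (g * g⁻¹) = F.1 1
  rw [mul_inv_cancel]

variable {V A} in
/-- Naturality of the Mackey maps on `T` in the coefficient module. -/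
theorem mackeyMapT_naturality {A' : Rep.{u} k V} (α : A ⟶ A') (g : G) (r : ℕ)
    (t : T 𝒱 p (Rep.res φ (Rep.coind V.subtype A)) r) :
    mackeyMapT p φ V A' 𝒱 g r
        (TMap 𝒱 p ((Rep.resFunctor φ).map (Rep.coindMap V.subtype α)) r t) =
      TMap (restrict 𝒱 (mackeyStab φ V g)) p ((Rep.resFunctor (mackeyHom φ V g)).map α) r
        (mackeyMapT p φ V A 𝒱 g r t) :=
  TMap_TMapOfHom 𝒱 (restrict 𝒱 (mackeyStab φ V g)) p (mackeyStab φ V g).subtype
    (isCompatible_comap 𝒱 (mackeyStab φ V g).subtype)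
    ((Rep.resFunctor φ).map (Rep.coindMap V.subtype α))
    ((Rep.resFunctor (mackeyHom φ V g)).map α) (mackeyEval φ V A g) (mackeyEval φ V A' g)
    (mackeyEval_naturality φ α g) r t

end CompatT

end Fermat.Agent.Lib.CFT.Profinite.LES
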