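import Fermat.Agent.Lib.CFT.Profinite.BridgeLow

/-!
# P-CFT Profinite/Bridge: the cyclotomic twist stays discrete for the `S`-levels

* the mod `p` cyclotomic character is trivial on the fixing subgroup of a finite extension and on
  the inertia groups at the primes `q ≠ p`;
* hence, for `p ∈ S`, `M.dualTwist (cycloChar p)` is discrete for the `S`-levels whenever `M` is
  finite, smooth and unramified outside `S`.
-/

set_option autoImplicit false

open CategoryTheory groupCohomology

namespace Fermat.Agent.Lib.CFT.Profinite.Bridge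

open Fermat.Agent.Lib.CFT.Profinite LevelFamily ExtCitation

local notation "Qbar" => AlgebraicClosure ℚ
local notation "Γℚ" => (AlgebraicClosure ℚ ≃ₐ[ℚ] AlgebraicClosure ℚ)

section Roots

variable {L : Type*} [Field L]

/-- Roots of unity lie in every valuation subring. -/
theorem mem_valuationSubring_of_pow_eq_one (A : ValuationSubring L) {x : L} {n : ℕ} (hn : 0 < n)
    (h : x ^ n = 1) : x ∈ A := by
  rcases A.mem_or_inv_mem x with hx | hx
  · exact hx
  · have : x = (x⁻¹) ^ (n - 1) := by
      have hx0 : x ≠ 0 := by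
        rintro rfl
        rw [zero_pow hn.ne'] at h
        exact zero_ne_one h
      have h1 : x ^ (n - 1) * x = 1 := by
        rw [← pow_succ, Nat.sub_add_cancel hn, h]
      rw [inv_pow]
      exact (eq_inv_of_mul_eq_one_right h1)
    rw [this]
    exact pow_mem hx _

/-- If `u` is a `p`-th root of unity, `u - 1` lies in the maximal ideal of a valuation subring
in which a prime `q ≠ p` is a nonunit, then `u = 1`. -/
theorem eq_one_of_pow_eq_one_of_sub_one_mem_nonunits (A : ValuationSubring L) {p q : ℕ}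
    (hp : p.Prime) (hq : q.Prime) (hpq : q ≠ p) (hqA : (q : L) ∈ A.nonunits) {u : L}
    (hu : u ^ p = 1) (hu1 : u - 1 ∈ A.nonunits) : u = 1 := by
  by_contra hne
  have huA : u ∈ A := mem_valuationSubring_of_pow_eq_one A hp.pos hu
  let uA : A := ⟨u, huA⟩
  let res := IsLocalRing.residue A
  -- `res uA = 1`
  have h1 : res uA = 1 := by
    have : uA - 1 ∈ IsLocalRing.maximalIdeal A := by
      rw [← ValuationSubring.coe_mem_nonunits_iff]
      exact hu1
    have h0 : res (uA - 1) = 0 := (IsLocalRing.residue_eq_zero_iff _).2 this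
    rw [map_sub, map_one, sub_eq_zero] at h0
    exact h0
  -- geometric sum
  have hgeom : ∑ j ∈ Finset.range p, u ^ j = 0 := by
    have := mul_geom_sum u p
    rw [hu, sub_self] at this
    rcases mul_eq_zero.mp this with h | h
    · exact absurd (sub_eq_zero.mp h) hne
    · exact h
  have hgeomA : ∑ j ∈ Finset.range p, uA ^ j = 0 := by
    apply Subtype.ext
    simp only [AddSubmonoidClass.coe_finsetSum, SubmonoidClass.coe_pow, ZeroMemClass.coe_zero]
    exact hgeom
  have hp0 : (p : IsLocalRing.ResidueField A) = 0 := by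
    have := congr_arg res hgeomA
    rw [map_sum, map_zero] at this
    simp only [map_pow, h1, one_pow, Finset.sum_const, Finset.card_range, nsmul_eq_mul,
      mul_one] at this
    exact this
  have hq0 : (q : IsLocalRing.ResidueField A) = 0 := by
    have h2 : ((q : A) : L) ∈ A.nonunits := by
      simpa using hqA
    rw [ValuationSubring.coe_mem_nonunits_iff] at h2
    have := (IsLocalRing.residue_eq_zero_iff _).2 h2
    rwa [map_natCast] at this
  have hcop : Nat.Coprime p q := (Nat.coprime_primes hp hq).2 (Ne.symm hpq)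
  have hbez := Nat.Coprime.isCoprime hcop
  obtain ⟨a, b, hab⟩ := hbez
  have := congr_arg (Int.cast : ℤ → IsLocalRing.ResidueField A) hab
  simp only [Int.cast_add, Int.cast_mul, Int.cast_natCast, Int.cast_one, hp0, hq0, mul_zero,
    add_zero] at this
  exact zero_ne_one this

end Roots

section Cyclo

variable (p : ℕ) [Fact p.Prime]

/-- An automorphism fixing all `p`-th roots of unity has trivial mod `p` cyclotomic character. -/
theorem cycloChar_eq_one_of_fixes (σ : Γℚ)
    (h : ∀ t : Qbarˣ, t ∈ rootsOfUnity p Qbar → σ (t : Qbar) = t) : cycloChar p σ = 1 := by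
  have : NeZero p := ⟨(Fact.out : p.Prime).ne_zero⟩
  have : Fact (1 < p) := ⟨(Fact.out : p.Prime).one_lt⟩
  have h1 := modularCyclotomicCharacter.unique Qbar (card_rootsOfUnity_eq_self p)
    (σ : Qbar ≃+* Qbar) (c := (1 : ZMod p)) (fun t ht => by
      rw [ZMod.val_one, pow_one]
      exact h t ht)
  apply Units.ext
  rw [Units.val_one, h1]
  rfl

/-- Elementary form: it suffices to fix all `t` with `t ^ p = 1`. -/
theorem cycloChar_eq_one_of_fixes' (σ : Γℚ) (h : ∀ t : Qbar, t ^ p = 1 → σ t = t) :
    cycloChar p σ = 1 := by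
  apply cycloChar_eq_one_of_fixes
  intro t ht
  apply h
  have := (mem_rootsOfUnity p t).mp ht
  have h2 := congr_arg Units.val this
  simpa using h2

/-- The mod `p` cyclotomic character is trivial on the fixing subgroup of a finite extension. -/
theorem exists_finite_cycloChar_eq_one :
    ∃ F : IntermediateField ℚ Qbar, FiniteDimensional ℚ F ∧
      ∀ s ∈ F.fixingSubgroup, cycloChar p s = 1 := by
  have : NeZero p := ⟨(Fact.out : p.Prime).ne_zero⟩
  have : NeZero (p : Qbar) := ⟨by exact_mod_cast (Fact.out : p.Prime).ne_zero⟩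
  obtain ⟨ζ, hζ⟩ := HasEnoughRootsOfUnity.exists_primitiveRoot Qbar p
  have hint : IsIntegral ℚ ζ := (hζ.isIntegral (Fact.out : p.Prime).pos).tower_top
  refine ⟨IntermediateField.adjoin ℚ {ζ}, IntermediateField.adjoin.finiteDimensional hint,
    fun s hs => ?_⟩
  apply cycloChar_eq_one_of_fixes'
  intro t ht
  obtain ⟨i, -, rfl⟩ := hζ.eq_pow_of_pow_eq_one ht
  rw [map_pow]
  congr 1
  rw [IntermediateField.mem_fixingSubgroup_iff] at hs
  exact hs ζ (IntermediateField.mem_adjoin_simple_self ℚ ζ)

/-- The mod `p` cyclotomic character is trivial on the inertia groups at the primes `q ≠ p`. -/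
theorem cycloChar_eq_one_of_mem_inertia {q : ℕ} (hq : q.Prime) (hqp : q ≠ p)
    (A : ValuationSubring Qbar) (hA : A.LiesOverPrime q) {g : Γℚ}
    (hg : g ∈ A.inertiaSubgroupIn ℚ) : cycloChar p g = 1 := by
  apply cycloChar_eq_one_of_fixes'
  intro t ht
  have hp : p.Prime := Fact.out
  have ht0 : t ≠ 0 := by
    rintro rfl
    rw [zero_pow hp.ne_zero] at ht
    exact zero_ne_one ht
  have htA : t ∈ A := mem_valuationSubring_of_pow_eq_one A hp.pos ht
  have htinv : t⁻¹ ∈ A := mem_valuationSubring_of_pow_eq_one A hp.pos (by rw [inv_pow, ht, inv_one])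
  obtain ⟨-, hin⟩ := (mem_inertiaSubgroupIn_iff A g).1 hg
  have h1 := hin t htA
  -- `u = g t / t`
  have hu : (g t * t⁻¹) ^ p = 1 := by
    rw [mul_pow, ← map_pow, ht, map_one, inv_pow, ht, inv_one, mul_one]
  have hu1 : g t * t⁻¹ - 1 ∈ A.nonunits := by
    have e : g t * t⁻¹ - 1 = (g t - t) * t⁻¹ := by
      field_simp
    rw [e]
    obtain ⟨hmem, hmax⟩ := ValuationSubring.mem_nonunits_iff_exists_mem_maximalIdeal.mp h1
    rw [ValuationSubring.mem_nonunits_iff_exists_mem_maximalIdeal]
    refine ⟨A.mul_mem _ _ hmem htinv, ?_⟩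
    have := Ideal.mul_mem_right (⟨t⁻¹, htinv⟩ : A) _ hmax
    exact this
  have := eq_one_of_pow_eq_one_of_sub_one_mem_nonunits A hp hq hqp hA hu hu1
  field_simp at this
  exact this

end Cyclo

section Twist

variable {k : Type} [CommRing k]

/-- A finite smooth representation is trivial on the fixing subgroup of one finite extension. -/
theorem exists_finite_forall_ρ_eq_one (M : Rep.{0} k Γℚ) [Module.Finite k M]
    (hsm : ∀ m : M, ∃ F : IntermediateField ℚ Qbar, FiniteDimensional ℚ F ∧
      ∀ s ∈ F.fixingSubgroup, M.ρ s m = m) :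
    ∃ F : IntermediateField ℚ Qbar, FiniteDimensional ℚ F ∧
      ∀ s ∈ F.fixingSubgroup, M.ρ s = 1 := by
  obtain ⟨T, hT⟩ := (Module.finite_def (R := k) (M := M)).mp inferInstance
  have hd := isDiscrete_galLevels_id M hsm
  choose U hU hfix using fun m : T => hd m.1
  obtain ⟨W, ⟨F, hF, rfl⟩, -, hle⟩ :=
    (galLevels (MonoidHom.id Γℚ)).exists_normal_le_of_finite U hU
  refine ⟨F, hF, fun s hs => ?_⟩
  have hs' : s ∈ F.fixingSubgroup.comap (MonoidHom.id Γℚ) := hs
  apply LinearMap.ext_on_range (v := fun m : T => (m.1 : M))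
  · rw [Subtype.range_coe_subtype]
    simpa using hT
  · intro m
    exact hfix m s (hle m hs')

variable (p : ℕ) [Fact p.Prime]

/-- For `p ∈ S`, the Tate twist of the dual of a finite smooth representation unramified outside
`S` is again discrete for the `S`-levels. -/
theorem isDiscrete_levelsS_dualTwist (S : Finset Nat.Primes) (hpS : pPrime p ∈ S)
    (M : Rep (ZMod p) Γℚ) [Module.Finite (ZMod p) M]
    (hsm : ∀ m : M, ∃ F : IntermediateField ℚ Qbar, FiniteDimensional ℚ F ∧
      ∀ s ∈ F.fixingSubgroup, M.ρ s m = m)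
    (hMur : ∀ q : Nat.Primes, q ∉ S → ∀ A : ValuationSubring Qbar,
      A.LiesOverPrime (q : ℕ) → ∀ g ∈ A.inertiaSubgroupIn ℚ, M.ρ g = 1) :
    (levelsS S).IsDiscrete (M.dualTwist (cycloChar p)) := by
  apply isDiscrete_levelsS
  · intro f
    obtain ⟨F₁, hF₁, h₁⟩ := exists_finite_forall_ρ_eq_one M hsm
    obtain ⟨F₂, hF₂, h₂⟩ := exists_finite_cycloChar_eq_one p
    have := hF₁
    have := hF₂
    refine ⟨F₁ ⊔ F₂, inferInstance, fun s hs => ?_⟩
    have hs1 : s⁻¹ ∈ F₁.fixingSubgroup :=
      inv_mem (IntermediateField.fixingSubgroup_antitone le_sup_left hs)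
    have hs2 : s ∈ F₂.fixingSubgroup := IntermediateField.fixingSubgroup_antitone le_sup_right hs
    rw [Rep.dualTwist_ρ_apply, h₂ s hs2, h₁ _ hs1, Units.val_one, one_smul]
    exact LinearMap.ext fun x => rfl
  · intro q hq A hA g hg
    have hqp : (q : ℕ) ≠ p := by
      intro h
      apply hq
      have : q = pPrime p := Subtype.ext h
      rwa [this]
    have h1 : cycloChar p g = 1 := cycloChar_eq_one_of_mem_inertia p q.2 hqp A hA hg
    have h2 : M.ρ g⁻¹ = 1 := hMur q hq A hA _ (inv_mem hg)
    apply LinearMap.ext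
    intro f
    rw [Rep.dualTwist_ρ_apply, h1, h2, Units.val_one, one_smul]
    exact LinearMap.ext fun x => rfl

end Twist

end Fermat.Agent.Lib.CFT.Profinite.Bridge
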