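import Fermat.Agent.Lib.CFT.Profinite.BridgeSha
import Fermat.Agent.Lib.CFT.Profinite.BridgeTwist

/-!
# P-CFT Profinite/Bridge: the statement S55 in level-cohomology terms

Under the exact hypotheses of the frozen statement S55, its conclusion follows from a
nondegenerate pairing between
`ker (H¹(G_S, M^*(1)) → ∏_{q ∈ S} H¹(G_q, M^*(1)))` and
`ker (H²(G_S, M) → ∏_{q ∈ S} H²(G_q, M))`, all groups being level cohomology groups
(`G_S`: `Γℚ` with the `S`-levels; `G_q`: the local Galois group with all its open subgroups).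
-/

set_option autoImplicit false

open CategoryTheory groupCohomology

namespace Fermat.Agent.Lib.CFT.Profinite.Bridge

open Fermat.Agent.Lib.CFT.Profinite LevelFamily ExtCitation

local notation "Qbar" => AlgebraicClosure ℚ
local notation "Γℚ" => (AlgebraicClosure ℚ ≃ₐ[ℚ] AlgebraicClosure ℚ)

variable {p : ℕ} [Fact p.Prime]

/-- **S55 reduced to level cohomology.** -/
theorem s55_of_level_pairing (hp2 : p ≠ 2) (S : Finset Nat.Primes) (hpS : pPrime p ∈ S)
    (M : Rep (ZMod p) Γℚ) [FiniteDimensional (ZMod p) M]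
    (hsm : ∀ m : M, ∃ F : IntermediateField ℚ Qbar, FiniteDimensional ℚ F ∧
      ∀ s ∈ F.fixingSubgroup, M.ρ s m = m)
    (hMur : ∀ q : Nat.Primes, q ∉ S → ∀ A : ValuationSubring Qbar,
      A.LiesOverPrime (q : ℕ) → ∀ g ∈ A.inertiaSubgroupIn ℚ, M.ρ g = 1)
    (B : LinearMap.ker (locHTotal S (M.dualTwist (cycloChar p)) 1) →ₗ[ZMod p]
      LinearMap.ker (locHTotal S M 2) →ₗ[ZMod p] ZMod p)
    (h1 : ∀ y, (∀ x, B y x = 0) → y = 0) (h2 : ∀ x, (∀ y, B y x = 0) → x = 0) :
    ∃ B' : sha₁ S (M.dualTwist (cycloChar p)) →ₗ[ZMod p] sha₂ S M →ₗ[ZMod p] ZMod p,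
      (∀ y, (∀ x, B' y x = 0) → y = 0) ∧ (∀ x, (∀ y, B' y x = 0) → x = 0) :=
  exists_pairing_of_level hp2 S M hsm (isDiscrete_levelsS S M hsm hMur)
    (M.dualTwist (cycloChar p)) (isDiscrete_levelsS_dualTwist p S hpS M hsm hMur) B h1 h2

end Fermat.Agent.Lib.CFT.Profinite.Bridge
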