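import Fermat.Agent.Lib.CFT.Profinite.ShapiroClosedProd

/-!
# Shapiro for a jointly induced module: arbitrary homomorphisms, arbitrary modules
(P-CFT, Profinite/ShapiroClosedHom)

* `map_bijective_of_cochains_bijective`, `TMapOfHom_bijective_of_cochains_bijective`: a
  change-of-group map which is bijective on level cochains is bijective on level cohomology
  and on `T`.
* `discSub`, `discPart 𝒰 M`, `discIncl 𝒰 M`: the discrete part of a representation (elements fixed
  by some level); level cohomology and `T` only see the discrete part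
  (`levelCohomologyMap_discIncl_bijective`, `TMap_discIncl_bijective`).
* `descend c A hker`: a module on which `c.ker` acts trivially, as a representation of `c.range`;
  `descendIncl`, `levelCochainsMap_descendIncl_bijective`.
* `flatRep`, `flatHom`, `flatCompare`, `flat_square` (+ `T`-versions): reduction of a general
  change-of-group datum `(c, lam)` to the subgroup `c.range` and discrete modules.
* `jointShapiroHom_bijective`, `jointShapiroHomT_bijective`: Shapiro for a jointly induced module
  with arbitrary homomorphisms `c i : S i →* G` (no injectivity), families `comap 𝒰 (c i)` and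
  arbitrary (not necessarily discrete) modules.
-/

set_option autoImplicit false

universe u

open CategoryTheory groupCohomology

namespace Fermat.Agent.Lib.CFT.Profinite.LES

open LevelFamily Fermat.Agent.Lib.CFT.Coh.InfRes Fermat.Agent.Lib.CFT.Duality
  Fermat.Agent.Lib.CFT.Duality.KCalc

variable {k G : Type u} [CommRing k] [Group G]



/-! ### Maps which are bijective on level cochains -/

section CochainIso

variable {G' : Type u} [Group G'] {𝒰 : LevelFamily G} {𝒰' : LevelFamily G'}
  {M : Rep.{u} k G} {M' : Rep.{u} k G'} (f : G' →* G) (hf : IsCompatible 𝒰' 𝒰 f)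
  (φ : Rep.res f M ⟶ M')

/-- A change-of-group map which is bijective on level cochains in every degree is bijective on
level cohomology. -/
theorem map_bijective_of_cochains_bijective
    (h : ∀ n, Function.Bijective ((levelCochainsMap f hf φ).f n).hom) (n : ℕ) :
    Function.Bijective (map f hf φ n).hom := by
  haveI : ∀ n, IsIso ((levelCochainsMap f hf φ).f n) := fun n =>
    (ConcreteCategory.isIso_iff_bijective _).2 (h n)
  haveI : IsIso (levelCochainsMap f hf φ) := HomologicalComplex.Hom.isIso_of_components _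
  haveI : IsIso (map f hf φ n) := by
    rw [map_def]
    infer_instance
  exact ConcreteCategory.bijective_of_isIso _

theorem TMapOfHom_bijective_of_cochains_bijective
    (h : ∀ n, Function.Bijective ((levelCochainsMap f hf φ).f n).hom) (p r : ℕ) :
    Function.Bijective (TMapOfHom 𝒰 p 𝒰' f hf φ r) :=
  TMapOfHom_bijective 𝒰 𝒰' p f hf φ (map_bijective_of_cochains_bijective f hf φ h) r

end CochainIso

/-! ### The discrete part of a representation -/

section Disc

variable (𝒰 : LevelFamily G) (M : Rep.{u} k G)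

/-- The elements of `M` fixed by some level. -/
def discSub : Submodule k M.V where
  carrier := {m | ∃ U ∈ 𝒰.levels, ∀ s ∈ U, M.ρ s m = m}
  add_mem' := by
    rintro m m' ⟨U, hU, h⟩ ⟨U', hU', h'⟩
    obtain ⟨W, hW, h1, h2, -⟩ := 𝒰.exists_normal_le_inf hU hU'
    exact ⟨W, hW, fun s hs => by rw [map_add, h s (h1 hs), h' s (h2 hs)]⟩
  zero_mem' := by
    obtain ⟨U, hU⟩ := 𝒰.nonempty
    exact ⟨U, hU, fun s _ => map_zero _⟩
  smul_mem' := by
    rintro c m ⟨U, hU, h⟩
    exact ⟨U, hU, fun s hs => by rw [map_smul, h s hs]⟩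

variable {𝒰 M} in
theorem mem_discSub_iff {m : M.V} :
    m ∈ discSub 𝒰 M ↔ ∃ U ∈ 𝒰.levels, ∀ s ∈ U, M.ρ s m = m := Iff.rfl

/-- The action of `G` on the discrete part. -/
def discRepresentation : Representation k G (discSub 𝒰 M) where
  toFun γ := (M.ρ γ).restrict (by
    rintro m ⟨U, hU, h⟩
    obtain ⟨W, hW, hle, hn⟩ := 𝒰.normal_le U hU
    refine ⟨W, hW, fun s hs => ?_⟩
    have h1 : s * γ = γ * (γ⁻¹ * s * γ) := by group
    rw [← Module.End.mul_apply, ← map_mul, h1, map_mul, Module.End.mul_apply,
      h _ (hle (hn.conj_mem' s hs γ))])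
  map_one' := by
    ext m
    simp
  map_mul' γ₁ γ₂ := by
    ext m
    simp

@[simp]
theorem discRepresentation_apply_coe (γ : G) (m : discSub 𝒰 M) :
    (discRepresentation 𝒰 M γ m : M.V) = M.ρ γ m.1 := rfl

/-- The discrete part of a representation: the subrepresentation of the elements fixed by some
level. -/
noncomputable abbrev discPart : Rep.{u} k G := Rep.of (discRepresentation 𝒰 M)

theorem isDiscrete_discPart : 𝒰.IsDiscrete (discPart 𝒰 M) := by
  rintro ⟨m, U, hU, h⟩
  exact ⟨U, hU, fun s hs => Subtype.ext (h s hs)⟩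

/-- The inclusion of the discrete part. -/
noncomputable def discIncl : discPart 𝒰 M ⟶ M :=
  Rep.ofHom (ρ := discRepresentation 𝒰 M) (σ := M.ρ) ⟨(discSub 𝒰 M).subtype, fun γ => by
    ext m
    rfl⟩

@[simp]
theorem discIncl_apply (m : discPart 𝒰 M) : (discIncl 𝒰 M).hom m = m.1 := rfl

theorem discIncl_injective : Function.Injective (discIncl 𝒰 M).hom := Subtype.val_injective

/-- The inclusion of the discrete part is bijective on level cochains. -/
theorem levelCochainsMap_discIncl_bijective (n : ℕ) :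
    Function.Bijective ((levelCochainsMap (M := discPart 𝒰 M) (M' := M) (MonoidHom.id G)
      𝒰.isCompatible_id (discIncl 𝒰 M)).f n).hom := by
  constructor
  · intro x y hxy
    apply Subtype.ext
    funext g
    apply Subtype.ext
    exact congr_fun (congrArg Subtype.val hxy) g
  · rintro ⟨f, U, hU, hc, hfix⟩
    refine ⟨⟨fun g => ⟨f g, U, hU, fun s hs => hfix g s hs⟩, U, hU, fun g s hs => ?_,
      fun g s hs => ?_⟩, ?_⟩
    · apply Subtype.ext
      exact hc g s hs
    · apply Subtype.ext
      exact hfix g s hs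
    · apply Subtype.ext
      rfl

/-- Level cohomology only sees the discrete part. -/
theorem levelCohomologyMap_discIncl_bijective (n : ℕ) :
    Function.Bijective (𝒰.levelCohomologyMap (discIncl 𝒰 M) n).hom :=
  map_bijective_of_cochains_bijective _ _ _ (levelCochainsMap_discIncl_bijective 𝒰 M) n

theorem TMap_discIncl_bijective (p r : ℕ) :
    Function.Bijective (TMap 𝒰 p (discIncl 𝒰 M) r) := by
  rw [TMap_eq_TMapOfHom]
  exact TMapOfHom_bijective_of_cochains_bijective _ _ _
    (levelCochainsMap_discIncl_bijective 𝒰 M) p r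

end Disc



section Descend

variable {S : Type u} [Group S] (c : S →* G) (A : Rep.{u} k S)

theorem ker_acts_trivially_of_isDiscrete {𝒰 : LevelFamily G} (hA : (comap 𝒰 c).IsDiscrete A) :
    ∀ s ∈ c.ker, ∀ a : A.V, A.ρ s a = a := by
  intro s hs a
  obtain ⟨_, ⟨U, hU, rfl⟩, h⟩ := hA a
  refine h s ?_
  show c s ∈ U
  rw [MonoidHom.mem_ker.1 hs]
  exact U.one_mem

variable (hker : ∀ s ∈ c.ker, ∀ a : A.V, A.ρ s a = a)

include hker in
theorem ρ_eq_of_hom_eq {s s' : S} (h : c s = c s') : A.ρ s = A.ρ s' := by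
  have h1 : s' = s * (s⁻¹ * s') := by group
  have h2 : s⁻¹ * s' ∈ c.ker := by
    rw [MonoidHom.mem_ker, map_mul, map_inv, h, inv_mul_cancel]
  ext a
  rw [h1, map_mul, Module.End.mul_apply, hker _ h2]

/-- A section of `c.rangeRestrict`. -/
noncomputable def rangeSection (d : c.range) : S := Function.surjInv c.rangeRestrict_surjective d

theorem rangeRestrict_rangeSection (d : c.range) : c.rangeRestrict (rangeSection c d) = d :=
  Function.surjInv_eq c.rangeRestrict_surjective d

theorem hom_rangeSection (d : c.range) : c (rangeSection c d) = (d : G) :=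
  congrArg Subtype.val (rangeRestrict_rangeSection c d)

/-- The action of `c.range` on a module on which `c.ker` acts trivially. -/
noncomputable def descendRepresentation : Representation k c.range A.V where
  toFun d := A.ρ (rangeSection c d)
  map_one' := by
    rw [ρ_eq_of_hom_eq c A hker (s' := 1), map_one]
    rw [hom_rangeSection, map_one]
    rfl
  map_mul' d d' := by
    rw [← map_mul]
    apply ρ_eq_of_hom_eq c A hker
    rw [map_mul, hom_rangeSection, hom_rangeSection, hom_rangeSection]
    rfl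

/-- The module `A`, on which `c.ker` acts trivially, as a representation of `c.range`. -/
noncomputable abbrev descend : Rep.{u} k c.range := Rep.of (descendRepresentation c A hker)

theorem descend_ρ_rangeRestrict (s : S) :
    (descend c A hker).ρ (c.rangeRestrict s) = A.ρ s := by
  show A.ρ (rangeSection c (c.rangeRestrict s)) = A.ρ s
  apply ρ_eq_of_hom_eq c A hker
  rw [hom_rangeSection]
  rfl

theorem descend_ρ_apply (d : c.range) (a : A.V) :
    (descend c A hker).ρ d a = A.ρ (rangeSection c d) a := rfl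

/-- The identity, as a morphism `res (descend A) ⟶ A`. -/
noncomputable def descendIncl : Rep.res c.rangeRestrict (descend c A hker) ⟶ A :=
  Rep.ofHom (ρ := (descendRepresentation c A hker).comp c.rangeRestrict) (σ := A.ρ)
    ⟨LinearMap.id, fun s => by
      ext a
      show A.ρ (rangeSection c (c.rangeRestrict s)) a = A.ρ s a
      rw [← descend_ρ_apply c A hker, descend_ρ_rangeRestrict]⟩

@[simp]
theorem descendIncl_apply (a : A.V) : (descendIncl c A hker).hom a = a := rfl

variable (𝒰 : LevelFamily G)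

theorem isCompatible_rangeRestrict :
    IsCompatible (comap 𝒰 c) (restrict 𝒰 c.range) c.rangeRestrict := by
  rintro _ ⟨U, hU, rfl⟩
  exact ⟨U.comap c, ⟨U, hU, rfl⟩, le_rfl⟩

theorem isDiscrete_descend (hA : (comap 𝒰 c).IsDiscrete A) :
    (restrict 𝒰 c.range).IsDiscrete (descend c A hker) := by
  intro a
  obtain ⟨_, ⟨U, hU, rfl⟩, h⟩ := hA a
  refine ⟨U.comap c.range.subtype, ⟨U, hU, rfl⟩, fun d hd => ?_⟩
  rw [descend_ρ_apply]
  refine h _ ?_
  show c (rangeSection c d) ∈ U
  rw [hom_rangeSection]
  exact hd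

/-- Descent to the image of `c` is bijective on level cochains. -/
theorem levelCochainsMap_descendIncl_bijective (n : ℕ) :
    Function.Bijective ((levelCochainsMap (M := descend c A hker) (M' := A) c.rangeRestrict
      (isCompatible_rangeRestrict c 𝒰) (descendIncl c A hker)).f n).hom := by
  constructor
  · intro x y hxy
    apply Subtype.ext
    funext g
    have h1 := congr_fun (congrArg Subtype.val hxy) (fun i => rangeSection c (g i))
    have h2 : (c.rangeRestrict ∘ fun i => rangeSection c (g i)) = g := by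
      funext i
      exact rangeRestrict_rangeSection c (g i)
    have h3 : x.1 (c.rangeRestrict ∘ fun i => rangeSection c (g i)) =
      y.1 (c.rangeRestrict ∘ fun i => rangeSection c (g i)) := h1
    rw [h2] at h3
    exact h3
  · rintro ⟨f, _, ⟨U, hU, rfl⟩, hc, hfix⟩
    refine ⟨⟨fun g => f (fun i => rangeSection c (g i)), U.comap c.range.subtype, ⟨U, hU, rfl⟩,
      fun g s hs => ?_, fun g d hd => ?_⟩, ?_⟩
    · have h1 : (fun i => rangeSection c (g i * s i)) = fun i => rangeSection c (g i) *
          ((rangeSection c (g i))⁻¹ * rangeSection c (g i * s i)) := by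
        funext i
        group
      show f (fun i => rangeSection c (g i * s i)) = f (fun i => rangeSection c (g i))
      rw [h1]
      refine hc _ _ fun i => ?_
      show c ((rangeSection c (g i))⁻¹ * rangeSection c (g i * s i)) ∈ U
      rw [map_mul, map_inv, hom_rangeSection, hom_rangeSection]
      have : ((g i : G))⁻¹ * ((g i * s i : c.range) : G) = (s i : G) := by
        rw [Subgroup.coe_mul, inv_mul_cancel_left]
      rw [this]
      exact hs i
    · rw [descend_ρ_apply]
      refine hfix _ _ ?_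
      show c (rangeSection c d) ∈ U
      rw [hom_rangeSection]
      exact hd
    · apply Subtype.ext
      funext g
      show f (fun i => rangeSection c (c.rangeRestrict (g i))) = f g
      have h1 : (fun i => rangeSection c (c.rangeRestrict (g i))) = fun i => g i *
          ((g i)⁻¹ * rangeSection c (c.rangeRestrict (g i))) := by
        funext i
        group
      rw [h1]
      refine hc _ _ fun i => ?_
      show c ((g i)⁻¹ * rangeSection c (c.rangeRestrict (g i))) ∈ U
      rw [map_mul, map_inv, hom_rangeSection]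
      have : (c (g i))⁻¹ * ((c.rangeRestrict (g i) : c.range) : G) = 1 := inv_mul_cancel _
      rw [this]
      exact U.one_mem

end Descend



/-! ### The flat model of a change-of-group datum -/

section Flat

variable (𝒰 : LevelFamily G) {X : Rep.{u} k G} {S : Type u} [Group S] (c : S →* G)
  (A : Rep.{u} k S)

/-- The discrete part of `A` (for the family `comap 𝒰 c`), as a representation of `c.range`. -/
noncomputable abbrev flatRep : Rep.{u} k c.range :=
  descend c (discPart (comap 𝒰 c) A)
    (ker_acts_trivially_of_isDiscrete c _ (isDiscrete_discPart (comap 𝒰 c) A))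

theorem isDiscrete_flatRep : (restrict 𝒰 c.range).IsDiscrete (flatRep 𝒰 c A) :=
  isDiscrete_descend c _ _ 𝒰 (isDiscrete_discPart (comap 𝒰 c) A)

theorem flatRep_ρ_rangeRestrict_coe (s : S) (a : flatRep 𝒰 c A) :
    (((flatRep 𝒰 c A).ρ (c.rangeRestrict s) a : discSub (comap 𝒰 c) A) : A.V) = A.ρ s a.1 := by
  have h := descend_ρ_rangeRestrict c (discPart (comap 𝒰 c) A)
    (ker_acts_trivially_of_isDiscrete c _ (isDiscrete_discPart (comap 𝒰 c) A)) s
  rw [h]
  rfl

variable {A}

theorem lam_mem_discSub (lam : Rep.res c X ⟶ A) (x : discSub 𝒰 X) :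
    lam.hom x.1 ∈ discSub (comap 𝒰 c) A := by
  obtain ⟨U, hU, h⟩ := x.2
  refine ⟨U.comap c, ⟨U, hU, rfl⟩, fun s hs => ?_⟩
  have h1 := Rep.hom_comm_apply lam s x.1
  have h2 : (Rep.res c X).ρ s x.1 = x.1 := h (c s) hs
  rw [h2] at h1
  exact h1.symm

/-- The flat model of `lam : res c X ⟶ A`: a morphism of representations of `c.range` from the
discrete part of `X` to the flat model of `A`. -/
noncomputable def flatHom (lam : Rep.res c X ⟶ A) :
    Rep.res c.range.subtype (discPart 𝒰 X) ⟶ flatRep 𝒰 c A :=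
  Rep.ofHom (ρ := (discRepresentation 𝒰 X).comp c.range.subtype)
    (σ := (flatRep 𝒰 c A).ρ)
    ⟨(lam.hom.toLinearMap ∘ₗ (discSub 𝒰 X).subtype).codRestrict (discSub (comap 𝒰 c) A)
      (fun x => lam_mem_discSub 𝒰 c lam x), fun d => by
      ext x
      obtain ⟨s, rfl⟩ := c.rangeRestrict_surjective d
      show lam.hom (X.ρ (c s) x.1) = _
      refine (Rep.hom_comm_apply lam s x.1).trans ?_
      exact (flatRep_ρ_rangeRestrict_coe 𝒰 c A s ⟨lam.hom x.1, lam_mem_discSub 𝒰 c lam x⟩).symm⟩

theorem flatHom_apply_coe (lam : Rep.res c X ⟶ A) (x : discPart 𝒰 X) :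
    (((flatHom 𝒰 c lam).hom x : discSub (comap 𝒰 c) A) : A.V) = lam.hom x.1 := rfl

variable (A) in
/-- The comparison map from the level cohomology of the flat model to that of `A`. -/
noncomputable def flatCompare (n : ℕ) :
    (restrict 𝒰 c.range).levelCohomology (flatRep 𝒰 c A) n ⟶ (comap 𝒰 c).levelCohomology A n :=
  map (M := flatRep 𝒰 c A) (M' := discPart (comap 𝒰 c) A) c.rangeRestrict
      (isCompatible_rangeRestrict c 𝒰) (descendIncl c _ _) n ≫
    (comap 𝒰 c).levelCohomologyMap (discIncl (comap 𝒰 c) A) n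

variable (A) in
theorem flatCompare_bijective (n : ℕ) : Function.Bijective (flatCompare 𝒰 c A n).hom := by
  have h1 := map_bijective_of_cochains_bijective (M := flatRep 𝒰 c A)
    (M' := discPart (comap 𝒰 c) A) c.rangeRestrict
    (isCompatible_rangeRestrict c 𝒰) (descendIncl c _ _)
    (levelCochainsMap_descendIncl_bijective c _ _ 𝒰) n
  have h2 := levelCohomologyMap_discIncl_bijective (comap 𝒰 c) A n
  rw [flatCompare, ModuleCat.hom_comp]
  exact h2.comp h1

/-- The change-of-group map along `(c, lam)` is, up to the bijections `discIncl` and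
`flatCompare`, the change-of-group map along the subgroup `c.range` and `flatHom`. -/
theorem flat_square (lam : Rep.res c X ⟶ A) (n : ℕ) :
    𝒰.levelCohomologyMap (discIncl 𝒰 X) n ≫ map c (isCompatible_comap 𝒰 c) lam n =
      map c.range.subtype (isCompatible_comap 𝒰 c.range.subtype) (flatHom 𝒰 c lam) n ≫
        flatCompare 𝒰 c A n := by
  have h1 := map_comp (𝒰 := 𝒰) (𝒰' := 𝒰) (𝒰'' := comap 𝒰 c)
    (M := discPart 𝒰 X) (M' := X) (M'' := A) (MonoidHom.id G)
    𝒰.isCompatible_id (discIncl 𝒰 X) c (isCompatible_comap 𝒰 c) lam n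
  have h2 := map_comp (𝒰 := restrict 𝒰 c.range) (𝒰' := comap 𝒰 c) (𝒰'' := comap 𝒰 c)
    (M := flatRep 𝒰 c A) (M' := discPart (comap 𝒰 c) A) (M'' := A) c.rangeRestrict
    (isCompatible_rangeRestrict c 𝒰) (descendIncl c _ _) (MonoidHom.id S)
    (comap 𝒰 c).isCompatible_id (discIncl (comap 𝒰 c) A) n
  rw [levelCohomologyMap_eq_map, ← h1, flatCompare, levelCohomologyMap_eq_map, ← h2, ← map_comp]
  exact map_congr (MonoidHom.ext fun _ => rfl) _ (LinearMap.ext fun _ => rfl) n

variable (A) in
/-- The comparison map from `T` of the flat model to `T` of `A`. -/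
noncomputable def flatCompareT (p r : ℕ) :
    T (restrict 𝒰 c.range) p (flatRep 𝒰 c A) r →ₗ[k] T (comap 𝒰 c) p A r :=
  TMap (comap 𝒰 c) p (discIncl (comap 𝒰 c) A) r ∘ₗ
    TMapOfHom (X := flatRep 𝒰 c A) (Y := discPart (comap 𝒰 c) A) (restrict 𝒰 c.range) p
      (comap 𝒰 c) c.rangeRestrict (isCompatible_rangeRestrict c 𝒰) (descendIncl c _ _) r

variable (A) in
theorem flatCompareT_bijective (p r : ℕ) : Function.Bijective (flatCompareT 𝒰 c A p r) := by
  have h1 := TMapOfHom_bijective_of_cochains_bijective (M := flatRep 𝒰 c A)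
    (M' := discPart (comap 𝒰 c) A) c.rangeRestrict
    (isCompatible_rangeRestrict c 𝒰) (descendIncl c _ _)
    (levelCochainsMap_descendIncl_bijective c _ _ 𝒰) p r
  have h2 := TMap_discIncl_bijective (comap 𝒰 c) A p r
  rw [flatCompareT, LinearMap.coe_comp]
  exact h2.comp h1

/-- `T`-version of `flat_square`. -/
theorem flat_squareT (lam : Rep.res c X ⟶ A) (p r : ℕ) (t : T 𝒰 p (discPart 𝒰 X) r) :
    TMapOfHom 𝒰 p (comap 𝒰 c) c (isCompatible_comap 𝒰 c) lam r (TMap 𝒰 p (discIncl 𝒰 X) r t) =
      flatCompareT 𝒰 c A p r (TMapOfHom 𝒰 p (restrict 𝒰 c.range) c.range.subtype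
        (isCompatible_comap 𝒰 c.range.subtype) (flatHom 𝒰 c lam) r t) := by
  rw [flatCompareT, LinearMap.comp_apply, TMap_eq_TMapOfHom, TMap_eq_TMapOfHom,
    ← TMapOfHom_comp, ← TMapOfHom_comp, ← TMapOfHom_comp]
  exact congr_fun (congr_arg DFunLike.coe (TMapOfHom_congr 𝒰 _ p _
    (MonoidHom.ext fun _ => rfl) _ _ (LinearMap.ext fun _ => rfl) r)) t

end Flat

/-! ### Shapiro for a jointly induced module, general homomorphisms -/

section General

variable (𝒰 : LevelFamily G) {X : Rep.{u} k G} {ι : Type*} {S : ι → Type u}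
  [∀ i, Group (S i)] (c : ∀ i, S i →* G) {A : ∀ i, Rep.{u} k (S i)}
  (lam : ∀ i, Rep.res (c i) X ⟶ A i)
  (hinj : ∀ x : X, (∃ U ∈ 𝒰.levels, ∀ s ∈ U, X.ρ s x = x) →
    (∀ i g, (lam i).hom (X.ρ g x) = 0) → x = 0)
  (hsurj : ∀ f : ∀ i, G → A i,
    (∀ i (s : S i) (g : G), f i (c i s * g) = (A i).ρ s (f i g)) →
    (∀ i, ∃ U ∈ 𝒰.levels, ∀ g s : G, s ∈ U → f i (g * s) = f i g) →
    ∃ x : X, (∃ U ∈ 𝒰.levels, ∀ s ∈ U, X.ρ s x = x) ∧ ∀ i g, (lam i).hom (X.ρ g x) = f i g)

include hinj hsurj in
theorem bijective_jointLin_flatHom :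
    Function.Bijective (jointLin fun i =>
      toCoindLvl (isDiscrete_discPart 𝒰 X) (flatHom 𝒰 (c i) (lam i))) := by
  apply bijective_jointLin_toCoindLvl
  · rintro ⟨x, hx⟩ h
    apply Subtype.ext
    refine hinj x hx fun i g => ?_
    exact congrArg Subtype.val (h i g)
  · intro f hf1 hf2
    have hf1' : ∀ i (s : S i) (g : G), (f i (c i s * g)).1 = (A i).ρ s (f i g).1 := by
      intro i s g
      have h1 := hf1 i ((c i).rangeRestrict s) g
      have h2 : (f i (c i s * g)) = (flatRep 𝒰 (c i) (A i)).ρ ((c i).rangeRestrict s) (f i g) := h1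
      rw [h2]
      exact flatRep_ρ_rangeRestrict_coe 𝒰 (c i) (A i) s (f i g)
    have hf2' : ∀ i, ∃ U ∈ 𝒰.levels, ∀ g s : G, s ∈ U → (f i (g * s)).1 = (f i g).1 := by
      intro i
      obtain ⟨U, hU, h⟩ := hf2 i
      exact ⟨U, hU, fun g s hs => congrArg Subtype.val (h g s hs)⟩
    obtain ⟨x, hx, hxf⟩ := hsurj (fun i g => (f i g).1) hf1' hf2'
    refine ⟨⟨x, hx⟩, fun i g => ?_⟩
    apply Subtype.ext
    exact hxf i g

variable [Fintype ι]

include hinj hsurj in
/-- **Shapiro for a jointly induced module, general form** (level cohomology). `X` is any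
`G`-module, `c i : S i →* G` any finite family of homomorphisms, `A i` any `S i`-modules and
`lam i : res (c i) X ⟶ A i`. If, on elements fixed by some level, `X` is the product of the modules
coinduced from the `A i` (hypotheses `hinj`, `hsurj`), then
`Hⁿ_𝒰(G, X) → Π i, Hⁿ_{comap 𝒰 (c i)}(S i, A i)` is bijective in every degree. -/
theorem jointShapiroHom_bijective (n : ℕ) :
    Function.Bijective (fun (ξ : 𝒰.levelCohomology X n) (i : ι) =>
      (map (c i) (isCompatible_comap 𝒰 (c i)) (lam i) n).hom ξ) := by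
  have hb := bijective_jointLin_flatHom 𝒰 c lam hinj hsurj
  have h1 := jointShapiro_bijective (isDiscrete_discPart 𝒰 X)
    (fun i => isDiscrete_flatRep 𝒰 (c i) (A i)) (fun i => flatHom 𝒰 (c i) (lam i)) hb n
  have h2 : Function.Bijective (Pi.map fun i => (flatCompare 𝒰 (c i) (A i) n).hom) :=
    Function.Bijective.piMap fun i => flatCompare_bijective 𝒰 (c i) (A i) n
  have h3 := h2.comp h1
  have hu := levelCohomologyMap_discIncl_bijective 𝒰 X n
  rw [← Function.Bijective.of_comp_iff _ hu]
  have h4 : ((fun (ξ : 𝒰.levelCohomology X n) (i : ι) =>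
      (map (c i) (isCompatible_comap 𝒰 (c i)) (lam i) n).hom ξ) ∘
        (𝒰.levelCohomologyMap (discIncl 𝒰 X) n).hom) =
      (Pi.map fun i => (flatCompare 𝒰 (c i) (A i) n).hom) ∘
        fun (ξ : 𝒰.levelCohomology (discPart 𝒰 X) n) (i : ι) =>
          (map (c i).range.subtype (isCompatible_comap 𝒰 (c i).range.subtype)
            (flatHom 𝒰 (c i) (lam i)) n).hom ξ := by
    funext ξ i
    exact congr($(flat_square 𝒰 (c i) (lam i) n) ξ)
  rw [h4]
  exact h3

include hinj hsurj in
/-- **Shapiro for a jointly induced module, general form**, for the cohomology `T` of the cone of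
multiplication by `p`. -/
theorem jointShapiroHomT_bijective (p r : ℕ) :
    Function.Bijective (fun (t : T 𝒰 p X r) (i : ι) =>
      TMapOfHom 𝒰 p (comap 𝒰 (c i)) (c i) (isCompatible_comap 𝒰 (c i)) (lam i) r t) := by
  have hb := bijective_jointLin_flatHom 𝒰 c lam hinj hsurj
  have h1 := jointShapiroT_bijective (isDiscrete_discPart 𝒰 X)
    (fun i => isDiscrete_flatRep 𝒰 (c i) (A i)) (fun i => flatHom 𝒰 (c i) (lam i)) hb p r
  have h2 : Function.Bijective (Pi.map fun i => (flatCompareT 𝒰 (c i) (A i) p r)) :=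
    Function.Bijective.piMap fun i => flatCompareT_bijective 𝒰 (c i) (A i) p r
  have h3 := h2.comp h1
  have hu := TMap_discIncl_bijective 𝒰 X p r
  rw [← Function.Bijective.of_comp_iff _ hu]
  have h4 : ((fun (t : T 𝒰 p X r) (i : ι) =>
      TMapOfHom 𝒰 p (comap 𝒰 (c i)) (c i) (isCompatible_comap 𝒰 (c i)) (lam i) r t) ∘
        (TMap 𝒰 p (discIncl 𝒰 X) r)) =
      (Pi.map fun i => (flatCompareT 𝒰 (c i) (A i) p r)) ∘
        fun (t : T 𝒰 p (discPart 𝒰 X) r) (i : ι) =>
          TMapOfHom 𝒰 p (restrict 𝒰 (c i).range) (c i).range.subtype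
            (isCompatible_comap 𝒰 (c i).range.subtype) (flatHom 𝒰 (c i) (lam i)) r t := by
    funext t i
    exact flat_squareT 𝒰 (c i) (lam i) p r t
  rw [h4]
  exact h3

end General

/-! ### The case of a single homomorphism -/

section Single

variable (𝒰 : LevelFamily G) {X : Rep.{u} k G} {S : Type u} [Group S] (c : S →* G)
  {A : Rep.{u} k S} (lam : Rep.res c X ⟶ A)
  (hinj : ∀ x : X, (∃ U ∈ 𝒰.levels, ∀ s ∈ U, X.ρ s x = x) →
    (∀ g, lam.hom (X.ρ g x) = 0) → x = 0)
  (hsurj : ∀ f : G → A, (∀ (s : S) (g : G), f (c s * g) = A.ρ s (f g)) →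
    (∃ U ∈ 𝒰.levels, ∀ g s : G, s ∈ U → f (g * s) = f g) →
    ∃ x : X, (∃ U ∈ 𝒰.levels, ∀ s ∈ U, X.ρ s x = x) ∧ ∀ g, lam.hom (X.ρ g x) = f g)

include hinj hsurj in
/-- Shapiro for a module induced along an arbitrary homomorphism. -/
theorem shapiroHom_bijective (n : ℕ) :
    Function.Bijective (map c (isCompatible_comap 𝒰 c) lam n).hom := by
  have h := jointShapiroHom_bijective (ι := PUnit.{1}) 𝒰 (fun _ => c) (fun _ => lam)
    (fun x hx h => hinj x hx fun g => h PUnit.unit g)
    (fun f hf1 hf2 => by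
      obtain ⟨x, hx, hxf⟩ := hsurj (f PUnit.unit) (hf1 PUnit.unit) (hf2 PUnit.unit)
      exact ⟨x, hx, fun _ g => hxf g⟩) n
  constructor
  · intro x y hxy
    exact h.1 (funext fun _ => hxy)
  · intro y
    obtain ⟨x, hx⟩ := h.2 fun _ => y
    exact ⟨x, congr_fun hx PUnit.unit⟩

include hinj hsurj in
/-- `T`-version of `shapiroHom_bijective`. -/
theorem shapiroHomT_bijective (p r : ℕ) :
    Function.Bijective (TMapOfHom 𝒰 p (comap 𝒰 c) c (isCompatible_comap 𝒰 c) lam r) := by
  have h := jointShapiroHomT_bijective (ι := PUnit.{1}) 𝒰 (fun _ => c) (fun _ => lam)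
    (fun x hx h => hinj x hx fun g => h PUnit.unit g)
    (fun f hf1 hf2 => by
      obtain ⟨x, hx, hxf⟩ := hsurj (f PUnit.unit) (hf1 PUnit.unit) (hf2 PUnit.unit)
      exact ⟨x, hx, fun _ g => hxf g⟩) p r
  constructor
  · intro x y hxy
    exact h.1 (funext fun _ => hxy)
  · intro y
    obtain ⟨x, hx⟩ := h.2 fun _ => y
    exact ⟨x, congr_fun hx PUnit.unit⟩

end Single

end Fermat.Agent.Lib.CFT.Profinite.LES
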