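import Mathlib
import Fermat.Prelude.Def_GroupCohomology_ContinuousUnramified

/-!
P-CFT, Profinite/Bridge, part (d): the archimedean place.

* For a finite group whose order is invertible in the coefficient ring, every 1-cocycle and every
  2-cocycle is a coboundary.
* Every cochain on the archimedean decomposition group is level constant.
* Hence the local `H¹` and the local continuous `H²` at the archimedean place vanish for
  `𝔽_p`-coefficients with `p` odd.
-/

set_option autoImplicit false

universe u

open groupCohomology CategoryTheory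

namespace Fermat.Agent.Lib.CFT.Profinite.Bridge

section Finite

variable {k G : Type u} [CommRing k] [Group G] [Fintype G] (A : Rep k G)

/-- If `|G|` is invertible in `k`, every 1-cocycle is a coboundary. -/
theorem cocycles₁_le_coboundaries₁_of_card (c : k) (hc : c * (Fintype.card G : k) = 1) :
    cocycles₁ A ≤ coboundaries₁ A := by
  intro f hf
  rw [mem_cocycles₁_iff] at hf
  set s : A := ∑ h : G, f h with hs
  refine ⟨-(c • s), ?_⟩
  funext g
  rw [d₀₁_hom_apply]
  -- `|G| • f g = s - g s`
  have h1 : ∑ h : G, f (g * h) = s := by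
    rw [hs]
    exact Fintype.sum_bijective (fun h => g * h) (Group.mulLeft_bijective g) _ _ fun _ => rfl
  have h2 : ∑ h : G, f (g * h) = A.ρ g s + (Fintype.card G : k) • f g := by
    simp_rw [hf g]
    rw [Finset.sum_add_distrib, hs, map_sum]
    congr 1
    rw [Finset.sum_const, Finset.card_univ, Nat.cast_smul_eq_nsmul]
  have h3 : (Fintype.card G : k) • f g = s - A.ρ g s := by
    rw [h1] at h2
    rw [eq_sub_iff_add_eq, add_comm]
    exact h2.symm
  have h4 : f g = c • (s - A.ρ g s) := by
    rw [← h3, smul_smul, hc, one_smul]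
  rw [h4, map_neg, map_smul, smul_sub]
  abel

/-- If `|G|` is invertible in `k`, every 2-cocycle is a coboundary. -/
theorem cocycles₂_le_coboundaries₂_of_card (c : k) (hc : c * (Fintype.card G : k) = 1) :
    cocycles₂ A ≤ coboundaries₂ A := by
  intro f hf
  rw [mem_cocycles₂_iff] at hf
  let t : G → A := fun g => ∑ j : G, f (g, j)
  refine ⟨c • t, ?_⟩
  funext ⟨g, h⟩
  -- `|G| • f (g, h) = g t(h) - t(g h) + t(g)`
  have h1 : ∑ j : G, f (g, h * j) = t g :=
    Fintype.sum_bijective (fun j => h * j) (Group.mulLeft_bijective h) _ _ fun _ => rfl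
  have h2 : ∑ j : G, (f (g * h, j) + f (g, h)) = ∑ j : G, (A.ρ g (f (h, j)) + f (g, h * j)) :=
    Finset.sum_congr rfl fun j _ => hf g h j
  rw [Finset.sum_add_distrib, Finset.sum_add_distrib, h1, Finset.sum_const, Finset.card_univ,
    ← map_sum] at h2
  have h3 : (Fintype.card G : k) • f (g, h) = A.ρ g (t h) - t (g * h) + t g := by
    rw [Nat.cast_smul_eq_nsmul]
    have : t (g * h) + Fintype.card G • f (g, h) = A.ρ g (t h) + t g := h2
    rw [sub_add_eq_add_sub, eq_sub_iff_add_eq, add_comm]
    exact this
  have h4 : f (g, h) = c • (A.ρ g (t h) - t (g * h) + t g) := by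
    rw [← h3, smul_smul, hc, one_smul]
  rw [h4, d₁₂_hom_apply]
  simp only [Pi.smul_apply, map_smul, smul_add, smul_sub]

theorem H1_subsingleton_of_card (c : k) (hc : c * (Fintype.card G : k) = 1) :
    Subsingleton (H1 A) := by
  refine ⟨fun x y => ?_⟩
  have h0 : ∀ z : H1 A, z = 0 := by
    intro z
    induction z using H1_induction_on with
    | h z =>
      rw [H1π_eq_zero_iff]
      exact cocycles₁_le_coboundaries₁_of_card A c hc z.2
  rw [h0 x, h0 y]

end Finite

section Arch

open ExtCitation

local notation "Qbar" => AlgebraicClosure ℚ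
local notation "Γℚ" => (AlgebraicClosure ℚ ≃ₐ[ℚ] AlgebraicClosure ℚ)

theorem mem_archimedeanDecomposition_iff (s : Γℚ) :
    s ∈ archimedeanDecomposition ↔ s = 1 ∨ s = complexConjugation := by
  unfold archimedeanDecomposition
  constructor
  · intro hs
    obtain ⟨n, rfl⟩ := Subgroup.mem_zpowers_iff.mp hs
    have h2 : complexConjugation ^ (2 : ℤ) = 1 := by
      rw [zpow_ofNat]; exact complexConjugation_sq
    rw [zpow_eq_zpow_emod n h2]
    rcases Int.emod_two_eq_zero_or_one n with h | h
    · left; rw [h, zpow_zero]
    · right; rw [h, zpow_one]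
  · rintro (rfl | rfl)
    · exact one_mem _
    · exact Subgroup.mem_zpowers _

instance finite_archimedeanDecomposition : Finite ↥archimedeanDecomposition := by
  have h : (archimedeanDecomposition : Set Γℚ) ⊆ {1, complexConjugation} := by
    intro s hs
    rcases (mem_archimedeanDecomposition_iff s).mp hs with rfl | rfl <;> simp
  exact ((Set.toFinite {1, complexConjugation}).subset h).to_subtype

theorem card_archimedeanDecomposition_dvd : Nat.card ↥archimedeanDecomposition ∣ 2 := by
  unfold archimedeanDecomposition
  rw [Nat.card_zpowers]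
  exact orderOf_dvd_of_pow_eq_one complexConjugation_sq

/-- There is a finite extension of `ℚ` whose fixing subgroup meets the archimedean
decomposition group trivially. -/
theorem exists_finite_fixingSubgroup_inf_arch :
    ∃ F : IntermediateField ℚ Qbar, FiniteDimensional ℚ F ∧
      ∀ s : ↥archimedeanDecomposition, archimedeanLoc s ∈ F.fixingSubgroup → s = 1 := by
  by_cases hc : complexConjugation = 1
  · refine ⟨⊥, inferInstance, fun s _ => ?_⟩
    apply Subtype.ext
    rcases (mem_archimedeanDecomposition_iff s.1).mp s.2 with h | h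
    · exact h
    · rw [h, hc]; rfl
  · obtain ⟨x, hx⟩ : ∃ x : Qbar, complexConjugation x ≠ x := by
      by_contra hcon
      push Not at hcon
      exact hc (AlgEquiv.ext hcon)
    have hxint : IsIntegral ℚ x := ((AlgebraicClosure.isAlgebraic ℚ).isAlgebraic x).isIntegral
    refine ⟨IntermediateField.adjoin ℚ {x}, IntermediateField.adjoin.finiteDimensional hxint,
      fun s hs => ?_⟩
    apply Subtype.ext
    rcases (mem_archimedeanDecomposition_iff s.1).mp s.2 with h | h
    · exact h
    · exfalso
      have h1 : (archimedeanLoc s) x = x :=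
        (IntermediateField.mem_fixingSubgroup_iff _ _).mp hs x
          (IntermediateField.mem_adjoin_simple_self ℚ x)
      have h2 : archimedeanLoc s = complexConjugation := h
      rw [h2] at h1
      exact hx h1

/-- Every function on the archimedean decomposition group is level constant. -/
theorem isLevelConstant₁_arch {X : Type*} (f : ↥archimedeanDecomposition → X) :
    IsLevelConstant₁ archimedeanLoc f := by
  obtain ⟨F, hF, h⟩ := exists_finite_fixingSubgroup_inf_arch
  exact ⟨F, hF, fun g s hs => by rw [h s hs, mul_one]⟩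

theorem isLevelConstant₂_arch {X : Type*}
    (f : ↥archimedeanDecomposition × ↥archimedeanDecomposition → X) :
    IsLevelConstant₂ archimedeanLoc f := by
  obtain ⟨F, hF, h⟩ := exists_finite_fixingSubgroup_inf_arch
  exact ⟨F, hF, fun g g' s s' hs hs' => by rw [h s hs, h s' hs', mul_one, mul_one]⟩

variable {p : ℕ} [Fact p.Prime]

/-- The order of the archimedean decomposition group is invertible in `ZMod p`, `p` odd. -/
theorem exists_inv_card_arch (hp2 : p ≠ 2) :
    ∃ c : ZMod p, c * (Nat.card ↥archimedeanDecomposition : ZMod p) = 1 := by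
  have hne : (Nat.card ↥archimedeanDecomposition : ZMod p) ≠ 0 := by
    intro h0
    rw [ZMod.natCast_eq_zero_iff] at h0
    have h2 : p ∣ 2 := h0.trans card_archimedeanDecomposition_dvd
    have := (Nat.prime_dvd_prime_iff_eq (Fact.out : p.Prime) Nat.prime_two).mp h2
    exact hp2 this
  exact ⟨_, inv_mul_cancel₀ hne⟩

/-- Local `H¹` at the archimedean place vanishes for `𝔽_p`-coefficients, `p` odd. -/
theorem subsingleton_H1_arch (hp2 : p ≠ 2) (A : Rep (ZMod p) ↥archimedeanDecomposition) :
    Subsingleton (H1 A) := by
  classical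
  let _ : Fintype ↥archimedeanDecomposition := Fintype.ofFinite _
  obtain ⟨c, hc⟩ := exists_inv_card_arch (p := p) hp2
  rw [Nat.card_eq_fintype_card] at hc
  exact H1_subsingleton_of_card A c hc

/-- Local continuous `H²` at the archimedean place vanishes for `𝔽_p`-coefficients, `p` odd. -/
theorem subsingleton_continuousH2_arch (hp2 : p ≠ 2)
    (A : Rep (ZMod p) ↥archimedeanDecomposition) :
    Subsingleton (continuousH2 archimedeanLoc A) := by
  classical
  let _ : Fintype ↥archimedeanDecomposition := Fintype.ofFinite _
  obtain ⟨c, hc⟩ := exists_inv_card_arch (p := p) hp2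
  rw [Nat.card_eq_fintype_card] at hc
  have h0 : ∀ z : continuousH2 archimedeanLoc A, z = 0 := by
    intro z
    obtain ⟨f, rfl⟩ := Submodule.Quotient.mk_surjective _ z
    have hf : (f : _ × _ → A) ∈ coboundaries₂ A :=
      cocycles₂_le_coboundaries₂_of_card A c hc f.2.1
    obtain ⟨x, hx⟩ := hf
    have : continuousH2π archimedeanLoc A f = 0 := by
      rw [continuousH2π_eq_zero_iff, mem_levelCoboundaries₂_iff]
      exact ⟨x, isLevelConstant₁_arch x, hx⟩
    exact this
  exact ⟨fun x y => by rw [h0 x, h0 y]⟩

/-- S55 form: local `H¹` at the archimedean index. -/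
theorem subsingleton_H1_extArith_inl (hp2 : p ≠ 2) (S : Finset Nat.Primes)
    (M : Rep (ZMod p) Γℚ) (v : extArithIndex S) (u : Unit) (hv : v = Sum.inl u) :
    Subsingleton (H1 (Rep.res (extArithLoc S v) M)) := by
  subst hv
  exact subsingleton_H1_arch hp2 (Rep.res archimedeanLoc M)

/-- S55 form: local continuous `H²` at the archimedean index. -/
theorem subsingleton_continuousH2_extArith_inl (hp2 : p ≠ 2) (S : Finset Nat.Primes)
    (M : Rep (ZMod p) Γℚ) (v : extArithIndex S) (u : Unit) (hv : v = Sum.inl u) :
    Subsingleton (continuousH2 (extArithLoc S v) (Rep.res (extArithLoc S v) M)) := by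
  subst hv
  exact subsingleton_continuousH2_arch hp2 (Rep.res archimedeanLoc M)

end Arch

end Fermat.Agent.Lib.CFT.Profinite.Bridge
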