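import Fermat.Agent.Lib.CFT.Profinite.BridgeS55
import Fermat.Agent.Lib.CFT.Duality.LocDatum

/-!
# P-CFT Profinite/Bridge: the Bridge contract of the L4 blueprint

`sha₁ S A ≃ shaLevel (arithDatum S) A 1`, `sha₂ S M ≃ shaLevel (arithDatum S) M 2` in exactly the
shapes of `Duality/LocDatum.lean`, and the frozen statement S55 from the equality of the
dimensions of the two `shaLevel`s.
-/

set_option autoImplicit false

open CategoryTheory groupCohomology

namespace Fermat.Agent.Lib.CFT.Profinite.Bridge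

open Fermat.Agent.Lib.CFT.Profinite LevelFamily ExtCitation Fermat.Agent.Lib.CFT.Duality

local notation "Qbar" => AlgebraicClosure ℚ
local notation "Γℚ" => (AlgebraicClosure ℚ ≃ₐ[ℚ] AlgebraicClosure ℚ)

section Contract

variable {k : Type} [CommRing k] (S : Finset Nat.Primes) (M : Rep k Γℚ)

theorem locMapHAt_arithDatum (n : ℕ) (q : S) :
    (arithDatum S).locMapHAt M n q = locH S M n q.1 := rfl

theorem locMapH_arithDatum (n : ℕ) : (arithDatum S).locMapH M n = locHTotal S M n := rfl

theorem shaLevel_arithDatum (n : ℕ) :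
    (arithDatum S).shaLevel M n = LinearMap.ker (locHTotal S M n) := rfl

end Contract

section Final

variable {p : ℕ} [Fact p.Prime] (hp2 : p ≠ 2) (S : Finset Nat.Primes) (M : Rep (ZMod p) Γℚ)

/-- **Bridge contract, degree 1** (`p` odd, `A` discrete for the `S`-levels). -/
noncomputable def sha1Equiv (hM : (levelsS S).IsDiscrete M) :
    sha₁ S M ≃ₗ[ZMod p] (arithDatum S).shaLevel M 1 :=
  (sha₁EquivLocal hp2 S M hM).symm

theorem sha1Equiv_symm_apply_coe (hM : (levelsS S).IsDiscrete M)
    (y : (arithDatum S).shaLevel M 1) :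
    ((sha1Equiv hp2 S M hM).symm y : H1 M) = ((levelsS S).toGroupCohomology M 1).hom y.1 := rfl

/-- **Bridge contract, degree 2** (`p` odd, `M` smooth and discrete for the `S`-levels). -/
noncomputable def sha2Equiv
    (hsm : ∀ m : M, ∃ F : IntermediateField ℚ Qbar, FiniteDimensional ℚ F ∧
      ∀ s ∈ F.fixingSubgroup, M.ρ s m = m)
    (hM : (levelsS S).IsDiscrete M) :
    sha₂ S M ≃ₗ[ZMod p] (arithDatum S).shaLevel M 2 :=
  sha₂EquivLocal hp2 S M hsm hM

theorem sha2Equiv_apply_coe
    (hsm : ∀ m : M, ∃ F : IntermediateField ℚ Qbar, FiniteDimensional ℚ F ∧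
      ∀ s ∈ F.fixingSubgroup, M.ρ s m = m)
    (hM : (levelsS S).IsDiscrete M) (x : sha₂ S M) :
    ((sha2Equiv hp2 S M hsm hM x).1 : (levelsS S).levelCohomology M 2) =
      continuousH2SEquiv S M hM x.1 := rfl

/-- A discrete module for the `S`-levels is smooth. -/
theorem smooth_of_isDiscrete_levelsS (hM : (levelsS S).IsDiscrete M) (m : M) :
    ∃ F : IntermediateField ℚ Qbar, FiniteDimensional ℚ F ∧
      ∀ s ∈ F.fixingSubgroup, M.ρ s m = m := by
  obtain ⟨_, ⟨F, hF, rfl⟩, h⟩ := hM m
  exact ⟨F, hF.1, h⟩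

include hp2 in
/-- **S55 from the level-cohomology dimension equality**, under exactly the hypotheses of the
frozen statement. -/
theorem s55_of_finrank_shaLevel (hpS : pPrime p ∈ S) [FiniteDimensional (ZMod p) M]
    (hsm : ∀ m : M, ∃ F : IntermediateField ℚ Qbar, FiniteDimensional ℚ F ∧
      ∀ s ∈ F.fixingSubgroup, M.ρ s m = m)
    (hMur : ∀ q : Nat.Primes, q ∉ S → ∀ A : ValuationSubring Qbar,
      A.LiesOverPrime (q : ℕ) → ∀ g ∈ A.inertiaSubgroupIn ℚ, M.ρ g = 1)
    (hfin₁ : Module.Finite (ZMod p) ((arithDatum S).shaLevel (M.dualTwist (cycloChar p)) 1))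
    (hfin₂ : Module.Finite (ZMod p) ((arithDatum S).shaLevel M 2))
    (hrank : Module.finrank (ZMod p) ((arithDatum S).shaLevel (M.dualTwist (cycloChar p)) 1) =
      Module.finrank (ZMod p) ((arithDatum S).shaLevel M 2)) :
    ∃ B : sha₁ S (M.dualTwist (cycloChar p)) →ₗ[ZMod p] sha₂ S M →ₗ[ZMod p] ZMod p,
      (∀ y, (∀ x, B y x = 0) → y = 0) ∧ (∀ x, (∀ y, B y x = 0) → x = 0) := by
  classical
  have hM := isDiscrete_levelsS S M hsm hMur
  have hA := isDiscrete_levelsS_dualTwist p S hpS M hsm hMur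
  have hfin₁' : Module.Finite (ZMod p)
      (LinearMap.ker (locHTotal S (M.dualTwist (cycloChar p)) 1)) := hfin₁
  have hfin₂' : Module.Finite (ZMod p) (LinearMap.ker (locHTotal S M 2)) := hfin₂
  have hrank' : Module.finrank (ZMod p)
      (LinearMap.ker (locHTotal S (M.dualTwist (cycloChar p)) 1)) =
      Module.finrank (ZMod p) (LinearMap.ker (locHTotal S M 2)) := hrank
  let e : LinearMap.ker (locHTotal S (M.dualTwist (cycloChar p)) 1) ≃ₗ[ZMod p]
      LinearMap.ker (locHTotal S M 2) := LinearEquiv.ofFinrankEq _ _ hrank'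
  let b := Module.finBasis (ZMod p) (LinearMap.ker (locHTotal S M 2))
  refine s55_of_level_pairing hp2 S hpS M hsm hMur (b.toDual.comp (e : _ →ₗ[ZMod p] _)) ?_ ?_
  · intro y hy
    have h1 : b.toDual (e y) = 0 := LinearMap.ext fun x => hy x
    have h2 : e y = 0 := b.toDual_injective (h1.trans (map_zero _).symm)
    exact e.injective (h2.trans (map_zero e).symm)
  · intro x hx
    apply b.ext_elem
    intro i
    have := hx (e.symm (b i))
    simp only [LinearMap.comp_apply, LinearEquiv.coe_coe, LinearEquiv.apply_symm_apply,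
      Module.Basis.toDual_apply_right] at this
    rw [this]
    simp

end Final

end Fermat.Agent.Lib.CFT.Profinite.Bridge
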