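import Fermat.Agent.Lib.CFT.Profinite.BridgeLow
import Fermat.Agent.Lib.CFT.Profinite.LevelLowDegree

/-!
# P-CFT Profinite/Bridge, degree one: `continuousH1`, `continuousH1S`, `sha₁` as level cohomology
-/

set_option autoImplicit false

universe u

open CategoryTheory groupCohomology

namespace Fermat.Agent.Lib.CFT.Profinite.Bridge

open Fermat.Agent.Lib.CFT.Profinite LevelFamily

section GenericNat

variable {k G G' : Type u} [CommRing k] [Group G] [Group G'] {𝒰 : LevelFamily G}
  {𝒰' : LevelFamily G'} {M : Rep.{u} k G} {M' : Rep.{u} k G'}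

/-- Naturality of the comparison map from level cohomology to abstract group cohomology. -/
theorem levelCohomologyMapOfHom_comp_toGroupCohomology (f : G' →* G) (hf : IsCompatible 𝒰' 𝒰 f)
    (φ : Rep.res f M ⟶ M') (n : ℕ) :
    levelCohomologyMapOfHom f hf φ n ≫ 𝒰'.toGroupCohomology M' n =
      𝒰.toGroupCohomology M n ≫ groupCohomology.map f φ n := by
  have h1 := HomologicalComplex.homologyMap_comp (levelCochainsMap f hf φ) (𝒰'.levelComplexι M') n
  have h2 := HomologicalComplex.homologyMap_comp (𝒰.levelComplexι M) (cochainsMap f φ) n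
  rw [levelCochainsMap_comp_ι] at h1
  exact h1.symm.trans h2

theorem toGroupCohomology_levelCohomologyMapOfHom_apply (f : G' →* G)
    (hf : IsCompatible 𝒰' 𝒰 f) (φ : Rep.res f M ⟶ M') (n : ℕ) (x : 𝒰.levelCohomology M n) :
    (𝒰'.toGroupCohomology M' n).hom ((levelCohomologyMapOfHom f hf φ n).hom x) =
      (groupCohomology.map f φ n).hom ((𝒰.toGroupCohomology M n).hom x) :=
  congr($(levelCohomologyMapOfHom_comp_toGroupCohomology f hf φ n) x)

end GenericNat

section Prelude

local notation "Qbar" => AlgebraicClosure ℚ
local notation "Γℚ" => (AlgebraicClosure ℚ ≃ₐ[ℚ] AlgebraicClosure ℚ)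

variable {k : Type} [CommRing k]

/-- The Prelude's `continuousH1 r M` is the image of level cohomology in degree one. -/
theorem continuousH1_eq_range {G : Type} [Group G] (r : G →* Γℚ) (M : Rep k G)
    (hM : (galLevels r).IsDiscrete M) :
    continuousH1 r M = LinearMap.range ((galLevels r).toGroupCohomology M 1).hom := by
  ext x
  rw [mem_continuousH1_iff, mem_range_toGroupCohomology_one_iff_of_isDiscrete _ _ hM]
  simp only [isLevelConstant₁_iff]

/-- The Prelude's `continuousH1S S M` is the image of `S`-level cohomology in degree one. -/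
theorem continuousH1S_eq_range (S : Finset Nat.Primes) (M : Rep k Γℚ)
    (hM : (levelsS S).IsDiscrete M) :
    continuousH1S S M = LinearMap.range ((levelsS S).toGroupCohomology M 1).hom := by
  ext x
  rw [mem_continuousH1S_iff, mem_range_toGroupCohomology_one_iff_of_isDiscrete _ _ hM]
  simp only [isLevelConstantS₁_iff]

/-- `H¹` of the `S`-level complex is the Prelude's `continuousH1S S M`. -/
noncomputable def levelH1EquivS (S : Finset Nat.Primes) (M : Rep k Γℚ)
    (hM : (levelsS S).IsDiscrete M) :
    (levelsS S).levelCohomology M 1 ≃ₗ[k] continuousH1S S M :=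
  (LinearEquiv.ofInjective _ ((levelsS S).toGroupCohomology_one_injective M)).trans
    (LinearEquiv.ofEq _ _ (continuousH1S_eq_range S M hM).symm)

theorem levelH1EquivS_apply_coe (S : Finset Nat.Primes) (M : Rep k Γℚ)
    (hM : (levelsS S).IsDiscrete M) (x : (levelsS S).levelCohomology M 1) :
    (levelH1EquivS S M hM x : H1 M) = ((levelsS S).toGroupCohomology M 1).hom x := rfl

section Sha1

open ExtCitation

variable {K : Type} [Field K] (S : Finset Nat.Primes) (A : Rep K Γℚ)

/-- The localisation map of level cohomology in degree 1 at the index `v`. -/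
noncomputable def levelLoc₁ (v : extArithIndex S) :
    (levelsS S).levelCohomology A 1 →ₗ[K]
      (galLevels (extArithLoc S v)).levelCohomology (Rep.res (extArithLoc S v) A) 1 :=
  (levelCohomologyMapOfHom (extArithLoc S v) (isCompatible_galLevels_levelsS S (extArithLoc S v))
    (𝟙 (Rep.res (extArithLoc S v) A)) 1).hom

/-- The total localisation map of level cohomology in degree 1. -/
noncomputable def levelLocTotal₁ :
    (levelsS S).levelCohomology A 1 →ₗ[K]
      ∀ v : extArithIndex S,
        (galLevels (extArithLoc S v)).levelCohomology (Rep.res (extArithLoc S v) A) 1 :=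
  LinearMap.pi fun v => levelLoc₁ S A v

theorem toGroupCohomology_levelLoc₁ (v : extArithIndex S) (y : (levelsS S).levelCohomology A 1) :
    ((galLevels (extArithLoc S v)).toGroupCohomology (Rep.res (extArithLoc S v) A) 1).hom
        (levelLoc₁ S A v y) =
      (locRes (extArithLoc S) A v).hom (((levelsS S).toGroupCohomology A 1).hom y) :=
  toGroupCohomology_levelCohomologyMapOfHom_apply (extArithLoc S v)
    (isCompatible_galLevels_levelsS S (extArithLoc S v)) (𝟙 (Rep.res (extArithLoc S v) A)) 1 y

theorem locRes_toGroupCohomology_eq_zero_iff (v : extArithIndex S)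
    (y : (levelsS S).levelCohomology A 1) :
    (locRes (extArithLoc S) A v).hom (((levelsS S).toGroupCohomology A 1).hom y) = 0 ↔
      levelLoc₁ S A v y = 0 := by
  rw [← toGroupCohomology_levelLoc₁]
  constructor
  · intro h
    apply (galLevels (extArithLoc S v)).toGroupCohomology_one_injective
      (Rep.res (extArithLoc S v) A)
    rw [h, map_zero]
  · intro h
    rw [h, map_zero]

variable (hA : (levelsS S).IsDiscrete A)

include hA in
theorem toGroupCohomology_mem_sha₁_iff (y : (levelsS S).levelCohomology A 1) :
    ((levelsS S).toGroupCohomology A 1).hom y ∈ sha₁ S A ↔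
      ∀ v : extArithIndex S, levelLoc₁ S A v y = 0 := by
  unfold sha₁
  rw [Submodule.mem_inf, continuousH1S_eq_range S A hA, LinearMap.mem_ker]
  constructor
  · rintro ⟨-, h⟩ v
    rw [← locRes_toGroupCohomology_eq_zero_iff]
    have := congr_fun h v
    rwa [locTotal_apply] at this
  · intro h
    refine ⟨⟨y, rfl⟩, ?_⟩
    funext v
    rw [locTotal_apply]
    exact (locRes_toGroupCohomology_eq_zero_iff S A v y).2 (h v)

include hA in
theorem map_ker_levelLocTotal₁_eq :
    (LinearMap.ker (levelLocTotal₁ S A)).map ((levelsS S).toGroupCohomology A 1).hom =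
      sha₁ S A := by
  ext x
  constructor
  · rintro ⟨y, hy, rfl⟩
    rw [toGroupCohomology_mem_sha₁_iff S A hA]
    intro v
    exact congr_fun (LinearMap.mem_ker.mp hy) v
  · intro hx
    have hx' := hx
    unfold sha₁ at hx'
    rw [Submodule.mem_inf, continuousH1S_eq_range S A hA] at hx'
    obtain ⟨y, rfl⟩ := hx'.1
    refine ⟨y, ?_, rfl⟩
    rw [SetLike.mem_coe, LinearMap.mem_ker]
    funext v
    exact (toGroupCohomology_mem_sha₁_iff S A hA y).1 hx v

/-- `Ш¹_S(A)` is the kernel of the total localisation map of level cohomology in degree 1. -/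
noncomputable def sha₁Equiv : LinearMap.ker (levelLocTotal₁ S A) ≃ₗ[K] sha₁ S A :=
  (Submodule.equivMapOfInjective _ ((levelsS S).toGroupCohomology_one_injective A) _).trans
    (LinearEquiv.ofEq _ _ (map_ker_levelLocTotal₁_eq S A hA))

theorem sha₁Equiv_apply_coe (y : LinearMap.ker (levelLocTotal₁ S A)) :
    (sha₁Equiv S A hA y : H1 A) = ((levelsS S).toGroupCohomology A 1).hom y.1 := rfl

end Sha1

end Prelude

end Fermat.Agent.Lib.CFT.Profinite.Bridge
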