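import Fermat.Agent.Lib.CFT.Profinite.BridgeLevels
import Fermat.Agent.Lib.CFT.Profinite.LevelClasses

/-!
# P-CFT Profinite/Bridge, low degree: the Prelude's `continuousH2` shapes are level cohomology

Generic lemma: for a level family `𝒰` on `G`, a discrete module `M` and submodules
`Z B : Submodule k (G × G → M)` in the Prelude's shape (`Z` = level-constant 2-cocycles,
`B` = coboundaries of level-constant 1-cochains), `Z ⧸ B.comap Z.subtype` is the level
cohomology `𝒰.levelCohomology M 2`.
-/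

set_option autoImplicit false

universe u

open CategoryTheory groupCohomology

namespace Fermat.Agent.Lib.CFT.Profinite.Bridge

open Fermat.Agent.Lib.CFT.Profinite LevelFamily

section Generic

variable {k G : Type u} [CommRing k] [Group G] {𝒰 : LevelFamily G} {M : Rep.{u} k G}

theorem isConst_up₁_iff {X : Type*} (x : G → X) :
    𝒰.IsConst (fun g : Fin 1 → G => x (g 0)) ↔ 𝒰.IsConst₁ x := by
  constructor
  · rintro ⟨U, hU, h⟩
    exact ⟨U, hU, fun g s hs => h (fun _ => g) (fun _ => s) (fun _ => hs)⟩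
  · rintro ⟨U, hU, h⟩
    exact ⟨U, hU, fun g s hs => h (g 0) (s 0) (hs 0)⟩

theorem isConst_up₂_iff {X : Type*} (f : G × G → X) :
    𝒰.IsConst (fun g : Fin 2 → G => f (g 0, g 1)) ↔ 𝒰.IsConst₂ f := by
  constructor
  · rintro ⟨U, hU, h⟩
    refine ⟨U, hU, fun g g' s s' hs hs' => ?_⟩
    have := h ![g, g'] ![s, s'] (by intro i; fin_cases i <;> simpa)
    simpa using this
  · rintro ⟨U, hU, h⟩
    exact ⟨U, hU, fun g s hs => h (g 0) (g 1) (s 0) (s 1) (hs 0) (hs 1)⟩

theorem cochainsIso₁_inv_apply (x : G → M) (g : Fin 1 → G) :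
    (cochainsIso₁ M).inv.hom x g = x (g 0) := rfl

theorem cochainsIso₂_inv_apply (f : G × G → M) (g : Fin 2 → G) :
    (cochainsIso₂ M).inv.hom f g = f (g 0, g 1) := rfl

theorem cochainsIso₁_hom_apply (x : (Fin 1 → G) → M) (g : G) :
    (cochainsIso₁ M).hom.hom x g = x (fun _ => g) := rfl

theorem cochainsIso₂_hom_apply (f : (Fin 2 → G) → M) (p : G × G) :
    (cochainsIso₂ M).hom.hom f p = f ![p.1, p.2] := rfl

theorem d_cochainsIso₂_inv (f : G × G → M) :
    (inhomogeneousCochains.d M 2).hom ((cochainsIso₂ M).inv.hom f) =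
      (cochainsIso₃ M).inv.hom ((d₂₃ M).hom f) := by
  have := congr($(eq_d₂₃_comp_inv M) f)
  simp only [ModuleCat.hom_comp, LinearMap.coe_comp, Function.comp_apply] at this
  exact this

theorem d_cochainsIso₁_inv (x : G → M) :
    (inhomogeneousCochains.d M 1).hom ((cochainsIso₁ M).inv.hom x) =
      (cochainsIso₂ M).inv.hom ((d₁₂ M).hom x) := by
  have := congr($(eq_d₁₂_comp_inv M) x)
  simp only [ModuleCat.hom_comp, LinearMap.coe_comp, Function.comp_apply] at this
  exact this

theorem d₂₃_cochainsIso₂_hom (c : (Fin 2 → G) → M) :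
    (d₂₃ M).hom ((cochainsIso₂ M).hom.hom c) =
      (cochainsIso₃ M).hom.hom ((inhomogeneousCochains.d M 2).hom c) := by
  have := congr($(comp_d₂₃_eq M) c)
  simp only [ModuleCat.hom_comp, LinearMap.coe_comp, Function.comp_apply] at this
  exact this

theorem d₁₂_cochainsIso₁_hom (y : (Fin 1 → G) → M) :
    (d₁₂ M).hom ((cochainsIso₁ M).hom.hom y) =
      (cochainsIso₂ M).hom.hom ((inhomogeneousCochains.d M 1).hom y) := by
  have := congr($(comp_d₁₂_eq M) y)
  simp only [ModuleCat.hom_comp, LinearMap.coe_comp, Function.comp_apply] at this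
  exact this

theorem cochainsIso₂_inv_injective :
    Function.Injective ((cochainsIso₂ M).inv.hom : (G × G → M) → ((Fin 2 → G) → M)) := by
  intro f f' h
  funext p
  have := congr_fun h ![p.1, p.2]
  rw [cochainsIso₂_inv_apply, cochainsIso₂_inv_apply] at this
  simpa using this

/-- Hypotheses saying that `Z`, `B` are the Prelude-shaped level 2-cocycles and
2-coboundaries for the level family `𝒰`. -/
structure IsLowShape₂ (𝒰 : LevelFamily G) (M : Rep.{u} k G)
    (Z B : Submodule k (G × G → M)) : Prop where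
  mem_Z : ∀ f, f ∈ Z ↔ f ∈ cocycles₂ M ∧ 𝒰.IsConst₂ f
  mem_B : ∀ f, f ∈ B ↔ ∃ x : G → M, 𝒰.IsConst₁ x ∧ (d₁₂ M).hom x = f

variable {Z B : Submodule k (G × G → M)}

theorem IsLowShape₂.mem_levelCocycles (h : IsLowShape₂ 𝒰 M Z B) (hM : 𝒰.IsDiscrete M)
    {f : G × G → M} (hf : f ∈ Z) : (cochainsIso₂ M).inv.hom f ∈ 𝒰.levelCocycles M 2 := by
  obtain ⟨h1, h2⟩ := (h.mem_Z f).1 hf
  refine Submodule.mem_inf.mpr ⟨?_, ?_⟩
  · rw [mem_levelCochains_iff, isLevelCochain_iff_of_isDiscrete hM]
    exact (isConst_up₂_iff f).2 h2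
  · rw [LinearMap.mem_ker, d_cochainsIso₂_inv]
    have : (d₂₃ M).hom f = 0 := h1
    rw [this, map_zero]

/-- The level cocycle attached to a Prelude-shaped cocycle. -/
noncomputable def IsLowShape₂.toLevelCocycles (h : IsLowShape₂ 𝒰 M Z B) (hM : 𝒰.IsDiscrete M) :
    Z →ₗ[k] 𝒰.levelCocycles M 2 where
  toFun f := ⟨(cochainsIso₂ M).inv.hom f.1, h.mem_levelCocycles hM f.2⟩
  map_add' f f' := by
    apply Subtype.ext
    exact map_add _ _ _
  map_smul' c f := by
    apply Subtype.ext
    exact map_smul _ _ _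

@[simp]
theorem IsLowShape₂.toLevelCocycles_coe (h : IsLowShape₂ 𝒰 M Z B) (hM : 𝒰.IsDiscrete M)
    (f : Z) (g : Fin 2 → G) : (h.toLevelCocycles hM f).1 g = f.1 (g 0, g 1) := rfl

/-- The class in level cohomology of a Prelude-shaped cocycle. -/
noncomputable def IsLowShape₂.toH2 (h : IsLowShape₂ 𝒰 M Z B) (hM : 𝒰.IsDiscrete M) :
    Z →ₗ[k] 𝒰.levelCohomology M 2 :=
  𝒰.classMk M 2 ∘ₗ h.toLevelCocycles hM

theorem IsLowShape₂.toH2_surjective (h : IsLowShape₂ 𝒰 M Z B) (hM : 𝒰.IsDiscrete M) :
    Function.Surjective (h.toH2 hM) := by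
  intro x
  obtain ⟨c, rfl⟩ := 𝒰.classMk_surjective M 2 x
  obtain ⟨hc1, hc2⟩ := Submodule.mem_inf.mp c.2
  have hZ : (cochainsIso₂ M).hom.hom c.1 ∈ Z := by
    rw [h.mem_Z]
    constructor
    · show (d₂₃ M).hom ((cochainsIso₂ M).hom.hom c.1) = 0
      rw [d₂₃_cochainsIso₂_hom]
      rw [LinearMap.mem_ker] at hc2
      rw [hc2, map_zero]
    · rw [← isConst_up₂_iff]
      have h0 : 𝒰.IsConst c.1 := IsLevelCochain.isConst hc1
      convert h0 using 2 with g
      show c.1 ![g 0, g 1] = c.1 g
      exact congr_arg c.1 (by funext i; fin_cases i <;> rfl)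
  refine ⟨⟨_, hZ⟩, ?_⟩
  show 𝒰.classMk M 2 _ = 𝒰.classMk M 2 c
  congr 1
  apply Subtype.ext
  show (cochainsIso₂ M).inv.hom ((cochainsIso₂ M).hom.hom c.1) = c.1
  exact congr($((cochainsIso₂ M).hom_inv_id) c.1)

theorem IsLowShape₂.toH2_eq_zero_iff (h : IsLowShape₂ 𝒰 M Z B) (hM : 𝒰.IsDiscrete M) (f : Z) :
    h.toH2 hM f = 0 ↔ f.1 ∈ B := by
  show 𝒰.classMk M 2 (h.toLevelCocycles hM f) = 0 ↔ _
  rw [classMk_eq_zero_iff_succ, h.mem_B]
  constructor
  · rintro ⟨y, hy, hd⟩
    refine ⟨(cochainsIso₁ M).hom.hom y, ?_, ?_⟩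
    · rw [← isConst_up₁_iff]
      have h0 : 𝒰.IsConst y := IsLevelCochain.isConst hy
      convert h0 using 2 with g
      show y (fun _ => g 0) = y g
      exact congr_arg y (by funext i; rw [Subsingleton.elim i 0])
    · rw [d₁₂_cochainsIso₁_hom, hd]
      exact congr($((cochainsIso₂ M).inv_hom_id) f.1)
  · rintro ⟨x, hx, hd⟩
    refine ⟨(cochainsIso₁ M).inv.hom x, ?_, ?_⟩
    · rw [mem_levelCochains_iff, isLevelCochain_iff_of_isDiscrete hM]
      exact (isConst_up₁_iff x).2 hx
    · rw [d_cochainsIso₁_inv, hd]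
      rfl

theorem IsLowShape₂.ker_toH2 (h : IsLowShape₂ 𝒰 M Z B) (hM : 𝒰.IsDiscrete M) :
    LinearMap.ker (h.toH2 hM) = B.comap Z.subtype := by
  ext f
  rw [LinearMap.mem_ker, h.toH2_eq_zero_iff hM, Submodule.mem_comap, Submodule.subtype_apply]

/-- **Low-degree identification**: the Prelude-shaped quotient `Z ⧸ B` is the level cohomology
in degree 2. -/
noncomputable def IsLowShape₂.equiv (h : IsLowShape₂ 𝒰 M Z B) (hM : 𝒰.IsDiscrete M) :
    (Z ⧸ B.comap Z.subtype) ≃ₗ[k] 𝒰.levelCohomology M 2 :=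
  (Submodule.quotEquivOfEq _ _ (h.ker_toH2 hM).symm).trans
    ((h.toH2 hM).quotKerEquivOfSurjective (h.toH2_surjective hM))

@[simp]
theorem IsLowShape₂.equiv_mk (h : IsLowShape₂ 𝒰 M Z B) (hM : 𝒰.IsDiscrete M) (f : Z) :
    h.equiv hM (Submodule.Quotient.mk f) = 𝒰.classMk M 2 (h.toLevelCocycles hM f) := rfl

end Generic

section GenericMap

variable {k G G' : Type u} [CommRing k] [Group G] [Group G'] {𝒰 : LevelFamily G}
  {𝒰' : LevelFamily G'} {M : Rep.{u} k G} {M' : Rep.{u} k G'}
  {Z B : Submodule k (G × G → M)} {Z' B' : Submodule k (G' × G' → M')}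

/-- The low-degree identification is compatible with change of group and coefficients. -/
theorem IsLowShape₂.map_equiv (h : IsLowShape₂ 𝒰 M Z B) (hM : 𝒰.IsDiscrete M)
    (h' : IsLowShape₂ 𝒰' M' Z' B') (hM' : 𝒰'.IsDiscrete M')
    (f : G' →* G) (hf : IsCompatible 𝒰' 𝒰 f) (φ : Rep.res f M ⟶ M')
    (x : Z) (x' : Z') (hxx' : ∀ p : G' × G', x'.1 p = φ.hom (x.1 (f p.1, f p.2))) :
    (levelCohomologyMapOfHom f hf φ 2).hom (h.equiv hM (Submodule.Quotient.mk x)) =
      h'.equiv hM' (Submodule.Quotient.mk x') := by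
  rw [IsLowShape₂.equiv_mk, IsLowShape₂.equiv_mk, levelCohomologyMapOfHom_classMk]
  congr 1
  apply Subtype.ext
  rw [levelCocyclesMap_coe]
  funext g
  rw [IsLowShape₂.toLevelCocycles_coe, hxx']
  rfl

end GenericMap

section Prelude

local notation "Qbar" => AlgebraicClosure ℚ
local notation "Γℚ" => (AlgebraicClosure ℚ ≃ₐ[ℚ] AlgebraicClosure ℚ)

variable {k : Type} [CommRing k]

section Gal

variable {G : Type} [Group G] (r : G →* Γℚ) (M : Rep k G)

theorem isLowShape₂_gal :
    IsLowShape₂ (galLevels r) M (levelCocycles₂ r M) (levelCoboundaries₂ r M) where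
  mem_Z f := by rw [mem_levelCocycles₂_iff, isLevelConstant₂_iff]
  mem_B f := by simp only [mem_levelCoboundaries₂_iff, isLevelConstant₁_iff]

/-- The Prelude's `continuousH2 r M` is the level cohomology of `galLevels r` in degree 2. -/
noncomputable def continuousH2Equiv (hM : (galLevels r).IsDiscrete M) :
    continuousH2 r M ≃ₗ[k] (galLevels r).levelCohomology M 2 :=
  (isLowShape₂_gal r M).equiv hM

theorem continuousH2Equiv_mk (hM : (galLevels r).IsDiscrete M) (f : levelCocycles₂ r M) :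
    continuousH2Equiv r M hM (continuousH2π r M f) =
      (galLevels r).classMk M 2 ((isLowShape₂_gal r M).toLevelCocycles hM f) := rfl

end Gal

section LevelsS

variable (S : Finset Nat.Primes) (M : Rep k Γℚ)

theorem isLowShape₂_S :
    IsLowShape₂ (levelsS S) M (levelCocyclesS₂ S M) (levelCoboundariesS₂ S M) where
  mem_Z f := by rw [mem_levelCocyclesS₂_iff, isLevelConstantS₂_iff]
  mem_B f := by simp only [mem_levelCoboundariesS₂_iff, isLevelConstantS₁_iff]

/-- The Prelude's `continuousH2S S M` is the level cohomology of `levelsS S` in degree 2. -/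
noncomputable def continuousH2SEquiv (hM : (levelsS S).IsDiscrete M) :
    continuousH2S S M ≃ₗ[k] (levelsS S).levelCohomology M 2 :=
  (isLowShape₂_S S M).equiv hM

theorem continuousH2SEquiv_mk (hM : (levelsS S).IsDiscrete M) (f : levelCocyclesS₂ S M) :
    continuousH2SEquiv S M hM (continuousH2Sπ S M f) =
      (levelsS S).classMk M 2 ((isLowShape₂_S S M).toLevelCocycles hM f) := rfl

/-- The Prelude's localisation map `locRes₂S` is the restriction map of level cohomology. -/
theorem continuousH2Equiv_locRes₂S {H : Type} [Group H] (f : H →* Γℚ)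
    (hM : (levelsS S).IsDiscrete M) (hM' : (galLevels f).IsDiscrete (Rep.res f M))
    (x : continuousH2S S M) :
    continuousH2Equiv f (Rep.res f M) hM' (locRes₂S S M f x) =
      (levelCohomologyMapOfHom f (isCompatible_galLevels_levelsS S f) (𝟙 (Rep.res f M)) 2).hom
        (continuousH2SEquiv S M hM x) := by
  obtain ⟨c, rfl⟩ := Submodule.Quotient.mk_surjective _ x
  symm
  exact (isLowShape₂_S S M).map_equiv hM (isLowShape₂_gal f (Rep.res f M)) hM' f
    (isCompatible_galLevels_levelsS S f) (𝟙 (Rep.res f M)) c _ (fun p => rfl)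

end LevelsS

section Discrete

/-- A smooth representation of `Γℚ` restricted along `r` is discrete for `galLevels r`. -/
theorem isDiscrete_galLevels_res {G : Type} [Group G] (r : G →* Γℚ) (M : Rep k Γℚ)
    (hsm : ∀ m : M, ∃ F : IntermediateField ℚ Qbar, FiniteDimensional ℚ F ∧
      ∀ s ∈ F.fixingSubgroup, M.ρ s m = m) :
    (galLevels r).IsDiscrete (Rep.res r M) := by
  intro m
  obtain ⟨F, hF, h⟩ := hsm m
  exact ⟨_, ⟨F, hF, rfl⟩, fun s hs => h (r s) hs⟩

theorem isDiscrete_galLevels_id (M : Rep k Γℚ)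
    (hsm : ∀ m : M, ∃ F : IntermediateField ℚ Qbar, FiniteDimensional ℚ F ∧
      ∀ s ∈ F.fixingSubgroup, M.ρ s m = m) :
    (galLevels (MonoidHom.id Γℚ)).IsDiscrete M := by
  intro m
  obtain ⟨F, hF, h⟩ := hsm m
  exact ⟨_, ⟨F, hF, rfl⟩, fun s hs => h s hs⟩

/-- A smooth representation of `Γℚ` unramified outside `S` is discrete for the `S`-levels. -/
theorem isDiscrete_levelsS (S : Finset Nat.Primes) (M : Rep k Γℚ)
    (hsm : ∀ m : M, ∃ F : IntermediateField ℚ Qbar, FiniteDimensional ℚ F ∧
      ∀ s ∈ F.fixingSubgroup, M.ρ s m = m)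
    (hMur : ∀ q : Nat.Primes, q ∉ S → ∀ A : ValuationSubring Qbar,
      A.LiesOverPrime (q : ℕ) → ∀ g ∈ A.inertiaSubgroupIn ℚ, M.ρ g = 1) :
    (levelsS S).IsDiscrete M := by
  have hgal : IsGalois ℚ Qbar := isGalois_qbar
  intro m
  obtain ⟨F, hF, h⟩ := hsm m
  -- the stabiliser of `m`
  let St : Subgroup Γℚ :=
    { carrier := {s | M.ρ s m = m}
      mul_mem' := by
        intro a b ha hb
        change M.ρ a m = m at ha
        change M.ρ b m = m at hb
        change M.ρ (a * b) m = m
        rw [map_mul, Module.End.mul_apply, hb, ha]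
      one_mem' := by simp
      inv_mem' := by
        intro a ha
        change M.ρ a m = m at ha
        change M.ρ a⁻¹ m = m
        have := congr_arg (M.ρ a⁻¹) ha
        rw [← Module.End.mul_apply, ← map_mul, inv_mul_cancel, map_one] at this
        exact this.symm }
  have hle : F.fixingSubgroup ≤ St := fun s hs => h s hs
  have hopen : IsOpen (St : Set Γℚ) :=
    Subgroup.isOpen_mono hle (IntermediateField.fixingSubgroup_isOpen F)
  have hclosed : IsClosed (St : Set Γℚ) := Subgroup.isClosed_of_isOpen St hopen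
  let Stc : ClosedSubgroup Γℚ := ⟨St, hclosed⟩
  have hfix : (IntermediateField.fixedField St).fixingSubgroup = St :=
    InfiniteGalois.fixingSubgroup_fixedField Stc
  have hFle : IntermediateField.fixedField St ≤ F := by
    have h1 : IntermediateField.fixedField St ≤ IntermediateField.fixedField F.fixingSubgroup :=
      IntermediateField.fixedField_antitone hle
    rwa [InfiniteGalois.fixedField_fixingSubgroup] at h1
  have hfd : FiniteDimensional ℚ (IntermediateField.fixedField St) := by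
    have := hF
    exact FiniteDimensional.of_injective (IntermediateField.inclusion hFle).toLinearMap
      (IntermediateField.inclusion_injective hFle)
  refine ⟨_, ⟨IntermediateField.fixedField St, ⟨hfd, fun q hq A hA g hg => ?_⟩, rfl⟩,
    fun s hs => ?_⟩
  · rw [hfix]
    show M.ρ g m = m
    rw [hMur q hq A hA g hg]
    rfl
  · rw [hfix] at hs
    exact hs

end Discrete

section Sha2

open ExtCitation

variable (S : Finset Nat.Primes) (M : Rep k Γℚ)

/-- The localisation map of level cohomology in degree 2 at the index `v`. -/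
noncomputable def levelLoc₂ (v : extArithIndex S) :
    (levelsS S).levelCohomology M 2 →ₗ[k]
      (galLevels (extArithLoc S v)).levelCohomology (Rep.res (extArithLoc S v) M) 2 :=
  (levelCohomologyMapOfHom (extArithLoc S v) (isCompatible_galLevels_levelsS S (extArithLoc S v))
    (𝟙 (Rep.res (extArithLoc S v) M)) 2).hom

/-- The total localisation map of level cohomology in degree 2. -/
noncomputable def levelLocTotal₂ :
    (levelsS S).levelCohomology M 2 →ₗ[k]
      ∀ v : extArithIndex S,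
        (galLevels (extArithLoc S v)).levelCohomology (Rep.res (extArithLoc S v) M) 2 :=
  LinearMap.pi fun v => levelLoc₂ S M v

variable (hM : (levelsS S).IsDiscrete M)
  (hsm : ∀ m : M, ∃ F : IntermediateField ℚ Qbar, FiniteDimensional ℚ F ∧
      ∀ s ∈ F.fixingSubgroup, M.ρ s m = m)

include hsm in
theorem continuousH2Equiv_locRes₂S_extArith (v : extArithIndex S) (x : continuousH2S S M) :
    continuousH2Equiv (extArithLoc S v) (Rep.res (extArithLoc S v) M)
        (isDiscrete_galLevels_res (extArithLoc S v) M hsm) (locRes₂S S M (extArithLoc S v) x) =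
      levelLoc₂ S M v (continuousH2SEquiv S M hM x) :=
  continuousH2Equiv_locRes₂S S M (extArithLoc S v) hM _ x

include hsm in
theorem locRes₂S_eq_zero_iff (v : extArithIndex S) (x : continuousH2S S M) :
    locRes₂S S M (extArithLoc S v) x = 0 ↔ levelLoc₂ S M v (continuousH2SEquiv S M hM x) = 0 := by
  rw [← continuousH2Equiv_locRes₂S_extArith S M hM hsm v x, LinearEquiv.map_eq_zero_iff]

include hsm in
theorem mem_sha₂_iff (x : continuousH2S S M) :
    x ∈ sha₂ S M ↔ ∀ v : extArithIndex S, levelLoc₂ S M v (continuousH2SEquiv S M hM x) = 0 := by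
  unfold sha₂
  rw [LinearMap.mem_ker]
  constructor
  · intro h v
    rw [← locRes₂S_eq_zero_iff S M hM hsm v x]
    have := congr_fun h v
    rwa [locTotal₂S_apply] at this
  · intro h
    funext v
    rw [locTotal₂S_apply]
    exact (locRes₂S_eq_zero_iff S M hM hsm v x).2 (h v)

include hsm in
theorem map_sha₂_eq :
    (sha₂ S M).map (continuousH2SEquiv S M hM).toLinearMap = LinearMap.ker (levelLocTotal₂ S M) := by
  ext y
  constructor
  · rintro ⟨x, hx, rfl⟩
    rw [LinearMap.mem_ker]
    funext v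
    exact (mem_sha₂_iff S M hM hsm x).1 hx v
  · intro hy
    rw [LinearMap.mem_ker] at hy
    refine ⟨(continuousH2SEquiv S M hM).symm y, ?_, by simp⟩
    rw [SetLike.mem_coe, mem_sha₂_iff S M hM hsm]
    intro v
    rw [LinearEquiv.apply_symm_apply]
    exact congr_fun hy v

/-- `Ш²_S(M)` is the kernel of the total localisation map of level cohomology. -/
noncomputable def sha₂Equiv : sha₂ S M ≃ₗ[k] LinearMap.ker (levelLocTotal₂ S M) :=
  LinearEquiv.ofSubmodules (continuousH2SEquiv S M hM) _ _ (map_sha₂_eq S M hM hsm)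

theorem sha₂Equiv_apply_coe (x : sha₂ S M) :
    (sha₂Equiv S M hM hsm x : (levelsS S).levelCohomology M 2) = continuousH2SEquiv S M hM x.1 :=
  rfl

end Sha2

end Prelude

end Fermat.Agent.Lib.CFT.Profinite.Bridge
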