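import Mathlib

/-!
# Homomorphisms from a finite algebra to a normal extension, up to automorphisms

`K` a field, `E` a finite commutative `K`-algebra, `Ω/K` a normal (e.g. algebraically closed
algebraic) field extension.

* two `K`-algebra homomorphisms `E → Ω` with the same kernel differ by an element of `Gal(Ω/K)`;
* the kernel of a homomorphism `E → Ω` is a maximal ideal, and (for `Ω` algebraically closed) every
  maximal ideal of `E` is such a kernel.

Hence `MaximalSpectrum E` is the set of `Gal(Ω/K)`-orbits on `E →ₐ[K] Ω`.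
-/

set_option autoImplicit false

namespace Fermat.Agent.Lib.CFT.Profinite.Bridge

section Generic

variable {K E Ω : Type*} [Field K] [CommRing E] [Algebra K E] [Module.Finite K E]
  [Field Ω] [Algebra K Ω]

/-- The kernel of an algebra homomorphism from a finite algebra to a field is maximal. -/
theorem isMaximal_ker_algHom (ψ : E →ₐ[K] Ω) : (RingHom.ker ψ).IsMaximal := by
  have hprime : (RingHom.ker ψ).IsPrime := RingHom.ker_isPrime ψ.toRingHom
  have : IsDomain (E ⧸ RingHom.ker ψ) := Ideal.Quotient.isDomain _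
  have hint : Algebra.IsIntegral K (E ⧸ RingHom.ker ψ) := inferInstance
  exact Ideal.Quotient.maximal_of_isField _
    (isField_of_isIntegral_of_isField' (Field.toIsField K))

/-- The maximal ideal of `E` cut out by a homomorphism to a field. -/
noncomputable def kerMax (ψ : E →ₐ[K] Ω) : MaximalSpectrum E :=
  ⟨RingHom.ker ψ, isMaximal_ker_algHom ψ⟩

@[simp]
theorem kerMax_asIdeal (ψ : E →ₐ[K] Ω) : (kerMax ψ).asIdeal = RingHom.ker ψ := rfl

theorem kerMax_comp_algEquiv (ψ : E →ₐ[K] Ω) (h : Ω ≃ₐ[K] Ω) :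
    kerMax ((h : Ω →ₐ[K] Ω).comp ψ) = kerMax ψ := by
  apply MaximalSpectrum.ext
  ext e
  simp only [kerMax_asIdeal, RingHom.mem_ker]
  show h (ψ e) = 0 ↔ ψ e = 0
  exact map_eq_zero_iff h h.injective

/-- Two homomorphisms to a normal extension with the same kernel differ by an automorphism. -/
theorem exists_algEquiv_comp_eq_of_ker_eq [Normal K Ω] (ψ ψ' : E →ₐ[K] Ω)
    (hker : RingHom.ker ψ = RingHom.ker ψ') :
    ∃ h : Ω ≃ₐ[K] Ω, ∀ e, ψ' e = h (ψ e) := by
  have hmax : (RingHom.ker ψ).IsMaximal := isMaximal_ker_algHom ψ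
  let _ : Field (E ⧸ RingHom.ker ψ) := Ideal.Quotient.field _
  let ψb : (E ⧸ RingHom.ker ψ) →ₐ[K] Ω :=
    Ideal.Quotient.liftₐ (RingHom.ker ψ) ψ (fun a ha => ha)
  let ψb' : (E ⧸ RingHom.ker ψ) →ₐ[K] Ω :=
    Ideal.Quotient.liftₐ (RingHom.ker ψ) ψ' (fun a ha => by
      rw [hker] at ha
      exact ha)
  let χ : ψb.fieldRange ≃ₐ[K] ψb'.fieldRange := ψb.equivFieldRange.symm.trans ψb'.equivFieldRange
  refine ⟨χ.liftNormal Ω, fun e => ?_⟩
  have h1 : ψ e = algebraMap ψb.fieldRange Ω (ψb.equivFieldRange (Ideal.Quotient.mk _ e)) := rfl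
  have h2 : ψ' e = algebraMap ψb'.fieldRange Ω (ψb'.equivFieldRange (Ideal.Quotient.mk _ e)) := rfl
  rw [h1, AlgEquiv.liftNormal_commutes, h2]
  congr 1
  show _ = ψb'.equivFieldRange (ψb.equivFieldRange.symm (ψb.equivFieldRange _))
  rw [AlgEquiv.symm_apply_apply]

theorem kerMax_eq_iff [Normal K Ω] (ψ ψ' : E →ₐ[K] Ω) :
    kerMax ψ = kerMax ψ' ↔ ∃ h : Ω ≃ₐ[K] Ω, ψ' = (h : Ω →ₐ[K] Ω).comp ψ := by
  constructor
  · intro h
    have hker : RingHom.ker ψ = RingHom.ker ψ' := congr_arg MaximalSpectrum.asIdeal h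
    obtain ⟨σ, hσ⟩ := exists_algEquiv_comp_eq_of_ker_eq ψ ψ' hker
    exact ⟨σ, AlgHom.ext hσ⟩
  · rintro ⟨σ, rfl⟩
    exact (kerMax_comp_algEquiv ψ σ).symm

/-- Every maximal ideal of a finite algebra is the kernel of a homomorphism to an algebraically
closed extension. -/
theorem exists_algHom_kerMax_eq [IsAlgClosed Ω] (m : MaximalSpectrum E) :
    ∃ ψ : E →ₐ[K] Ω, kerMax ψ = m := by
  have := m.isMaximal
  let _ : Field (E ⧸ m.asIdeal) := Ideal.Quotient.field _
  have : Algebra.IsAlgebraic K (E ⧸ m.asIdeal) := Algebra.IsAlgebraic.of_finite K _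
  let θ : (E ⧸ m.asIdeal) →ₐ[K] Ω := IsAlgClosed.lift
  refine ⟨θ.comp (Ideal.Quotient.mkₐ K m.asIdeal), ?_⟩
  apply MaximalSpectrum.ext
  ext e
  simp only [kerMax_asIdeal, RingHom.mem_ker, AlgHom.comp_apply, Ideal.Quotient.mkₐ_eq_mk]
  rw [map_eq_zero_iff θ θ.toRingHom.injective, Ideal.Quotient.eq_zero_iff_mem]

end Generic

end Fermat.Agent.Lib.CFT.Profinite.Bridge
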