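import Mathlib
import Fermat.Agent.Lib.CFT.Profinite.BridgeRamification
import Fermat.Agent.Lib.CFT.Global.Places.GaloisAction

/-!
P-CFT, Profinite/Bridge: the ramification dictionary in the language of `Global/Places`
(`ramExp`), helper77.
-/

set_option autoImplicit false

open NumberField IsDedekindDomain
open Fermat.Agent.Lib.CFT.Global.Places

namespace Fermat.Agent.Lib.CFT.Profinite.Bridge

/-- The exponent of `v` in `(q)` is one iff `q ∈ v` and `q ∉ v ^ 2`. -/
theorem ramExp_eq_one_iff {O : Type*} [CommRing O] [IsDedekindDomain O] {q : O} (hq : q ≠ 0)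
    (v : HeightOneSpectrum O) :
    ramExp q v = 1 ↔ q ∈ v.asIdeal ∧ q ∉ v.asIdeal ^ 2 := by
  have h1 := le_ramExp_iff hq v 1
  have h2 := le_ramExp_iff hq v 2
  rw [pow_one] at h1
  constructor
  · intro h
    refine ⟨h1.mp h.ge, fun hmem => ?_⟩
    have := h2.mpr hmem
    omega
  · rintro ⟨ha, hb⟩
    have := h1.mpr ha
    have : ¬ 2 ≤ ramExp q v := fun h => hb (h2.mp h)
    omega

section Concrete

local notation "Qbar" => AlgebraicClosure ℚ

/-- **Theorem A**, `Places` form: `F` is unramified outside `S` iff for every `q ∉ S` every prime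
`v` of `𝓞 F` over `q` has exponent one in `(q)`. -/
theorem isUnramifiedOutside_iff_ramExp (F : IntermediateField ℚ Qbar)
    [FiniteDimensional ℚ F] (S : Finset Nat.Primes) :
    F.IsUnramifiedOutside S ↔
      ∀ q : Nat.Primes, q ∉ S → ∀ v : HeightOneSpectrum (𝓞 F), ((q : ℕ) : 𝓞 F) ∈ v.asIdeal →
        ramExp ((q : ℕ) : 𝓞 F) v = 1 := by
  rw [isUnramifiedOutside_iff_not_mem_sq]
  have hq0 : ∀ q : Nat.Primes, ((q : ℕ) : 𝓞 F) ≠ 0 := fun q =>
    Nat.cast_ne_zero.mpr q.2.ne_zero
  constructor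
  · intro h q hq v hv
    rw [ramExp_eq_one_iff (hq0 q)]
    exact ⟨hv, h q hq v.asIdeal v.isPrime hv⟩
  · intro h q hq P hP hqP
    have hP0 : P ≠ ⊥ := by
      intro h0
      rw [h0, Ideal.mem_bot] at hqP
      exact hq0 q hqP
    have := h q hq ⟨P, hP, hP0⟩ hqP
    rw [ramExp_eq_one_iff (hq0 q)] at this
    exact this.2

end Concrete

end Fermat.Agent.Lib.CFT.Profinite.Bridge
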