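import Fermat.Agent.Lib.CFT.Profinite.BridgeH1
import Fermat.Agent.Lib.CFT.Profinite.BridgeArch
import Fermat.Agent.Lib.CFT.Profinite.BridgeLocalLevels

/-!
# P-CFT Profinite/Bridge, final assembly

For `p` odd, the Prelude's `sha₁ S A`, `sha₂ S M` are the kernels of the localisation maps
from the level cohomology of `Γℚ` (with `S`-levels) to the level cohomology of the honest local
Galois groups `Gal(ℚ̄_q/ℚ_q)`, `q ∈ S`, with respect to ALL their open subgroups.
-/

set_option autoImplicit false

universe u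

open CategoryTheory groupCohomology

namespace Fermat.Agent.Lib.CFT.Profinite.Bridge

open Fermat.Agent.Lib.CFT.Profinite LevelFamily ExtCitation

section GenericTrans

variable {k G G' : Type u} [CommRing k] [Group G] [Group G'] {𝒰 : LevelFamily G}
  {𝒰' 𝒱' : LevelFamily G'} {M : Rep.{u} k G} {M' : Rep.{u} k G'}

theorem levelCochainsMap_comp_id (f : G' →* G) (hf : IsCompatible 𝒰' 𝒰 f)
    (φ : Rep.res f M ⟶ M') (h1 : IsCompatible 𝒱' 𝒰' (MonoidHom.id G'))
    (hf' : IsCompatible 𝒱' 𝒰 f) :
    levelCochainsMap f hf φ ≫ levelCochainsMap (MonoidHom.id G') h1 (𝟙 M') =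
      levelCochainsMap f hf' φ := by
  ext n x : 3
  rfl

theorem levelCohomologyMapOfHom_comp_isoOfMutual (f : G' →* G) (hf : IsCompatible 𝒰' 𝒰 f)
    (φ : Rep.res f M ⟶ M') (h1 : IsCompatible 𝒱' 𝒰' (MonoidHom.id G'))
    (h2 : IsCompatible 𝒰' 𝒱' (MonoidHom.id G')) (hf' : IsCompatible 𝒱' 𝒰 f) (n : ℕ) :
    levelCohomologyMapOfHom f hf φ n ≫ (levelCohomologyIsoOfMutual h1 h2 M' n).hom =
      levelCohomologyMapOfHom f hf' φ n := by
  have h := HomologicalComplex.homologyMap_comp (levelCochainsMap f hf φ)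
    (levelCochainsMap (MonoidHom.id G') h1 (𝟙 M')) n
  rw [levelCochainsMap_comp_id f hf φ h1 hf'] at h
  exact h.symm

theorem levelCohomologyMapOfHom_eq_zero_iff_of_mutual (f : G' →* G) (hf : IsCompatible 𝒰' 𝒰 f)
    (φ : Rep.res f M ⟶ M') (h1 : IsCompatible 𝒱' 𝒰' (MonoidHom.id G'))
    (h2 : IsCompatible 𝒰' 𝒱' (MonoidHom.id G')) (hf' : IsCompatible 𝒱' 𝒰 f) (n : ℕ)
    (y : 𝒰.levelCohomology M n) :
    (levelCohomologyMapOfHom f hf' φ n).hom y = 0 ↔ (levelCohomologyMapOfHom f hf φ n).hom y = 0 := by
  have h := congr($(levelCohomologyMapOfHom_comp_isoOfMutual f hf φ h1 h2 hf' n) y)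
  rw [← h]
  simp only [ModuleCat.hom_comp, LinearMap.coe_comp, Function.comp_apply]
  have hinj : Function.Injective (levelCohomologyIsoOfMutual h1 h2 M' n).hom.hom :=
    (ModuleCat.mono_iff_injective _).1 inferInstance
  constructor
  · intro h0
    apply hinj
    rw [h0, map_zero]
  · intro h0
    rw [h0, map_zero]

end GenericTrans

local notation "Qbar" => AlgebraicClosure ℚ
local notation "Γℚ" => (AlgebraicClosure ℚ ≃ₐ[ℚ] AlgebraicClosure ℚ)

section LocalP

/-- The level family of all open subgroups of the local Galois group at the prime `q`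
(in the Prelude's packaging `primeLocalGaloisGroup q`). -/
noncomputable def localLevelsP (q : Nat.Primes) : LevelFamily (primeLocalGaloisGroup q) :=
  letI : Fact (q : ℕ).Prime := ⟨q.2⟩
  localLevels (q : ℕ)

theorem isCompatible_galLevels_localLevelsP (q : Nat.Primes) :
    IsCompatible (galLevels (primeLocalToGlobal q)) (localLevelsP q)
      (MonoidHom.id (primeLocalGaloisGroup q)) :=
  letI : Fact (q : ℕ).Prime := ⟨q.2⟩
  isCompatible_galLevels_localLevels (q : ℕ)

theorem isCompatible_localLevelsP_galLevels (q : Nat.Primes) :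
    IsCompatible (localLevelsP q) (galLevels (primeLocalToGlobal q))
      (MonoidHom.id (primeLocalGaloisGroup q)) :=
  letI : Fact (q : ℕ).Prime := ⟨q.2⟩
  isCompatible_localLevels_galLevels (q : ℕ)

theorem isCompatible_localLevelsP_levelsS (S : Finset Nat.Primes) (q : Nat.Primes) :
    IsCompatible (localLevelsP q) (levelsS S) (primeLocalToGlobal q) := by
  intro U hU
  obtain ⟨U', hU', hle⟩ := isCompatible_galLevels_levelsS S (primeLocalToGlobal q) U hU
  obtain ⟨U'', hU'', hle'⟩ := isCompatible_localLevelsP_galLevels q U' hU'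
  exact ⟨U'', hU'', fun x hx => hle (hle' hx)⟩

end LocalP

section Loc

variable {k : Type} [CommRing k] (S : Finset Nat.Primes) (M : Rep k Γℚ)

/-- The localisation map from the `S`-level cohomology of `Γℚ` to the level cohomology (all open
subgroups) of the local Galois group at `q`. -/
noncomputable def locH (n : ℕ) (q : Nat.Primes) :
    (levelsS S).levelCohomology M n →ₗ[k]
      (localLevelsP q).levelCohomology (Rep.res (primeLocalToGlobal q) M) n :=
  (levelCohomologyMapOfHom (primeLocalToGlobal q) (isCompatible_localLevelsP_levelsS S q)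
    (𝟙 (Rep.res (primeLocalToGlobal q) M)) n).hom

/-- The total localisation map over the primes of `S`. -/
noncomputable def locHTotal (n : ℕ) :
    (levelsS S).levelCohomology M n →ₗ[k]
      ∀ q : S, (localLevelsP q.1).levelCohomology (Rep.res (primeLocalToGlobal q.1) M) n :=
  LinearMap.pi fun q => locH S M n q.1

/-- The localisation map in the Prelude's packaging (index `v : extArithIndex S`, pulled-back
global levels), any degree. -/
noncomputable def levelLocN (n : ℕ) (v : extArithIndex S) :
    (levelsS S).levelCohomology M n →ₗ[k]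
      (galLevels (extArithLoc S v)).levelCohomology (Rep.res (extArithLoc S v) M) n :=
  (levelCohomologyMapOfHom (extArithLoc S v) (isCompatible_galLevels_levelsS S (extArithLoc S v))
    (𝟙 (Rep.res (extArithLoc S v) M)) n).hom

theorem levelLocN_two (v : extArithIndex S) : levelLocN S M 2 v = levelLoc₂ S M v := rfl

theorem levelLocN_eq_zero_iff_inr (n : ℕ) (v : extArithIndex S) (q : S) (hv : v = Sum.inr q)
    (y : (levelsS S).levelCohomology M n) :
    levelLocN S M n v y = 0 ↔ locH S M n q.1 y = 0 := by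
  subst hv
  exact (levelCohomologyMapOfHom_eq_zero_iff_of_mutual (primeLocalToGlobal q.1)
    (isCompatible_galLevels_levelsS S (primeLocalToGlobal q.1))
    (𝟙 (Rep.res (primeLocalToGlobal q.1) M)) (isCompatible_localLevelsP_galLevels q.1)
    (isCompatible_galLevels_localLevelsP q.1) (isCompatible_localLevelsP_levelsS S q.1) n y).symm

end Loc

section Final

variable {p : ℕ} [Fact p.Prime] (hp2 : p ≠ 2) (S : Finset Nat.Primes) (M : Rep (ZMod p) Γℚ)
  (hsm : ∀ m : M, ∃ F : IntermediateField ℚ Qbar, FiniteDimensional ℚ F ∧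
      ∀ s ∈ F.fixingSubgroup, M.ρ s m = m)

include hp2 hsm in
theorem levelLocN_two_inl_eq_zero (v : extArithIndex S) (u : Unit) (hv : v = Sum.inl u)
    (y : (levelsS S).levelCohomology M 2) : levelLocN S M 2 v y = 0 := by
  have hd := isDiscrete_galLevels_res (extArithLoc S v) M hsm
  have h1 := subsingleton_continuousH2_extArith_inl hp2 S M v u hv
  have e := continuousH2Equiv (extArithLoc S v) (Rep.res (extArithLoc S v) M) hd
  have h2 : Subsingleton
      ((galLevels (extArithLoc S v)).levelCohomology (Rep.res (extArithLoc S v) M) 2) :=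
    e.symm.toEquiv.subsingleton
  exact Subsingleton.elim _ _

include hp2 in
theorem levelLocN_one_inl_eq_zero (v : extArithIndex S) (u : Unit) (hv : v = Sum.inl u)
    (y : (levelsS S).levelCohomology M 1) : levelLocN S M 1 v y = 0 := by
  have h1 := subsingleton_H1_extArith_inl hp2 S M v u hv
  apply (galLevels (extArithLoc S v)).toGroupCohomology_one_injective
    (Rep.res (extArithLoc S v) M)
  exact Subsingleton.elim _ _

variable (hM : (levelsS S).IsDiscrete M)

include hp2 hsm in
/-- **`Ш²` in level-cohomology terms** (`p` odd): a class is in `sha₂ S M` iff its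
localisations at the honest local Galois groups at the primes of `S` vanish. -/
theorem mem_sha₂_iff_locH (x : continuousH2S S M) :
    x ∈ sha₂ S M ↔ ∀ q : S, locH S M 2 q.1 (continuousH2SEquiv S M hM x) = 0 := by
  rw [mem_sha₂_iff S M hM hsm]
  constructor
  · intro h q
    rw [← levelLocN_eq_zero_iff_inr S M 2 (Sum.inr q) q rfl]
    exact h (Sum.inr q)
  · intro h v
    rcases hv : v with u | q
    · exact levelLocN_two_inl_eq_zero hp2 S M hsm (Sum.inl u) u rfl _
    · exact (levelLocN_eq_zero_iff_inr S M 2 (Sum.inr q) q rfl _).2 (h q)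

include hp2 hsm in
theorem map_sha₂_eq_ker_locHTotal :
    (sha₂ S M).map (continuousH2SEquiv S M hM).toLinearMap = LinearMap.ker (locHTotal S M 2) := by
  ext y
  constructor
  · rintro ⟨x, hx, rfl⟩
    rw [LinearMap.mem_ker]
    funext q
    exact (mem_sha₂_iff_locH hp2 S M hsm hM x).1 hx q
  · intro hy
    rw [LinearMap.mem_ker] at hy
    refine ⟨(continuousH2SEquiv S M hM).symm y, ?_, by simp⟩
    rw [SetLike.mem_coe, mem_sha₂_iff_locH hp2 S M hsm hM]
    intro q
    rw [LinearEquiv.apply_symm_apply]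
    exact congr_fun hy q

/-- `Ш²_S(M)` is the kernel of `H²(G_S, M) → ∏_{q ∈ S} H²(G_q, M)` (level cohomology). -/
noncomputable def sha₂EquivLocal : sha₂ S M ≃ₗ[ZMod p] LinearMap.ker (locHTotal S M 2) :=
  LinearEquiv.ofSubmodules (continuousH2SEquiv S M hM) _ _
    (map_sha₂_eq_ker_locHTotal hp2 S M hsm hM)

theorem sha₂EquivLocal_apply_coe (x : sha₂ S M) :
    (sha₂EquivLocal hp2 S M hsm hM x : (levelsS S).levelCohomology M 2) =
      continuousH2SEquiv S M hM x.1 := rfl

include hp2 hM in
/-- **`Ш¹` in level-cohomology terms** (`p` odd). -/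
theorem toGroupCohomology_mem_sha₁_iff_locH (y : (levelsS S).levelCohomology M 1) :
    ((levelsS S).toGroupCohomology M 1).hom y ∈ sha₁ S M ↔
      ∀ q : S, locH S M 1 q.1 y = 0 := by
  rw [toGroupCohomology_mem_sha₁_iff S M hM]
  constructor
  · intro h q
    rw [← levelLocN_eq_zero_iff_inr S M 1 (Sum.inr q) q rfl]
    exact h (Sum.inr q)
  · intro h v
    rcases hv : v with u | q
    · exact levelLocN_one_inl_eq_zero hp2 S M (Sum.inl u) u rfl _
    · exact (levelLocN_eq_zero_iff_inr S M 1 (Sum.inr q) q rfl _).2 (h q)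

include hp2 hM in
theorem map_ker_locHTotal_one_eq :
    (LinearMap.ker (locHTotal S M 1)).map ((levelsS S).toGroupCohomology M 1).hom =
      sha₁ S M := by
  ext x
  constructor
  · rintro ⟨y, hy, rfl⟩
    rw [toGroupCohomology_mem_sha₁_iff_locH hp2 S M hM]
    intro q
    exact congr_fun (LinearMap.mem_ker.mp hy) q
  · intro hx
    have hx' := hx
    unfold sha₁ at hx'
    rw [Submodule.mem_inf, continuousH1S_eq_range S M hM] at hx'
    obtain ⟨y, rfl⟩ := hx'.1
    refine ⟨y, ?_, rfl⟩
    rw [SetLike.mem_coe, LinearMap.mem_ker]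
    funext q
    exact (toGroupCohomology_mem_sha₁_iff_locH hp2 S M hM y).1 hx q

/-- `Ш¹_S(M)` is the kernel of `H¹(G_S, M) → ∏_{q ∈ S} H¹(G_q, M)` (level cohomology). -/
noncomputable def sha₁EquivLocal : LinearMap.ker (locHTotal S M 1) ≃ₗ[ZMod p] sha₁ S M :=
  (Submodule.equivMapOfInjective _ ((levelsS S).toGroupCohomology_one_injective M) _).trans
    (LinearEquiv.ofEq _ _ (map_ker_locHTotal_one_eq hp2 S M hM))

theorem sha₁EquivLocal_apply_coe (y : LinearMap.ker (locHTotal S M 1)) :
    (sha₁EquivLocal hp2 S M hM y : H1 M) = ((levelsS S).toGroupCohomology M 1).hom y.1 := rfl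

include hp2 hsm hM in
/-- Reduction of the conclusion of S55 to level cohomology: a nondegenerate pairing between the
kernels of the level localisation maps gives a nondegenerate pairing `sha₁ S A × sha₂ S M`. -/
theorem exists_pairing_of_level (A : Rep (ZMod p) Γℚ) (hA : (levelsS S).IsDiscrete A)
    (B : LinearMap.ker (locHTotal S A 1) →ₗ[ZMod p]
      LinearMap.ker (locHTotal S M 2) →ₗ[ZMod p] ZMod p)
    (h1 : ∀ y, (∀ x, B y x = 0) → y = 0) (h2 : ∀ x, (∀ y, B y x = 0) → x = 0) :
    ∃ B' : sha₁ S A →ₗ[ZMod p] sha₂ S M →ₗ[ZMod p] ZMod p,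
      (∀ y, (∀ x, B' y x = 0) → y = 0) ∧ (∀ x, (∀ y, B' y x = 0) → x = 0) := by
  let e₁ := sha₁EquivLocal hp2 S A hA
  let e₂ := sha₂EquivLocal hp2 S M hsm hM
  refine ⟨B.compl₁₂ e₁.symm.toLinearMap e₂.toLinearMap, ?_, ?_⟩
  · intro y hy
    have : e₁.symm y = 0 := by
      apply h1
      intro x
      have := hy (e₂.symm x)
      simpa [LinearMap.compl₁₂_apply] using this
    exact e₁.symm.map_eq_zero_iff.mp this
  · intro x hx
    have : e₂ x = 0 := by
      apply h2
      intro y
      have := hx (e₁ y)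
      simpa [LinearMap.compl₁₂_apply] using this
    exact e₂.map_eq_zero_iff.mp this

end Final

end Fermat.Agent.Lib.CFT.Profinite.Bridge
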