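import Fermat.Agent.Lib.CFT.Profinite.LevelLES

/-!
# P-CFT Profinite/CdBound, part A: dévissage over a `p`-group quotient

For a group `G`, a prime `p`, and a finite-dimensional `𝔽_p`-representation `M` of `G` on which a
normal subgroup `V` with `G ⧸ V` a `p`-group acts trivially, `M` has a filtration by
subrepresentations with trivial one-dimensional quotients.  We package this as an induction
principle (`pGroup_devissage`) and apply it to level cohomology: vanishing and
finite-dimensionality of `Hⁿ_𝒰(G, 𝔽_p)` propagate to `Hⁿ_𝒰(G, M)`.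
-/

set_option autoImplicit false

universe u

open CategoryTheory ShortComplex

namespace Fermat.Agent.Lib.CFT.Profinite

namespace CdBound

section ses

variable {k G : Type u} [CommRing k] [Group G]

/-- The short complex `0 → W → A → A ⧸ W → 0` of a subrepresentation. -/
noncomputable def subQuotComplex (A : Rep.{u} k G) (W : Submodule k A)
    (hW : ∀ g, W ≤ W.comap (A.ρ g)) : ShortComplex (Rep.{u} k G) :=
  ShortComplex.mk (Rep.subtype A W hW) (Rep.mkQ A W hW) (by
    ext x
    exact (Submodule.Quotient.mk_eq_zero W).2 x.2)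

theorem subQuotComplex_shortExact (A : Rep.{u} k G) (W : Submodule k A)
    (hW : ∀ g, W ≤ W.comap (A.ρ g)) : (subQuotComplex A W hW).ShortExact where
  exact := by
    rw [← ShortComplex.exact_map_iff_of_faithful (F := forget₂ (Rep k G) (ModuleCat k)),
      ShortComplex.moduleCat_exact_iff]
    intro x hx
    have hx' : x ∈ W := (Submodule.Quotient.mk_eq_zero W).1 hx
    exact ⟨⟨x, hx'⟩, rfl⟩
  mono_f := (Rep.mono_iff_injective _).2 (fun x y h => Subtype.ext h)
  epi_g := (Rep.epi_iff_surjective _).2 (Submodule.mkQ_surjective W)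

theorem range_le_comap {A M : Rep.{u} k G} (f : A ⟶ M) (g : G) :
    LinearMap.range f.hom.toLinearMap ≤ (LinearMap.range f.hom.toLinearMap).comap (M.ρ g) := by
  rintro _ ⟨a, rfl⟩
  exact ⟨A.ρ g a, Rep.hom_comm_apply f g a⟩

/-- The short complex `0 → A → M → M ⧸ range f → 0` of a morphism `f : A ⟶ M`. -/
noncomputable def cokerComplex {A M : Rep.{u} k G} (f : A ⟶ M) : ShortComplex (Rep.{u} k G) :=
  ShortComplex.mk f (Rep.mkQ M (LinearMap.range f.hom.toLinearMap) (range_le_comap f)) (by
    ext x
    exact (Submodule.Quotient.mk_eq_zero _).2 ⟨x, rfl⟩)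

theorem cokerComplex_shortExact {A M : Rep.{u} k G} (f : A ⟶ M)
    (hf : Function.Injective f.hom) : (cokerComplex f).ShortExact where
  exact := by
    rw [← ShortComplex.exact_map_iff_of_faithful (F := forget₂ (Rep k G) (ModuleCat k)),
      ShortComplex.moduleCat_exact_iff]
    intro x hx
    exact (Submodule.Quotient.mk_eq_zero _).1 hx
  mono_f := (Rep.mono_iff_injective _).2 hf
  epi_g := (Rep.epi_iff_surjective _).2 (Submodule.mkQ_surjective _)

end ses

section fixed

variable {p : ℕ} [Fact p.Prime] {G : Type} [Group G]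

/-- A nonzero finite `𝔽_p`-representation of `G` which factors through a `p`-group quotient has a
nonzero fixed vector. -/
theorem exists_fixed_ne_zero (M : Rep.{0} (ZMod p) G) [Module.Finite (ZMod p) M] [Nontrivial M]
    (V : Subgroup G) [V.Normal] (hV : ∀ s ∈ V, ∀ m : M, M.ρ s m = m)
    (hp : IsPGroup p (G ⧸ V)) : ∃ m : M, m ≠ 0 ∧ ∀ g, M.ρ g m = m := by
  classical
  let φ : G ⧸ V →* (M →ₗ[ZMod p] M) := QuotientGroup.lift V M.ρ (fun s hs => by
    rw [MonoidHom.mem_ker]
    ext m
    exact hV s hs m)
  letI : MulAction (G ⧸ V) M :=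
    { smul := fun q m => φ q m
      one_smul := fun m => by
        change φ 1 m = m
        rw [map_one]; rfl
      mul_smul := fun a b m => by
        change φ (a * b) m = φ a (φ b m)
        rw [map_mul]; rfl }
  haveI : Finite M := Module.finite_of_finite (ZMod p)
  have hcard : p ∣ Nat.card M := by
    rw [Module.natCard_eq_pow_finrank (K := ZMod p), Nat.card_zmod]
    exact dvd_pow_self p (Module.finrank_pos (R := ZMod p) (M := M)).ne'
  have h0 : (0 : M) ∈ MulAction.fixedPoints (G ⧸ V) M := by
    intro q
    change φ q 0 = 0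
    exact map_zero _
  obtain ⟨b, hb, hne⟩ := hp.exists_fixed_point_of_prime_dvd_card_of_fixed_point M hcard h0
  refine ⟨b, hne.symm, fun g => ?_⟩
  have := hb (g : G ⧸ V)
  exact this

end fixed

section devissage

variable {k G : Type u} [CommRing k] [Group G]

/-- The morphism `k ⟶ M`, `r ↦ r • m`, attached to a `G`-fixed vector `m`. -/
noncomputable def fixedHom (M : Rep.{u} k G) (m : M) (hm : ∀ g, M.ρ g m = m) :
    Rep.trivial k G k ⟶ M :=
  Rep.ofHom (σ := M.ρ) ⟨LinearMap.toSpanSingleton k M m, fun g => by
    ext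
    simp [hm g]⟩

theorem fixedHom_apply (M : Rep.{u} k G) (m : M) (hm : ∀ g, M.ρ g m = m) (r : k) :
    (fixedHom M m hm).hom r = r • m := rfl

end devissage

section induction

variable {p : ℕ} [Fact p.Prime] {G : Type} [Group G]

theorem fixedHom_injective (M : Rep.{0} (ZMod p) G) (m : M) (hm : ∀ g, M.ρ g m = m)
    (h0 : m ≠ 0) : Function.Injective (fixedHom M m hm).hom := by
  intro r r' h
  rw [fixedHom_apply, fixedHom_apply] at h
  exact smul_left_injective (ZMod p) h0 h

/-- **Dévissage over a `p`-group quotient.**  Let `V` be a normal subgroup of `G` with `G ⧸ V` a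
`p`-group.  A property `P` of `𝔽_p`-representations of `G` which holds for zero representations,
for the trivial representation `𝔽_p`, and which passes to extensions (with middle term killed
by `V`), holds for every finite-dimensional representation on which `V` acts trivially. -/
theorem pGroup_devissage (V : Subgroup G) [V.Normal] (hp : IsPGroup p (G ⧸ V))
    {P : Rep.{0} (ZMod p) G → Prop}
    (hzero : ∀ A : Rep.{0} (ZMod p) G, Subsingleton A → P A)
    (htriv : P (Rep.trivial (ZMod p) G (ZMod p)))
    (hext : ∀ X : ShortComplex (Rep.{0} (ZMod p) G), X.ShortExact →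
      (∀ s ∈ V, ∀ m : X.X₂, X.X₂.ρ s m = m) → P X.X₁ → P X.X₃ → P X.X₂)
    (M : Rep.{0} (ZMod p) G) [Module.Finite (ZMod p) M]
    (hV : ∀ s ∈ V, ∀ m : M, M.ρ s m = m) : P M := by
  suffices H : ∀ d : ℕ, ∀ M : Rep.{0} (ZMod p) G, Module.Finite (ZMod p) M →
      (∀ s ∈ V, ∀ m : M, M.ρ s m = m) → Module.finrank (ZMod p) M = d → P M from
    H _ M inferInstance hV rfl
  intro d
  induction d using Nat.strong_induction_on with
  | _ d ih =>
    intro M hfin hV hd
    rcases subsingleton_or_nontrivial M with hs | hn
    · exact hzero M hs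
    · obtain ⟨m, hm0, hm⟩ := exists_fixed_ne_zero M V hV hp
      have hinj := fixedHom_injective M m hm hm0
      have hX := cokerComplex_shortExact (fixedHom M m hm) hinj
      refine hext _ hX hV htriv ?_
      set W : Submodule (ZMod p) M := LinearMap.range (fixedHom M m hm).hom.toLinearMap with hW
      have hrk : Module.finrank (ZMod p) W = 1 := by
        rw [hW, LinearMap.finrank_range_of_inj hinj]
        exact Module.finrank_self _
      have hq : Module.finrank (ZMod p) (M ⧸ W) + 1 = d := by
        rw [← hrk, Submodule.finrank_quotient_add_finrank, hd]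
      refine ih (Module.finrank (ZMod p) (M ⧸ W)) (by omega) _ ?_ ?_ rfl
      · exact Module.Finite.quotient (ZMod p) W
      · intro s hs q
        obtain ⟨x, rfl⟩ := Submodule.mkQ_surjective W q
        have := Rep.hom_comm_apply (Rep.mkQ M W (range_le_comap (fixedHom M m hm))) s x
        rw [hV s hs x] at this
        exact this.symm

end induction

section level

open LevelFamily

variable {k G : Type u} [CommRing k] [Group G] (𝒰 : LevelFamily G)

/-- A representation killed by a level is discrete. -/
theorem isDiscrete_of_level (M : Rep.{u} k G) {V : Subgroup G} (hV : V ∈ 𝒰.levels)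
    (h : ∀ s ∈ V, ∀ m : M, M.ρ s m = m) : 𝒰.IsDiscrete M :=
  fun m => ⟨V, hV, fun s hs => h s hs m⟩

/-- Level cohomology of a zero representation vanishes. -/
theorem subsingleton_levelCohomology_of_subsingleton (M : Rep.{u} k G) [Subsingleton M] (n : ℕ) :
    Subsingleton (𝒰.levelCohomology M n) := by
  have hz : Limits.IsZero ((𝒰.levelComplex M).X n) := by
    have : Subsingleton (𝒰.levelCochains M n) :=
      ⟨fun a b => Subtype.ext (funext fun g => Subsingleton.elim _ _)⟩
    exact ModuleCat.isZero_of_subsingleton _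
  have hex : (𝒰.levelComplex M).ExactAt n :=
    (HomologicalComplex.exactAt_iff _ _).2 (ShortComplex.exact_of_isZero_X₂ _ hz)
  exact ModuleCat.subsingleton_of_isZero
    ((HomologicalComplex.exactAt_iff_isZero_homology _ _).1 hex)

variable {𝒰}

/-- Vanishing of level cohomology passes to extensions. -/
theorem subsingleton_levelCohomology_of_shortExact {X : ShortComplex (Rep.{u} k G)}
    (hX : X.ShortExact) (hd : 𝒰.IsDiscrete X.X₂) (n : ℕ)
    [h₁ : Subsingleton (𝒰.levelCohomology X.X₁ n)]
    [h₃ : Subsingleton (𝒰.levelCohomology X.X₃ n)] :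
    Subsingleton (𝒰.levelCohomology X.X₂ n) := by
  refine ⟨fun a b => ?_⟩
  have key : ∀ y : 𝒰.levelCohomology X.X₂ n, y = 0 := by
    intro y
    obtain ⟨x, rfl⟩ := 𝒰.exists_of_map_g_eq_zero hX hd n y (Subsingleton.elim _ _)
    rw [Subsingleton.elim x 0, map_zero]
  rw [key a, key b]

/-- Finiteness of level cohomology passes to extensions (over a noetherian ring). -/
theorem finite_levelCohomology_of_shortExact [IsNoetherianRing k]
    {X : ShortComplex (Rep.{u} k G)}
    (hX : X.ShortExact) (hd : 𝒰.IsDiscrete X.X₂) (n : ℕ)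
    [h₁ : Module.Finite k (𝒰.levelCohomology X.X₁ n)]
    [h₃ : Module.Finite k (𝒰.levelCohomology X.X₃ n)] :
    Module.Finite k (𝒰.levelCohomology X.X₂ n) := by
  set f := (𝒰.levelCohomologyMap X.f n).hom with hf
  set g := (𝒰.levelCohomologyMap X.g n).hom with hg
  have hker : LinearMap.ker g = LinearMap.range f := by
    ext y
    constructor
    · intro hy
      exact 𝒰.exists_of_map_g_eq_zero hX hd n y hy
    · rintro ⟨x, rfl⟩
      have := congr($(𝒰.map_f_comp_map_g (X := X) n) x)
      exact this
  haveI : Module.Finite k (LinearMap.ker g) := by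
    rw [hker]
    exact Module.Finite.range f
  haveI : Module.Finite k ((𝒰.levelCohomology X.X₂ n) ⧸ LinearMap.ker g) := by
    haveI : IsNoetherian k (𝒰.levelCohomology X.X₃ n) := isNoetherian_of_isNoetherianRing_of_finite _ _
    exact Module.Finite.equiv (g.quotKerEquivRange).symm
  exact Module.Finite.of_submodule_quotient (LinearMap.ker g)

end level

section main

variable {p : ℕ} [Fact p.Prime] {G : Type} [Group G] (𝒰 : LevelFamily G)

/-- **Vanishing dévissage.**  If `G ⧸ V` is a `p`-group for a normal level `V` and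
`Hⁿ_𝒰(G, 𝔽_p) = 0`, then `Hⁿ_𝒰(G, M) = 0` for every finite `𝔽_p[G]`-module `M` killed by `V`. -/
theorem subsingleton_levelCohomology_of_pGroup {V : Subgroup G} [V.Normal] (hV : V ∈ 𝒰.levels)
    (hp : IsPGroup p (G ⧸ V)) (n : ℕ)
    (h : Subsingleton (𝒰.levelCohomology (Rep.trivial (ZMod p) G (ZMod p)) n))
    (M : Rep.{0} (ZMod p) G) [Module.Finite (ZMod p) M]
    (hM : ∀ s ∈ V, ∀ m : M, M.ρ s m = m) :
    Subsingleton (𝒰.levelCohomology M n) :=
  pGroup_devissage V hp (P := fun A => Subsingleton (𝒰.levelCohomology A n))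
    (fun A _ => subsingleton_levelCohomology_of_subsingleton 𝒰 A n) h
    (fun _ hX hXV _ _ =>
      subsingleton_levelCohomology_of_shortExact hX (isDiscrete_of_level 𝒰 _ hV hXV) n) M hM

/-- **Finiteness dévissage.**  If `G ⧸ V` is a `p`-group for a normal level `V` and
`Hⁿ_𝒰(G, 𝔽_p)` is finite, then `Hⁿ_𝒰(G, M)` is finite for every finite `𝔽_p[G]`-module `M`
killed by `V`. -/
theorem finite_levelCohomology_of_pGroup {V : Subgroup G} [V.Normal] (hV : V ∈ 𝒰.levels)
    (hp : IsPGroup p (G ⧸ V)) (n : ℕ)
    (h : Module.Finite (ZMod p) (𝒰.levelCohomology (Rep.trivial (ZMod p) G (ZMod p)) n))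
    (M : Rep.{0} (ZMod p) G) [Module.Finite (ZMod p) M]
    (hM : ∀ s ∈ V, ∀ m : M, M.ρ s m = m) :
    Module.Finite (ZMod p) (𝒰.levelCohomology M n) :=
  pGroup_devissage V hp (P := fun A => Module.Finite (ZMod p) (𝒰.levelCohomology A n))
    (fun A _ => by
      haveI := subsingleton_levelCohomology_of_subsingleton 𝒰 A n
      exact Module.Finite.of_finite) h
    (fun _ hX hXV _ _ =>
      finite_levelCohomology_of_shortExact hX (isDiscrete_of_level 𝒰 _ hV hXV) n) M hM

end main

end CdBound

end Fermat.Agent.Lib.CFT.Profinite
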