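/-
P-CFT Profinite: compatibility wrappers.  `CdCriterion.lean` is now unconditional (it uses helper35's
`LES.res_injective_of_not_dvd` from `Profinite/Cores` directly); the primed names introduced here by
helper29 are kept as aliases of the unconditional criteria.  (helper29, updated by helper90)
-/
import Fermat.Agent.Lib.CFT.Profinite.Cores
import Fermat.Agent.Lib.CFT.Profinite.CdCriterion

set_option autoImplicit false

open CategoryTheory

namespace Fermat.Agent.Lib.CFT.Profinite

namespace CdBound

open LevelFamily LES

variable {p : ℕ} [Fact p.Prime] {G : Type} [Group G] {𝒰 : LevelFamily G}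

/-- Restriction to an open subgroup of index prime to `p` is injective on the level cohomology of
discrete `𝔽_p`-modules, in every degree. -/
theorem resInjective (n : ℕ) (W : Subgroup G) (hW : IsOpenSubgroup 𝒰 W) (hidx : ¬ p ∣ W.index)
    (M : Rep.{0} (ZMod p) G) (hM : 𝒰.IsDiscrete M) :
    Function.Injective (LES.res 𝒰 W M n).hom :=
  LES.res_injective_of_not_dvd hW hM n hidx

/-- **Criterion for vanishing** (unconditional form): if `Hⁿ(W, 𝔽_p) = 0` for every open subgroup
`W`, then `Hⁿ(G, M) = 0` for every finite discrete `𝔽_p[G]`-module `M`. -/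
theorem subsingleton_levelCohomology_of_forall_open' (n : ℕ)
    (h : ∀ W : Subgroup G, IsOpenSubgroup 𝒰 W →
      Subsingleton ((restrict 𝒰 W).levelCohomology (Rep.trivial (ZMod p) W (ZMod p)) n))
    (M : Rep.{0} (ZMod p) G) [Module.Finite (ZMod p) M] (hM : 𝒰.IsDiscrete M) :
    Subsingleton (𝒰.levelCohomology M n) :=
  subsingleton_levelCohomology_of_forall_open n h M hM

/-- **Criterion for finiteness** (unconditional form): if `Hⁿ(W, 𝔽_p)` is finite for every open
subgroup `W`, then `Hⁿ(G, M)` is finite for every finite discrete `𝔽_p[G]`-module `M`. -/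
theorem finite_levelCohomology_of_forall_open' (n : ℕ)
    (h : ∀ W : Subgroup G, IsOpenSubgroup 𝒰 W →
      Module.Finite (ZMod p) ((restrict 𝒰 W).levelCohomology (Rep.trivial (ZMod p) W (ZMod p)) n))
    (M : Rep.{0} (ZMod p) G) [Module.Finite (ZMod p) M] (hM : 𝒰.IsDiscrete M) :
    Module.Finite (ZMod p) (𝒰.levelCohomology M n) :=
  finite_levelCohomology_of_forall_open n h M hM

end CdBound

end Fermat.Agent.Lib.CFT.Profinite
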