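import Fermat.Agent.Lib.CFT.Profinite.LES
import Fermat.Agent.Lib.CFT.Coh.InfRes

/-!
# Level-coinduced modules and dimension shifting (P-CFT, Profinite/LevelCoind)

For a level family `𝒰` on `G` and a `k`-module `B`, `coindLevel 𝒰 B` is the representation of `G`
by right translation on the level-constant functions `G → B`.  It is discrete and acyclic for
level cohomology (`isZero_levelCohomology_coindLevel`, by an explicit contracting homotopy), and
every discrete module `M` embeds into `coindLevel 𝒰 M` (`coindLevelEmb`), which gives the dimension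
shifting sequence `shiftSES`.
-/

set_option autoImplicit false

universe u

open CategoryTheory groupCohomology

namespace Fermat.Agent.Lib.CFT.Profinite.LES

open LevelFamily Fermat.Agent.Lib.CFT.Coh.InfRes

variable {k G : Type u} [CommRing k] [Group G]

/-! ### The contracting homotopy on functions `G → B` -/

section Homotopy

variable {B : Type u} [AddCommGroup B] [Module k B]

theorem contractNth_zero_cons {n : ℕ} (x : G) (g : Fin (n + 1) → G) :
    Fin.contractNth (0 : Fin (n + 2)) (· * ·) (Fin.cons x g : Fin (n + 2) → G) =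
      Fin.cons (x * g 0) (fun i => g i.succ) := by
  funext i
  refine Fin.cases ?_ (fun i => ?_) i
  · simp [Fin.contractNth]
  · simp [Fin.contractNth]

theorem contractNth_succ_cons {n : ℕ} (x : G) (g : Fin (n + 1) → G) (j : Fin (n + 1)) :
    Fin.contractNth (j.succ : Fin (n + 2)) (· * ·) (Fin.cons x g : Fin (n + 2) → G) =
      Fin.cons x (Fin.contractNth j (· * ·) g) := by
  funext i
  refine Fin.cases ?_ (fun i => ?_) i
  · simp [Fin.contractNth]
  · simp only [Fin.contractNth, Fin.val_succ, add_lt_add_iff_right, Fin.cons_succ,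
      add_left_inj]
    split_ifs <;> simp [Fin.cons_succ]

/-- The contracting homotopy of the inhomogeneous cochains of the right regular representation:
`(hmt f) (g₁, …, gₙ) x = f (x, g₁, …, gₙ) 1`. -/
def hmt {n : ℕ} (f : (Fin (n + 1) → G) → (G → B)) : (Fin n → G) → (G → B) :=
  fun g x => f (Fin.cons x g) 1

theorem d_hmt_apply {n : ℕ} (f : (Fin (n + 1) → G) → (G → B)) (g : Fin (n + 1) → G) (x : G) :
    (inhomogeneousCochains.d (rightReg k G B) n).hom (hmt f) g x =
      f (Fin.cons (x * g 0) (fun i => g i.succ)) 1 +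
        ∑ j : Fin (n + 1), (-1 : k) ^ ((j : ℕ) + 1) •
          f (Fin.cons x (Fin.contractNth j (· * ·) g)) 1 := by
  rw [inhomogeneousCochains.d_hom_apply]
  simp only [Pi.add_apply, Finset.sum_apply, Pi.smul_apply]
  rfl

theorem hmt_d_apply {n : ℕ} (f : (Fin (n + 1) → G) → (G → B)) (g : Fin (n + 1) → G) (x : G) :
    hmt ((inhomogeneousCochains.d (rightReg k G B) (n + 1)).hom f) g x =
      f g x + ((-1 : k) • f (Fin.cons (x * g 0) (fun i => g i.succ)) 1 +
        ∑ j : Fin (n + 1), (-1 : k) ^ ((j : ℕ) + 2) •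
          f (Fin.cons x (Fin.contractNth j (· * ·) g)) 1) := by
  simp only [hmt]
  rw [inhomogeneousCochains.d_hom_apply, Fin.sum_univ_succ]
  simp only [Pi.add_apply, Finset.sum_apply, Pi.smul_apply, contractNth_zero_cons,
    contractNth_succ_cons, Fin.val_zero, zero_add, pow_one, Fin.val_succ, Fin.cons_zero,
    Fin.cons_succ]
  congr 1
  show f (fun i => g i) (1 * x) = f g x
  rw [one_mul]

/-- `d ∘ hmt + hmt ∘ d = id` on the inhomogeneous cochains of the right regular representation. -/
theorem hmt_identity {n : ℕ} (f : (Fin (n + 1) → G) → (G → B)) :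
    (inhomogeneousCochains.d (rightReg k G B) n).hom (hmt f) +
      hmt ((inhomogeneousCochains.d (rightReg k G B) (n + 1)).hom f) = f := by
  funext g x
  rw [Pi.add_apply, Pi.add_apply, d_hmt_apply, hmt_d_apply]
  have : ∀ j : Fin (n + 1), (-1 : k) ^ ((j : ℕ) + 2) •
      f (Fin.cons x (Fin.contractNth j (· * ·) g)) 1 = - ((-1 : k) ^ ((j : ℕ) + 1) •
      f (Fin.cons x (Fin.contractNth j (· * ·) g)) 1) := by
    intro j
    rw [pow_succ, mul_neg_one, neg_smul]
  simp only [this, Finset.sum_neg_distrib, neg_smul, one_smul]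
  abel

end Homotopy

/-! ### The level-coinduced module -/

section CoindLevel

variable (𝒰 : LevelFamily G) (B : Type u) [AddCommGroup B] [Module k B]

/-- The submodule of level-constant functions `G → B`. -/
def levelFun : Submodule k (G → B) where
  carrier := {f | ∃ U ∈ 𝒰.levels, ∀ x s : G, s ∈ U → f (x * s) = f x}
  add_mem' := by
    rintro f f' ⟨U, hU, h⟩ ⟨U', hU', h'⟩
    obtain ⟨W, hW, h1, h2, -⟩ := 𝒰.exists_normal_le_inf hU hU'
    exact ⟨W, hW, fun x s hs => by
      simp only [Pi.add_apply, h x s (h1 hs), h' x s (h2 hs)]⟩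
  zero_mem' := by
    obtain ⟨U, hU⟩ := 𝒰.nonempty
    exact ⟨U, hU, fun _ _ _ => rfl⟩
  smul_mem' := by
    rintro c f ⟨U, hU, h⟩
    exact ⟨U, hU, fun x s hs => by simp only [Pi.smul_apply, h x s hs]⟩

variable {𝒰 B} in
theorem mem_levelFun_iff {f : G → B} :
    f ∈ levelFun (k := k) 𝒰 B ↔ ∃ U ∈ 𝒰.levels, ∀ x s : G, s ∈ U → f (x * s) = f x := Iff.rfl

/-- Right translation on level-constant functions. -/
def coindLevelRepresentation : Representation k G (levelFun (k := k) 𝒰 B) where
  toFun γ := (LinearMap.funLeft k B (· * γ)).restrict (by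
    rintro f ⟨U, hU, h⟩
    obtain ⟨W, hW, hle, hn⟩ := 𝒰.normal_le U hU
    refine ⟨W, hW, fun x s hs => ?_⟩
    simp only [LinearMap.funLeft_apply]
    have : x * s * γ = x * γ * (γ⁻¹ * s * γ) := by group
    rw [this]
    exact h _ _ (hle (hn.conj_mem' s hs γ)))
  map_one' := by
    ext f x
    simp
  map_mul' γ₁ γ₂ := by
    ext f x
    simp [mul_assoc]

@[simp]
theorem coindLevelRepresentation_apply_coe (γ : G) (f : levelFun (k := k) 𝒰 B) (x : G) :
    (coindLevelRepresentation 𝒰 B γ f).1 x = f.1 (x * γ) := rfl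

/-- The level-coinduced module: level-constant functions `G → B` with right translation. -/
noncomputable abbrev coindLevel : Rep.{u} k G := Rep.of (coindLevelRepresentation (k := k) 𝒰 B)

theorem isDiscrete_coindLevel : 𝒰.IsDiscrete (coindLevel (k := k) 𝒰 B) := by
  rintro ⟨f, U, hU, h⟩
  exact ⟨U, hU, fun s hs => Subtype.ext (funext fun x => h x s hs)⟩

/-- The inclusion of the level-coinduced module into all functions. -/
noncomputable def coindLevelι : coindLevel (k := k) 𝒰 B ⟶ rightReg k G B :=
  Rep.ofHom (ρ := coindLevelRepresentation (k := k) 𝒰 B) (σ := rightRegRepresentation k G B)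
    ⟨(levelFun (k := k) 𝒰 B).subtype, fun g => by
      ext f x
      rfl⟩

@[simp]
theorem coindLevelι_apply (f : coindLevel (k := k) 𝒰 B) : (coindLevelι 𝒰 B).hom f = f.1 := rfl

end CoindLevel

/-! ### Acyclicity of the level-coinduced module -/

section Acyclic

variable (𝒰 : LevelFamily G) (B : Type u) [AddCommGroup B] [Module k B]

theorem hmt_zero {n : ℕ} : hmt (0 : (Fin (n + 1) → G) → (G → B)) = 0 := rfl

/-- The differential commutes with passing to underlying functions. -/
theorem d_coindLevelι {n : ℕ} (f : (Fin n → G) → coindLevel (k := k) 𝒰 B) (g : Fin (n + 1) → G) :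
    ((inhomogeneousCochains.d (coindLevel (k := k) 𝒰 B) n).hom f g).1 =
      (inhomogeneousCochains.d (rightReg k G B) n).hom (fun g' => (f g').1) g := by
  have h := congr($((cochainsMap (MonoidHom.id G) (coindLevelι (k := k) 𝒰 B)).comm n (n + 1)) f)
  simp only [CochainComplex.of_d, ModuleCat.hom_comp, LinearMap.coe_comp,
    Function.comp_apply] at h
  exact (congr_fun h g).symm

/-- The level-coinduced module is acyclic for level cohomology. -/
theorem isZero_levelCohomology_coindLevel (n : ℕ) :
    Limits.IsZero (𝒰.levelCohomology (coindLevel (k := k) 𝒰 B) (n + 1)) := by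
  rw [isZero_levelCohomology_succ_iff]
  intro f hf hdf
  obtain ⟨W, hW, hWn, hc, hfix⟩ := IsLevelCochain.exists_normal hf
  let F : (Fin (n + 1) → G) → (G → B) := fun g => (f g).1
  have hF : (inhomogeneousCochains.d (rightReg k G B) (n + 1)).hom F = 0 := by
    funext g
    rw [← d_coindLevelι, hdf]
    rfl
  have key : ∀ (g' : Fin n → G) (x : G) (s : G) (s' : Fin n → G), s ∈ W → (∀ i, s' i ∈ W) →
      F (Fin.cons (x * s) (fun i => g' i * s' i)) 1 = F (Fin.cons x g') 1 := by
    intro g' x s s' hs hs'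
    have h1 := hc (Fin.cons x g') (Fin.cons s s') (by
      intro i
      refine Fin.cases ?_ (fun i => ?_) i
      · simpa using hs
      · simpa using hs' i)
    have h2 : (fun i => (Fin.cons x g' : Fin (n + 1) → G) i * (Fin.cons s s' : Fin (n + 1) → G) i) =
        Fin.cons (x * s) (fun i => g' i * s' i) := by
      funext i
      refine Fin.cases ?_ (fun i => ?_) i <;> simp
    rw [h2] at h1
    show (f _).1 1 = (f _).1 1
    rw [h1]
  have key1 : ∀ (g' : Fin n → G) (x s : G), s ∈ W → hmt F g' (x * s) = hmt F g' x := by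
    intro g' x s hs
    have := key g' x s (fun _ => 1) hs (fun _ => W.one_mem)
    simpa [hmt] using this
  let e : (Fin n → G) → coindLevel (k := k) 𝒰 B := fun g' => ⟨hmt F g', W, hW, key1 g'⟩
  refine ⟨e, ⟨W, hW, ?_, ?_⟩, ?_⟩
  · intro g' s' hs'
    apply Subtype.ext
    funext x
    have := key g' x 1 s' W.one_mem hs'
    rw [mul_one] at this
    exact this
  · intro g' s hs
    apply Subtype.ext
    funext x
    exact key1 g' x s hs
  · funext g
    apply Subtype.ext
    rw [d_coindLevelι]
    have h3 := hmt_identity (k := k) F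
    rw [hF, hmt_zero, add_zero] at h3
    exact congr_fun h3 g

end Acyclic

/-! ### Discreteness and exact sequences -/

section Discrete

variable {𝒰 : LevelFamily G} {M M' : Rep.{u} k G}

theorem isDiscrete_of_surjective (φ : M ⟶ M') (hφ : Function.Surjective φ.hom)
    (hM : 𝒰.IsDiscrete M) : 𝒰.IsDiscrete M' := by
  intro m'
  obtain ⟨m, rfl⟩ := hφ m'
  obtain ⟨U, hU, h⟩ := hM m
  exact ⟨U, hU, fun s hs => by rw [← Rep.hom_comm_apply, h s hs]⟩

theorem isDiscrete_of_injective (φ : M ⟶ M') (hφ : Function.Injective φ.hom)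
    (hM' : 𝒰.IsDiscrete M') : 𝒰.IsDiscrete M := by
  intro m
  obtain ⟨U, hU, h⟩ := hM' (φ.hom m)
  exact ⟨U, hU, fun s hs => hφ (by rw [Rep.hom_comm_apply, h s hs])⟩

theorem isDiscrete_X₃ {X : ShortComplex (Rep.{u} k G)} (hX : X.ShortExact)
    (hd : 𝒰.IsDiscrete X.X₂) : 𝒰.IsDiscrete X.X₃ :=
  isDiscrete_of_surjective X.g (shortExact_surjective hX) hd

theorem isDiscrete_X₁ {X : ShortComplex (Rep.{u} k G)} (hX : X.ShortExact)
    (hd : 𝒰.IsDiscrete X.X₂) : 𝒰.IsDiscrete X.X₁ :=
  isDiscrete_of_injective X.f (shortExact_injective hX) hd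

end Discrete

section DeltaIso

variable {𝒰 : LevelFamily G} {X : ShortComplex (Rep.{u} k G)} (hX : X.ShortExact)
  (hd : 𝒰.IsDiscrete X.X₂)

theorem δ_surjective_of_isZero (n : ℕ) (h : Limits.IsZero (𝒰.levelCohomology X.X₂ (n + 1))) :
    Function.Surjective (𝒰.δ hX hd n (n + 1) rfl).hom := by
  intro x
  have hx : (𝒰.levelCohomologyMap X.f (n + 1)).hom x = 0 :=
    (ModuleCat.isZero_iff_subsingleton.1 h).elim _ _
  exact 𝒰.exists_of_map_f_eq_zero hX hd rfl x hx

theorem δ_injective_of_isZero (n : ℕ) (h : Limits.IsZero (𝒰.levelCohomology X.X₂ n)) :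
    Function.Injective (𝒰.δ hX hd n (n + 1) rfl).hom := by
  rw [injective_iff_map_eq_zero]
  intro z hz
  obtain ⟨y, rfl⟩ := 𝒰.exists_of_δ_eq_zero hX hd rfl z hz
  have hy : y = 0 := (ModuleCat.isZero_iff_subsingleton.1 h).elim _ _
  rw [hy, map_zero]

theorem δ_bijective_of_isZero (n : ℕ) (h : Limits.IsZero (𝒰.levelCohomology X.X₂ n))
    (h' : Limits.IsZero (𝒰.levelCohomology X.X₂ (n + 1))) :
    Function.Bijective (𝒰.δ hX hd n (n + 1) rfl).hom :=
  ⟨δ_injective_of_isZero hX hd n h, δ_surjective_of_isZero hX hd n h'⟩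

end DeltaIso

/-! ### The dimension shifting sequence -/

section Shift

variable {𝒰 : LevelFamily G} {M : Rep.{u} k G} (hM : 𝒰.IsDiscrete M)

/-- The embedding of a discrete module into its level-coinduced module, `m ↦ (x ↦ ρ x m)`. -/
noncomputable def coindLevelEmb : M ⟶ coindLevel (k := k) 𝒰 M.V :=
  Rep.ofHom (ρ := M.ρ) (σ := coindLevelRepresentation (k := k) 𝒰 M.V)
    ⟨{ toFun := fun m => ⟨fun x => M.ρ x m, by
          obtain ⟨U, hU, h⟩ := hM m
          exact ⟨U, hU, fun x s hs => by
            show M.ρ (x * s) m = M.ρ x m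
            rw [map_mul, Module.End.mul_apply, h s hs]⟩⟩
       map_add' := fun a b => by
          apply Subtype.ext
          funext x
          simp
       map_smul' := fun r a => by
          apply Subtype.ext
          funext x
          simp },
     fun g => by
      ext a x
      show M.ρ x (M.ρ g a) = M.ρ (x * g) a
      rw [map_mul, Module.End.mul_apply]⟩

@[simp]
theorem coindLevelEmb_apply_coe (m : M) (x : G) : ((coindLevelEmb hM).hom m).1 x = M.ρ x m := rfl

theorem coindLevelEmb_injective : Function.Injective (coindLevelEmb hM).hom := by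
  intro a b h
  have := congr_fun (congrArg Subtype.val h) 1
  rw [coindLevelEmb_apply_coe, coindLevelEmb_apply_coe] at this
  simpa using this

instance : Mono (coindLevelEmb hM) := (Rep.mono_iff_injective _).2 (coindLevelEmb_injective hM)

/-- The dimension shifting short complex `M ⟶ coindLevel 𝒰 M ⟶ coker` of a discrete module. -/
noncomputable def levelShiftSES : ShortComplex (Rep.{u} k G) :=
  ShortComplex.cokernelSequence (coindLevelEmb hM)

theorem levelShiftSES_shortExact : (levelShiftSES hM).ShortExact :=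
  ShortComplex.ShortExact.mk' (ShortComplex.cokernelSequence_exact _)
    (inferInstanceAs (Mono (coindLevelEmb hM)))
    (inferInstanceAs (Epi (ShortComplex.cokernelSequence (coindLevelEmb hM)).g))

theorem levelShiftSES_X₁ : (levelShiftSES hM).X₁ = M := rfl

theorem levelShiftSES_X₂ : (levelShiftSES hM).X₂ = coindLevel (k := k) 𝒰 M.V := rfl

theorem isDiscrete_levelShiftSES_X₂ : 𝒰.IsDiscrete (levelShiftSES hM).X₂ :=
  isDiscrete_coindLevel 𝒰 M.V

theorem isDiscrete_levelShiftSES_X₃ : 𝒰.IsDiscrete (levelShiftSES hM).X₃ :=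
  isDiscrete_X₃ (levelShiftSES_shortExact hM) (isDiscrete_levelShiftSES_X₂ hM)

theorem isZero_levelCohomology_levelShiftSES_X₂ (n : ℕ) :
    Limits.IsZero (𝒰.levelCohomology (levelShiftSES hM).X₂ (n + 1)) :=
  isZero_levelCohomology_coindLevel 𝒰 M.V n

/-- Dimension shifting: the connecting map `Hⁿ⁺¹(M') ⟶ Hⁿ⁺²(M)` is bijective. -/
theorem δ_levelShiftSES_bijective (n : ℕ) :
    Function.Bijective (𝒰.δ (levelShiftSES_shortExact hM) (isDiscrete_levelShiftSES_X₂ hM)
      (n + 1) (n + 2) rfl).hom :=
  δ_bijective_of_isZero _ _ (n + 1) (isZero_levelCohomology_levelShiftSES_X₂ hM n)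
    (isZero_levelCohomology_levelShiftSES_X₂ hM (n + 1))

/-- Dimension shifting: the connecting map `H⁰(M') ⟶ H¹(M)` is surjective. -/
theorem δ_levelShiftSES_surjective (n : ℕ) :
    Function.Surjective (𝒰.δ (levelShiftSES_shortExact hM) (isDiscrete_levelShiftSES_X₂ hM)
      n (n + 1) rfl).hom :=
  δ_surjective_of_isZero _ _ n (isZero_levelCohomology_levelShiftSES_X₂ hM n)

end Shift

end Fermat.Agent.Lib.CFT.Profinite.LES
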