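/-
P-CFT Profinite/CotrLevel (helper29): an EXPLICIT cochain-level corestriction on level complexes
from an open subgroup, given by the transfer formula of `Coh/ResCor`
(`(cotr f)(g) = ∑_q ρ(q.out) f(τ q g)`), with naturality, δ-compatibility and `res ≫ cores = index`.

NOTE: the reference corestriction of the Profinite block is helper35's `LES.cores`
(`Profinite/Cores.lean`, via Shapiro and the trace). This file is an independent, explicit model
(useful when a formula on cochains is needed); everything here lives in its own namespace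
`Fermat.Agent.Lib.CFT.Profinite.CotrLevel`.
-/
import Fermat.Agent.Lib.CFT.Coh.ResCor
import Fermat.Agent.Lib.CFT.Profinite.LevelCoind

set_option autoImplicit false

universe u

open CategoryTheory groupCohomology Rep

namespace Fermat.Agent.Lib.CFT.Profinite.CotrLevel

open LevelFamily LES Fermat.Agent.Lib.CFT.Coh.ResCor

/-! ### Combinatorics: the transfer tuple modulo a normal subgroup -/

section Comb

variable {G : Type u} [Group G] (S : Subgroup G) {W : Subgroup G} [hW : W.Normal]

include hW in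
/-- A normal subgroup contained in `S` acts trivially on `G ⧸ S`. -/
lemma smul_eq_of_mem_normal (hWS : W ≤ S) {w : G} (hw : w ∈ W) (q : G ⧸ S) : w • q = q := by
  induction q using QuotientGroup.induction_on with
  | H x =>
    show ((w * x : G) : G ⧸ S) = (x : G ⧸ S)
    rw [QuotientGroup.eq]
    have : (w * x)⁻¹ * x = x⁻¹ * w⁻¹ * x := by group
    rw [this]
    exact hWS (hW.conj_mem' _ (W.inv_mem hw) _)

include hW in
lemma step_mul_mem (hWS : W ≤ S) (q : G ⧸ S) (g : G) {w : G} (hw : w ∈ W) :
    ((step S q g : S) : G)⁻¹ * (step S q (g * w) : G) ∈ W := by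
  have h1 : (g * w)⁻¹ • q = g⁻¹ • q := by
    rw [mul_inv_rev, mul_smul, smul_eq_of_mem_normal S hWS (W.inv_mem hw)]
  simp only [coe_step, h1]
  have : (q.out⁻¹ * g * (g⁻¹ • q).out)⁻¹ * (q.out⁻¹ * (g * w) * (g⁻¹ • q).out) =
      ((g⁻¹ • q).out)⁻¹ * w * (g⁻¹ • q).out := by group
  rw [this]
  exact hW.conj_mem' _ hw _

include hW in
/-- Multiplying the arguments by elements of a normal subgroup `W ≤ S` changes the partial
products by elements of `W`. -/
lemma partialProd_mul_mem {n : ℕ} (g s : Fin n → G) (hs : ∀ i, s i ∈ W) (i : Fin (n + 1)) :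
    (Fin.partialProd g i)⁻¹ * Fin.partialProd (fun j => g j * s j) i ∈ W := by
  induction i using Fin.induction with
  | zero => simp
  | succ i ih =>
    rw [Fin.partialProd_succ, Fin.partialProd_succ]
    have : (Fin.partialProd g i.castSucc * g i)⁻¹ *
        (Fin.partialProd (fun j => g j * s j) i.castSucc * (g i * s i)) =
        ((g i)⁻¹ * ((Fin.partialProd g i.castSucc)⁻¹ *
          Fin.partialProd (fun j => g j * s j) i.castSucc) * g i) * s i := by group
    rw [this]
    exact W.mul_mem (hW.conj_mem' _ ih _) (hs i)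

include hW in
lemma tau_mul_mem (hWS : W ≤ S) {n : ℕ} (q : G ⧸ S) (g s : Fin n → G) (hs : ∀ i, s i ∈ W)
    (i : Fin n) :
    ((tau S q g i : S) : G)⁻¹ * (tau S q (fun j => g j * s j) i : G) ∈ W := by
  have h1 : (Fin.partialProd (fun j => g j * s j) i.castSucc)⁻¹ • q =
      (Fin.partialProd g i.castSucc)⁻¹ • q := by
    have hm := partialProd_mul_mem (W := W) g s hs i.castSucc
    have : (Fin.partialProd (fun j => g j * s j) i.castSucc)⁻¹ =
        ((Fin.partialProd g i.castSucc)⁻¹ * Fin.partialProd (fun j => g j * s j) i.castSucc)⁻¹ *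
          (Fin.partialProd g i.castSucc)⁻¹ := by group
    rw [this, mul_smul, smul_eq_of_mem_normal S hWS (W.inv_mem hm)]
  simp only [tau, h1]
  exact step_mul_mem S hWS _ (g i) (hs i)

end Comb

/-! ### The cotransfer preserves level cochains -/

section Level

variable {k G : Type u} [CommRing k] [Group G] (S : Subgroup G) [Fintype (G ⧸ S)]
  (M : Rep.{u} k G)

/-- The cotransfer of a cochain of `S` inflated from `W ∩ S = W` (`W` normal in `G`, `W ≤ S`) is
inflated from `W`. -/
theorem cotrL_isCochainOn {W : Subgroup G} [hW : W.Normal] (hWS : W ≤ S) {n : ℕ}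
    {f : (Fin n → S) → M}
    (hf : IsCochainOn (Rep.res S.subtype M) (W.comap S.subtype) f) :
    IsCochainOn M W (cotrL S M n f) := by
  refine ⟨fun g s hs => ?_, fun g w hw => ?_⟩
  · simp only [cotrL_apply]
    refine Finset.sum_congr rfl fun q _ => ?_
    congr 1
    have := hf.1 (tau S q g) (fun i => (tau S q g i)⁻¹ * tau S q (fun j => g j * s j) i)
      (fun i => by
        rw [Subgroup.mem_comap]
        simpa using tau_mul_mem S hWS q g s hs i)
    rw [← this]
    congr 1
    funext i
    simp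
  · simp only [cotrL_apply, map_sum]
    refine Finset.sum_congr rfl fun q _ => ?_
    rw [← Module.End.mul_apply, ← map_mul]
    have hc : q.out⁻¹ * w * q.out ∈ W := hW.conj_mem' _ hw _
    have : w * q.out = q.out * (q.out⁻¹ * w * q.out) := by group
    rw [this, map_mul, Module.End.mul_apply]
    congr 1
    exact hf.2 _ ⟨q.out⁻¹ * w * q.out, hWS hc⟩ (by rw [Subgroup.mem_comap]; exact hc)

variable (𝒰 : LevelFamily G)

/-- `S` is open for the level family: it contains a level. -/
def IsOpen : Prop := ∃ U ∈ 𝒰.levels, U ≤ S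

variable {𝒰 S}

/-- The cotransfer maps level cochains of an open subgroup `S` to level cochains of `G`. -/
theorem cotrL_mem_levelCochains (hS : IsOpen S 𝒰) {n : ℕ} {f : (Fin n → S) → M}
    (hf : f ∈ (restrict 𝒰 S).levelCochains (Rep.res S.subtype M) n) :
    cotrL S M n f ∈ 𝒰.levelCochains M n := by
  obtain ⟨_, ⟨U, hU, rfl⟩, hfU⟩ := hf
  obtain ⟨U₀, hU₀, hU₀S⟩ := hS
  obtain ⟨W, hW, hWU, hWU₀, hn⟩ := 𝒰.exists_normal_le_inf hU hU₀
  have := hn
  exact ⟨W, hW, cotrL_isCochainOn S M (hWU₀.trans hU₀S)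
    (hfU.mono (Subgroup.comap_mono hWU))⟩

end Level

/-! ### Corestriction on level complexes and level cohomology -/

section Cores

variable {k G : Type u} [CommRing k] [Group G] {𝒰 : LevelFamily G} {S : Subgroup G}
  [Fintype (G ⧸ S)] (hS : IsOpen S 𝒰) (M : Rep.{u} k G)

/-- Corestriction on level cochains: the restriction of the cotransfer `cotr`. -/
noncomputable def levelCotr :
    (restrict 𝒰 S).levelComplex (Rep.res S.subtype M) ⟶ 𝒰.levelComplex M :=
  CochainComplex.ofHom (X := (restrict 𝒰 S).levelComplex (Rep.res S.subtype M))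
    (Y := 𝒰.levelComplex M)
    (fun n => ModuleCat.ofHom ((cotrL S M n).restrict
      fun _ hx => cotrL_mem_levelCochains M hS hx)) (fun n => by
      ext x : 2
      apply Subtype.ext
      have := congr($((cotr S M).comm n (n + 1)) x.1)
      simp only [CochainComplex.of_d, ModuleCat.hom_comp, LinearMap.coe_comp,
        Function.comp_apply] at this
      simp only [levelComplex, CochainComplex.of_d]
      exact this)

@[simp]
theorem levelCotr_f_apply_coe {n : ℕ} (x : (restrict 𝒰 S).levelCochains (Rep.res S.subtype M) n) :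
    (show 𝒰.levelCochains M n from ((levelCotr hS M).f n).hom x).1 = cotrL S M n x.1 := rfl

theorem levelCotr_comp_ι :
    levelCotr hS M ≫ 𝒰.levelComplexι M =
      (restrict 𝒰 S).levelComplexι (Rep.res S.subtype M) ≫ cotr S M := by
  ext n x : 3
  rfl

/-- **Corestriction** `Hⁿ_{𝒰|S}(S, M) ⟶ Hⁿ_𝒰(G, M)` for an open subgroup `S`. -/
noncomputable def cores (n : ℕ) :
    (restrict 𝒰 S).levelCohomology (Rep.res S.subtype M) n ⟶ 𝒰.levelCohomology M n :=
  HomologicalComplex.homologyMap (levelCotr hS M) n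

/-- **Restriction** `Hⁿ_𝒰(G, M) ⟶ Hⁿ_{𝒰|S}(S, M)`. -/
noncomputable def res (𝒰 : LevelFamily G) (S : Subgroup G) (M : Rep.{u} k G) (n : ℕ) :
    𝒰.levelCohomology M n ⟶ (restrict 𝒰 S).levelCohomology (Rep.res S.subtype M) n :=
  LES.map S.subtype (isCompatible_comap 𝒰 S.subtype) (𝟙 (Rep.res S.subtype M)) n

section Naturality

variable {M} {N : Rep.{u} k G} (φ : M ⟶ N)

/-- Naturality of the cochain-level corestriction in the module. -/
theorem levelCotr_naturality :
    ((restrict 𝒰 S).levelComplexFunctor (k := k)).map ((Rep.resFunctor S.subtype).map φ) ≫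
        levelCotr hS N =
      levelCotr hS M ≫ (𝒰.levelComplexFunctor (k := k)).map φ := by
  ext n x : 3
  apply Subtype.ext
  have h := congr($((cotr_naturality S φ)) )
  have h' := congrArg (fun F => ((F.f n).hom x.1)) h
  exact h'

/-- Naturality of corestriction in the module. -/
theorem cores_naturality (n : ℕ) :
    (restrict 𝒰 S).levelCohomologyMap ((Rep.resFunctor S.subtype).map φ) n ≫ cores hS N n =
      cores hS M n ≫ 𝒰.levelCohomologyMap φ n := by
  have h := levelCotr_naturality hS φ
  exact (HomologicalComplex.homologyMap_comp _ _ n).symm.trans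
    ((congrArg (fun F => HomologicalComplex.homologyMap F n) h).trans
      (HomologicalComplex.homologyMap_comp _ _ n))

end Naturality

section Delta

omit [Fintype (G ⧸ S)] in
/-- The restriction of a discrete module to a subgroup is discrete for the restricted family. -/
theorem isDiscrete_res {M : Rep.{u} k G} (hM : 𝒰.IsDiscrete M) (S : Subgroup G) :
    (restrict 𝒰 S).IsDiscrete (Rep.res S.subtype M) := by
  intro m
  obtain ⟨U, hU, h⟩ := hM m
  exact ⟨U.comap S.subtype, comap_mem_comap_levels S.subtype hU, fun s hs => h (s : G) hs⟩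

variable {X : ShortComplex (Rep.{u} k G)} (hX : X.ShortExact) (hd : 𝒰.IsDiscrete X.X₂)

/-- The morphism of short complexes of level complexes given by corestriction. -/
noncomputable def levelCotrShortComplex :
    (X.map (Rep.resFunctor S.subtype)).map ((restrict 𝒰 S).levelComplexFunctor (k := k)) ⟶
      X.map (𝒰.levelComplexFunctor (k := k)) where
  τ₁ := levelCotr hS X.X₁
  τ₂ := levelCotr hS X.X₂
  τ₃ := levelCotr hS X.X₃
  comm₁₂ := (levelCotr_naturality hS X.f).symm
  comm₂₃ := (levelCotr_naturality hS X.g).symm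

/-- Corestriction commutes with the connecting homomorphisms. -/
theorem δ_cores (i j : ℕ) (hij : i + 1 = j) :
    (restrict 𝒰 S).δ (shortExact_res S hX) (isDiscrete_res hd S) i j hij ≫ cores hS X.X₁ j =
      cores hS X.X₃ i ≫ 𝒰.δ hX hd i j hij :=
  HomologicalComplex.HomologySequence.δ_naturality (levelCotrShortComplex hS (X := X))
    ((restrict 𝒰 S).map_levelComplexFunctor_shortExact (shortExact_res S hX) (isDiscrete_res hd S))
    (𝒰.map_levelComplexFunctor_shortExact hX hd) i j hij

omit [Fintype (G ⧸ S)] in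
/-- Restriction commutes with the connecting homomorphisms. -/
theorem δ_res (i j : ℕ) (hij : i + 1 = j) :
    𝒰.δ hX hd i j hij ≫ res 𝒰 S X.X₁ j =
      res 𝒰 S X.X₃ i ≫ (restrict 𝒰 S).δ (shortExact_res S hX) (isDiscrete_res hd S) i j hij :=
  LES.δ_naturality S.subtype (isCompatible_comap 𝒰 S.subtype) hX hd (shortExact_res S hX)
    (isDiscrete_res hd S) (𝟙 _) (𝟙 _) (𝟙 _)
    ((Category.comp_id _).trans (Category.id_comp _).symm)
    ((Category.comp_id _).trans (Category.id_comp _).symm) i j hij

end Delta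

section Index

/-- The chain-level composite `Cor ∘ Res` on the level complex. -/
noncomputable def levelResCotr : 𝒰.levelComplex M ⟶ 𝒰.levelComplex M :=
  levelCochainsMap S.subtype (isCompatible_comap 𝒰 S.subtype) (𝟙 (Rep.res S.subtype M)) ≫
    levelCotr hS M

theorem res_comp_cores_eq (n : ℕ) :
    res 𝒰 S M n ≫ cores hS M n = HomologicalComplex.homologyMap (levelResCotr hS M) n :=
  (HomologicalComplex.homologyMap_comp _ _ n).symm

/-- On a `0`-cocycle, `Cor ∘ Res` is multiplication by the index. -/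
theorem levelResCotr_zero_apply (x : 𝒰.levelCochains M 0)
    (hx : (inhomogeneousCochains.d M 0).hom x.1 = 0) :
    ((levelResCotr hS M).f 0).hom x = Fintype.card (G ⧸ S) • x := by
  apply Subtype.ext
  funext y
  have hinv := (LES.d_zero_eq_zero_iff x.1).1 hx
  have hy : ∀ y' : Fin 0 → G, x.1 y' = x.1 default := fun y' =>
    congrArg x.1 (Subsingleton.elim _ _)
  show ∑ q : G ⧸ S, M.ρ q.out (x.1 (fun i => ((tau S q y i : S) : G))) = _
  simp only [hy, hinv, Finset.sum_const, Finset.card_univ]
  have hc : ((Fintype.card (G ⧸ S) • x : 𝒰.levelCochains M 0) : (Fin 0 → G) → M) =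
      Fintype.card (G ⧸ S) • x.1 := AddSubmonoidClass.coe_nsmul x _
  rw [hc, Pi.smul_apply, hy y]

theorem homologyMap_levelResCotr_zero :
    HomologicalComplex.homologyMap (levelResCotr hS M) 0 =
      Fintype.card (G ⧸ S) • 𝟙 (𝒰.levelCohomology M 0) := by
  rw [← cancel_epi ((𝒰.levelComplex M).homologyπ 0), HomologicalComplex.homologyπ_naturality]
  have key : HomologicalComplex.cyclesMap (levelResCotr hS M) 0 =
      Fintype.card (G ⧸ S) • 𝟙 ((𝒰.levelComplex M).cycles 0) := by
    rw [← cancel_mono ((𝒰.levelComplex M).iCycles 0), HomologicalComplex.cyclesMap_i]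
    ext z : 2
    have hz := LES.d_iCycles (𝒰.levelComplex M) 0 z
    have hz' := (LES.levelComplex_d_hom_eq_zero_iff 𝒰 M 0 _).1 hz
    have h1 := levelResCotr_zero_apply hS M _ hz'
    simp only [ModuleCat.hom_comp, LinearMap.coe_comp, Function.comp_apply]
    rw [h1]
    simp
  rw [key]
  simp

/-- **`cores ∘ res = index`** in degree `0`. -/
theorem res_comp_cores_zero :
    res 𝒰 S M 0 ≫ cores hS M 0 = Fintype.card (G ⧸ S) • 𝟙 (𝒰.levelCohomology M 0) :=
  (res_comp_cores_eq hS M 0).trans (homologyMap_levelResCotr_zero hS M)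

/-- `Cor ∘ Res - index` commutes with connecting homomorphisms. -/
theorem resCoresDefect_δ {X : ShortComplex (Rep.{u} k G)} (hX : X.ShortExact)
    (hd : 𝒰.IsDiscrete X.X₂) (n : ℕ) :
    𝒰.δ hX hd n (n + 1) rfl ≫ (res 𝒰 S X.X₁ (n + 1) ≫ cores hS X.X₁ (n + 1)) =
      (res 𝒰 S X.X₃ n ≫ cores hS X.X₃ n) ≫ 𝒰.δ hX hd n (n + 1) rfl := by
  have h1 := δ_res (S := S) hX hd n (n + 1) rfl
  have h2 := δ_cores hS hX hd n (n + 1) rfl
  calc 𝒰.δ hX hd n (n + 1) rfl ≫ (res 𝒰 S X.X₁ (n + 1) ≫ cores hS X.X₁ (n + 1))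
      = (𝒰.δ hX hd n (n + 1) rfl ≫ res 𝒰 S X.X₁ (n + 1)) ≫ cores hS X.X₁ (n + 1) :=
        (Category.assoc _ _ _).symm
    _ = (res 𝒰 S X.X₃ n ≫ (restrict 𝒰 S).δ (shortExact_res S hX) (isDiscrete_res hd S)
          n (n + 1) rfl) ≫ cores hS X.X₁ (n + 1) :=
        congrArg (fun t => t ≫ cores hS X.X₁ (n + 1)) h1
    _ = res 𝒰 S X.X₃ n ≫ ((restrict 𝒰 S).δ (shortExact_res S hX) (isDiscrete_res hd S)
          n (n + 1) rfl ≫ cores hS X.X₁ (n + 1)) := Category.assoc _ _ _
    _ = res 𝒰 S X.X₃ n ≫ (cores hS X.X₃ n ≫ 𝒰.δ hX hd n (n + 1) rfl) :=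
        congrArg (fun t => res 𝒰 S X.X₃ n ≫ t) h2
    _ = _ := (Category.assoc _ _ _).symm

/-- **`cores ∘ res = index`** on the level cohomology of a discrete module, in all degrees. -/
theorem res_comp_cores {M : Rep.{u} k G} (hM : 𝒰.IsDiscrete M) (n : ℕ) :
    res 𝒰 S M n ≫ cores hS M n = Fintype.card (G ⧸ S) • 𝟙 (𝒰.levelCohomology M n) := by
  induction n generalizing M with
  | zero => exact res_comp_cores_zero hS M
  | succ n ih =>
    have hX := levelShiftSES_shortExact hM
    have hd := isDiscrete_levelShiftSES_X₂ hM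
    have h3 := isDiscrete_levelShiftSES_X₃ hM
    have hsurj := δ_levelShiftSES_surjective hM n
    have hepi : Epi (𝒰.δ hX hd n (n + 1) rfl) := (ModuleCat.epi_iff_surjective _).2 hsurj
    have key := resCoresDefect_δ hS hX hd n
    rw [ih h3, Preadditive.nsmul_comp, Category.id_comp] at key
    have goal' : 𝒰.δ hX hd n (n + 1) rfl ≫ (res 𝒰 S (levelShiftSES hM).X₁ (n + 1) ≫
        cores hS (levelShiftSES hM).X₁ (n + 1)) =
        𝒰.δ hX hd n (n + 1) rfl ≫
          (Fintype.card (G ⧸ S) • 𝟙 (𝒰.levelCohomology (levelShiftSES hM).X₁ (n + 1))) := by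
      rw [key, Preadditive.comp_nsmul, Category.comp_id]
    exact hepi.left_cancellation _ _ goal'

/-- Elementwise form of `cores ∘ res = index`. -/
theorem cores_res_apply {M : Rep.{u} k G} (hM : 𝒰.IsDiscrete M) (n : ℕ)
    (x : 𝒰.levelCohomology M n) :
    (cores hS M n).hom ((res 𝒰 S M n).hom x) = Fintype.card (G ⧸ S) • x := by
  have h := res_comp_cores hS hM n
  have h' := congrArg (fun f => f.hom x) h
  simpa using h'

include hS in
/-- Restriction to an open subgroup is injective on the classes killed by an integer prime to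
the index. -/
theorem eq_zero_of_res_eq_zero {M : Rep.{u} k G} (hM : 𝒰.IsDiscrete M) (n : ℕ) {m : ℕ}
    (hm : Nat.Coprime m (Fintype.card (G ⧸ S))) (x : 𝒰.levelCohomology M n) (hx : m • x = 0)
    (hres : (res 𝒰 S M n).hom x = 0) : x = 0 := by
  have h1 : Fintype.card (G ⧸ S) • x = 0 := by
    rw [← cores_res_apply hS hM n x, hres, map_zero]
  have h2 : ((m : ℤ).gcd (Fintype.card (G ⧸ S) : ℤ) : ℤ) • x = 0 := by
    rw [Int.gcd_eq_gcd_ab, add_smul, mul_smul, mul_smul]
    rw [natCast_zsmul, natCast_zsmul, smul_comm, hx, smul_zero, smul_comm, h1, smul_zero,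
      add_zero]
  have h3 : (m : ℤ).gcd (Fintype.card (G ⧸ S) : ℤ) = 1 := by
    rw [Int.gcd_natCast_natCast]; exact hm
  rw [h3] at h2
  simpa using h2

end Index

end Cores

end Fermat.Agent.Lib.CFT.Profinite.CotrLevel
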