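import Fermat.Agent.Lib.CFT.Profinite.Cores
import Fermat.Agent.Lib.CFT.Profinite.LevelLowDegree

/-!
# Inflation and the inflation-restriction sequences for level cohomology (P-CFT)

For a level family `𝒰` on `G`, a normal subgroup `N` and a discrete `G`-module `M`:

* `infl 𝒰 N M n : Hⁿ(G ⧸ N, M^N) ⟶ Hⁿ(G, M)` (level cohomology for `quot 𝒰 N`), and the
  restriction `res 𝒰 N M n : Hⁿ(G, M) ⟶ Hⁿ(N, M)` (level cohomology for `restrict 𝒰 N`);
* `infResExact_one`: `0 ⟶ H¹(G ⧸ N, M^N) ⟶ H¹(G, M) ⟶ H¹(N, M)` is exact;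
* `infResExact_of_isZero`: if `Hⁱ(N, M) = 0` for `0 < i < n` then
  `0 ⟶ Hⁿ(G ⧸ N, M^N) ⟶ Hⁿ(G, M) ⟶ Hⁿ(N, M)` is exact.

The proof is by dimension shifting along `levelShiftSES`, using that the level-coinduced module
has acyclic `N`-invariants (`isZero_levelCohomology_quotientToInvariants_coindLevel`) and acyclic
restriction to `N` (`isZero_levelCohomology_res_coindLevel`).
-/

set_option autoImplicit false

universe u

open CategoryTheory groupCohomology

namespace Fermat.Agent.Lib.CFT.Profinite.LES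

open LevelFamily Fermat.Agent.Lib.CFT.Coh.InfRes

variable {k G : Type u} [CommRing k] [Group G]

section Defs

variable (𝒰 : LevelFamily G) (N : Subgroup G) [N.Normal] (M : Rep.{u} k G)

/-- The inclusion of the `N`-invariants, as a morphism `res (G → G ⧸ N) (M^N) ⟶ M`. -/
noncomputable def invIncl :
    Rep.res (QuotientGroup.mk' N) (M.quotientToInvariants N) ⟶ M :=
  Rep.ofHom (M.ρ.quotientToInvariants_lift N)

@[simp]
theorem invIncl_apply (m : M.quotientToInvariants N) : (invIncl N M).hom m = m.1 := rfl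

/-- The invariants of a discrete module are discrete for the quotient level family. -/
theorem isDiscrete_quotientToInvariants (hM : 𝒰.IsDiscrete M) :
    (quot 𝒰 N).IsDiscrete (M.quotientToInvariants N) := by
  intro m
  obtain ⟨U, hU, h⟩ := hM m.1
  refine ⟨U.map (QuotientGroup.mk' N), ⟨U, hU, rfl⟩, ?_⟩
  rintro _ ⟨s, hs, rfl⟩
  apply Subtype.ext
  exact h s hs

/-- Inflation `Hⁿ(G ⧸ N, M^N) ⟶ Hⁿ(G, M)` on level cohomology. -/
noncomputable def infl (n : ℕ) :
    (quot 𝒰 N).levelCohomology (M.quotientToInvariants N) n ⟶ 𝒰.levelCohomology M n :=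
  map (QuotientGroup.mk' N) (isCompatible_mapSurj 𝒰 _ (QuotientGroup.mk'_surjective N))
    (invIncl N M) n

/-- Inflation is compatible with the comparison maps to abstract group cohomology. -/
theorem infl_comp_toGroupCohomology (n : ℕ) :
    infl 𝒰 N M n ≫ 𝒰.toGroupCohomology M n =
      (quot 𝒰 N).toGroupCohomology (M.quotientToInvariants N) n ≫
        Coh.InfRes.infl M N n :=
  map_comp_toGroupCohomology _ _ _ n

omit [N.Normal] in
/-- Restriction is compatible with the comparison maps to abstract group cohomology. -/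
theorem res_comp_toGroupCohomology (n : ℕ) :
    res 𝒰 N M n ≫ (restrict 𝒰 N).toGroupCohomology (Rep.res N.subtype M) n =
      𝒰.toGroupCohomology M n ≫ Coh.InfRes.rest M N n :=
  map_comp_toGroupCohomology _ _ _ n

end Defs


section DegreeOne

variable (𝒰 : LevelFamily G) (N : Subgroup G) [N.Normal] (M : Rep.{u} k G)

/-- The inflation-restriction property in degree `n` for level cohomology: inflation is injective
and its image contains the kernel of restriction. -/
def InfResExact (n : ℕ) : Prop :=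
  Function.Injective (infl 𝒰 N M n).hom ∧
    ∀ x : 𝒰.levelCohomology M n, (res 𝒰 N M n).hom x = 0 → ∃ y, (infl 𝒰 N M n).hom y = x

/-- Inflation is injective in degree one. -/
theorem infl_one_injective : Function.Injective (infl 𝒰 N M 1).hom := by
  have h := infl_comp_toGroupCohomology 𝒰 N M 1
  have hinj : Function.Injective ((quot 𝒰 N).toGroupCohomology (M.quotientToInvariants N) 1 ≫
      Coh.InfRes.infl M N 1).hom := by
    rw [ModuleCat.hom_comp]
    exact (Coh.InfRes.infResExact_one M N).1.comp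
      ((quot 𝒰 N).toGroupCohomology_one_injective (M.quotientToInvariants N))
  rw [← h, ModuleCat.hom_comp] at hinj
  exact Function.Injective.of_comp hinj

/-- Abstract inflation on the class of a `1`-cocycle. -/
theorem abstract_infl_H1π (c : cocycles₁ (M.quotientToInvariants N)) :
    (Coh.InfRes.infl M N 1).hom ((H1π (M.quotientToInvariants N)).hom c) =
      (H1π M).hom ((mapCocycles₁ (A := M.quotientToInvariants N) (B := M) (QuotientGroup.mk' N)
        (invIncl N M)).hom c) :=
  H1π_comp_map_apply (A := M.quotientToInvariants N) (B := M) (QuotientGroup.mk' N)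
    (invIncl N M) c

theorem mapCocycles₁_invIncl_apply (c : cocycles₁ (M.quotientToInvariants N)) (g : G) :
    ((mapCocycles₁ (A := M.quotientToInvariants N) (B := M) (QuotientGroup.mk' N)
        (invIncl N M)).hom c).1 g = (c.1 (g : G ⧸ N)).1 := rfl

variable {M}

/-- The inflation-restriction sequence in degree one for level cohomology of a discrete module. -/
theorem infResExact_one (hM : 𝒰.IsDiscrete M) : InfResExact 𝒰 N M 1 := by
  refine ⟨infl_one_injective 𝒰 N M, fun x hx => ?_⟩
  -- pass to abstract cohomology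
  have h1 : (Coh.InfRes.rest M N 1).hom ((𝒰.toGroupCohomology M 1).hom x) = 0 := by
    have := congr($(res_comp_toGroupCohomology 𝒰 N M 1) x)
    simp only [ModuleCat.hom_comp, LinearMap.coe_comp, Function.comp_apply] at this
    rw [← this, hx, map_zero]
  obtain ⟨y, hy⟩ := (Coh.InfRes.infResExact_one M N).2 _ h1
  -- a level-constant representative of `x`
  obtain ⟨cG, hcG, hcGx⟩ := (𝒰.mem_range_toGroupCohomology_one_iff_of_isDiscrete M hM _).1
    ⟨x, rfl⟩
  -- a representative of `y`
  obtain ⟨c, rfl⟩ : ∃ c, (H1π (M.quotientToInvariants N)).hom c = y := by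
    induction y using H1_induction_on with | @h c => exact ⟨c, rfl⟩
  have hy' : (H1π M).hom ((mapCocycles₁ (A := M.quotientToInvariants N) (B := M)
      (QuotientGroup.mk' N) (invIncl N M)).hom c) = (H1π M).hom cG := by
    rw [hcGx, ← abstract_infl_H1π]
    exact hy
  obtain ⟨m, hm⟩ := (H1π_eq_iff _ _).1 hy'
  -- `c` is level-constant
  have hc : (quot 𝒰 N).IsConst₁ (c : G ⧸ N → M.quotientToInvariants N) := by
    obtain ⟨U, hU, hU'⟩ := hcG
    obtain ⟨U', hU'', hmU⟩ := hM m
    obtain ⟨W, hW, hWU, hWU', -⟩ := 𝒰.exists_normal_le_inf hU hU''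
    refine ⟨W.map (QuotientGroup.mk' N), ⟨W, hW, rfl⟩, ?_⟩
    intro g s hs
    obtain ⟨s, hs, rfl⟩ := hs
    induction g using QuotientGroup.induction_on with | H g =>
    apply Subtype.ext
    have e1 := congr_fun hm (g * s)
    have e2 := congr_fun hm g
    rw [Pi.sub_apply, d₀₁_hom_apply] at e1 e2
    have e3 : ((mapCocycles₁ (A := M.quotientToInvariants N) (B := M) (QuotientGroup.mk' N)
        (invIncl N M)).hom c).1 (g * s) = (c.1 ((g : G ⧸ N) * (QuotientGroup.mk' N) s)).1 := rfl
    have e4 : ((mapCocycles₁ (A := M.quotientToInvariants N) (B := M) (QuotientGroup.mk' N)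
        (invIncl N M)).hom c).1 g = (c.1 (g : G ⧸ N)).1 := rfl
    have e5 : M.ρ (g * s) m = M.ρ g m := by
      rw [map_mul, Module.End.mul_apply, hmU s (hWU' hs)]
    have e6 : cG (g * s) = cG g := hU' g s (hWU hs)
    have e1' : (c.1 ((g : G ⧸ N) * (QuotientGroup.mk' N) s)).1 = M.ρ (g * s) m - m + cG (g * s) := by
      rw [← e3]
      exact (eq_add_of_sub_eq e1.symm)
    have e2' : (c.1 (g : G ⧸ N)).1 = M.ρ g m - m + cG g := by
      rw [← e4]
      exact (eq_add_of_sub_eq e2.symm)
    show (c.1 ((g : G ⧸ N) * (QuotientGroup.mk' N) s)).1 = (c.1 (g : G ⧸ N)).1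
    rw [e1', e2', e5, e6]
  obtain ⟨y₀, hy₀⟩ := ((quot 𝒰 N).mem_range_toGroupCohomology_one_iff_of_isDiscrete
    (M.quotientToInvariants N) (isDiscrete_quotientToInvariants 𝒰 N M hM) _).2 ⟨c, hc, rfl⟩
  refine ⟨y₀, 𝒰.toGroupCohomology_one_injective M ?_⟩
  have := congr($(infl_comp_toGroupCohomology 𝒰 N M 1) y₀)
  simp only [ModuleCat.hom_comp, LinearMap.coe_comp, Function.comp_apply] at this
  rw [this, hy₀]
  exact hy

end DegreeOne


section Invariants

variable {𝒰 : LevelFamily G} (N : Subgroup G) [N.Normal]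

/-- Every level `1`-cocycle of a representation with vanishing first level cohomology is a
coboundary. -/
theorem exists_of_isZero_levelH1 {Γ : Type u} [Group Γ] (𝒱 : LevelFamily Γ) (A : Rep.{u} k Γ)
    (h : Limits.IsZero (𝒱.levelCohomology A 1)) (c : Γ → A.V)
    (hc : ∀ g h : Γ, c (g * h) = A.ρ g (c h) + c g)
    (hlev : 𝒱.IsLevelCochain A (fun g : Fin 1 → Γ => c (g 0))) :
    ∃ a : A.V, ∀ g : Γ, A.ρ g a - a = c g := by
  have hmem : c ∈ cocycles₁ A := (mem_cocycles₁_iff c).2 hc
  have hZ := LevelFamily.cochainsIso₁_inv_mem_Z A ⟨c, hmem⟩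
  rw [ConcreteHomology.mem_Z_iff, inhomogeneousCochains.d_def] at hZ
  obtain ⟨e, -, he⟩ := (isZero_levelCohomology_succ_iff 𝒱 A 0).1 h
    ((cochainsIso₁ A).inv c) hlev hZ
  refine ⟨e default, fun g => ?_⟩
  have := congr_fun he (fun _ => g)
  rw [d_zero_apply] at this
  exact this

/-- Taking `N`-invariants of a short exact sequence of discrete modules whose first term has
vanishing first level cohomology over `N` yields a short exact sequence. -/
theorem shortExact_map_quotientToInvariants_of_level {X : ShortComplex (Rep.{u} k G)}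
    (hX : X.ShortExact) (hd : 𝒰.IsDiscrete X.X₂)
    (h1 : Limits.IsZero ((restrict 𝒰 N).levelCohomology (Rep.res N.subtype X.X₁) 1)) :
    (X.map (Rep.quotientToInvariantsFunctor k N)).ShortExact := by
  have hinj := shortExact_injective hX
  have hsurj := shortExact_surjective hX
  have hd₁ : 𝒰.IsDiscrete X.X₁ := isDiscrete_X₁ hX hd
  refine shortExact_of ?_ ?_ ?_
  · intro x y hxy
    apply Subtype.ext
    apply hinj
    exact congr_arg Subtype.val hxy
  · intro z
    obtain ⟨y, hy⟩ := hsurj z.1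
    have hz : ∀ n : N, X.X₃.ρ n z.1 = z.1 := fun n => z.2 n
    have hex : ∀ n : N, ∃ a : X.X₁, X.f.hom a = X.X₂.ρ n y - y := fun n => by
      apply shortExact_exists_of_g_eq_zero hX
      rw [map_sub, Rep.hom_comm_apply, hy, hz n, sub_self]
    choose c hc using hex
    have hlev : (restrict 𝒰 N).IsLevelCochain (Rep.res N.subtype X.X₁)
        (fun g : Fin 1 → N => c (g 0)) := by
      rw [isLevelCochain_iff_of_isDiscrete (isDiscrete_res 𝒰 N X.X₁ hd₁)]
      obtain ⟨U, hU, hyU⟩ := hd y
      refine ⟨U.comap N.subtype, comap_mem_comap_levels _ hU, fun g s hs => ?_⟩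
      apply hinj
      rw [hc, hc]
      have h0 : (s 0 : G) ∈ U := hs 0
      rw [Subgroup.coe_mul, map_mul, Module.End.mul_apply, hyU _ h0]
    obtain ⟨a, ha⟩ := exists_of_isZero_levelH1 (restrict 𝒰 N) (Rep.res N.subtype X.X₁) h1 c
      (fun g h => by
        apply hinj
        rw [hc, map_add]
        have : X.f.hom ((Rep.res N.subtype X.X₁).ρ g (c h)) = X.X₂.ρ g (X.f.hom (c h)) :=
          Rep.hom_comm_apply X.f (g : G) (c h)
        rw [this, hc, hc]
        simp [map_sub]) hlev
    have hinv : ∀ n : N, X.X₂.ρ n (y - X.f.hom a) = y - X.f.hom a := fun n => by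
      have h2 : X.f.hom (X.X₁.ρ n a) = X.X₂.ρ n (X.f.hom a) := Rep.hom_comm_apply X.f (n : G) a
      have h3 : X.X₁.ρ (n : G) a - a = c n := ha n
      have h4 := hc n
      rw [← h3, map_sub, h2] at h4
      rw [map_sub]
      have : X.X₂.ρ n y - X.X₂.ρ n (X.f.hom a) - (y - X.f.hom a) = 0 := by
        rw [sub_sub_sub_comm, ← h4, sub_self]
      exact sub_eq_zero.1 this
    refine ⟨⟨y - X.f.hom a, hinv⟩, ?_⟩
    apply Subtype.ext
    show X.g.hom (y - X.f.hom a) = z.1
    rw [map_sub, shortExact_g_f hX, sub_zero, hy]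
  · intro x hx
    have hx' : X.g.hom x.1 = 0 := congr_arg Subtype.val hx
    obtain ⟨y, hy⟩ := shortExact_exists_of_g_eq_zero hX x.1 hx'
    refine ⟨⟨y, fun n => ?_⟩, Subtype.ext hy⟩
    apply hinj
    have h2 : X.f.hom (X.X₁.ρ n y) = X.X₂.ρ n (X.f.hom y) := Rep.hom_comm_apply X.f (n : G) y
    show X.f.hom (X.X₁.ρ (n : G) y) = X.f.hom y
    rw [h2, hy]
    exact x.2 n

end Invariants


section CoindInvariants

variable (𝒰 : LevelFamily G) (N : Subgroup G) [N.Normal]
  (B : Type u) [AddCommGroup B] [Module k B]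

/-- The `N`-invariants of the level-coinduced module of `G` are the level-coinduced module of
`G ⧸ N`. -/
noncomputable def coindLevelInvariantsEquiv :
    ((coindLevel (k := k) 𝒰 B).quotientToInvariants N).V ≃ₗ[k]
      levelFun (k := k) (quot 𝒰 N) B where
  toFun f := ⟨fun c => Quotient.liftOn' c (fun x => f.1.1 x) (fun x y hxy => by
      have hmem : x⁻¹ * y ∈ N := QuotientGroup.leftRel_apply.1 hxy
      have h1 := congr_arg (fun F : levelFun (k := k) 𝒰 B => F.1 x) (f.2 ⟨x⁻¹ * y, hmem⟩)
      simp only at h1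
      have h2 : f.1.1 (x * (x⁻¹ * y)) = f.1.1 x := h1
      rw [mul_inv_cancel_left] at h2
      exact h2.symm), by
    obtain ⟨U, hU, h⟩ := f.1.2
    refine ⟨U.map (QuotientGroup.mk' N), ⟨U, hU, rfl⟩, ?_⟩
    rintro c _ ⟨s, hs, rfl⟩
    induction c using QuotientGroup.induction_on with | H x =>
    exact h x s hs⟩
  map_add' _ _ := by
    apply Subtype.ext
    funext c
    induction c using QuotientGroup.induction_on with | H x => rfl
  map_smul' _ _ := by
    apply Subtype.ext
    funext c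
    induction c using QuotientGroup.induction_on with | H x => rfl
  invFun h := ⟨⟨fun x => h.1 (x : G ⧸ N), by
      obtain ⟨U', ⟨U, hU, rfl⟩, hh⟩ := h.2
      refine ⟨U, hU, fun x s hs => ?_⟩
      have := hh (x : G ⧸ N) ((QuotientGroup.mk' N) s) ⟨s, hs, rfl⟩
      exact this⟩, fun n => by
      apply Subtype.ext
      funext x
      show h.1 ((x * (n : G) : G) : G ⧸ N) = h.1 (x : G ⧸ N)
      rw [QuotientGroup.mk_mul, (QuotientGroup.eq_one_iff (n : G)).2 n.2, mul_one]⟩
  left_inv f := by
    apply Subtype.ext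
    apply Subtype.ext
    funext x
    rfl
  right_inv h := by
    apply Subtype.ext
    funext c
    induction c using QuotientGroup.induction_on with | H x => rfl

/-- The isomorphism of representations underlying `coindLevelInvariantsEquiv`. -/
noncomputable def coindLevelInvariantsIso :
    (coindLevel (k := k) 𝒰 B).quotientToInvariants N ≅ coindLevel (k := k) (quot 𝒰 N) B :=
  Rep.mkIso <| Representation.Equiv.mk (coindLevelInvariantsEquiv 𝒰 N B) (fun γ => by
    induction γ using QuotientGroup.induction_on with | H g =>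
    ext f c
    induction c using QuotientGroup.induction_on with | H x => rfl)

/-- The `N`-invariants of a level-coinduced module are acyclic for `G ⧸ N`. -/
theorem isZero_levelCohomology_quotientToInvariants_coindLevel (n : ℕ) :
    Limits.IsZero ((quot 𝒰 N).levelCohomology
      ((coindLevel (k := k) 𝒰 B).quotientToInvariants N) (n + 1)) := by
  refine (isZero_levelCohomology_coindLevel (k := k) (quot 𝒰 N) B n).of_iso ?_
  exact ((quot 𝒰 N).levelComplexFunctor (k := k) ⋙
    HomologicalComplex.homologyFunctor (ModuleCat k) (ComplexShape.up ℕ) (n + 1)).mapIso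
      (coindLevelInvariantsIso 𝒰 N B)

end CoindInvariants


section ResCoind

variable (𝒰 : LevelFamily G) (N : Subgroup G) (B : Type u) [AddCommGroup B] [Module k B]

/-- Evaluation along the left translate by `z`: `φ ↦ (m ↦ φ (z * m))`, a morphism of
`N`-representations from the restricted level-coinduced module to the right regular
representation of `N`. -/
noncomputable def coindLevelEvalAt (z : G) :
    Rep.res N.subtype (coindLevel (k := k) 𝒰 B) ⟶ rightReg k N B :=
  Rep.ofHom (ρ := (coindLevelRepresentation (k := k) 𝒰 B).comp N.subtype)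
    (σ := rightRegRepresentation k N B)
    ⟨{ toFun := fun φ m => φ.1 (z * (m : G))
       map_add' := fun _ _ => rfl
       map_smul' := fun _ _ => rfl }, fun m' => by
      ext φ m
      show φ.1 (z * (m : G) * (m' : G)) = φ.1 (z * ((m * m' : N) : G))
      rw [Subgroup.coe_mul, mul_assoc]⟩

@[simp]
theorem coindLevelEvalAt_apply (z : G) (φ : coindLevel (k := k) 𝒰 B) (m : N) :
    (coindLevelEvalAt 𝒰 N B z).hom φ m = φ.1 (z * (m : G)) := rfl

/-- The differential commutes with evaluation along a left translate. -/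
theorem d_coindLevelEvalAt (z : G) {n : ℕ}
    (f : (Fin n → N) → Rep.res N.subtype (coindLevel (k := k) 𝒰 B)) (g : Fin (n + 1) → N) (m : N) :
    ((inhomogeneousCochains.d (Rep.res N.subtype (coindLevel (k := k) 𝒰 B)) n).hom f g).1
        (z * (m : G)) =
      (inhomogeneousCochains.d (rightReg k N B) n).hom
        (fun g' m' => (f g').1 (z * (m' : G))) g m := by
  have h := congr($((cochainsMap (MonoidHom.id N) (coindLevelEvalAt (k := k) 𝒰 N B z)).comm
    n (n + 1)) f)
  simp only [CochainComplex.of_d, ModuleCat.hom_comp, LinearMap.coe_comp,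
    Function.comp_apply] at h
  exact (congr_fun (congr_fun h g) m).symm


variable {𝒰 N B} in
/-- A level cochain of `N` with values in the restricted level-coinduced module is controlled by
a single normal level of `G`. -/
theorem exists_level_of_isLevelCochain_res_coindLevel {n : ℕ}
    {f : (Fin n → N) → Rep.res N.subtype (coindLevel (k := k) 𝒰 B)}
    (hf : (restrict 𝒰 N).IsLevelCochain (Rep.res N.subtype (coindLevel (k := k) 𝒰 B)) f) :
    ∃ U ∈ 𝒰.levels, U.Normal ∧ IsConstOn (U.comap N.subtype) f ∧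
      ∀ (g : Fin n → N) (x s : G), s ∈ U → (f g).1 (x * s) = (f g).1 x := by
  obtain ⟨W', hW', hc, -⟩ := hf
  obtain ⟨U₀, hU₀, rfl⟩ := hW'
  have hfin : (Set.range f).Finite := by
    have := (restrict 𝒰 N).finiteIndex _ (comap_mem_comap_levels N.subtype hU₀)
    exact hc.finite_range
  have : Finite (Set.range f) := hfin
  have hex : ∀ φ : Set.range f, ∃ V ∈ 𝒰.levels, ∀ x s : G, s ∈ V → φ.1.1 (x * s) = φ.1.1 x :=
    fun φ => φ.1.2
  choose V hV hfix using hex
  obtain ⟨W₁, hW₁, -, hle₁⟩ := 𝒰.exists_normal_le_of_finite V hV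
  obtain ⟨U, hU, h1, h2, hn⟩ := 𝒰.exists_normal_le_inf hW₁ hU₀
  refine ⟨U, hU, hn, hc.mono (Subgroup.comap_mono h2), fun g x s hs => ?_⟩
  exact hfix ⟨f g, g, rfl⟩ x s (hle₁ _ (h1 hs))

/-- The restriction to a normal subgroup of a level-coinduced module is acyclic. -/
theorem isZero_levelCohomology_res_coindLevel [N.Normal] (n : ℕ) :
    Limits.IsZero ((restrict 𝒰 N).levelCohomology
      (Rep.res N.subtype (coindLevel (k := k) 𝒰 B)) (n + 1)) := by
  classical
  rw [isZero_levelCohomology_succ_iff]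
  intro f hf hdf
  obtain ⟨U, hU, hUn, hc, hinv⟩ := exists_level_of_isLevelCochain_res_coindLevel hf
  -- the chosen representatives and the decomposition `x = y x * u x * r x`
  let y : G → G := fun x => ((x : G ⧸ (U ⊔ N))).out
  have hy : ∀ x : G, (y x)⁻¹ * x ∈ U ⊔ N := fun x =>
    QuotientGroup.eq.1 (QuotientGroup.out_eq' (x : G ⧸ (U ⊔ N)))
  have hdec : ∀ x : G, ∃ u ∈ U, ∃ m ∈ N, x = y x * u * m := fun x => by
    have h := hy x
    rw [← SetLike.mem_coe, Subgroup.mul_normal U N] at h
    obtain ⟨u, hu, m, hm, hum⟩ := h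
    refine ⟨u, hu, m, hm, ?_⟩
    have hum' : u * m = (y x)⁻¹ * x := hum
    rw [mul_assoc, hum', mul_inv_cancel_left]
  choose u hu r hr hx using hdec
  let r' : G → N := fun x => ⟨r x, hr x⟩
  let e : (Fin n → N) → (G → B) := fun g' x => (f (Fin.cons (r' x) g')).1 (y x)
  -- the key property of `e`
  have hyy : ∀ x, y (y x) = y x := fun x => by
    show ((y x : G) : G ⧸ (U ⊔ N)).out = ((x : G ⧸ (U ⊔ N))).out
    rw [QuotientGroup.out_eq']
  have key : ∀ (z u' : G) (m' : N) (g' : Fin n → N), y z = z → u' ∈ U →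
      e g' (z * u' * (m' : G)) = (f (Fin.cons m' g')).1 z := by
    intro z u' m' g' hz hu'
    set t : G := z * u' * (m' : G) with ht
    have hyt : y t = z := by
      rw [← hz]
      show ((t : G) : G ⧸ (U ⊔ N)).out = ((z : G) : G ⧸ (U ⊔ N)).out
      congr 1
      symm
      rw [QuotientGroup.eq]
      have : z⁻¹ * t = u' * (m' : G) := by rw [ht]; group
      rw [this]
      exact Subgroup.mul_mem_sup hu' m'.2
    have h1 : u' * (m' : G) = u t * r t := by
      have := hx t
      rw [hyt] at this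
      have h2 : z * (u' * (m' : G)) = z * (u t * r t) := by
        rw [← mul_assoc, ← mul_assoc, ← this]
      exact mul_left_cancel h2
    -- `ν := (m')⁻¹ * ((u t)⁻¹ * u') * m'` lies in `U ∩ N` and `r t = m' * ν`... 
    have hν : (m' : G)⁻¹ * r t ∈ U := by
      have : (m' : G)⁻¹ * r t = (m' : G)⁻¹ * ((u t)⁻¹ * u') * (m' : G) := by
        have h3 : r t = (u t)⁻¹ * (u' * (m' : G)) := by rw [h1]; group
        rw [h3]
        group
      rw [this]
      exact hUn.conj_mem' _ (U.mul_mem (U.inv_mem (hu t)) hu') _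
    have hrt : r' t = m' * (m'⁻¹ * r' t) := by group
    show (f (Fin.cons (r' t) g')).1 (y t) = (f (Fin.cons m' g')).1 z
    rw [hyt]
    have h4 := hc (Fin.cons m' g') (Fin.cons (m'⁻¹ * r' t) (fun _ => 1)) (by
      intro i
      refine Fin.cases ?_ (fun i => ?_) i
      · rw [Fin.cons_zero]
        exact hν
      · rw [Fin.cons_succ]
        exact (U.comap N.subtype).one_mem)
    have h5 : (fun i => (Fin.cons m' g' : Fin (n + 1) → N) i *
        (Fin.cons (m'⁻¹ * r' t) (fun _ => 1) : Fin (n + 1) → N) i) = Fin.cons (r' t) g' := by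
      funext i
      refine Fin.cases ?_ (fun i => ?_) i
      · simp
      · simp
    rw [h5] at h4
    rw [h4]
  -- `e g'` is a level function
  have he1 : ∀ (g' : Fin n → N) (x s : G), s ∈ U → e g' (x * s) = e g' x := by
    intro g' x s hs
    have hxs : x * s = y x * (u x * (r x * s * (r x)⁻¹)) * ((r' x : N) : G) := by
      conv_lhs => rw [hx x]
      show y x * u x * r x * s = y x * (u x * (r x * s * (r x)⁻¹)) * r x
      group
    rw [hxs, key (y x) _ (r' x) g' (hyy x) (U.mul_mem (hu x) (hUn.conj_mem s hs _))]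
  let E : (Fin n → N) → Rep.res N.subtype (coindLevel (k := k) 𝒰 B) :=
    fun g' => ⟨e g', U, hU, he1 g'⟩
  refine ⟨E, ⟨U.comap N.subtype, comap_mem_comap_levels _ hU, ?_, ?_⟩, ?_⟩
  · intro g' s' hs'
    apply Subtype.ext
    funext x
    show (f (Fin.cons (r' x) (fun i => g' i * s' i))).1 (y x) = (f (Fin.cons (r' x) g')).1 (y x)
    have h4 := hc (Fin.cons (r' x) g') (Fin.cons 1 s') (by
      intro i
      refine Fin.cases ?_ (fun i => ?_) i
      · rw [Fin.cons_zero]
        exact (U.comap N.subtype).one_mem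
      · rw [Fin.cons_succ]
        exact hs' i)
    have h5 : (fun i => (Fin.cons (r' x) g' : Fin (n + 1) → N) i *
        (Fin.cons 1 s' : Fin (n + 1) → N) i) = Fin.cons (r' x) (fun i => g' i * s' i) := by
      funext i
      refine Fin.cases ?_ (fun i => ?_) i
      · simp
      · simp
    rw [h5] at h4
    rw [h4]
  · intro g' s hs
    apply Subtype.ext
    funext x
    exact he1 g' x (s : G) hs
  · funext g
    apply Subtype.ext
    funext x
    have hxx : x = y x * u x * ((r' x : N) : G) := hx x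
    let Fz : (Fin (n + 1) → N) → (N → B) := fun g'' m'' => (f g'').1 (y x * (m'' : G))
    have hFz : (inhomogeneousCochains.d (rightReg k N B) (n + 1)).hom Fz = 0 := by
      funext g'' m''
      have := d_coindLevelEvalAt 𝒰 N B (y x) f g'' m''
      rw [hdf] at this
      exact this.symm
    have hE : (fun (g' : Fin n → N) (m' : N) => (E g').1 (y x * u x * (m' : G))) = hmt Fz := by
      funext g' m'
      show e g' (y x * u x * (m' : G)) = (f (Fin.cons m' g')).1 (y x * ((1 : N) : G))
      rw [key (y x) (u x) m' g' (hyy x) (hu x), Subgroup.coe_one, mul_one]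
    have h1 := d_coindLevelEvalAt 𝒰 N B (y x * u x) E g (r' x)
    rw [hE] at h1
    have h3 := hmt_identity (k := k) Fz
    rw [hFz, hmt_zero, add_zero] at h3
    rw [h3] at h1
    rw [← hxx] at h1
    rw [h1]
    show (f g).1 (y x * r x) = (f g).1 x
    conv_rhs => rw [hx x]
    have : y x * u x * r x = y x * r x * ((r x)⁻¹ * u x * r x) := by group
    rw [this]
    exact (hinv g _ _ (hUn.conj_mem' _ (hu x) _)).symm

end ResCoind

/-! ### Dimension shifting -/

section Ladder

open Limits

variable {𝒰 : LevelFamily G} {X : ShortComplex (Rep.{u} k G)} (hX : X.ShortExact)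
  (hd : 𝒰.IsDiscrete X.X₂) (N : Subgroup G)

include hX hd in
/-- Vanishing of `Hⁱ(N, X₃)` from that of `Hⁱ(N, X₂)` and `Hⁱ⁺¹(N, X₁)`. -/
theorem isZero_res_X₃ (i : ℕ)
    (h2 : IsZero ((restrict 𝒰 N).levelCohomology (Rep.res N.subtype X.X₂) i))
    (h1 : IsZero ((restrict 𝒰 N).levelCohomology (Rep.res N.subtype X.X₁) (i + 1))) :
    IsZero ((restrict 𝒰 N).levelCohomology (Rep.res N.subtype X.X₃) i) := by
  have hY : (X.map (Rep.resFunctor N.subtype)).ShortExact := (Rep.shortExact_res N.subtype).2 hX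
  have hdY : (restrict 𝒰 N).IsDiscrete (X.map (Rep.resFunctor N.subtype)).X₂ :=
    isDiscrete_res 𝒰 N X.X₂ hd
  rw [ModuleCat.isZero_iff_subsingleton]
  refine ⟨fun a b => ?_⟩
  have key : ∀ z : (restrict 𝒰 N).levelCohomology (Rep.res N.subtype X.X₃) i, z = 0 := by
    intro z
    have hz : ((restrict 𝒰 N).δ hY hdY i (i + 1) rfl).hom z = 0 :=
      (ModuleCat.isZero_iff_subsingleton.1 h1).elim _ _
    obtain ⟨w, rfl⟩ := (restrict 𝒰 N).exists_of_δ_eq_zero hY hdY rfl z hz
    have hw : w = 0 := (ModuleCat.isZero_iff_subsingleton.1 h2).elim _ _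
    rw [hw]
    exact map_zero _
  rw [key a, key b]

variable [N.Normal]

include hX hd in
/-- The dimension shifting step for inflation-restriction on level cohomology. -/
theorem infResExact_succ_of_shortExact (n : ℕ)
    (hN1 : IsZero ((restrict 𝒰 N).levelCohomology (Rep.res N.subtype X.X₁) 1))
    (hG : IsZero (𝒰.levelCohomology X.X₂ n)) (hG' : IsZero (𝒰.levelCohomology X.X₂ (n + 1)))
    (hN : IsZero ((restrict 𝒰 N).levelCohomology (Rep.res N.subtype X.X₂) n))
    (hQ : IsZero ((quot 𝒰 N).levelCohomology (X.X₂.quotientToInvariants N) n))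
    (hQ' : IsZero ((quot 𝒰 N).levelCohomology (X.X₂.quotientToInvariants N) (n + 1)))
    (h : InfResExact 𝒰 N X.X₃ n) : InfResExact 𝒰 N X.X₁ (n + 1) := by
  have hXQ : (X.map (Rep.quotientToInvariantsFunctor k N)).ShortExact :=
    shortExact_map_quotientToInvariants_of_level N hX hd hN1
  have hdQ : (quot 𝒰 N).IsDiscrete (X.map (Rep.quotientToInvariantsFunctor k N)).X₂ :=
    isDiscrete_quotientToInvariants 𝒰 N X.X₂ hd
  have hXN : (X.map (Rep.resFunctor N.subtype)).ShortExact := (Rep.shortExact_res N.subtype).2 hX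
  have hdN : (restrict 𝒰 N).IsDiscrete (X.map (Rep.resFunctor N.subtype)).X₂ :=
    isDiscrete_res 𝒰 N X.X₂ hd
  have sq1 : (quot 𝒰 N).δ hXQ hdQ n (n + 1) rfl ≫ infl 𝒰 N X.X₁ (n + 1) =
      infl 𝒰 N X.X₃ n ≫ 𝒰.δ hX hd n (n + 1) rfl :=
    δ_naturality (QuotientGroup.mk' N)
      (isCompatible_mapSurj 𝒰 _ (QuotientGroup.mk'_surjective N)) hXQ hdQ hX hd
      (invIncl N X.X₁) (invIncl N X.X₂) (invIncl N X.X₃) rfl rfl n (n + 1) rfl
  have sq2 : 𝒰.δ hX hd n (n + 1) rfl ≫ res 𝒰 N X.X₁ (n + 1) =
      res 𝒰 N X.X₃ n ≫ (restrict 𝒰 N).δ hXN hdN n (n + 1) rfl :=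
    res_δ hX hd n (n + 1) rfl
  have bijQ : Function.Bijective ((quot 𝒰 N).δ hXQ hdQ n (n + 1) rfl).hom :=
    δ_bijective_of_isZero hXQ hdQ n hQ hQ'
  have bijG : Function.Bijective (𝒰.δ hX hd n (n + 1) rfl).hom :=
    δ_bijective_of_isZero hX hd n hG hG'
  have injN : Function.Injective ((restrict 𝒰 N).δ hXN hdN n (n + 1) rfl).hom :=
    δ_injective_of_isZero hXN hdN n hN
  have e1 : ∀ y, (infl 𝒰 N X.X₁ (n + 1)).hom (((quot 𝒰 N).δ hXQ hdQ n (n + 1) rfl).hom y) =
      (𝒰.δ hX hd n (n + 1) rfl).hom ((infl 𝒰 N X.X₃ n).hom y) := fun y => congr($sq1 y)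
  have e2 : ∀ x, (res 𝒰 N X.X₁ (n + 1)).hom ((𝒰.δ hX hd n (n + 1) rfl).hom x) =
      ((restrict 𝒰 N).δ hXN hdN n (n + 1) rfl).hom ((res 𝒰 N X.X₃ n).hom x) :=
    fun x => congr($sq2 x)
  refine ⟨?_, ?_⟩
  · intro a b hab
    obtain ⟨a', rfl⟩ := bijQ.2 a
    obtain ⟨b', rfl⟩ := bijQ.2 b
    have hab' : (𝒰.δ hX hd n (n + 1) rfl).hom ((infl 𝒰 N X.X₃ n).hom a') =
        (𝒰.δ hX hd n (n + 1) rfl).hom ((infl 𝒰 N X.X₃ n).hom b') :=
      (e1 a').symm.trans (hab.trans (e1 b'))
    exact congr_arg _ (h.1 (bijG.1 hab'))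
  · intro x hx
    obtain ⟨x', rfl⟩ := bijG.2 x
    have hx2 : ((restrict 𝒰 N).δ hXN hdN n (n + 1) rfl).hom ((res 𝒰 N X.X₃ n).hom x') = 0 :=
      (e2 x').symm.trans hx
    have hx' : (res 𝒰 N X.X₃ n).hom x' = 0 := injN (hx2.trans (map_zero _).symm)
    obtain ⟨y', hy'⟩ := h.2 x' hx'
    exact ⟨((quot 𝒰 N).δ hXQ hdQ n (n + 1) rfl).hom y', (e1 y').trans (congr_arg _ hy')⟩

end Ladder


/-! ### Maps along trivial homomorphisms -/

section Trivial

theorem sum_neg_one_pow_succ (n : ℕ) :
    (∑ j : Fin (n + 1), (-1 : k) ^ ((j : ℕ) + 1)) = if Even n then -1 else 0 := by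
  induction n with
  | zero => simp
  | succ n ih =>
    rw [Fin.sum_univ_castSucc]
    simp only [Fin.val_castSucc, Fin.val_last]
    rw [ih]
    by_cases hn : Even n
    · have h1 : ¬ Even (n + 1) := by
        rw [Nat.not_even_iff_odd]
        exact hn.add_one
      have h2 : Even (n + 1 + 1) := by
        have := hn.add (even_two)
        exact this
      rw [if_pos hn, if_neg h1, h2.neg_one_pow]
      ring
    · have h1 : Even (n + 1) := by
        rw [Nat.not_even_iff_odd] at hn
        exact hn.add_one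
      have h2 : Odd (n + 1 + 1) := h1.add_one
      rw [if_neg hn, if_pos h1, h2.neg_one_pow]
      ring

/-- The differential of a constant cochain with invariant value. -/
theorem d_const_apply {Γ : Type u} [Group Γ] (A : Rep.{u} k Γ) (a : A.V)
    (ha : ∀ g : Γ, A.ρ g a = a) (n : ℕ) (g : Fin (n + 1) → Γ) :
    (inhomogeneousCochains.d A n).hom (fun _ => a) g = if Even n then 0 else a := by
  rw [inhomogeneousCochains.d_hom_apply, ha, ← Finset.sum_smul, sum_neg_one_pow_succ]
  by_cases hn : Even n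
  · rw [if_pos hn, if_pos hn, neg_one_smul, add_neg_cancel]
  · rw [if_neg hn, if_neg hn, zero_smul, add_zero]

variable {G' : Type u} [Group G'] {𝒰 : LevelFamily G} {𝒰' : LevelFamily G'}
  {M : Rep.{u} k G} {M' : Rep.{u} k G'}

/-- The map induced on positive-degree level cohomology by a trivial homomorphism vanishes. -/
theorem map_eq_zero_of_trivial (f : G' →* G) (hf1 : ∀ g, f g = 1) (hf : IsCompatible 𝒰' 𝒰 f)
    (φ : Rep.res f M ⟶ M') (n : ℕ) : map f hf φ (n + 1) = 0 := by
  refine ModuleCat.hom_ext (LinearMap.ext fun x => ?_)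
  obtain ⟨σ, rfl⟩ := 𝒰.classMk_surjective M (n + 1) x
  rw [map, levelCohomologyMapOfHom_classMk]
  show _ = (0 : 𝒰'.levelCohomology M' (n + 1))
  rw [classMk_eq_zero_iff_succ]
  set τ := levelCocyclesMap f hf φ (n + 1) σ with hτ
  set a : M'.V := φ.hom (σ.1 (fun _ => 1)) with ha
  have hτa : τ.1 = fun _ => a := by
    rw [hτ, levelCocyclesMap_coe]
    funext g'
    simp only [cochainsMap_f_hom, LinearMap.coe_comp, Function.comp_apply,
      LinearMap.funLeft_apply, LinearMap.compLeft_apply]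
    show φ.hom (σ.1 (⇑f ∘ g')) = a
    have : (⇑f ∘ g') = fun _ => (1 : G) := by
      funext i
      exact hf1 (g' i)
    rw [this]
  have hinv : ∀ g' : G', M'.ρ g' a = a := by
    intro g'
    have h1 := Rep.hom_comm_apply φ g' (σ.1 (fun _ => 1))
    rw [ha, ← h1]
    show φ.hom (M.ρ (f g') _) = _
    rw [hf1, map_one]
    rfl
  have hlev : ∀ (j : ℕ) (b : M'.V), (∀ g' : G', M'.ρ g' b = b) →
      (fun _ : Fin j → G' => b) ∈ 𝒰'.levelCochains M' j := by
    intro j b hb
    obtain ⟨U, hU⟩ := 𝒰'.nonempty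
    exact ⟨U, hU, fun _ _ _ => rfl, fun _ s _ => hb s⟩
  have hdτ : (inhomogeneousCochains.d M' (n + 1)).hom τ.1 = 0 := (Submodule.mem_inf.mp τ.2).2
  by_cases hn : Even n
  · -- then `a = 0`
    have h1 : ¬ Even (n + 1) := by
      rw [Nat.not_even_iff_odd]
      exact hn.add_one
    have h2 := congr_fun hdτ (fun _ => 1)
    rw [hτa, d_const_apply M' a hinv (n + 1), if_neg h1] at h2
    refine ⟨0, Submodule.zero_mem _, ?_⟩
    rw [map_zero, hτa]
    funext g'
    exact h2.symm
  · refine ⟨fun _ => a, hlev n a hinv, ?_⟩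
    rw [hτa]
    funext g'
    rw [d_const_apply M' a hinv n, if_neg hn]

end Trivial

section Final

open Limits

variable (𝒰 : LevelFamily G) (N : Subgroup G) [N.Normal]

/-- Restriction after inflation vanishes in positive degree. -/
theorem infl_comp_res (M : Rep.{u} k G) (n : ℕ) :
    infl 𝒰 N M (n + 1) ≫ res 𝒰 N M (n + 1) = 0 := by
  have h := map_comp (𝒰 := quot 𝒰 N) (𝒰' := 𝒰) (𝒰'' := restrict 𝒰 N)
    (M := M.quotientToInvariants N) (M' := M) (M'' := Rep.res N.subtype M)
    (QuotientGroup.mk' N) (isCompatible_mapSurj 𝒰 _ (QuotientGroup.mk'_surjective N))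
    (invIncl N M) N.subtype (isCompatible_comap 𝒰 N.subtype) (𝟙 _) (n + 1)
  rw [infl, res, ← h]
  exact map_eq_zero_of_trivial ((QuotientGroup.mk' N).comp N.subtype)
    (fun g : N => (QuotientGroup.eq_one_iff (g : G)).2 g.2) _ _ n

theorem res_infl_apply (M : Rep.{u} k G) (n : ℕ)
    (y : (quot 𝒰 N).levelCohomology (M.quotientToInvariants N) (n + 1)) :
    (res 𝒰 N M (n + 1)).hom ((infl 𝒰 N M (n + 1)).hom y) = 0 :=
  congr($(infl_comp_res 𝒰 N M n) y)

variable {𝒰}

/-- **Higher inflation-restriction** for level cohomology: if `Hⁱ(N, M) = 0` for `0 < i < n`,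
then `0 ⟶ Hⁿ(G ⧸ N, M^N) ⟶ Hⁿ(G, M) ⟶ Hⁿ(N, M)` is exact. -/
theorem infResExact_of_isZero (n : ℕ) (hn : 0 < n) {M : Rep.{u} k G} (hM : 𝒰.IsDiscrete M)
    (h : ∀ i, 0 < i → i < n →
      IsZero ((restrict 𝒰 N).levelCohomology (Rep.res N.subtype M) i)) :
    InfResExact 𝒰 N M n := by
  obtain ⟨m, rfl⟩ : ∃ m, n = m + 1 := ⟨n - 1, by omega⟩
  clear hn
  induction m generalizing M with
  | zero => exact infResExact_one 𝒰 N hM
  | succ m ih =>
    have hX := levelShiftSES_shortExact hM
    have hd := isDiscrete_levelShiftSES_X₂ hM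
    refine infResExact_succ_of_shortExact hX hd N (m + 1) (h 1 (by omega) (by omega))
      (isZero_levelCohomology_coindLevel (k := k) 𝒰 M.V m)
      (isZero_levelCohomology_coindLevel (k := k) 𝒰 M.V (m + 1))
      (isZero_levelCohomology_res_coindLevel 𝒰 N M.V m)
      (isZero_levelCohomology_quotientToInvariants_coindLevel 𝒰 N M.V m)
      (isZero_levelCohomology_quotientToInvariants_coindLevel 𝒰 N M.V (m + 1)) ?_
    refine ih (isDiscrete_levelShiftSES_X₃ hM) (fun i hi hi' => ?_)
    obtain ⟨i', rfl⟩ : ∃ i', i = i' + 1 := ⟨i - 1, by omega⟩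
    exact isZero_res_X₃ hX hd N (i' + 1) (isZero_levelCohomology_res_coindLevel 𝒰 N M.V i')
      (h (i' + 1 + 1) (by omega) (by omega))

variable {M : Rep.{u} k G} (hM : 𝒰.IsDiscrete M)

include hM in
/-- Injectivity of inflation in degree `n` when `Hⁱ(N, M) = 0` for `0 < i < n`. -/
theorem infl_injective (n : ℕ) (hn : 0 < n)
    (h : ∀ i, 0 < i → i < n →
      IsZero ((restrict 𝒰 N).levelCohomology (Rep.res N.subtype M) i)) :
    Function.Injective (infl 𝒰 N M n).hom :=
  (infResExact_of_isZero N n hn hM h).1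

include hM in
/-- Exactness of `Hⁿ(G ⧸ N, M^N) ⟶ Hⁿ(G, M) ⟶ Hⁿ(N, M)` when `Hⁱ(N, M) = 0` for `0 < i < n`. -/
theorem exact_infl_res (n : ℕ) (hn : 0 < n)
    (h : ∀ i, 0 < i → i < n →
      IsZero ((restrict 𝒰 N).levelCohomology (Rep.res N.subtype M) i)) :
    Function.Exact (infl 𝒰 N M n).hom (res 𝒰 N M n).hom := by
  obtain ⟨m, rfl⟩ : ∃ m, n = m + 1 := ⟨n - 1, by omega⟩
  intro x
  constructor
  · intro hx
    exact (infResExact_of_isZero N (m + 1) hn hM h).2 x hx
  · rintro ⟨y, rfl⟩
    exact res_infl_apply 𝒰 N M m y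

include hM in
/-- Inflation-restriction in degree `2`: if `H¹(N, M) = 0` then
`0 ⟶ H²(G ⧸ N, M^N) ⟶ H²(G, M) ⟶ H²(N, M)` is exact. -/
theorem infResExact_two
    (h1 : IsZero ((restrict 𝒰 N).levelCohomology (Rep.res N.subtype M) 1)) :
    InfResExact 𝒰 N M 2 :=
  infResExact_of_isZero N 2 (by norm_num) hM (fun i hi hi' => by
    obtain rfl : i = 1 := by omega
    exact h1)

include hM in
/-- Inflation-restriction in degree `3`: if `H¹(N, M) = 0` and `H²(N, M) = 0` then
`0 ⟶ H³(G ⧸ N, M^N) ⟶ H³(G, M) ⟶ H³(N, M)` is exact. -/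
theorem infResExact_three
    (h1 : IsZero ((restrict 𝒰 N).levelCohomology (Rep.res N.subtype M) 1))
    (h2 : IsZero ((restrict 𝒰 N).levelCohomology (Rep.res N.subtype M) 2)) :
    InfResExact 𝒰 N M 3 :=
  infResExact_of_isZero N 3 (by norm_num) hM (fun i hi hi' => by
    obtain rfl | rfl : i = 1 ∨ i = 2 := by omega
    · exact h1
    · exact h2)

include hM in
/-- If moreover `Hⁿ(N, M) = 0`, inflation is bijective in degree `n`. -/
theorem infl_bijective (n : ℕ) (hn : 0 < n)
    (h : ∀ i, 0 < i → i ≤ n →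
      IsZero ((restrict 𝒰 N).levelCohomology (Rep.res N.subtype M) i)) :
    Function.Bijective (infl 𝒰 N M n).hom := by
  have hE := infResExact_of_isZero N n hn hM (fun i hi hi' => h i hi hi'.le)
  refine ⟨hE.1, fun x => hE.2 x ?_⟩
  exact (ModuleCat.isZero_iff_subsingleton.1 (h n hn le_rfl)).elim _ _

end Final

/-! ### Torsion parts -/

section Torsion

open Limits

variable {𝒰 : LevelFamily G} (N : Subgroup G) [N.Normal] {M : Rep.{u} k G}
  (hM : 𝒰.IsDiscrete M)

include hM in
/-- Inflation-restriction on `c`-torsion: if `Hⁱ(N, M) = 0` for `0 < i < n` and `Hⁿ(N, M)` has no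
`c`-torsion, then every `c`-torsion class of `Hⁿ(G, M)` is the inflation of a unique class of
`Hⁿ(G ⧸ N, M^N)`, which is again `c`-torsion. -/
theorem exists_unique_infl_eq_of_smul_eq_zero (n : ℕ) (hn : 0 < n) (c : k)
    (h : ∀ i, 0 < i → i < n →
      IsZero ((restrict 𝒰 N).levelCohomology (Rep.res N.subtype M) i))
    (htor : ∀ z : (restrict 𝒰 N).levelCohomology (Rep.res N.subtype M) n, c • z = 0 → z = 0)
    (x : 𝒰.levelCohomology M n) (hx : c • x = 0) :
    ∃! y : (quot 𝒰 N).levelCohomology (M.quotientToInvariants N) n,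
      (infl 𝒰 N M n).hom y = x ∧ c • y = 0 := by
  have hE := infResExact_of_isZero N n hn hM h
  have hres : (res 𝒰 N M n).hom x = 0 := htor _ (by rw [← map_smul, hx, map_zero])
  obtain ⟨y, hy⟩ := hE.2 x hres
  refine ⟨y, ⟨hy, hE.1 ?_⟩, fun y' hy' => hE.1 (hy'.1.trans hy.symm)⟩
  rw [map_smul, hy, hx, map_zero]

include hM in
/-- The induced bijection on `c`-torsion submodules. -/
theorem infl_torsionBy_bijective (n : ℕ) (hn : 0 < n) (c : k)
    (h : ∀ i, 0 < i → i < n →
      IsZero ((restrict 𝒰 N).levelCohomology (Rep.res N.subtype M) i))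
    (htor : ∀ z : (restrict 𝒰 N).levelCohomology (Rep.res N.subtype M) n, c • z = 0 → z = 0) :
    Function.Bijective ((infl 𝒰 N M n).hom.restrict
      (p := Submodule.torsionBy k ((quot 𝒰 N).levelCohomology (M.quotientToInvariants N) n) c)
      (q := Submodule.torsionBy k (𝒰.levelCohomology M n) c)
      (fun y hy => by
        rw [Submodule.mem_torsionBy_iff] at hy ⊢
        rw [← map_smul, hy, map_zero])) := by
  have hE := infResExact_of_isZero N n hn hM h
  constructor
  · intro a b hab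
    apply Subtype.ext
    apply hE.1
    exact congr_arg Subtype.val hab
  · intro x
    obtain ⟨y, ⟨hy1, hy2⟩, -⟩ := exists_unique_infl_eq_of_smul_eq_zero N hM n hn c h htor x.1
      ((Submodule.mem_torsionBy_iff _ _).1 x.2)
    exact ⟨⟨y, (Submodule.mem_torsionBy_iff _ _).2 hy2⟩, Subtype.ext hy1⟩

end Torsion

end Fermat.Agent.Lib.CFT.Profinite.LES
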