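import Fermat.Agent.Lib.CFT.Profinite.LevelCochains

set_option autoImplicit false

universe u

open CategoryTheory groupCohomology ShortComplex

namespace Fermat.Agent.Lib.CFT.Profinite

variable {k G : Type u} [CommRing k] [Group G]

namespace LevelFamily

variable (𝒰 : LevelFamily G) {X : ShortComplex (Rep.{u} k G)} (hX : X.ShortExact)

include hX in
theorem exists_levelCochain_of_comp_eq_zero {n : ℕ} {y : (Fin n → G) → X.X₂}
    (hy : y ∈ 𝒰.levelCochains X.X₂ n) (h0 : ∀ g, X.g.hom (y g) = 0) :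
    ∃ x ∈ 𝒰.levelCochains X.X₁ n, ∀ g, X.f.hom (x g) = y g := by
  have hinj : Function.Injective X.f.hom := (Rep.mono_iff_injective X.f).1 hX.2
  have hrk : LinearMap.range X.f.hom.toLinearMap = LinearMap.ker X.g.hom.toLinearMap :=
    (hX.exact.map (forget₂ (Rep k G) (ModuleCat k))).moduleCat_range_eq_ker
  have hex : ∀ g, ∃ a : X.X₁, X.f.hom a = y g := by
    intro g
    have : y g ∈ LinearMap.ker X.g.hom.toLinearMap := h0 g
    rw [← hrk] at this
    exact this
  choose x hx using hex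
  refine ⟨x, ?_, hx⟩
  obtain ⟨U, hU, hc, hfix⟩ := hy
  refine ⟨U, hU, fun g s hs => hinj ?_, fun g s hs => hinj ?_⟩
  · rw [hx, hx, hc g s hs]
  · rw [Rep.hom_comm_apply, hx, hfix g s hs]

include hX in
theorem exists_levelCochain_lift (hd : 𝒰.IsDiscrete X.X₂) {n : ℕ} {z : (Fin n → G) → X.X₃}
    (hz : z ∈ 𝒰.levelCochains X.X₃ n) :
    ∃ y ∈ 𝒰.levelCochains X.X₂ n, ∀ g, X.g.hom (y g) = z g := by
  have hsurj : Function.Surjective X.g.hom := (Rep.epi_iff_surjective X.g).1 hX.3
  refine ⟨fun g => Function.surjInv hsurj (z g), ?_, fun g => Function.surjInv_eq hsurj (z g)⟩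
  rw [mem_levelCochains_iff, isLevelCochain_iff_of_isDiscrete hd]
  exact (IsLevelCochain.isConst hz).comp (Function.surjInv hsurj)

instance : (𝒰.levelComplexFunctor (k := k)).PreservesZeroMorphisms where
  map_zero _ _ := by
    ext n x : 3
    rfl

instance : (𝒰.levelComplexFunctor (k := k)).Additive where
  map_add := by
    intros
    ext n x : 3
    rfl

include hX in
theorem map_levelComplexFunctor_shortExact (hd : 𝒰.IsDiscrete X.X₂) :
    ShortExact (X.map (𝒰.levelComplexFunctor (k := k))) :=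
  HomologicalComplex.shortExact_of_degreewise_shortExact _ fun i => {
    exact := by
      rw [moduleCat_exact_iff_range_eq_ker]
      apply le_antisymm
      · rintro _ ⟨x, rfl⟩
        rw [LinearMap.mem_ker]
        have := congr($((X.map (𝒰.levelComplexFunctor (k := k))).zero).f i)
        exact congr($(this) x)
      · intro y hy
        rw [LinearMap.mem_ker] at hy
        obtain ⟨x, hx, hxy⟩ := 𝒰.exists_levelCochain_of_comp_eq_zero hX y.2 (fun g => by
          have := congr_arg Subtype.val hy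
          exact congr_fun this g)
        refine ⟨⟨x, hx⟩, Subtype.ext ?_⟩
        funext g
        exact hxy g
    mono_f := by
      rw [ModuleCat.mono_iff_injective]
      have hinj : Function.Injective X.f.hom := (Rep.mono_iff_injective X.f).1 hX.2
      intro x x' h
      apply Subtype.ext
      funext g
      apply hinj
      have := congr_arg Subtype.val h
      exact congr_fun this g
    epi_g := by
      rw [ModuleCat.epi_iff_surjective]
      intro z
      obtain ⟨y, hy, hyz⟩ := 𝒰.exists_levelCochain_lift hX hd z.2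
      refine ⟨⟨y, hy⟩, Subtype.ext ?_⟩
      funext g
      exact hyz g }


section les

variable (hd : 𝒰.IsDiscrete X.X₂)

/-- The functorial map on level cohomology induced by a morphism of representations. -/
noncomputable def levelCohomologyMap {M M' : Rep.{u} k G} (φ : M ⟶ M') (n : ℕ) :
    𝒰.levelCohomology M n ⟶ 𝒰.levelCohomology M' n :=
  HomologicalComplex.homologyMap ((𝒰.levelComplexFunctor (k := k)).map φ) n

/-- The connecting homomorphism `Hⁱ_𝒰(G, X₃) ⟶ Hʲ_𝒰(G, X₁)` of a short exact sequence of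
representations with discrete middle term. -/
noncomputable def δ (i j : ℕ) (hij : i + 1 = j) :
    𝒰.levelCohomology X.X₃ i ⟶ 𝒰.levelCohomology X.X₁ j :=
  (𝒰.map_levelComplexFunctor_shortExact hX hd).δ i j hij

/-- Exactness of `Hⁱ(X₃) ⟶ Hʲ(X₁) ⟶ Hʲ(X₂)`. -/
theorem exact₁ {i j : ℕ} (hij : i + 1 = j) :
    (ShortComplex.mk (𝒰.δ hX hd i j hij) (𝒰.levelCohomologyMap X.f j)
      ((𝒰.map_levelComplexFunctor_shortExact hX hd).δ_comp i j hij)).Exact :=
  (𝒰.map_levelComplexFunctor_shortExact hX hd).homology_exact₁ i j hij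

theorem map_f_comp_map_g (i : ℕ) :
    𝒰.levelCohomologyMap X.f i ≫ 𝒰.levelCohomologyMap X.g i = 0 :=
  ((X.map (𝒰.levelComplexFunctor (k := k))).map
    (HomologicalComplex.homologyFunctor (ModuleCat k) (ComplexShape.up ℕ) i)).zero

include hX hd in
/-- Exactness of `Hⁱ(X₁) ⟶ Hⁱ(X₂) ⟶ Hⁱ(X₃)`. -/
theorem exact₂ (i : ℕ) :
    (ShortComplex.mk (𝒰.levelCohomologyMap X.f i) (𝒰.levelCohomologyMap X.g i)
      (𝒰.map_f_comp_map_g i)).Exact :=
  (𝒰.map_levelComplexFunctor_shortExact hX hd).homology_exact₂ i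

/-- Exactness of `Hⁱ(X₂) ⟶ Hⁱ(X₃) ⟶ Hʲ(X₁)`. -/
theorem exact₃ {i j : ℕ} (hij : i + 1 = j) :
    (ShortComplex.mk (𝒰.levelCohomologyMap X.g i) (𝒰.δ hX hd i j hij)
      ((𝒰.map_levelComplexFunctor_shortExact hX hd).comp_δ i j hij)).Exact :=
  (𝒰.map_levelComplexFunctor_shortExact hX hd).homology_exact₃ i j hij

/-- Element form of `exact₁`. -/
theorem exists_of_map_f_eq_zero {i j : ℕ} (hij : i + 1 = j) (x : 𝒰.levelCohomology X.X₁ j)
    (hx : (𝒰.levelCohomologyMap X.f j).hom x = 0) :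
    ∃ z : 𝒰.levelCohomology X.X₃ i, (𝒰.δ hX hd i j hij).hom z = x :=
  (ShortComplex.moduleCat_exact_iff _).1 (𝒰.exact₁ hX hd hij) x hx

include hX hd in
/-- Element form of `exact₂`. -/
theorem exists_of_map_g_eq_zero (i : ℕ) (y : 𝒰.levelCohomology X.X₂ i)
    (hy : (𝒰.levelCohomologyMap X.g i).hom y = 0) :
    ∃ x : 𝒰.levelCohomology X.X₁ i, (𝒰.levelCohomologyMap X.f i).hom x = y :=
  (ShortComplex.moduleCat_exact_iff _).1 (𝒰.exact₂ hX hd i) y hy

/-- Element form of `exact₃`. -/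
theorem exists_of_δ_eq_zero {i j : ℕ} (hij : i + 1 = j) (z : 𝒰.levelCohomology X.X₃ i)
    (hz : (𝒰.δ hX hd i j hij).hom z = 0) :
    ∃ y : 𝒰.levelCohomology X.X₂ i, (𝒰.levelCohomologyMap X.g i).hom y = z :=
  (ShortComplex.moduleCat_exact_iff _).1 (𝒰.exact₃ hX hd hij) z hz

theorem δ_comp_map_f {i j : ℕ} (hij : i + 1 = j) :
    𝒰.δ hX hd i j hij ≫ 𝒰.levelCohomologyMap X.f j = 0 :=
  (𝒰.map_levelComplexFunctor_shortExact hX hd).δ_comp i j hij

theorem map_g_comp_δ {i j : ℕ} (hij : i + 1 = j) :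
    𝒰.levelCohomologyMap X.g i ≫ 𝒰.δ hX hd i j hij = 0 :=
  (𝒰.map_levelComplexFunctor_shortExact hX hd).comp_δ i j hij

end les

end LevelFamily

end Fermat.Agent.Lib.CFT.Profinite
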