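import Mathlib

/-!
# Level families and level-constant functions

A *level family* on a group `G` is a nonempty, downward directed family of finite-index
subgroups in which every member contains a normal member.  Typical example: the fixing
subgroups of finite subextensions in a Galois group.  A function of several group variables is
*level constant* if it is invariant under right multiplication of each argument by elements of
some level.
-/

set_option autoImplicit false

universe u

namespace Fermat.Agent.Lib.CFT.Profinite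

/-- A nonempty, downward directed family of finite-index subgroups of `G`, in which every member
contains a normal member. -/
structure LevelFamily (G : Type u) [Group G] where
  /-- the levels -/
  levels : Set (Subgroup G)
  nonempty : levels.Nonempty
  directed : ∀ U ∈ levels, ∀ V ∈ levels, ∃ W ∈ levels, W ≤ U ⊓ V
  finiteIndex : ∀ U ∈ levels, U.FiniteIndex
  normal_le : ∀ U ∈ levels, ∃ V ∈ levels, V ≤ U ∧ V.Normal

namespace LevelFamily

variable {G : Type u} [Group G] (𝒰 : LevelFamily G)

/-- There is a normal level. -/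
theorem exists_normal : ∃ V ∈ 𝒰.levels, V.Normal := by
  obtain ⟨U, hU⟩ := 𝒰.nonempty
  obtain ⟨V, hV, -, hn⟩ := 𝒰.normal_le U hU
  exact ⟨V, hV, hn⟩

/-- Two levels contain a common normal level. -/
theorem exists_normal_le_inf {U V : Subgroup G} (hU : U ∈ 𝒰.levels) (hV : V ∈ 𝒰.levels) :
    ∃ W ∈ 𝒰.levels, W ≤ U ∧ W ≤ V ∧ W.Normal := by
  obtain ⟨W, hW, hWle⟩ := 𝒰.directed U hU V hV
  obtain ⟨W', hW', hle, hn⟩ := 𝒰.normal_le W hW
  exact ⟨W', hW', hle.trans (hWle.trans inf_le_left), hle.trans (hWle.trans inf_le_right), hn⟩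

/-- Finitely many levels contain a common normal level. -/
theorem exists_normal_le_of_finite {ι : Type*} [Finite ι] (U : ι → Subgroup G)
    (hU : ∀ i, U i ∈ 𝒰.levels) : ∃ W ∈ 𝒰.levels, W.Normal ∧ ∀ i, W ≤ U i := by
  classical
  have := Fintype.ofFinite ι
  suffices h : ∀ s : Finset ι, ∃ W ∈ 𝒰.levels, W.Normal ∧ ∀ i ∈ s, W ≤ U i by
    obtain ⟨W, hW, hn, h⟩ := h Finset.univ
    exact ⟨W, hW, hn, fun i => h i (Finset.mem_univ i)⟩
  intro s
  induction s using Finset.induction_on with
  | empty =>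
    obtain ⟨V, hV, hn⟩ := 𝒰.exists_normal
    exact ⟨V, hV, hn, by simp⟩
  | insert i s _ ih =>
    obtain ⟨W, hW, -, hle⟩ := ih
    obtain ⟨W', hW', h1, h2, hn⟩ := 𝒰.exists_normal_le_inf hW (hU i)
    refine ⟨W', hW', hn, fun j hj => ?_⟩
    rcases Finset.mem_insert.mp hj with rfl | hj
    · exact h2
    · exact h1.trans (hle j hj)

/-! ### Level-constant functions -/

section IsConst

variable {X Y : Type*}

/-- `f` is invariant under right multiplication of every argument by elements of `U`. -/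
def IsConstOn (U : Subgroup G) {n : ℕ} (f : (Fin n → G) → X) : Prop :=
  ∀ g s : Fin n → G, (∀ i, s i ∈ U) → f (fun i => g i * s i) = f g

/-- `f` is level constant: invariant under right multiplication of every argument by elements
of some level. -/
def IsConst {n : ℕ} (f : (Fin n → G) → X) : Prop :=
  ∃ U ∈ 𝒰.levels, IsConstOn U f

/-- Low-degree variant for functions of one variable. -/
def IsConst₁ (f : G → X) : Prop :=
  ∃ U ∈ 𝒰.levels, ∀ g s : G, s ∈ U → f (g * s) = f g

/-- Low-degree variant for functions of two variables. -/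
def IsConst₂ (f : G × G → X) : Prop :=
  ∃ U ∈ 𝒰.levels, ∀ g g' s s' : G, s ∈ U → s' ∈ U → f (g * s, g' * s') = f (g, g')

/-- Low-degree variant for functions of three variables. -/
def IsConst₃ (f : G × G × G → X) : Prop :=
  ∃ U ∈ 𝒰.levels, ∀ g g' g'' s s' s'' : G, s ∈ U → s' ∈ U → s'' ∈ U →
    f (g * s, g' * s', g'' * s'') = f (g, g', g'')

variable {𝒰}

theorem IsConstOn.mono {U V : Subgroup G} (hVU : V ≤ U) {n : ℕ} {f : (Fin n → G) → X}
    (hf : IsConstOn U f) : IsConstOn V f :=
  fun g s hs => hf g s fun i => hVU (hs i)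

theorem IsConstOn.comp {U : Subgroup G} {n : ℕ} {f : (Fin n → G) → X} (hf : IsConstOn U f)
    (φ : X → Y) : IsConstOn U (φ ∘ f) :=
  fun g s hs => by simp only [Function.comp_apply, hf g s hs]

theorem isConstOn_const (U : Subgroup G) (n : ℕ) (x : X) :
    IsConstOn U (fun _ : Fin n → G => x) := fun _ _ _ => rfl

theorem IsConst.comp {n : ℕ} {f : (Fin n → G) → X} (hf : 𝒰.IsConst f) (φ : X → Y) :
    𝒰.IsConst (φ ∘ f) := by
  obtain ⟨U, hU, h⟩ := hf
  exact ⟨U, hU, h.comp φ⟩

variable (𝒰) in
theorem isConst_const (n : ℕ) (x : X) : 𝒰.IsConst (fun _ : Fin n → G => x) := by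
  obtain ⟨U, hU⟩ := 𝒰.nonempty
  exact ⟨U, hU, isConstOn_const U n x⟩

/-- Two level-constant functions are constant on a common normal level. -/
theorem IsConst.exists_common {n m : ℕ} {f : (Fin n → G) → X} {f' : (Fin m → G) → Y}
    (hf : 𝒰.IsConst f) (hf' : 𝒰.IsConst f') :
    ∃ W ∈ 𝒰.levels, W.Normal ∧ IsConstOn W f ∧ IsConstOn W f' := by
  obtain ⟨U, hU, h⟩ := hf
  obtain ⟨U', hU', h'⟩ := hf'
  obtain ⟨W, hW, h1, h2, hn⟩ := 𝒰.exists_normal_le_inf hU hU'
  exact ⟨W, hW, hn, h.mono h1, h'.mono h2⟩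

theorem IsConst.exists_normal {n : ℕ} {f : (Fin n → G) → X} (hf : 𝒰.IsConst f) :
    ∃ W ∈ 𝒰.levels, W.Normal ∧ IsConstOn W f := by
  obtain ⟨U, hU, h⟩ := hf
  obtain ⟨W, hW, h1, hn⟩ := 𝒰.normal_le U hU
  exact ⟨W, hW, hn, h.mono h1⟩

theorem IsConst.map₂ {Z : Type*} {n : ℕ} {f : (Fin n → G) → X} {f' : (Fin n → G) → Y}
    (hf : 𝒰.IsConst f) (hf' : 𝒰.IsConst f') (φ : X → Y → Z) :
    𝒰.IsConst (fun g => φ (f g) (f' g)) := by
  obtain ⟨W, hW, -, h, h'⟩ := hf.exists_common hf'
  exact ⟨W, hW, fun g s hs => by simp only [h g s hs, h' g s hs]⟩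

theorem IsConst.add [Add X] {n : ℕ} {f f' : (Fin n → G) → X} (hf : 𝒰.IsConst f)
    (hf' : 𝒰.IsConst f') : 𝒰.IsConst (f + f') :=
  hf.map₂ hf' (· + ·)

/-- A function constant on a finite-index subgroup has finite range. -/
theorem IsConstOn.finite_range {U : Subgroup G} [U.FiniteIndex] {n : ℕ} {f : (Fin n → G) → X}
    (hf : IsConstOn U f) : (Set.range f).Finite := by
  classical
  -- `f` factors through `(G ⧸ U)^n`
  let q : (Fin n → G) → (Fin n → G ⧸ U) := fun g i => (g i : G ⧸ U)
  have hfac : ∀ g g' : Fin n → G, q g = q g' → f g = f g' := by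
    intro g g' h
    have hs : ∀ i, (g i)⁻¹ * g' i ∈ U := fun i => by
      have := congr_fun h i
      exact QuotientGroup.eq.mp this
    have := hf g (fun i => (g i)⁻¹ * g' i) hs
    rw [← this]
    congr 1
    funext i
    simp
  have : Finite (G ⧸ U) := Subgroup.finite_quotient_of_finiteIndex
  let f' : (Fin n → G ⧸ U) → X := fun c => f (fun i => (c i).out)
  have hff' : ∀ g, f g = f' (q g) := by
    intro g
    apply hfac
    funext i
    simp [q]
  have : Set.range f ⊆ Set.range f' := by
    rintro _ ⟨g, rfl⟩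
    exact ⟨q g, (hff' g).symm⟩
  exact (Set.finite_range f').subset this

theorem IsConst.finite_range {n : ℕ} {f : (Fin n → G) → X} (hf : 𝒰.IsConst f) :
    (Set.range f).Finite := by
  obtain ⟨U, hU, h⟩ := hf
  have := 𝒰.finiteIndex U hU
  exact h.finite_range

end IsConst

/-! ### Precomposition with group homomorphisms -/

section precomp

variable {G' : Type u} [Group G'] {X : Type*}

/-- A homomorphism `f : G' → G` is compatible with level families `𝒰'` on `G'` and `𝒰` on `G` if
the preimage of every level of `𝒰` contains a level of `𝒰'`. -/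
def IsCompatible (𝒰' : LevelFamily G') (𝒰 : LevelFamily G) (f : G' →* G) : Prop :=
  ∀ U ∈ 𝒰.levels, ∃ U' ∈ 𝒰'.levels, U' ≤ U.comap f

theorem isCompatible_id : IsCompatible 𝒰 𝒰 (MonoidHom.id G) :=
  fun U hU => ⟨U, hU, le_rfl⟩

variable {𝒰} {𝒰' : LevelFamily G'} {f : G' →* G}

theorem IsConst.precomp (hf : IsCompatible 𝒰' 𝒰 f) {n : ℕ} {x : (Fin n → G) → X}
    (hx : 𝒰.IsConst x) : 𝒰'.IsConst (fun g : Fin n → G' => x (fun i => f (g i))) := by
  obtain ⟨U, hU, h⟩ := hx
  obtain ⟨U', hU', hle⟩ := hf U hU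
  refine ⟨U', hU', fun g s hs => ?_⟩
  have := h (fun i => f (g i)) (fun i => f (s i)) (fun i => hle (hs i))
  simpa only [map_mul] using this

end precomp

end LevelFamily

end Fermat.Agent.Lib.CFT.Profinite
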