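import Fermat.Agent.Lib.CFT.Profinite.LES
import Fermat.Agent.Lib.CFT.Profinite.LevelFinite

/-!
# Maps of level cohomology that are bijective at every finite level (P-CFT, Profinite/LimitMap)

Let `𝒰` be a level family on `G`, `M : Rep k G`, and for `i` in a finite type let
`f i : G' i →* G`, `M' i : Rep k (G' i)`, `φ i : res (f i) M ⟶ M' i`.  The groups `G' i` carry the
pulled-back families `LES.comap 𝒰 (f i)`.  For a normal level `U` of `𝒰` there is the finite-level
map

  `finMap (f i) (φ i) U n : Hⁿ(G ⧸ U, M^U) ⟶ Hⁿ(G' i ⧸ (f i)⁻¹ U, (M' i)^{(f i)⁻¹ U})`.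

If `x ↦ (i ↦ finMap … x)` is injective (resp. surjective, bijective) for every normal level `U`,
then so is `x ↦ (i ↦ LES.map (f i) (isCompatible_comap 𝒰 (f i)) (φ i) n x)` on level cohomology
(`limitMap_injective`, `limitMap_surjective`, `limitMap_bijective`).
-/

set_option autoImplicit false

universe u

open CategoryTheory groupCohomology

namespace Fermat.Agent.Lib.CFT.Profinite.LES

open LevelFamily ConcreteHomology

variable {k G G' : Type u} [CommRing k] [Group G] [Group G']

section FinMap

variable {M : Rep.{u} k G} {M' : Rep.{u} k G'} (f : G' →* G) (φ : Rep.res f M ⟶ M')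

/-- The map of finite levels `G' ⧸ f⁻¹ U → G ⧸ U` induced by `f : G' →* G`. -/
abbrev comapQuot (U : Subgroup G) [U.Normal] : G' ⧸ U.comap f →* G ⧸ U :=
  QuotientGroup.map (U.comap f) U f le_rfl

/-- The map `M^U → M'^{f⁻¹ U}` induced by `φ : res f M ⟶ M'`, as a morphism of representations
of `G' ⧸ f⁻¹ U`. -/
noncomputable def comapLevelRepHom (U : Subgroup G) [U.Normal] :
    Rep.res (comapQuot f U) (M.quotientToInvariants U) ⟶ M'.quotientToInvariants (U.comap f) :=
  Rep.ofHom ⟨LinearMap.codRestrict _ (φ.hom.toLinearMap ∘ₗ Submodule.subtype _) (fun x s => by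
      have h1 := Rep.hom_comm_apply φ s.1 x.1
      have h2 : M.ρ (f s.1) x.1 = x.1 := x.2 ⟨f s.1, s.2⟩
      exact h1.symm.trans (congrArg φ.hom h2)),
    fun q => by
      induction q using QuotientGroup.induction_on with
      | H g =>
        ext x
        exact Rep.hom_comm_apply φ g x.1⟩

@[simp]
theorem comapLevelRepHom_apply_coe (U : Subgroup G) [U.Normal] (x : M.quotientToInvariants U) :
    ((comapLevelRepHom f φ U).hom x).1 = φ.hom x.1 := rfl

/-- The finite-level cochain map induced by `(f, φ)`. -/
noncomputable def finCochainsMap (U : Subgroup G) [U.Normal] :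
    inhomogeneousCochains (M.quotientToInvariants U) ⟶
      inhomogeneousCochains (M'.quotientToInvariants (U.comap f)) :=
  cochainsMap (comapQuot f U) (comapLevelRepHom f φ U)

/-- The finite-level map `Hⁿ(G ⧸ U, M^U) ⟶ Hⁿ(G' ⧸ f⁻¹ U, M'^{f⁻¹ U})` induced by `(f, φ)`. -/
noncomputable def finMap (U : Subgroup G) [U.Normal] (n : ℕ) :
    groupCohomology (M.quotientToInvariants U) n ⟶
      groupCohomology (M'.quotientToInvariants (U.comap f)) n :=
  groupCohomology.map (comapQuot f U) (comapLevelRepHom f φ U) n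

theorem finMap_eq (U : Subgroup G) [U.Normal] (n : ℕ) :
    finMap f φ U n = HomologicalComplex.homologyMap (finCochainsMap f φ U) n := rfl

variable {𝒰 : LevelFamily G}

/-- Inflation to the level complex commutes with the maps induced by `(f, φ)`. -/
theorem levelInfl_comp_levelCochainsMap (U : Subgroup G) [U.Normal] (hU : U ∈ 𝒰.levels) :
    𝒰.levelInfl M U hU ≫ levelCochainsMap f (isCompatible_comap 𝒰 f) φ =
      finCochainsMap f φ U ≫ (comap 𝒰 f).levelInfl M' (U.comap f) (comap_mem_comap_levels f hU) := by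
  ext n c : 3
  rfl

/-- Inflation to level cohomology commutes with the maps induced by `(f, φ)`. -/
theorem inflH_comp_map (U : Subgroup G) [U.Normal] (hU : U ∈ 𝒰.levels) (n : ℕ) :
    𝒰.inflH M U hU n ≫ map f (isCompatible_comap 𝒰 f) φ n =
      finMap f φ U n ≫ (comap 𝒰 f).inflH M' (U.comap f) (comap_mem_comap_levels f hU) n := by
  have h1 := HomologicalComplex.homologyMap_comp (𝒰.levelInfl M U hU)
    (levelCochainsMap f (isCompatible_comap 𝒰 f) φ) n
  have h2 := HomologicalComplex.homologyMap_comp (finCochainsMap f φ U)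
    ((comap 𝒰 f).levelInfl M' (U.comap f) (comap_mem_comap_levels f hU)) n
  rw [levelInfl_comp_levelCochainsMap f φ U hU] at h1
  exact h1.symm.trans h2

theorem map_inflH_apply (U : Subgroup G) [U.Normal] (hU : U ∈ 𝒰.levels) (n : ℕ)
    (y : groupCohomology (M.quotientToInvariants U) n) :
    (map f (isCompatible_comap 𝒰 f) φ n).hom ((𝒰.inflH M U hU n).hom y) =
      ((comap 𝒰 f).inflH M' (U.comap f) (comap_mem_comap_levels f hU) n).hom
        ((finMap f φ U n).hom y) :=
  congr($(inflH_comp_map f φ U hU n) y)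

/-- The finite-level maps commute with inflation between finite levels. -/
theorem inflLevels_comp_finCochainsMap (U W : Subgroup G) [U.Normal] [W.Normal] (hWU : W ≤ U) :
    inflLevels M U W hWU ≫ finCochainsMap f φ W =
      finCochainsMap f φ U ≫
        inflLevels M' (U.comap f) (W.comap f) (Subgroup.comap_mono hWU) := by
  ext n c q
  show φ.hom (c (fun i => QuotientGroup.map W U (MonoidHom.id G) hWU
      (comapQuot f W (q i)))).1 =
    φ.hom (c (fun i => comapQuot f U (QuotientGroup.map (W.comap f) (U.comap f)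
      (MonoidHom.id G') (Subgroup.comap_mono hWU) (q i)))).1
  congr 3
  funext i
  induction q i using QuotientGroup.induction_on with
  | H g => rfl

theorem finMap_finInfl_apply (U W : Subgroup G) [U.Normal] [W.Normal] (hWU : W ≤ U) (n : ℕ)
    (y : groupCohomology (M.quotientToInvariants U) n) :
    (finMap f φ W n).hom ((HomologicalComplex.homologyMap (inflLevels M U W hWU) n).hom y) =
      (HomologicalComplex.homologyMap
        (inflLevels M' (U.comap f) (W.comap f) (Subgroup.comap_mono hWU)) n).hom
        ((finMap f φ U n).hom y) := by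
  have h1 := HomologicalComplex.homologyMap_comp (inflLevels M U W hWU) (finCochainsMap f φ W) n
  have h2 := HomologicalComplex.homologyMap_comp (finCochainsMap f φ U)
    (inflLevels M' (U.comap f) (W.comap f) (Subgroup.comap_mono hWU)) n
  rw [inflLevels_comp_finCochainsMap f φ U W hWU] at h1
  exact congr($(h1.symm.trans h2) y)

end FinMap

section Trans

variable (M : Rep.{u} k G)

/-- Transitivity of inflation between finite levels. -/
theorem inflLevels_trans (V W X : Subgroup G) [V.Normal] [W.Normal] [X.Normal] (hWV : W ≤ V)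
    (hXW : X ≤ W) :
    inflLevels M V W hWV ≫ inflLevels M W X hXW = inflLevels M V X (hXW.trans hWV) := by
  ext n c q
  show (c (fun i => QuotientGroup.map W V (MonoidHom.id G) hWV
      (QuotientGroup.map X W (MonoidHom.id G) hXW (q i)))).1 =
    (c (fun i => QuotientGroup.map X V (MonoidHom.id G) (hXW.trans hWV) (q i))).1
  congr 3
  funext i
  induction q i using QuotientGroup.induction_on with
  | H g => rfl

theorem finInfl_trans_apply (V W X : Subgroup G) [V.Normal] [W.Normal] [X.Normal] (hWV : W ≤ V)
    (hXW : X ≤ W) (n : ℕ) (y : groupCohomology (M.quotientToInvariants V) n) :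
    (HomologicalComplex.homologyMap (inflLevels M W X hXW) n).hom
        ((HomologicalComplex.homologyMap (inflLevels M V W hWV) n).hom y) =
      (HomologicalComplex.homologyMap (inflLevels M V X (hXW.trans hWV)) n).hom y := by
  have h := HomologicalComplex.homologyMap_comp (inflLevels M V W hWV) (inflLevels M W X hXW) n
  rw [inflLevels_trans] at h
  exact (congr($h y)).symm

end Trans

/-! ### The limit theorem -/

section Limit

variable {ι : Type*} [Finite ι] {H : ι → Type u} [∀ i, Group (H i)] (𝒰 : LevelFamily G)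
  (M : Rep.{u} k G) (M' : ∀ i, Rep.{u} k (H i)) (f : ∀ i, H i →* G)
  (φ : ∀ i, Rep.res (f i) M ⟶ M' i) (n : ℕ)

/-- The map on level cohomology induced by a finite family `(f i, φ i)`, the groups `H i` being
equipped with the pulled-back level families. -/
noncomputable def limitMap :
    𝒰.levelCohomology M n →ₗ[k] ∀ i, (comap 𝒰 (f i)).levelCohomology (M' i) n :=
  LinearMap.pi fun i => (map (f i) (isCompatible_comap 𝒰 (f i)) (φ i) n).hom

omit [Finite ι] in
@[simp]
theorem limitMap_apply (x : 𝒰.levelCohomology M n) (i : ι) :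
    limitMap 𝒰 M M' f φ n x i = (map (f i) (isCompatible_comap 𝒰 (f i)) (φ i) n).hom x := rfl

/-- The corresponding map at the finite level `U`. -/
noncomputable def finLimitMap (U : Subgroup G) [U.Normal] :
    groupCohomology (M.quotientToInvariants U) n →ₗ[k]
      ∀ i, groupCohomology ((M' i).quotientToInvariants (U.comap (f i))) n :=
  LinearMap.pi fun i => (finMap (f i) (φ i) U n).hom

omit [Finite ι] in
@[simp]
theorem finLimitMap_apply (U : Subgroup G) [U.Normal]
    (y : groupCohomology (M.quotientToInvariants U) n) (i : ι) :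
    finLimitMap M M' f φ n U y i = (finMap (f i) (φ i) U n).hom y := rfl

/-- If the finite-level maps are injective, so is the map on level cohomology. -/
theorem limitMap_injective
    (h : ∀ (U : Subgroup G) [U.Normal], U ∈ 𝒰.levels →
      Function.Injective (finLimitMap M M' f φ n U)) :
    Function.Injective (limitMap 𝒰 M M' f φ n) := by
  rw [injective_iff_map_eq_zero]
  intro x hx
  obtain ⟨U₀, hU₀⟩ := 𝒰.nonempty
  obtain ⟨U, hU, hn, -, y, rfl⟩ := exists_inflH_eq n x hU₀
  have := hn
  -- for every `i`, a level killing the image of `y`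
  have h1 : ∀ i, ∃ W ∈ 𝒰.levels, ∀ (X : Subgroup G) [X.Normal] (hXU : X ≤ U), X ≤ W →
      (HomologicalComplex.homologyMap (inflLevels (M' i) (U.comap (f i)) (X.comap (f i))
        (Subgroup.comap_mono hXU)) n).hom ((finMap (f i) (φ i) U n).hom y) = 0 := by
    intro i
    have hi : (map (f i) (isCompatible_comap 𝒰 (f i)) (φ i) n).hom
        ((𝒰.inflH M U hU n).hom y) = 0 := congr_fun hx i
    rw [map_inflH_apply] at hi
    obtain ⟨W', hW', hnW', hW'U, hz⟩ :=
      exists_inflLevels_eq_zero n (comap_mem_comap_levels (f i) hU) _ hi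
    obtain ⟨W, hW, rfl⟩ := mem_comap_levels.1 hW'
    refine ⟨W, hW, fun X _ hXU hXW => ?_⟩
    have := hnW'
    rw [← finInfl_trans_apply (M' i) (U.comap (f i)) (W.comap (f i)) (X.comap (f i)) hW'U
      (Subgroup.comap_mono hXW), hz, map_zero]
  choose W hW hWz using h1
  obtain ⟨X₁, hX₁, -, hX₁W⟩ := 𝒰.exists_normal_le_of_finite W hW
  obtain ⟨X, hX, hXX₁, hXU, hnX⟩ := 𝒰.exists_normal_le_inf hX₁ hU
  have := hnX
  have h2 : finLimitMap M M' f φ n X
      ((HomologicalComplex.homologyMap (inflLevels M U X hXU) n).hom y) = 0 := by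
    funext i
    show (finMap (f i) (φ i) X n).hom
      ((HomologicalComplex.homologyMap (inflLevels M U X hXU) n).hom y) = 0
    rw [finMap_finInfl_apply]
    exact hWz i X hXU (hXX₁.trans (hX₁W i))
  have h3 := (injective_iff_map_eq_zero _).1 (h X hX) _ h2
  have h4 := congr($(inflLevels_comp_inflH (𝒰 := 𝒰) (M := M) hU hX hXU n) y)
  rw [← h4]
  show (𝒰.inflH M X hX n).hom ((HomologicalComplex.homologyMap (inflLevels M U X hXU) n).hom y) = 0
  rw [h3, map_zero]

/-- If the finite-level maps are surjective, so is the map on level cohomology. -/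
theorem limitMap_surjective
    (h : ∀ (U : Subgroup G) [U.Normal], U ∈ 𝒰.levels →
      Function.Surjective (finLimitMap M M' f φ n U)) :
    Function.Surjective (limitMap 𝒰 M M' f φ n) := by
  intro z
  obtain ⟨U₀, hU₀⟩ := 𝒰.nonempty
  -- every component is inflated from a finite level
  have h1 : ∀ i, ∃ W ∈ 𝒰.levels, ∀ (X : Subgroup G) [X.Normal], X ≤ W →
      ∃ w : groupCohomology ((M' i).quotientToInvariants (X.comap (f i))) n,
        ∀ hX : X.comap (f i) ∈ (comap 𝒰 (f i)).levels,
          ((comap 𝒰 (f i)).inflH (M' i) (X.comap (f i)) hX n).hom w = z i := by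
    intro i
    obtain ⟨W', hW', hnW', -, w, hw⟩ :=
      exists_inflH_eq n (z i) (comap_mem_comap_levels (f i) hU₀)
    obtain ⟨W, hW, rfl⟩ := mem_comap_levels.1 hW'
    refine ⟨W, hW, fun X _ hXW => ?_⟩
    have := hnW'
    refine ⟨(HomologicalComplex.homologyMap (inflLevels (M' i) (W.comap (f i)) (X.comap (f i))
      (Subgroup.comap_mono hXW)) n).hom w, fun hX => ?_⟩
    rw [← hw]
    exact congr($(inflLevels_comp_inflH (𝒰 := comap 𝒰 (f i)) (M := M' i) hW' hX
      (Subgroup.comap_mono hXW) n) w)
  choose W hW hWz using h1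
  obtain ⟨X, hX, hnX, hXW⟩ := 𝒰.exists_normal_le_of_finite W hW
  have := hnX
  choose w hw using fun i => hWz i X (hXW i)
  obtain ⟨y, hy⟩ := h X hX w
  refine ⟨(𝒰.inflH M X hX n).hom y, ?_⟩
  funext i
  rw [limitMap_apply, map_inflH_apply]
  have hyi : (finMap (f i) (φ i) X n).hom y = w i := congr_fun hy i
  rw [hyi]
  exact hw i (comap_mem_comap_levels (f i) hX)

/-- If the finite-level maps are bijective, so is the map on level cohomology. -/
theorem limitMap_bijective
    (h : ∀ (U : Subgroup G) [U.Normal], U ∈ 𝒰.levels →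
      Function.Bijective (finLimitMap M M' f φ n U)) :
    Function.Bijective (limitMap 𝒰 M M' f φ n) :=
  ⟨limitMap_injective 𝒰 M M' f φ n (fun U _ hU => (h U hU).1),
    limitMap_surjective 𝒰 M M' f φ n (fun U _ hU => (h U hU).2)⟩

end Limit

/-! ### The case of a single map -/

section Single

variable (𝒰 : LevelFamily G) {M : Rep.{u} k G} {M' : Rep.{u} k G'} (f : G' →* G)
  (φ : Rep.res f M ⟶ M') (n : ℕ)

theorem map_injective_of_finMap
    (h : ∀ (U : Subgroup G) [U.Normal], U ∈ 𝒰.levels → Function.Injective (finMap f φ U n).hom) :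
    Function.Injective (map f (isCompatible_comap 𝒰 f) φ n).hom := by
  have h1 := limitMap_injective (ι := PUnit.{1}) 𝒰 M (fun _ => M') (fun _ => f) (fun _ => φ) n
    (fun U _ hU a b hab => h U hU (congr_fun hab PUnit.unit))
  intro a b hab
  exact h1 (funext fun _ => hab)

theorem map_surjective_of_finMap
    (h : ∀ (U : Subgroup G) [U.Normal], U ∈ 𝒰.levels → Function.Surjective (finMap f φ U n).hom) :
    Function.Surjective (map f (isCompatible_comap 𝒰 f) φ n).hom := by
  have h1 := limitMap_surjective (ι := PUnit.{1}) 𝒰 M (fun _ => M') (fun _ => f) (fun _ => φ) n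
    (fun U _ hU z => by
      obtain ⟨y, hy⟩ := h U hU (z PUnit.unit)
      exact ⟨y, funext fun _ => hy⟩)
  intro z
  obtain ⟨x, hx⟩ := h1 (fun _ => z)
  exact ⟨x, congr_fun hx PUnit.unit⟩

theorem map_bijective_of_finMap
    (h : ∀ (U : Subgroup G) [U.Normal], U ∈ 𝒰.levels → Function.Bijective (finMap f φ U n).hom) :
    Function.Bijective (map f (isCompatible_comap 𝒰 f) φ n).hom :=
  ⟨map_injective_of_finMap 𝒰 f φ n (fun U _ hU => (h U hU).1),
    map_surjective_of_finMap 𝒰 f φ n (fun U _ hU => (h U hU).2)⟩

end Single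

end Fermat.Agent.Lib.CFT.Profinite.LES
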