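import Fermat.Agent.Lib.CFT.Profinite.Cores

/-!
# Mackey decomposition for level cohomology (P-CFT, Profinite/Mackey)

* `bijective_of_projectors`: finite additivity of additive functors to modules, in projector form.
* For `φ : H →* G`, an open subgroup `V` of `G`, and a discrete `V`-module `A`: the restriction
  along `φ` of `Rep.coind V.subtype A` decomposes along the double cosets `V \ G / φ(H)`, and
  its level cohomology is the product of the level cohomologies of the stabilisers
  (`mackey_bijective`).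
-/

set_option autoImplicit false

universe u

open CategoryTheory groupCohomology

namespace Fermat.Agent.Lib.CFT.Profinite.LES

open LevelFamily Fermat.Agent.Lib.CFT.Coh.InfRes

variable {k : Type u} [CommRing k]

/-! ### Finite additivity in projector form -/

section Projectors

variable {C : Type*} [Category C] [Preadditive C] (T : C ⥤ ModuleCat.{u} k) [T.Additive]
  {ι : Type*} [Fintype ι] {M : C} {N : ι → C} (π : ∀ i, M ⟶ N i) (σ : ∀ i, N i ⟶ M)

/-- If `M` is the biproduct of the `N i` (in projector form), an additive functor `T` to modules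
identifies `T M` with the product of the `T (N i)`. -/
theorem bijective_of_projectors (h1 : ∀ i, σ i ≫ π i = 𝟙 _) (h0 : ∀ i j, i ≠ j → σ i ≫ π j = 0)
    (hs : ∑ i, π i ≫ σ i = 𝟙 M) :
    Function.Bijective (fun (x : T.obj M) (i : ι) => (T.map (π i)).hom x) := by
  classical
  have hs' : ∀ x : T.obj M, ∑ i, (T.map (σ i)).hom ((T.map (π i)).hom x) = x := by
    intro x
    have h := congrArg (fun f => (T.map f).hom x) hs
    simp only [Functor.map_sum, Functor.map_comp, Functor.map_id] at h
    rw [ModuleCat.hom_sum] at h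
    simpa using h
  have h1' : ∀ i (y : T.obj (N i)), (T.map (π i)).hom ((T.map (σ i)).hom y) = y := by
    intro i y
    have h := congrArg (fun f => (T.map f).hom y) (h1 i)
    simpa using h
  have h0' : ∀ i j, i ≠ j → ∀ y : T.obj (N i), (T.map (π j)).hom ((T.map (σ i)).hom y) = 0 := by
    intro i j hij y
    have h := congrArg (fun f => (T.map f).hom y) (h0 i j hij)
    simpa using h
  constructor
  · intro x x' hxx'
    rw [← hs' x, ← hs' x']
    refine Finset.sum_congr rfl (fun i _ => ?_)
    exact congrArg _ (congr_fun hxx' i)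
  · intro y
    refine ⟨∑ j, (T.map (σ j)).hom (y j), ?_⟩
    funext i
    simp only [map_sum]
    rw [Finset.sum_eq_single i]
    · exact h1' i (y i)
    · intro j _ hji
      exact h0' j i hji (y j)
    · intro hi
      exact absurd (Finset.mem_univ i) hi

end Projectors

/-! ### The Mackey decomposition of a coinduced module -/

section MackeyDefs

variable {G H : Type u} [Group G] [Group H] (φ : H →* G) (V : Subgroup G)

/-- `h ↦ g * φ h * g⁻¹`. -/
def conjHom (g : G) : H →* G := (MulAut.conj g).toMonoidHom.comp φ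

@[simp]
theorem conjHom_apply (g : G) (h : H) : conjHom φ g h = g * φ h * g⁻¹ := rfl

/-- The stabiliser `{h | g * φ h * g⁻¹ ∈ V}` of the coset `V g` under right translation
through `φ`. -/
def mackeyStab (g : G) : Subgroup H := V.comap (conjHom φ g)

theorem mem_mackeyStab {g : G} {h : H} : h ∈ mackeyStab φ V g ↔ g * φ h * g⁻¹ ∈ V := Iff.rfl

/-- The homomorphism `mackeyStab φ V g →* V`, `h ↦ g * φ h * g⁻¹`. -/
def mackeyHom (g : G) : mackeyStab φ V g →* V := (conjHom φ g).subgroupComap V

@[simp]
theorem mackeyHom_coe (g : G) (h : mackeyStab φ V g) :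
    ((mackeyHom φ V g h : V) : G) = g * φ h * g⁻¹ := rfl

variable (A : Rep.{u} k V)

/-- The module `A` with `mackeyStab φ V g` acting through `mackeyHom`. -/
noncomputable abbrev mackeyTwist (g : G) : Rep.{u} k (mackeyStab φ V g) :=
  Rep.res (mackeyHom φ V g) A

/-- The projection of `res φ (coind A)` onto the factor of the double coset of `g`:
`F ↦ (h ↦ F (g * φ h))`. -/
noncomputable def mackeyProj (g : G) :
    Rep.res φ (Rep.coind V.subtype A) ⟶
      Rep.coind (mackeyStab φ V g).subtype (mackeyTwist φ V A g) :=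
  Rep.ofHom ⟨
    { toFun := fun F => ⟨fun h => F.1 (g * φ h), fun s h => by
        have h1 : g * φ ((mackeyStab φ V g).subtype s * h) =
            ((mackeyHom φ V g s : V) : G) * (g * φ h) := by
          rw [mackeyHom_coe, map_mul, Subgroup.subtype_apply]
          group
        show F.1 (g * φ ((mackeyStab φ V g).subtype s * h)) =
          A.ρ (mackeyHom φ V g s) (F.1 (g * φ h))
        rw [h1]
        exact F.2 (mackeyHom φ V g s) (g * φ h)⟩
      map_add' := fun _ _ => rfl
      map_smul' := fun _ _ => rfl },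
    fun h₀ => by
      ext F h
      show F.1 (g * φ h * φ h₀) = F.1 (g * φ (h * h₀))
      rw [map_mul, mul_assoc]⟩

@[simp]
theorem mackeyProj_apply_coe (g : G) (F : Rep.coind V.subtype A) (h : H) :
    ((mackeyProj φ V A g).hom F).1 h = F.1 (g * φ h) := rfl

/-- Evaluation at `g`, equivariant for `mackeyStab φ V g`. -/
noncomputable def mackeyEval (g : G) :
    Rep.res (mackeyStab φ V g).subtype (Rep.res φ (Rep.coind V.subtype A)) ⟶
      mackeyTwist φ V A g :=
  Rep.ofHom ⟨LinearMap.proj g ∘ₗ (A.ρ.coindV V.subtype).subtype, fun s => by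
    ext F
    show F.1 (g * φ s) = A.ρ (mackeyHom φ V g s) (F.1 g)
    have h1 : g * φ s = ((mackeyHom φ V g s : V) : G) * g := by
      rw [mackeyHom_coe]
      group
    rw [h1]
    exact F.2 (mackeyHom φ V g s) g⟩

@[simp]
theorem mackeyEval_apply (g : G) (F : Rep.coind V.subtype A) :
    (mackeyEval φ V A g).hom F = F.1 g := rfl

theorem mackeyProj_comp_coindEval (g : G) :
    (Rep.resFunctor (mackeyStab φ V g).subtype).map (mackeyProj φ V A g) ≫
      coindEval (mackeyStab φ V g) (mackeyTwist φ V A g) = mackeyEval φ V A g := by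
  ext F
  show F.1 (g * φ 1) = F.1 g
  rw [map_one, mul_one]

end MackeyDefs

/-! ### Extension by zero from a double coset -/

section MackeyExt

variable {G H : Type u} [Group G] [Group H] (φ : H →* G) (V : Subgroup G) (A : Rep.{u} k V)

/-- `x` lies in the double coset `V g φ(H)`. -/
def InDoset (g x : G) : Prop := ∃ (v : V) (h : H), x = v * g * φ h

variable {φ V}

theorem inDoset_mul_left {g x : G} (v' : V) : InDoset φ V g (v' * x) ↔ InDoset φ V g x := by
  constructor
  · rintro ⟨v, h, e⟩
    refine ⟨v'⁻¹ * v, h, ?_⟩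
    rw [Subgroup.coe_mul, Subgroup.coe_inv, mul_assoc, mul_assoc, ← mul_assoc (v : G), ← e]
    group
  · rintro ⟨v, h, e⟩
    refine ⟨v' * v, h, ?_⟩
    rw [e, Subgroup.coe_mul]
    group

theorem inDoset_mul_right {g x : G} (h₀ : H) : InDoset φ V g (x * φ h₀) ↔ InDoset φ V g x := by
  constructor
  · rintro ⟨v, h, e⟩
    refine ⟨v, h * h₀⁻¹, ?_⟩
    rw [map_mul, map_inv, ← mul_assoc, ← e]
    group
  · rintro ⟨v, h, e⟩
    refine ⟨v, h * h₀, ?_⟩
    rw [e, map_mul]
    group

variable (φ V)

open Classical in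
/-- Extension by zero of an element of `coind (mackeyTwist g A)` to a function on `G` supported
on the double coset `V g φ(H)`. -/
noncomputable def mackeyExtFun (g : G)
    (f : Rep.coind (mackeyStab φ V g).subtype (mackeyTwist φ V A g)) (x : G) : A :=
  if hx : InDoset φ V g x then A.ρ hx.choose (f.1 hx.choose_spec.choose) else 0

theorem mackeyExtFun_of_not (g : G)
    (f : Rep.coind (mackeyStab φ V g).subtype (mackeyTwist φ V A g)) {x : G}
    (hx : ¬ InDoset φ V g x) : mackeyExtFun φ V A g f x = 0 := by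
  unfold mackeyExtFun
  rw [dif_neg hx]

theorem mackeyExtFun_apply (g : G)
    (f : Rep.coind (mackeyStab φ V g).subtype (mackeyTwist φ V A g)) (v : V) (h : H) :
    mackeyExtFun φ V A g f (v * g * φ h) = A.ρ v (f.1 h) := by
  have key : ∀ (v' : V) (h' : H), (v : G) * g * φ h = v' * g * φ h' →
      A.ρ v' (f.1 h') = A.ρ v (f.1 h) := by
    intro v' h' e
    have hs : g * φ (h' * h⁻¹) * g⁻¹ = ((v'⁻¹ * v : V) : G) := by
      have e' : g * φ h' = (v' : G)⁻¹ * (v * g * φ h) := by
        rw [e]
        group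
      rw [map_mul, map_inv, ← mul_assoc, e', Subgroup.coe_mul, Subgroup.coe_inv]
      group
    have hmem : h' * h⁻¹ ∈ mackeyStab φ V g := by
      rw [mem_mackeyStab, hs]
      exact (v'⁻¹ * v).2
    have hhom : mackeyHom φ V g ⟨h' * h⁻¹, hmem⟩ = v'⁻¹ * v := Subtype.ext hs
    have h1 : f.1 h' = A.ρ (v'⁻¹ * v) (f.1 h) := by
      have := f.2 ⟨h' * h⁻¹, hmem⟩ h
      rw [Subgroup.subtype_apply] at this
      have e2 : h' * h⁻¹ * h = h' := by group
      rw [e2] at this
      rw [this, ← hhom]
      rfl
    rw [h1, ← Module.End.mul_apply, ← map_mul]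
    congr 2
    group
  have hx : InDoset φ V g (v * g * φ h) := ⟨v, h, rfl⟩
  unfold mackeyExtFun
  rw [dif_pos hx]
  exact key _ _ hx.choose_spec.choose_spec

theorem mackeyExtFun_coind (g : G)
    (f : Rep.coind (mackeyStab φ V g).subtype (mackeyTwist φ V A g)) (v' : V) (x : G) :
    mackeyExtFun φ V A g f (v' * x) = A.ρ v' (mackeyExtFun φ V A g f x) := by
  by_cases hx : InDoset φ V g x
  · obtain ⟨v, h, rfl⟩ := hx
    have e : (v' : G) * (v * g * φ h) = ((v' * v : V) : G) * g * φ h := by
      rw [Subgroup.coe_mul]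
      group
    rw [e, mackeyExtFun_apply, mackeyExtFun_apply, map_mul, Module.End.mul_apply]
  · rw [mackeyExtFun_of_not φ V A g f hx,
      mackeyExtFun_of_not φ V A g f (fun h => hx ((inDoset_mul_left v').1 h)), map_zero]

/-- Extension by zero from the double coset of `g`, as a morphism of representations of `H`. -/
noncomputable def mackeyExt (g : G) :
    Rep.coind (mackeyStab φ V g).subtype (mackeyTwist φ V A g) ⟶
      Rep.res φ (Rep.coind V.subtype A) :=
  Rep.ofHom ⟨
    { toFun := fun f => ⟨mackeyExtFun φ V A g f, fun v' x => mackeyExtFun_coind φ V A g f v' x⟩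
      map_add' := fun f f' => by
        apply Subtype.ext
        funext x
        by_cases hx : InDoset φ V g x
        · obtain ⟨v, h, rfl⟩ := hx
          show mackeyExtFun φ V A g (f + f') _ =
            mackeyExtFun φ V A g f _ + mackeyExtFun φ V A g f' _
          rw [mackeyExtFun_apply, mackeyExtFun_apply, mackeyExtFun_apply]
          exact map_add _ _ _
        · show mackeyExtFun φ V A g (f + f') _ =
            mackeyExtFun φ V A g f _ + mackeyExtFun φ V A g f' _
          rw [mackeyExtFun_of_not φ V A g _ hx, mackeyExtFun_of_not φ V A g _ hx,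
            mackeyExtFun_of_not φ V A g _ hx, add_zero]
      map_smul' := fun c f => by
        apply Subtype.ext
        funext x
        by_cases hx : InDoset φ V g x
        · obtain ⟨v, h, rfl⟩ := hx
          show mackeyExtFun φ V A g (c • f) _ = c • mackeyExtFun φ V A g f _
          rw [mackeyExtFun_apply, mackeyExtFun_apply]
          exact map_smul _ _ _
        · show mackeyExtFun φ V A g (c • f) _ = c • mackeyExtFun φ V A g f _
          rw [mackeyExtFun_of_not φ V A g _ hx, mackeyExtFun_of_not φ V A g _ hx, smul_zero] },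
    fun h₀ => by
      ext f x
      show mackeyExtFun φ V A g
          ((Rep.coind (mackeyStab φ V g).subtype (mackeyTwist φ V A g)).ρ h₀ f) x =
        mackeyExtFun φ V A g f (x * φ h₀)
      by_cases hx : InDoset φ V g x
      · obtain ⟨v, h, rfl⟩ := hx
        have e : (v : G) * g * φ h * φ h₀ = v * g * φ (h * h₀) := by
          rw [map_mul]
          group
        rw [e, mackeyExtFun_apply, mackeyExtFun_apply]
        rfl
      · rw [mackeyExtFun_of_not φ V A g _ hx,
          mackeyExtFun_of_not φ V A g _ (fun h => hx ((inDoset_mul_right h₀).1 h))]⟩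

@[simp]
theorem mackeyExt_apply_coe (g : G)
    (f : Rep.coind (mackeyStab φ V g).subtype (mackeyTwist φ V A g)) :
    ((mackeyExt φ V A g).hom f).1 = mackeyExtFun φ V A g f := rfl

theorem mackeyExt_comp_mackeyProj (g : G) :
    mackeyExt φ V A g ≫ mackeyProj φ V A g = 𝟙 _ := by
  ext f h
  show mackeyExtFun φ V A g f (g * φ h) = f.1 h
  have e : g * φ h = ((1 : V) : G) * g * φ h := by simp
  rw [e, mackeyExtFun_apply, map_one]
  rfl

theorem mackeyExt_comp_mackeyProj_of_not {g g' : G} (hgg' : ¬ InDoset φ V g g') :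
    mackeyExt φ V A g ≫ mackeyProj φ V A g' = 0 := by
  ext f h
  show mackeyExtFun φ V A g f (g' * φ h) = 0
  exact mackeyExtFun_of_not φ V A g f (fun hh => hgg' ((inDoset_mul_right h).1 hh))

/-- The projections and extensions attached to a system of representatives of the double cosets
sum up to the identity. -/
theorem sum_mackeyProj_comp_mackeyExt {ι : Type*} [Fintype ι] (r : ι → G)
    (hcover : ∀ x : G, ∃ i, InDoset φ V (r i) x)
    (hdisj : ∀ i j, InDoset φ V (r i) (r j) → i = j) :
    ∑ i, mackeyProj φ V A (r i) ≫ mackeyExt φ V A (r i) = 𝟙 (Rep.res φ (Rep.coind V.subtype A)) := by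
  classical
  ext F x
  rw [Rep.sum_hom]
  show ((∑ i, (mackeyProj φ V A (r i) ≫ mackeyExt φ V A (r i)).hom) F).1 x = F.1 x
  rw [Representation.IntertwiningMap.sum_apply]
  have hcoe : ∀ (t : Finset ι) (Φ : ι → Rep.coind V.subtype A),
      (∑ i ∈ t, Φ i).1 x = ∑ i ∈ t, (Φ i).1 x := by
    intro t Φ
    induction t using Finset.induction_on with
    | empty => rfl
    | insert a t ha ih =>
      rw [Finset.sum_insert ha, Finset.sum_insert ha, ← ih]
      rfl
  refine (hcoe Finset.univ _).trans ?_
  obtain ⟨i₀, v, h, rfl⟩ := hcover x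
  rw [Finset.sum_eq_single i₀]
  · show mackeyExtFun φ V A (r i₀) ((mackeyProj φ V A (r i₀)).hom F) (v * r i₀ * φ h) = _
    rw [mackeyExtFun_apply, mackeyProj_apply_coe]
    have := F.2 v (r i₀ * φ h)
    rw [Subgroup.subtype_apply, ← mul_assoc] at this
    exact this.symm
  · intro i _ hi
    show mackeyExtFun φ V A (r i) ((mackeyProj φ V A (r i)).hom F) (v * r i₀ * φ h) = 0
    apply mackeyExtFun_of_not
    intro hin
    apply hi
    have h1 : InDoset φ V (r i) (r i₀) := by
      have h2 := (inDoset_mul_right (g := r i) (x := v * r i₀) h).1 hin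
      exact (inDoset_mul_left (g := r i) (x := r i₀) v).1 h2
    exact hdisj i i₀ h1
  · intro hi
    exact absurd (Finset.mem_univ i₀) hi

end MackeyExt

/-! ### The Mackey decomposition on level cohomology -/

section MackeyMain

variable {G H : Type u} [Group G] [Group H] {𝒰 : LevelFamily G} {𝒱 : LevelFamily H}
  (φ : H →* G) (V : Subgroup G) (A : Rep.{u} k V)

variable {φ V} in
theorem isOpenSubgroup_mackeyStab (hφ : IsCompatible 𝒱 𝒰 φ) (hV : IsOpenSubgroup 𝒰 V) (g : G) :
    IsOpenSubgroup 𝒱 (mackeyStab φ V g) := by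
  obtain ⟨U, hU, hUV⟩ := hV
  obtain ⟨W, hW, hWU, hn⟩ := 𝒰.normal_le U hU
  obtain ⟨W', hW', hle⟩ := hφ W hW
  refine ⟨W', hW', fun h hh => ?_⟩
  rw [mem_mackeyStab]
  exact hUV (hWU (hn.conj_mem _ (hle hh) g))

variable {φ V A} in
theorem isDiscrete_mackeyTwist (hφ : IsCompatible 𝒱 𝒰 φ)
    (hA : (restrict 𝒰 V).IsDiscrete A) (g : G) :
    (restrict 𝒱 (mackeyStab φ V g)).IsDiscrete (mackeyTwist φ V A g) := by
  intro a
  obtain ⟨U', ⟨U, hU, rfl⟩, hfix⟩ := hA a
  obtain ⟨W, hW, hWU, hn⟩ := 𝒰.normal_le U hU
  obtain ⟨W', hW', hle⟩ := hφ W hW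
  refine ⟨W'.comap (mackeyStab φ V g).subtype, comap_mem_comap_levels _ hW', fun s hs => ?_⟩
  have hs' : (s : H) ∈ W' := hs
  apply hfix
  show ((mackeyHom φ V g s : V) : G) ∈ U
  rw [mackeyHom_coe]
  exact hWU (hn.conj_mem _ (hle hs') g)

/-- The Mackey map: restriction to the stabiliser of the coset `V g`, followed by evaluation
at `g`. -/
noncomputable def mackeyMap (𝒱 : LevelFamily H) (g : G) (n : ℕ) :
    𝒱.levelCohomology (Rep.res φ (Rep.coind V.subtype A)) n ⟶
      (restrict 𝒱 (mackeyStab φ V g)).levelCohomology (mackeyTwist φ V A g) n :=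
  map (mackeyStab φ V g).subtype (isCompatible_comap 𝒱 (mackeyStab φ V g).subtype)
    (mackeyEval φ V A g) n

theorem mackeyMap_eq (g : G) (n : ℕ) :
    mackeyMap φ V A 𝒱 g n =
      𝒱.levelCohomologyMap (mackeyProj φ V A g) n ≫
        shapiro 𝒱 (mackeyStab φ V g) (mackeyTwist φ V A g) n := by
  have h1 := map_comp (𝒰 := 𝒱) (𝒰' := 𝒱) (𝒰'' := restrict 𝒱 (mackeyStab φ V g))
    (M := Rep.res φ (Rep.coind V.subtype A))
    (M' := Rep.coind (mackeyStab φ V g).subtype (mackeyTwist φ V A g))
    (M'' := mackeyTwist φ V A g)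
    (MonoidHom.id H) 𝒱.isCompatible_id (mackeyProj φ V A g) (mackeyStab φ V g).subtype
    (isCompatible_comap 𝒱 (mackeyStab φ V g).subtype)
    (coindEval (mackeyStab φ V g) (mackeyTwist φ V A g)) n
  rw [levelCohomologyMap_eq_map, shapiro, ← h1, mackeyMap]
  exact map_congr rfl _ (by
    have := mackeyProj_comp_coindEval φ V A g
    exact congrArg (fun f => f.hom.toLinearMap) this.symm) n

/-- **Mackey decomposition** for level cohomology: for a finite system of representatives `r` of
the double cosets `V \ G / φ(H)`, the Mackey maps identify `Hⁿ(H, res φ (coind A))` with the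
product of the `Hⁿ(mackeyStab (r i), A)`. -/
theorem mackey_bijective (hφ : IsCompatible 𝒱 𝒰 φ) (hV : IsOpenSubgroup 𝒰 V)
    (hA : (restrict 𝒰 V).IsDiscrete A) {ι : Type*} [Finite ι] (r : ι → G)
    (hcover : ∀ x : G, ∃ i, InDoset φ V (r i) x)
    (hdisj : ∀ i j, InDoset φ V (r i) (r j) → i = j) (n : ℕ) :
    Function.Bijective (fun (x : 𝒱.levelCohomology (Rep.res φ (Rep.coind V.subtype A)) n)
      (i : ι) => (mackeyMap φ V A 𝒱 (r i) n).hom x) := by
  classical
  have := Fintype.ofFinite ι
  have hb1 := bijective_of_projectors (levelCohomologyFunctor (k := k) 𝒱 n)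
    (fun i => mackeyProj φ V A (r i)) (fun i => mackeyExt φ V A (r i))
    (fun i => mackeyExt_comp_mackeyProj φ V A (r i))
    (fun i j hij => mackeyExt_comp_mackeyProj_of_not φ V A (fun h => hij (hdisj i j h)))
    (sum_mackeyProj_comp_mackeyExt φ V A r hcover hdisj)
  have hb2 : Function.Bijective (Pi.map (fun i =>
      (shapiro 𝒱 (mackeyStab φ V (r i)) (mackeyTwist φ V A (r i)) n).hom)) :=
    Function.Bijective.piMap (fun i => shapiro_bijective (isOpenSubgroup_mackeyStab hφ hV (r i)) n _
      (isDiscrete_mackeyTwist hφ hA (r i)))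
  have hfun : (fun (x : 𝒱.levelCohomology (Rep.res φ (Rep.coind V.subtype A)) n)
      (i : ι) => (mackeyMap φ V A 𝒱 (r i) n).hom x) =
      (Pi.map (fun i => (shapiro 𝒱 (mackeyStab φ V (r i)) (mackeyTwist φ V A (r i)) n).hom)) ∘
        (fun (x : 𝒱.levelCohomology (Rep.res φ (Rep.coind V.subtype A)) n) (i : ι) =>
          ((levelCohomologyFunctor (k := k) 𝒱 n).map (mackeyProj φ V A (r i))).hom x) := by
    funext x i
    rw [mackeyMap_eq]
    rfl
  rw [hfun]
  exact hb2.comp hb1

end MackeyMain

end Fermat.Agent.Lib.CFT.Profinite.LES
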