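import Fermat.Agent.Lib.CFT.Profinite.Mackey

/-!
# Conjugation invariance and compatibility of the Mackey maps (P-CFT, Profinite/MackeyCompat)

* `conj_map_eq_id`: inner automorphisms act trivially on the level cohomology of a discrete module;
* `mackeyMap_comp`: the Mackey map at `g` of the restriction along `φ` of a class of
  `Hⁿ(G, coind A)` is the restriction along `mackeyHom φ V g` of its image under the Shapiro map.
-/

set_option autoImplicit false

universe u

open CategoryTheory groupCohomology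

namespace Fermat.Agent.Lib.CFT.Profinite.LES

open LevelFamily Fermat.Agent.Lib.CFT.Coh.InfRes

variable {k : Type u} [CommRing k]

/-! ### Conjugation invariance -/

section Conj

variable {G : Type u} [Group G] (𝒰 : LevelFamily G) (M : Rep.{u} k G) (g : G)

theorem isCompatible_conj : IsCompatible 𝒰 𝒰 (MulAut.conj g).toMonoidHom := by
  intro U hU
  obtain ⟨W, hW, hle, hn⟩ := 𝒰.normal_le U hU
  refine ⟨W, hW, fun x hx => ?_⟩
  show (MulAut.conj g) x ∈ U
  rw [MulAut.conj_apply]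
  exact hle (hn.conj_mem x hx g)

/-- The action of `g⁻¹` as a morphism `res (conj g) M ⟶ M`. -/
noncomputable def conjMor : Rep.res (MulAut.conj g).toMonoidHom M ⟶ M :=
  Rep.ofHom ⟨M.ρ g⁻¹, fun x => by
    ext m
    show M.ρ g⁻¹ (M.ρ ((MulAut.conj g) x) m) = M.ρ x (M.ρ g⁻¹ m)
    rw [MulAut.conj_apply, ← Module.End.mul_apply, ← Module.End.mul_apply, ← map_mul, ← map_mul]
    congr 2
    group⟩

@[simp]
theorem conjMor_apply (m : M) : (conjMor M g).hom m = M.ρ g⁻¹ m := rfl

variable {M} in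
theorem conjMor_naturality {M' : Rep.{u} k G} (φ : M ⟶ M') :
    (Rep.resFunctor (MulAut.conj g).toMonoidHom).map φ ≫ conjMor M' g = conjMor M g ≫ φ := by
  ext m
  show M'.ρ g⁻¹ (φ.hom m) = φ.hom (M.ρ g⁻¹ m)
  rw [Rep.hom_comm_apply]

/-- The endomorphism of level cohomology induced by conjugation by `g`. -/
noncomputable def conjMap (n : ℕ) : 𝒰.levelCohomology M n ⟶ 𝒰.levelCohomology M n :=
  map (MulAut.conj g).toMonoidHom (isCompatible_conj 𝒰 g) (conjMor M g) n

theorem conjMap_zero : conjMap 𝒰 M g 0 = 𝟙 _ := by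
  ext x
  obtain ⟨z, rfl⟩ := 𝒰.classMk_surjective M 0 x
  show (levelCohomologyMapOfHom _ _ _ 0).hom (𝒰.classMk M 0 z) = 𝒰.classMk M 0 z
  rw [levelCohomologyMapOfHom_classMk]
  congr 1
  apply Subtype.ext
  rw [levelCocyclesMap_coe]
  have hz : (inhomogeneousCochains.d M 0).hom z.1 = 0 := (Submodule.mem_inf.mp z.2).2
  rw [d_zero_eq_zero_iff] at hz
  funext a
  simp only [cochainsMap_f_hom, LinearMap.coe_comp, Function.comp_apply,
    LinearMap.funLeft_apply, LinearMap.compLeft_apply]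
  have h1 : ∀ b : Fin 0 → G, z.1 b = z.1 default := fun b => congrArg z.1 (Subsingleton.elim _ _)
  rw [h1, h1 a]
  exact hz g⁻¹

/-- Inner automorphisms act trivially on the level cohomology of a discrete module. -/
theorem conjMap_eq_id (n : ℕ) : ∀ (M : Rep.{u} k G) (_ : 𝒰.IsDiscrete M),
    conjMap 𝒰 M g n = 𝟙 _ := by
  induction n with
  | zero => exact fun M _ => conjMap_zero 𝒰 M g
  | succ n ih =>
    intro M hM
    have hS := levelShiftSES_shortExact hM
    have hdS := isDiscrete_levelShiftSES_X₂ hM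
    have hnat := δ_naturality (MulAut.conj g).toMonoidHom (isCompatible_conj 𝒰 g) hS hdS hS hdS
      (conjMor _ g) (conjMor _ g) (conjMor _ g) (conjMor_naturality g _) (conjMor_naturality g _)
      n (n + 1) rfl
    have h3 : conjMap 𝒰 (levelShiftSES hM).X₃ g n = 𝟙 _ := ih _ (isDiscrete_levelShiftSES_X₃ hM)
    have hepi : Epi (𝒰.δ hS hdS n (n + 1) rfl) :=
      (ModuleCat.epi_iff_surjective _).2 (δ_levelShiftSES_surjective hM n)
    have h4 : 𝒰.δ hS hdS n (n + 1) rfl ≫ conjMap 𝒰 (levelShiftSES hM).X₁ g (n + 1) =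
        𝒰.δ hS hdS n (n + 1) rfl ≫ 𝟙 _ := by
      rw [Category.comp_id]
      refine hnat.trans ?_
      show conjMap 𝒰 (levelShiftSES hM).X₃ g n ≫ _ = _
      rw [h3, Category.id_comp]
    exact (cancel_epi (𝒰.δ hS hdS n (n + 1) rfl)).1 h4

end Conj

/-! ### Compatibility of the Mackey maps with the Shapiro map -/

section Compat

variable {G H : Type u} [Group G] [Group H] {𝒰 : LevelFamily G} {𝒱 : LevelFamily H}
  (φ : H →* G) (V : Subgroup G) (A : Rep.{u} k V)

variable {φ} in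
theorem isCompatible_mackeyHom (hφ : IsCompatible 𝒱 𝒰 φ) (g : G) :
    IsCompatible (restrict 𝒱 (mackeyStab φ V g)) (restrict 𝒰 V) (mackeyHom φ V g) := by
  rintro _ ⟨U, hU, rfl⟩
  obtain ⟨W, hW, hWU, hn⟩ := 𝒰.normal_le U hU
  obtain ⟨W', hW', hle⟩ := hφ W hW
  refine ⟨W'.comap (mackeyStab φ V g).subtype, comap_mem_comap_levels _ hW', fun s hs => ?_⟩
  have hs' : (s : H) ∈ W' := hs
  show ((mackeyHom φ V g s : V) : G) ∈ U
  rw [mackeyHom_coe]
  exact hWU (hn.conj_mem _ (hle hs') g)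

theorem conj_comp_eq (g : G) :
    (MulAut.conj g).toMonoidHom.comp (φ.comp (mackeyStab φ V g).subtype) =
      V.subtype.comp (mackeyHom φ V g) := by
  ext s
  rfl

/-- The Mackey map at `g` of the restriction along `φ` of a class of `Hⁿ(G, coind A)` is the
restriction along `mackeyHom φ V g : mackeyStab φ V g →* V` of its image under the Shapiro map. -/
theorem mackeyMap_comp (hφ : IsCompatible 𝒱 𝒰 φ) (hV : IsOpenSubgroup 𝒰 V)
    (hA : (restrict 𝒰 V).IsDiscrete A) (g : G) (n : ℕ) :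
    map φ hφ (𝟙 (Rep.res φ (Rep.coind V.subtype A))) n ≫ mackeyMap φ V A 𝒱 g n =
      shapiro 𝒰 V A n ≫
        map (mackeyHom φ V g) (isCompatible_mackeyHom V hφ g) (𝟙 (mackeyTwist φ V A g)) n := by
  have hc := conjMap_eq_id 𝒰 g n (Rep.coind V.subtype A) (isDiscrete_coind hV hA)
  have h1 := map_comp (𝒰 := 𝒰) (𝒰' := 𝒱) (𝒰'' := restrict 𝒱 (mackeyStab φ V g))
    (M := Rep.coind V.subtype A) (M' := Rep.res φ (Rep.coind V.subtype A))
    (M'' := mackeyTwist φ V A g) φ hφ (𝟙 _) (mackeyStab φ V g).subtype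
    (isCompatible_comap 𝒱 (mackeyStab φ V g).subtype) (mackeyEval φ V A g) n
  have h2 := map_comp (𝒰 := 𝒰) (𝒰' := restrict 𝒰 V) (𝒰'' := restrict 𝒱 (mackeyStab φ V g))
    (M := Rep.coind V.subtype A) (M' := A) (M'' := mackeyTwist φ V A g) V.subtype
    (isCompatible_comap 𝒰 V.subtype) (coindEval V A) (mackeyHom φ V g)
    (isCompatible_mackeyHom V hφ g) (𝟙 _) n
  have h3 := map_comp (𝒰 := 𝒰) (𝒰' := 𝒰) (𝒰'' := restrict 𝒱 (mackeyStab φ V g))
    (M := Rep.coind V.subtype A) (M' := Rep.coind V.subtype A)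
    (M'' := mackeyTwist φ V A g) (MulAut.conj g).toMonoidHom (isCompatible_conj 𝒰 g)
    (conjMor (Rep.coind V.subtype A) g) (φ.comp (mackeyStab φ V g).subtype)
    (IsCompatible.comp hφ (isCompatible_comap 𝒱 (mackeyStab φ V g).subtype))
    ((Rep.resFunctor (mackeyStab φ V g).subtype).map (𝟙 (Rep.res φ (Rep.coind V.subtype A))) ≫
      mackeyEval φ V A g) n
  rw [mackeyMap, shapiro, ← h1, ← h2]
  have h4 : map (φ.comp (mackeyStab φ V g).subtype)
      (IsCompatible.comp hφ (isCompatible_comap 𝒱 (mackeyStab φ V g).subtype))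
      ((Rep.resFunctor (mackeyStab φ V g).subtype).map (𝟙 (Rep.res φ (Rep.coind V.subtype A))) ≫
        mackeyEval φ V A g) n =
      conjMap 𝒰 (Rep.coind V.subtype A) g n ≫
        map (φ.comp (mackeyStab φ V g).subtype)
          (IsCompatible.comp hφ (isCompatible_comap 𝒱 (mackeyStab φ V g).subtype))
          ((Rep.resFunctor (mackeyStab φ V g).subtype).map
            (𝟙 (Rep.res φ (Rep.coind V.subtype A))) ≫ mackeyEval φ V A g) n := by
    rw [hc, Category.id_comp]
  rw [h4, conjMap, ← h3]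
  refine map_congr (conj_comp_eq φ V g) _ ?_ n
  ext F
  show F.1 (g * g⁻¹) = F.1 1
  rw [mul_inv_cancel]

variable {V A} in
theorem mackeyEval_naturality {A' : Rep.{u} k V} (α : A ⟶ A') (g : G) :
    (Rep.resFunctor (mackeyStab φ V g).subtype).map
        ((Rep.resFunctor φ).map (Rep.coindMap V.subtype α)) ≫ mackeyEval φ V A' g =
      mackeyEval φ V A g ≫ (Rep.resFunctor (mackeyHom φ V g)).map α := by
  ext F
  rfl

variable {V A} in
/-- Naturality of the Mackey maps in the coefficient module. -/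
theorem mackeyMap_naturality {A' : Rep.{u} k V} (α : A ⟶ A') (g : G) (n : ℕ) :
    𝒱.levelCohomologyMap ((Rep.resFunctor φ).map (Rep.coindMap V.subtype α)) n ≫
        mackeyMap φ V A' 𝒱 g n =
      mackeyMap φ V A 𝒱 g n ≫
        (restrict 𝒱 (mackeyStab φ V g)).levelCohomologyMap
          ((Rep.resFunctor (mackeyHom φ V g)).map α) n := by
  have h1 := map_comp (𝒰 := 𝒱) (𝒰' := 𝒱) (𝒰'' := restrict 𝒱 (mackeyStab φ V g))
    (M := Rep.res φ (Rep.coind V.subtype A)) (M' := Rep.res φ (Rep.coind V.subtype A'))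
    (M'' := mackeyTwist φ V A' g) (MonoidHom.id H) 𝒱.isCompatible_id
    ((Rep.resFunctor φ).map (Rep.coindMap V.subtype α)) (mackeyStab φ V g).subtype
    (isCompatible_comap 𝒱 (mackeyStab φ V g).subtype) (mackeyEval φ V A' g) n
  have h2 := map_comp (𝒰 := 𝒱) (𝒰' := restrict 𝒱 (mackeyStab φ V g))
    (𝒰'' := restrict 𝒱 (mackeyStab φ V g))
    (M := Rep.res φ (Rep.coind V.subtype A)) (M' := mackeyTwist φ V A g)
    (M'' := mackeyTwist φ V A' g) (mackeyStab φ V g).subtype
    (isCompatible_comap 𝒱 (mackeyStab φ V g).subtype) (mackeyEval φ V A g)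
    (MonoidHom.id (mackeyStab φ V g)) (restrict 𝒱 (mackeyStab φ V g)).isCompatible_id
    ((Rep.resFunctor (mackeyHom φ V g)).map α) n
  rw [levelCohomologyMap_eq_map, levelCohomologyMap_eq_map, mackeyMap, mackeyMap, ← h1, ← h2]
  exact map_congr rfl _ (by rw [mackeyEval_naturality]; rfl) n

end Compat

end Fermat.Agent.Lib.CFT.Profinite.LES
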