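import Fermat.Agent.Lib.CFT.Profinite.Shapiro

/-!
# Shapiro's lemma for level cohomology and an arbitrary subgroup (P-CFT, Profinite/ShapiroClosed)

For a level family `𝒰` on `G`, an arbitrary subgroup `D` (typically closed and not open) with the
induced family `restrict 𝒰 D`, and a discrete `D`-module `A`:

* `coindLvl 𝒰 D A`: the `D`-equivariant level-constant functions `G → A` with right translation
  (a discrete `G`-module; for an open `D` this is `Rep.coind`);
* `shortExact_map_coindLvlFunctor`: level-coinduction is exact on discrete modules;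
* `shapiroC 𝒰 D A n : Hⁿ(G, coindLvl A) ⟶ Hⁿ(D, A)` (restriction followed by evaluation at `1`),
  `shapiroC_bijective`, `shapiroCIso`, naturality and compatibility with connecting maps.
-/

set_option autoImplicit false

universe u

open CategoryTheory groupCohomology

namespace Fermat.Agent.Lib.CFT.Profinite.LES

open LevelFamily Fermat.Agent.Lib.CFT.Coh.InfRes

variable {k G : Type u} [CommRing k] [Group G]

section Reps

/-- Representatives for the right cosets of a subgroup `P`, together with the basic facts. -/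
theorem exists_rightCoset_reps (P : Subgroup G) :
    ∃ y : G → G, (∀ x, x * (y x)⁻¹ ∈ P) ∧ (∀ x p, p ∈ P → y (p * x) = y x) ∧
      ∀ x, y x = ((((x⁻¹ : G) : G ⧸ P)).out)⁻¹ := by
  refine ⟨fun x => ((((x⁻¹ : G) : G ⧸ P)).out)⁻¹, fun x => ?_, fun x p hp => ?_, fun x => rfl⟩
  · have h := QuotientGroup.out_eq' ((x⁻¹ : G) : G ⧸ P)
    have h2 := QuotientGroup.eq.1 h.symm
    simpa using h2
  · have : (((p * x)⁻¹ : G) : G ⧸ P) = ((x⁻¹ : G) : G ⧸ P) := by
      rw [QuotientGroup.eq]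
      have : ((p * x)⁻¹)⁻¹ * x⁻¹ = p := by group
      rw [this]
      exact hp
    show ((((p * x)⁻¹ : G) : G ⧸ P).out)⁻¹ = ((((x⁻¹ : G) : G ⧸ P)).out)⁻¹
    rw [this]

/-- For a normal subgroup `U`, every element decomposes as `d * u * y` with `d ∈ D`, `u ∈ U` and
`y` a chosen representative of its right coset modulo `D ⊔ U`. -/
theorem exists_decomposition (D U : Subgroup G) [hU : U.Normal] :
    ∃ (y dd uu : G → G), (∀ x, dd x ∈ D) ∧ (∀ x, uu x ∈ U) ∧ (∀ x, x = dd x * uu x * y x) ∧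
      (∀ x p, p ∈ D ⊔ U → y (p * x) = y x) ∧
      ∀ x, y x = ((((x⁻¹ : G) : G ⧸ (D ⊔ U))).out)⁻¹ := by
  obtain ⟨y, hy1, hy2, hy3⟩ := exists_rightCoset_reps (D ⊔ U)
  have hdec : ∀ x : G, ∃ d ∈ D, ∃ u ∈ U, x = d * u * y x := fun x => by
    have h := hy1 x
    rw [← SetLike.mem_coe, Subgroup.mul_normal D U] at h
    obtain ⟨d, hd, u, hu, hdu⟩ := h
    refine ⟨d, hd, u, hu, ?_⟩
    have hdu' : d * u = x * (y x)⁻¹ := hdu
    rw [hdu', inv_mul_cancel_right]
  choose dd hdd uu huu hx using hdec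
  exact ⟨y, dd, uu, hdd, huu, hx, hy2, hy3⟩

end Reps

/-! ### The level-coinduced module from an arbitrary subgroup -/

section CoindLvl

variable (𝒰 : LevelFamily G) (D : Subgroup G) (A : Rep.{u} k D)

/-- The `D`-equivariant level-constant functions `G → A`. -/
def coindLvlFun : Submodule k (G → A.V) := A.ρ.coindV D.subtype ⊓ levelFun (k := k) 𝒰 A.V

variable {𝒰 D A} in
theorem mem_coindLvlFun_iff {f : G → A.V} :
    f ∈ coindLvlFun 𝒰 D A ↔ (∀ (d : D) (x : G), f ((d : G) * x) = A.ρ d (f x)) ∧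
      ∃ U ∈ 𝒰.levels, ∀ x s : G, s ∈ U → f (x * s) = f x := Iff.rfl

/-- Right translation on equivariant level-constant functions. -/
def coindLvlRepresentation : Representation k G (coindLvlFun 𝒰 D A) where
  toFun γ := (LinearMap.funLeft k A.V (· * γ)).restrict (by
    rintro f ⟨h1, U, hU, h⟩
    refine ⟨fun d x => ?_, ?_⟩
    · simp only [LinearMap.funLeft_apply]
      rw [mul_assoc]
      exact h1 d (x * γ)
    · obtain ⟨W, hW, hle, hn⟩ := 𝒰.normal_le U hU
      refine ⟨W, hW, fun x s hs => ?_⟩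
      simp only [LinearMap.funLeft_apply]
      have : x * s * γ = x * γ * (γ⁻¹ * s * γ) := by group
      rw [this]
      exact h _ _ (hle (hn.conj_mem' s hs γ)))
  map_one' := by
    ext f x
    simp
  map_mul' γ₁ γ₂ := by
    ext f x
    simp [mul_assoc]

@[simp]
theorem coindLvlRepresentation_apply_coe (γ : G) (f : coindLvlFun 𝒰 D A) (x : G) :
    (coindLvlRepresentation 𝒰 D A γ f).1 x = f.1 (x * γ) := rfl

/-- The level-coinduced module from the subgroup `D`: the `D`-equivariant level-constant functions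
`G → A` with right translation. -/
noncomputable abbrev coindLvl : Rep.{u} k G := Rep.of (coindLvlRepresentation 𝒰 D A)

theorem coindLvl_equivariant (f : coindLvl 𝒰 D A) (d : D) (x : G) :
    f.1 ((d : G) * x) = A.ρ d (f.1 x) := f.2.1 d x

theorem isDiscrete_coindLvl : 𝒰.IsDiscrete (coindLvl 𝒰 D A) := by
  rintro ⟨f, h1, U, hU, h⟩
  exact ⟨U, hU, fun s hs => Subtype.ext (funext fun x => h x s hs)⟩

variable {A} in
/-- Functoriality of the level-coinduced module. -/
noncomputable def coindLvlMap {A' : Rep.{u} k D} (φ : A ⟶ A') : coindLvl 𝒰 D A ⟶ coindLvl 𝒰 D A' :=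
  Rep.ofHom (ρ := coindLvlRepresentation 𝒰 D A) (σ := coindLvlRepresentation 𝒰 D A')
    ⟨(φ.hom.toLinearMap.compLeft G).restrict (by
      rintro f ⟨h1, U, hU, h⟩
      refine ⟨fun d x => ?_, U, hU, fun x s hs => ?_⟩
      · show φ.hom (f ((d : G) * x)) = A'.ρ d (φ.hom (f x))
        have h2 : f ((d : G) * x) = A.ρ d (f x) := h1 d x
        rw [h2, Rep.hom_comm_apply]
      · show φ.hom (f (x * s)) = φ.hom (f x)
        rw [h x s hs]), fun γ => by
      ext f x
      rfl⟩

@[simp]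
theorem coindLvlMap_apply_coe {A' : Rep.{u} k D} (φ : A ⟶ A') (f : coindLvl 𝒰 D A) (x : G) :
    ((coindLvlMap 𝒰 D φ).hom f).1 x = φ.hom (f.1 x) := rfl

/-- The level-coinduction functor. -/
noncomputable def coindLvlFunctor : Rep.{u} k D ⥤ Rep.{u} k G where
  obj A := coindLvl 𝒰 D A
  map φ := coindLvlMap 𝒰 D φ
  map_id A := by
    ext f
    rfl
  map_comp φ ψ := by
    ext f
    rfl

/-- Evaluation at `1`, a morphism of `D`-representations `res (coindLvl A) ⟶ A`. -/
noncomputable def coindLvlEval : Rep.res D.subtype (coindLvl 𝒰 D A) ⟶ A :=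
  Rep.ofHom (ρ := (coindLvlRepresentation 𝒰 D A).comp D.subtype) (σ := A.ρ)
    ⟨LinearMap.proj 1 ∘ₗ (coindLvlFun 𝒰 D A).subtype, fun d => by
      ext f
      show f.1 (1 * (d : G)) = A.ρ d (f.1 1)
      rw [one_mul]
      have := f.2.1 d 1
      rw [mul_one] at this
      exact this⟩

@[simp]
theorem coindLvlEval_apply (f : coindLvl 𝒰 D A) : (coindLvlEval 𝒰 D A).hom f = f.1 1 := rfl

variable {A} in
theorem coindLvlEval_naturality {A' : Rep.{u} k D} (φ : A ⟶ A') :
    (Rep.resFunctor D.subtype).map (coindLvlMap 𝒰 D φ) ≫ coindLvlEval 𝒰 D A' =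
      coindLvlEval 𝒰 D A ≫ φ := by
  ext f
  rfl

end CoindLvl


/-! ### Exactness of level-coinduction -/

section Exact

variable {𝒰 : LevelFamily G} {D : Subgroup G}

/-- Lifting along a surjection: the key step for the exactness of level-coinduction. -/
theorem exists_coindLvl_lift {X : ShortComplex (Rep.{u} k D)} (hX : X.ShortExact)
    (hd : (restrict 𝒰 D).IsDiscrete X.X₂) (F : coindLvl 𝒰 D X.X₃) :
    ∃ f : coindLvl 𝒰 D X.X₂, (coindLvlMap 𝒰 D X.g).hom f = F := by
  classical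
  obtain ⟨F, hFeq, U₀, hU₀, hFU₀⟩ := F
  have hFeq' : ∀ (d : D) (x : G), F ((d : G) * x) = X.X₃.ρ d (F x) := hFeq
  obtain ⟨U, hU, hUle, hUn⟩ := 𝒰.normal_le U₀ hU₀
  have hFU : ∀ x s, s ∈ U → F (x * s) = F x := fun x s hs => hFU₀ x s (hUle hs)
  have hFUl : ∀ x u, u ∈ U → F (u * x) = F x := fun x u hu => by
    have : u * x = x * (x⁻¹ * u * x) := by group
    rw [this]
    exact hFU _ _ (hUn.conj_mem' u hu x)
  have hsurj := shortExact_surjective hX
  -- coarse representatives
  obtain ⟨y, dd, uu, hdd, huu, hx, hy2, hy3⟩ := exists_decomposition D U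
  -- lifts at the coarse representatives
  have hfinU : U.FiniteIndex := 𝒰.finiteIndex U hU
  have hfinP : (D ⊔ U).FiniteIndex := Subgroup.finiteIndex_of_le le_sup_right
  have : Finite (G ⧸ (D ⊔ U)) := Subgroup.finite_quotient_of_finiteIndex
  choose a ha using fun c : G ⧸ (D ⊔ U) => hsurj (F (c.out)⁻¹)
  have hex : ∀ c : G ⧸ (D ⊔ U), ∃ W ∈ 𝒰.levels, ∀ s : D, (s : G) ∈ W →
      X.X₂.ρ s (a c) = a c := fun c => by
    obtain ⟨W', ⟨W, hW, rfl⟩, h⟩ := hd (a c)
    exact ⟨W, hW, fun s hs => h s hs⟩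
  choose W₀ hW₀ hfixW using hex
  obtain ⟨W₁, hW₁, -, hle₁⟩ := 𝒰.exists_normal_le_of_finite W₀ hW₀
  obtain ⟨U', hU', h1, h2, hn'⟩ := 𝒰.exists_normal_le_inf hW₁ hU
  have hfix : ∀ (c : G ⧸ (D ⊔ U)) (s : D), (s : G) ∈ U' → X.X₂.ρ s (a c) = a c :=
    fun c s hs => hfixW c s (hle₁ c (h1 hs))
  -- fine representatives
  obtain ⟨z, dd', uu', hdd', huu', hx', hz2, -⟩ := exists_decomposition D U'
  obtain ⟨b, hb⟩ : ∃ b : G → X.X₂, ∀ w, b w =
      X.X₂.ρ ⟨dd w, hdd w⟩ (a ((w⁻¹ : G) : G ⧸ (D ⊔ U))) := ⟨_, fun _ => rfl⟩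
  have hbfix : ∀ (w : G) (ν : D), (ν : G) ∈ U' → X.X₂.ρ ν (b w) = b w := by
    intro w ν hν
    rw [hb, ← Module.End.mul_apply, ← map_mul]
    have e : ν * ⟨dd w, hdd w⟩ = ⟨dd w, hdd w⟩ * (⟨dd w, hdd w⟩⁻¹ * ν * ⟨dd w, hdd w⟩ : D) := by
      group
    rw [e, map_mul, Module.End.mul_apply]
    congr 1
    apply hfix
    show (dd w)⁻¹ * (ν : G) * dd w ∈ U'
    exact hn'.conj_mem' _ hν _
  have hgb : ∀ w : G, X.g.hom (b w) = F w := by
    intro w
    rw [hb, Rep.hom_comm_apply, ha, ← hy3]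
    conv_rhs => rw [hx w]
    rw [mul_assoc]
    have := hFeq' ⟨dd w, hdd w⟩ (uu w * y w)
    rw [this, hFUl _ _ (huu w)]
  obtain ⟨f, hf⟩ : ∃ f : G → X.X₂, ∀ x, f x = X.X₂.ρ ⟨dd' x, hdd' x⟩ (b (z x)) :=
    ⟨_, fun _ => rfl⟩
  -- the general comparison of two decompositions
  have hcomp : ∀ (x x' : G) (δ : D) (p : G), p ∈ U' → z x' = z x →
      x' = (δ : G) * dd' x * p * uu' x * z x → f x' = X.X₂.ρ δ (f x) := by
    intro x x' δ p hp hzz hpe
    rw [hf, hf, hzz, ← Module.End.mul_apply, ← map_mul]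
    have hpe' : dd' x' * uu' x' = (δ : G) * dd' x * p * uu' x := by
      have h3 := hx' x'
      rw [hzz] at h3
      exact mul_right_cancel (h3.symm.trans hpe)
    set ν : D := (δ * ⟨dd' x, hdd' x⟩)⁻¹ * ⟨dd' x', hdd' x'⟩ with hν
    have hνU : (ν : G) ∈ U' := by
      have e : (ν : G) = p * uu' x * (uu' x')⁻¹ := by
        show ((δ : G) * dd' x)⁻¹ * dd' x' = p * uu' x * (uu' x')⁻¹
        have h3 : dd' x' = (δ : G) * dd' x * p * uu' x * (uu' x')⁻¹ := by
          rw [← hpe']
          group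
        rw [h3]
        group
      rw [e]
      exact U'.mul_mem (U'.mul_mem hp (huu' x)) (U'.inv_mem (huu' x'))
    have e2 : (⟨dd' x', hdd' x'⟩ : D) = (δ * ⟨dd' x, hdd' x⟩) * ν := by
      rw [hν]
      group
    rw [e2, map_mul, Module.End.mul_apply, hbfix _ ν hνU]
  have hE : ∀ (δ : D) (x : G), f ((δ : G) * x) = X.X₂.ρ δ (f x) := by
    intro δ x
    refine hcomp x ((δ : G) * x) δ 1 U'.one_mem (hz2 x δ (Subgroup.mem_sup_left δ.2)) ?_
    have e : (δ : G) * dd' x * 1 * uu' x * z x = (δ : G) * (dd' x * uu' x * z x) := by group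
    rw [e, ← hx' x]
  have hR : ∀ (x s : G), s ∈ U' → f (x * s) = f x := by
    intro x s hs
    have hp : x * s * x⁻¹ ∈ U' := hn'.conj_mem s hs x
    have hxs : x * s = (x * s * x⁻¹) * x := by group
    have hzz : z (x * s) = z x := by
      rw [hxs]
      exact hz2 x _ (Subgroup.mem_sup_right hp)
    have h3 := hcomp x (x * s) 1 ((dd' x)⁻¹ * (x * s * x⁻¹) * dd' x) (hn'.conj_mem' _ hp _) hzz (by
      have e : ((1 : D) : G) * dd' x * ((dd' x)⁻¹ * (x * s * x⁻¹) * dd' x) * uu' x * z x =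
          (x * s * x⁻¹) * (dd' x * uu' x * z x) := by
        rw [Subgroup.coe_one]
        group
      rw [e, ← hx' x]
      group)
    rw [h3, map_one]
    rfl
  have hL : ∀ x : G, X.g.hom (f x) = F x := by
    intro x
    rw [hf, Rep.hom_comm_apply, hgb]
    conv_rhs => rw [hx' x]
    rw [mul_assoc]
    have := hFeq' ⟨dd' x, hdd' x⟩ (uu' x * z x)
    rw [this, hFUl _ _ (h2 (huu' x))]
  refine ⟨⟨f, hE, U', hU', hR⟩, ?_⟩
  apply Subtype.ext
  funext x
  exact hL x

end Exact


section ExactFunctor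

variable {𝒰 : LevelFamily G} {D : Subgroup G}

instance : (coindLvlFunctor (k := k) 𝒰 D).PreservesZeroMorphisms where
  map_zero _ _ := by
    ext f
    rfl

/-- Level-coinduction preserves short exact sequences of discrete modules. -/
theorem shortExact_map_coindLvlFunctor {X : ShortComplex (Rep.{u} k D)} (hX : X.ShortExact)
    (hd : (restrict 𝒰 D).IsDiscrete X.X₂) :
    (X.map (coindLvlFunctor (k := k) 𝒰 D)).ShortExact := by
  apply shortExact_of
  · intro F F' h
    apply Subtype.ext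
    funext x
    apply shortExact_injective hX
    exact congr_fun (congrArg Subtype.val h) x
  · intro F
    exact exists_coindLvl_lift hX hd F
  · intro F hF
    have h0 : ∀ x, X.g.hom (F.1 x) = 0 := fun x => congr_fun (congrArg Subtype.val hF) x
    choose y hy using fun x => shortExact_exists_of_g_eq_zero hX (F.1 x) (h0 x)
    obtain ⟨U, hU, hFU⟩ := F.2.2
    refine ⟨⟨y, fun d x => ?_, U, hU, fun x s hs => ?_⟩, ?_⟩
    · apply shortExact_injective hX
      rw [hy, Rep.hom_comm_apply, hy]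
      exact F.2.1 d x
    · apply shortExact_injective hX
      rw [hy, hy]
      exact hFU x s hs
    · apply Subtype.ext
      funext x
      exact hy x

end ExactFunctor

/-! ### Level-coinduction of a level-coinduced module -/

section CoindCoindLevel

variable (𝒰 : LevelFamily G) (D : Subgroup G) (B : Type u) [AddCommGroup B] [Module k B]

/-- The level-coinduction to `G` of the level-coinduced module of `D` is the level-coinduced
module of `G`. -/
noncomputable def coindLvlCoindLevelEquiv :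
    (coindLvl 𝒰 D (coindLevel (k := k) (restrict 𝒰 D) B)).V ≃ₗ[k] levelFun (k := k) 𝒰 B where
  toFun F := ⟨fun x => (F.1 x).1 1, by
    obtain ⟨U, hU, h⟩ := F.2.2
    exact ⟨U, hU, fun x s hs => by
      show (F.1 (x * s)).1 1 = (F.1 x).1 1
      rw [h x s hs]⟩⟩
  map_add' _ _ := rfl
  map_smul' _ _ := rfl
  invFun f := ⟨fun x => ⟨fun w => f.1 ((w : G) * x), by
      obtain ⟨U, hU, h⟩ := f.2
      obtain ⟨W, hW, hle, hn⟩ := 𝒰.normal_le U hU
      refine ⟨W.comap D.subtype, comap_mem_comap_levels _ hW, fun w t ht => ?_⟩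
      have ht' : (t : G) ∈ W := ht
      show f.1 (((w * t : D) : G) * x) = f.1 ((w : G) * x)
      have e : ((w * t : D) : G) * x = (w : G) * x * (x⁻¹ * (t : G) * x) := by
        rw [Subgroup.coe_mul]
        group
      rw [e]
      exact h _ _ (hle (hn.conj_mem' _ ht' x))⟩, fun d x => by
      apply Subtype.ext
      funext w
      show f.1 ((w : G) * ((d : G) * x)) = f.1 (((w * d : D) : G) * x)
      rw [Subgroup.coe_mul, mul_assoc], by
      obtain ⟨U, hU, h⟩ := f.2
      refine ⟨U, hU, fun x s hs => ?_⟩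
      apply Subtype.ext
      funext w
      show f.1 ((w : G) * (x * s)) = f.1 ((w : G) * x)
      rw [← mul_assoc]
      exact h _ _ hs⟩
  left_inv F := by
    apply Subtype.ext
    funext x
    apply Subtype.ext
    funext w
    show (F.1 ((w : G) * x)).1 1 = (F.1 x).1 w
    have h1 := F.2.1 w x
    rw [Subgroup.subtype_apply] at h1
    rw [h1]
    show (F.1 x).1 (1 * w) = (F.1 x).1 w
    rw [one_mul]
  right_inv f := by
    apply Subtype.ext
    funext x
    show f.1 (((1 : D) : G) * x) = f.1 x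
    rw [Subgroup.coe_one, one_mul]

/-- The isomorphism of representations underlying `coindLvlCoindLevelEquiv`. -/
noncomputable def coindLvlCoindLevelIso :
    coindLvl 𝒰 D (coindLevel (k := k) (restrict 𝒰 D) B) ≅ coindLevel (k := k) 𝒰 B :=
  Rep.mkIso <| Representation.Equiv.mk (coindLvlCoindLevelEquiv 𝒰 D B) (fun γ => by
    ext F
    rfl)

/-- The level-coinduction of a level-coinduced module is acyclic. -/
theorem isZero_levelCohomology_coindLvl_coindLevel (n : ℕ) :
    Limits.IsZero (𝒰.levelCohomology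
      (coindLvl 𝒰 D (coindLevel (k := k) (restrict 𝒰 D) B)) (n + 1)) := by
  refine (isZero_levelCohomology_coindLevel (k := k) 𝒰 B n).of_iso ?_
  exact (𝒰.levelComplexFunctor (k := k) ⋙
    HomologicalComplex.homologyFunctor (ModuleCat k) (ComplexShape.up ℕ) (n + 1)).mapIso
      (coindLvlCoindLevelIso 𝒰 D B)

end CoindCoindLevel

/-! ### The Shapiro map for an arbitrary subgroup -/

section ShapiroC

variable (𝒰 : LevelFamily G) (D : Subgroup G)

/-- The Shapiro map `Hⁿ(G, coindLvl A) ⟶ Hⁿ(D, A)`: restriction to `D` followed by evaluation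
at `1`. -/
noncomputable def shapiroC (A : Rep.{u} k D) (n : ℕ) :
    𝒰.levelCohomology (coindLvl 𝒰 D A) n ⟶ (restrict 𝒰 D).levelCohomology A n :=
  map D.subtype (isCompatible_comap 𝒰 D.subtype) (coindLvlEval 𝒰 D A) n

variable {D} in
/-- Naturality of the Shapiro map in the module. -/
theorem shapiroC_naturality {A A' : Rep.{u} k D} (φ : A ⟶ A') (n : ℕ) :
    𝒰.levelCohomologyMap (coindLvlMap 𝒰 D φ) n ≫ shapiroC 𝒰 D A' n =
      shapiroC 𝒰 D A n ≫ (restrict 𝒰 D).levelCohomologyMap φ n := by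
  have h1 := map_comp (𝒰 := 𝒰) (𝒰' := 𝒰) (𝒰'' := restrict 𝒰 D)
    (M := coindLvl 𝒰 D A) (M' := coindLvl 𝒰 D A') (M'' := A') (MonoidHom.id G)
    𝒰.isCompatible_id (coindLvlMap 𝒰 D φ) D.subtype (isCompatible_comap 𝒰 D.subtype)
    (coindLvlEval 𝒰 D A') n
  have h2 := map_comp (𝒰 := 𝒰) (𝒰' := restrict 𝒰 D) (𝒰'' := restrict 𝒰 D)
    (M := coindLvl 𝒰 D A) (M' := A) (M'' := A') D.subtype
    (isCompatible_comap 𝒰 D.subtype) (coindLvlEval 𝒰 D A) (MonoidHom.id D)
    (restrict 𝒰 D).isCompatible_id φ n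
  rw [levelCohomologyMap_eq_map, levelCohomologyMap_eq_map, shapiroC, shapiroC, ← h1, ← h2]
  exact map_congr rfl _ (by rw [coindLvlEval_naturality]; rfl) n

theorem shapiroC_zero_bijective (A : Rep.{u} k D) :
    Function.Bijective (shapiroC 𝒰 D A 0).hom := by
  apply map_zero_bijective
  · intro F hF h1
    apply Subtype.ext
    funext x
    have h2 : F.1 (1 * x) = F.1 1 := congr_fun (congrArg Subtype.val (hF x)) 1
    rw [one_mul] at h2
    rw [h2]
    exact h1
  · intro b hb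
    obtain ⟨U, hU⟩ := 𝒰.nonempty
    refine ⟨⟨fun _ => b, fun d x => (hb d).symm, U, hU, fun _ _ _ => rfl⟩,
      fun g => Subtype.ext rfl, rfl⟩

variable {𝒰 D}

/-- **Shapiro's lemma** for level cohomology and an arbitrary subgroup `D`: for a discrete
`D`-module `A`, the Shapiro map `Hⁿ(G, coindLvl A) ⟶ Hⁿ(D, A)` is bijective in every degree. -/
theorem shapiroC_bijective (n : ℕ) :
    ∀ (A : Rep.{u} k D) (_ : (restrict 𝒰 D).IsDiscrete A),
      Function.Bijective (shapiroC 𝒰 D A n).hom := by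
  induction n with
  | zero => exact fun A _ => shapiroC_zero_bijective 𝒰 D A
  | succ n ih =>
    intro A hA
    have hS := levelShiftSES_shortExact hA
    have hdS := isDiscrete_levelShiftSES_X₂ hA
    have hcS := shortExact_map_coindLvlFunctor (𝒰 := 𝒰) hS hdS
    have hdcS : 𝒰.IsDiscrete ((levelShiftSES hA).map (coindLvlFunctor (k := k) 𝒰 D)).X₂ :=
      isDiscrete_coindLvl 𝒰 D _
    exact bijective_of_ladder
      (𝒰.levelCohomologyMap ((levelShiftSES hA).map (coindLvlFunctor (k := k) 𝒰 D)).g n)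
      (𝒰.δ hcS hdcS n (n + 1) rfl)
      ((restrict 𝒰 D).levelCohomologyMap (levelShiftSES hA).g n)
      ((restrict 𝒰 D).δ hS hdS n (n + 1) rfl)
      (shapiroC 𝒰 D (levelShiftSES hA).X₂ n) (shapiroC 𝒰 D (levelShiftSES hA).X₃ n)
      (shapiroC 𝒰 D (levelShiftSES hA).X₁ (n + 1))
      (𝒰.map_g_comp_δ hcS hdcS rfl)
      (δ_surjective_of_isZero hcS hdcS n (isZero_levelCohomology_coindLvl_coindLevel 𝒰 D A.V n))
      (fun s hs => (restrict 𝒰 D).exists_of_δ_eq_zero hS hdS rfl s hs)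
      (δ_levelShiftSES_surjective hA n)
      (shapiroC_naturality 𝒰 (levelShiftSES hA).g n)
      (δ_naturality D.subtype (isCompatible_comap 𝒰 D.subtype) hcS hdcS hS hdS
        (coindLvlEval 𝒰 D _) (coindLvlEval 𝒰 D _) (coindLvlEval 𝒰 D _)
        (coindLvlEval_naturality 𝒰 D _) (coindLvlEval_naturality 𝒰 D _) n (n + 1) rfl)
      (ih _ hdS).2 (ih _ (isDiscrete_levelShiftSES_X₃ hA))

/-- Shapiro's lemma for an arbitrary subgroup, as an isomorphism. -/
noncomputable def shapiroCIso {A : Rep.{u} k D} (hA : (restrict 𝒰 D).IsDiscrete A) (n : ℕ) :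
    𝒰.levelCohomology (coindLvl 𝒰 D A) n ≅ (restrict 𝒰 D).levelCohomology A n :=
  (LinearEquiv.ofBijective (shapiroC 𝒰 D A n).hom (shapiroC_bijective n A hA)).toModuleIso

@[simp]
theorem shapiroCIso_hom {A : Rep.{u} k D} (hA : (restrict 𝒰 D).IsDiscrete A) (n : ℕ) :
    (shapiroCIso hA n).hom = shapiroC 𝒰 D A n := rfl

/-- Compatibility of the Shapiro map with connecting homomorphisms. -/
theorem shapiroC_δ {X : ShortComplex (Rep.{u} k D)} (hX : X.ShortExact)
    (hd : (restrict 𝒰 D).IsDiscrete X.X₂) (i j : ℕ) (hij : i + 1 = j) :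
    𝒰.δ (shortExact_map_coindLvlFunctor (𝒰 := 𝒰) hX hd) (isDiscrete_coindLvl 𝒰 D _) i j hij ≫
        shapiroC 𝒰 D X.X₁ j =
      shapiroC 𝒰 D X.X₃ i ≫ (restrict 𝒰 D).δ hX hd i j hij :=
  δ_naturality D.subtype (isCompatible_comap 𝒰 D.subtype)
    (shortExact_map_coindLvlFunctor (𝒰 := 𝒰) hX hd) (isDiscrete_coindLvl 𝒰 D _) hX hd
    (coindLvlEval 𝒰 D _) (coindLvlEval 𝒰 D _) (coindLvlEval 𝒰 D _)
    (coindLvlEval_naturality 𝒰 D _) (coindLvlEval_naturality 𝒰 D _) i j hij

end ShapiroC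

end Fermat.Agent.Lib.CFT.Profinite.LES
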