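import Fermat.Agent.Lib.CFT.Profinite.ShapiroClosedT
import Fermat.Agent.Lib.CFT.Profinite.MackeyT

/-!
# Shapiro's lemma for a jointly induced module (P-CFT, Profinite/ShapiroClosedProd)

* `bijective_map_of_jointly_bijective`: finite additivity in element form: if a finite family of
  morphisms `π i : X ⟶ Y i` of representations is jointly bijective on elements, then every
  additive functor to modules sends it to a jointly bijective family.
* `toCoindLvl hX lam : X ⟶ coindLvl 𝒰 D A`, `x ↦ (g ↦ lam (g • x))`, for a discrete module `X` and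
  a `D`-morphism `lam : res X ⟶ A`.
* `jointShapiro_bijective`, `jointShapiroT_bijective`: if `X` is, through the `lam i`, the product
  of the level-coinduced modules `coindLvl 𝒰 (D i) (A i)` for a finite family of subgroups `D i`,
  then `Hⁿ(G, X) → Π i, Hⁿ(D i, A i)` is bijective for all `n`, and likewise for the cohomology
  `T` of the cone of multiplication by `p`.
* `bijective_jointLin_toCoindLvl`: the hypothesis in elementary form.
-/

set_option autoImplicit false

universe u

open CategoryTheory groupCohomology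

namespace Fermat.Agent.Lib.CFT.Profinite.LES

open LevelFamily Fermat.Agent.Lib.CFT.Coh.InfRes Fermat.Agent.Lib.CFT.Duality
  Fermat.Agent.Lib.CFT.Duality.KCalc

variable {k G : Type u} [CommRing k] [Group G]

section PartA

variable {ι : Type*} {X : Rep.{u} k G} {Y : ι → Rep.{u} k G} (π : ∀ i, X ⟶ Y i)

/-- The linear map `x ↦ (i ↦ π i x)`. -/
noncomputable def jointLin : X.V →ₗ[k] (∀ i, (Y i).V) :=
  LinearMap.pi fun i => (π i).hom.toLinearMap

theorem jointLin_apply (x : X) (i : ι) : jointLin π x i = (π i).hom x := rfl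

variable (hπ : Function.Bijective (jointLin π))

/-- The linear equivalence `X ≃ Π i, Y i` of a jointly bijective family. -/
noncomputable def jointEquiv : X.V ≃ₗ[k] (∀ i, (Y i).V) := LinearEquiv.ofBijective (jointLin π) hπ

theorem jointEquiv_apply (x : X) (i : ι) : jointEquiv π hπ x i = (π i).hom x := rfl

theorem hom_jointEquiv_symm (z : ∀ i, (Y i).V) (i : ι) :
    (π i).hom ((jointEquiv π hπ).symm z) = z i := by
  rw [← jointEquiv_apply π hπ, LinearEquiv.apply_symm_apply]

/-- The section of a jointly bijective family of morphisms: the `i`-th inclusion. -/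
noncomputable def jointSection [DecidableEq ι] (i : ι) : Y i ⟶ X :=
  Rep.ofHom (ρ := (Y i).ρ) (σ := X.ρ)
    ⟨(jointEquiv π hπ).symm.toLinearMap ∘ₗ LinearMap.single k (fun i => (Y i).V) i, fun g => by
      ext y
      apply (jointEquiv π hπ).injective
      funext j
      simp only [LinearMap.coe_comp, Function.comp_apply, LinearEquiv.coe_coe,
        LinearMap.coe_single]
      rw [LinearEquiv.apply_symm_apply, jointEquiv_apply, Rep.hom_comm_apply,
        hom_jointEquiv_symm]
      exact (Pi.apply_single (fun j => (Y j).ρ g) (fun j => map_zero _) i y j).symm⟩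

theorem jointSection_apply [DecidableEq ι] (i : ι) (y : Y i) :
    (jointSection π hπ i).hom y = (jointEquiv π hπ).symm (Pi.single i y) := rfl

theorem jointSection_comp_self [DecidableEq ι] (i : ι) : jointSection π hπ i ≫ π i = 𝟙 _ := by
  ext y
  rw [Rep.hom_comp]
  show (π i).hom ((jointSection π hπ i).hom y) = y
  rw [jointSection_apply, hom_jointEquiv_symm, Pi.single_eq_same]

theorem jointSection_comp_of_ne [DecidableEq ι] (i j : ι) (hij : i ≠ j) :
    jointSection π hπ i ≫ π j = 0 := by
  ext y
  rw [Rep.hom_comp]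
  show (π j).hom ((jointSection π hπ i).hom y) = 0
  rw [jointSection_apply, hom_jointEquiv_symm, Pi.single_eq_of_ne' hij]

theorem jointSum_hom_apply {A B : Rep.{u} k G} (s : Finset ι) (h : ι → (A ⟶ B)) (x : A) :
    (∑ j ∈ s, h j).hom x = ∑ j ∈ s, (h j).hom x := by
  classical
  induction s using Finset.induction_on with
  | empty =>
    simp only [Finset.sum_empty]
    rfl
  | insert j s hj ih =>
    rw [Finset.sum_insert hj, Finset.sum_insert hj, Rep.add_hom, ← ih]
    rfl

theorem sum_comp_jointSection [Fintype ι] [DecidableEq ι] : ∑ i, π i ≫ jointSection π hπ i = 𝟙 X := by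
  ext x
  show (∑ i, π i ≫ jointSection π hπ i).hom x = x
  rw [jointSum_hom_apply]
  show ∑ i, (jointSection π hπ i).hom ((π i).hom x) = x
  simp only [jointSection_apply]
  rw [← map_sum]
  apply (jointEquiv π hπ).injective
  rw [LinearEquiv.apply_symm_apply]
  funext j
  rw [Finset.sum_apply, jointEquiv_apply]
  rw [Finset.sum_eq_single j]
  · exact Pi.single_eq_same j _
  · intro i _ hij
    exact Pi.single_eq_of_ne' hij _
  · intro h
    exact absurd (Finset.mem_univ j) h

include hπ in
/-- **Finite additivity, element form**: an additive functor to modules sends a jointly bijective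
finite family of morphisms to a jointly bijective family. -/
theorem bijective_map_of_jointly_bijective [Fintype ι] (T : Rep.{u} k G ⥤ ModuleCat.{u} k) [T.Additive] :
    Function.Bijective (fun (ξ : T.obj X) (i : ι) => (T.map (π i)).hom ξ) := by
  classical
  exact bijective_of_projectors T π (jointSection π hπ) (jointSection_comp_self π hπ)
    (jointSection_comp_of_ne π hπ) (sum_comp_jointSection π hπ)

end PartA

section PartB

variable {𝒰 : LevelFamily G} {X : Rep.{u} k G} (hX : 𝒰.IsDiscrete X) {D : Subgroup G}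
  {A : Rep.{u} k D} (lam : Rep.res D.subtype X ⟶ A)

/-- The morphism `X ⟶ coindLvl 𝒰 D A`, `x ↦ (g ↦ lam (g • x))`, adjoint to a `D`-morphism
`lam : res X ⟶ A` out of a discrete module `X`. -/
noncomputable def toCoindLvl : X ⟶ coindLvl 𝒰 D A :=
  Rep.ofHom (ρ := X.ρ) (σ := coindLvlRepresentation 𝒰 D A)
    ⟨{  toFun := fun x => ⟨fun g => lam.hom (X.ρ g x), by
          refine ⟨fun d g => ?_, ?_⟩
          · show lam.hom (X.ρ ((d : G) * g) x) = A.ρ d (lam.hom (X.ρ g x))
            rw [map_mul]
            exact Rep.hom_comm_apply lam d (X.ρ g x)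
          · obtain ⟨U, hU, h⟩ := hX x
            refine ⟨U, hU, fun g s hs => ?_⟩
            show lam.hom (X.ρ (g * s) x) = lam.hom (X.ρ g x)
            rw [map_mul, Module.End.mul_apply, h s hs]⟩
        map_add' := fun x y => by
          apply Subtype.ext
          funext g
          show lam.hom (X.ρ g (x + y)) = lam.hom (X.ρ g x) + lam.hom (X.ρ g y)
          rw [map_add, map_add]
        map_smul' := fun c x => by
          apply Subtype.ext
          funext g
          show lam.hom (X.ρ g (c • x)) = c • lam.hom (X.ρ g x)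
          rw [map_smul, map_smul] }, fun γ => by
      ext x g
      show lam.hom (X.ρ g (X.ρ γ x)) = lam.hom (X.ρ (g * γ) x)
      rw [map_mul, Module.End.mul_apply]⟩

@[simp]
theorem toCoindLvl_apply_coe (x : X) (g : G) :
    ((toCoindLvl hX lam).hom x).1 g = lam.hom (X.ρ g x) := rfl

theorem toCoindLvl_comp_coindLvlEval :
    (Rep.resFunctor D.subtype).map (toCoindLvl hX lam) ≫ coindLvlEval 𝒰 D A = lam := by
  ext x
  show lam.hom (X.ρ 1 x) = lam.hom x
  rw [map_one, Module.End.one_apply]

/-- The change-of-group map along `D ≤ G` and `lam` factors through the Shapiro map. -/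
theorem map_toCoindLvl_comp_shapiroC (n : ℕ) :
    𝒰.levelCohomologyMap (toCoindLvl hX lam) n ≫ shapiroC 𝒰 D A n =
      map D.subtype (isCompatible_comap 𝒰 D.subtype) lam n := by
  have h1 := map_comp (𝒰 := 𝒰) (𝒰' := 𝒰) (𝒰'' := restrict 𝒰 D)
    (M := X) (M' := coindLvl 𝒰 D A) (M'' := A) (MonoidHom.id G)
    𝒰.isCompatible_id (toCoindLvl hX lam) D.subtype (isCompatible_comap 𝒰 D.subtype)
    (coindLvlEval 𝒰 D A) n
  rw [levelCohomologyMap_eq_map, shapiroC, ← h1]
  exact map_congr rfl _ (by rw [toCoindLvl_comp_coindLvlEval]) n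

/-- `T`-version of `map_toCoindLvl_comp_shapiroC`. -/
theorem shapiroCT_TMap_toCoindLvl (p : ℕ) (r : ℕ) (t : T 𝒰 p X r) :
    shapiroCT 𝒰 p D A r (TMap 𝒰 p (toCoindLvl hX lam) r t) =
      TMapOfHom 𝒰 p (restrict 𝒰 D) D.subtype (isCompatible_comap 𝒰 D.subtype) lam r t := by
  rw [TMap_eq_TMapOfHom, shapiroCT, ← TMapOfHom_comp]
  exact congr_fun (congr_arg DFunLike.coe (TMapOfHom_congr 𝒰 _ p _ rfl _ _
    (by rw [toCoindLvl_comp_coindLvlEval]) r)) t

end PartB

section Joint

variable {𝒰 : LevelFamily G} {X : Rep.{u} k G} (hX : 𝒰.IsDiscrete X) {ι : Type*} [Fintype ι]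
  {D : ι → Subgroup G} {A : ∀ i, Rep.{u} k (D i)}
  (hA : ∀ i, (restrict 𝒰 (D i)).IsDiscrete (A i))
  (lam : ∀ i, Rep.res (D i).subtype X ⟶ A i)
  (hb : Function.Bijective (jointLin fun i => toCoindLvl hX (lam i)))

omit [Fintype ι] in
/-- Elementary form of the joint bijectivity hypothesis. -/
theorem bijective_jointLin_toCoindLvl
    (hinj : ∀ x : X, (∀ i g, (lam i).hom (X.ρ g x) = 0) → x = 0)
    (hsurj : ∀ f : ∀ i, G → A i,
      (∀ i (d : D i) (g : G), f i ((d : G) * g) = (A i).ρ d (f i g)) →
      (∀ i, ∃ U ∈ 𝒰.levels, ∀ g s : G, s ∈ U → f i (g * s) = f i g) →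
      ∃ x : X, ∀ i g, (lam i).hom (X.ρ g x) = f i g) :
    Function.Bijective (jointLin fun i => toCoindLvl hX (lam i)) := by
  constructor
  · rw [injective_iff_map_eq_zero]
    intro x hx
    refine hinj x fun i g => ?_
    have h1 : ((toCoindLvl hX (lam i)).hom x).1 g = 0 := by
      have h2 : (toCoindLvl hX (lam i)).hom x = 0 := congr_fun hx i
      rw [h2]
      rfl
    exact h1
  · intro z
    obtain ⟨x, hx⟩ := hsurj (fun i => (z i).1) (fun i => (z i).2.1) (fun i => (z i).2.2)
    refine ⟨x, ?_⟩
    funext i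
    apply Subtype.ext
    funext g
    exact hx i g

include hA hb in
/-- **Shapiro for a jointly induced module** (level cohomology): if the discrete `G`-module `X`
is, through the `D i`-morphisms `lam i : res X ⟶ A i`, the product of the level-coinduced modules
`coindLvl 𝒰 (D i) (A i)`, then `Hⁿ(G, X) → Π i, Hⁿ(D i, A i)` (restriction followed by `lam i`)
is bijective in every degree. -/
theorem jointShapiro_bijective (n : ℕ) :
    Function.Bijective (fun (ξ : 𝒰.levelCohomology X n) (i : ι) =>
      (map (D i).subtype (isCompatible_comap 𝒰 (D i).subtype) (lam i) n).hom ξ) := by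
  have h1 := bijective_map_of_jointly_bijective _ hb (levelCohomologyFunctor (k := k) 𝒰 n)
  have h2 : Function.Bijective (Pi.map fun i => (shapiroC 𝒰 (D i) (A i) n).hom) :=
    Function.Bijective.piMap fun i => shapiroC_bijective n (A i) (hA i)
  have h3 := h2.comp h1
  have h4 : ((Pi.map fun i => (shapiroC 𝒰 (D i) (A i) n).hom) ∘
      fun (ξ : 𝒰.levelCohomology X n) (i : ι) =>
        ((levelCohomologyFunctor (k := k) 𝒰 n).map (toCoindLvl hX (lam i))).hom ξ) =
      fun (ξ : 𝒰.levelCohomology X n) (i : ι) =>
        (map (D i).subtype (isCompatible_comap 𝒰 (D i).subtype) (lam i) n).hom ξ := by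
    funext ξ i
    exact congr($(map_toCoindLvl_comp_shapiroC hX (lam i) n) ξ)
  rw [← h4]
  exact h3

include hA hb in
/-- **Shapiro for a jointly induced module**, for the cohomology `T` of the cone of multiplication
by `p`. -/
theorem jointShapiroT_bijective (p : ℕ) (r : ℕ) :
    Function.Bijective (fun (t : T 𝒰 p X r) (i : ι) =>
      TMapOfHom 𝒰 p (restrict 𝒰 (D i)) (D i).subtype (isCompatible_comap 𝒰 (D i).subtype)
        (lam i) r t) := by
  have h1 := bijective_map_of_jointly_bijective _ hb (TFunctor (k := k) 𝒰 p r)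
  have h2 : Function.Bijective (Pi.map fun i => (shapiroCT 𝒰 p (D i) (A i) r)) :=
    Function.Bijective.piMap fun i => shapiroCT_bijective p (A i) (hA i) r
  have h3 := h2.comp h1
  have h4 : ((Pi.map fun i => (shapiroCT 𝒰 p (D i) (A i) r)) ∘
      fun (t : T 𝒰 p X r) (i : ι) =>
        ((TFunctor (k := k) 𝒰 p r).map (toCoindLvl hX (lam i))).hom t) =
      fun (t : T 𝒰 p X r) (i : ι) =>
        TMapOfHom 𝒰 p (restrict 𝒰 (D i)) (D i).subtype (isCompatible_comap 𝒰 (D i).subtype)
          (lam i) r t := by
    funext t i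
    exact shapiroCT_TMap_toCoindLvl hX (lam i) p r t
  rw [← h4]
  exact h3

end Joint

end Fermat.Agent.Lib.CFT.Profinite.LES
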