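import Fermat.Agent.Lib.CFT.Profinite.ShapiroClosed
import Fermat.Agent.Lib.CFT.Profinite.ShapiroT

/-!
# Shapiro for an arbitrary subgroup on the cone of multiplication by `p` (P-CFT)

The `T`-version of `Profinite/ShapiroClosed`: for an arbitrary subgroup `D` of `(G, 𝒰)` and a
discrete `D`-module `A`, the Shapiro map `T^r(G, coindLvl A) ⟶ T^r(D, A)` is bijective, natural,
and compatible with `toH`, `ofH` and `Tδ`.
-/

set_option autoImplicit false

universe u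

open CategoryTheory

namespace Fermat.Agent.Lib.CFT.Profinite.LES

open LevelFamily Fermat.Agent.Lib.CFT.Duality Fermat.Agent.Lib.CFT.Duality.KCalc ConcreteHomology
  HomologicalComplex

variable {k : Type u} [CommRing k]

section ShapiroCT

variable {G : Type u} [Group G] (𝒰 : LevelFamily G) (p : ℕ) (D : Subgroup G)

/-- The Shapiro map on the cones of multiplication by `p`, for an arbitrary subgroup. -/
noncomputable def shapiroCKp (A : Rep.{u} k D) :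
    Kp 𝒰 p (coindLvl 𝒰 D A) ⟶ Kp (restrict 𝒰 D) p A :=
  KpMapOfHom 𝒰 p (restrict 𝒰 D) D.subtype (isCompatible_comap 𝒰 D.subtype) (coindLvlEval 𝒰 D A)

/-- The Shapiro map `T^r(G, coindLvl A) ⟶ T^r(D, A)`. -/
noncomputable def shapiroCT (A : Rep.{u} k D) (r : ℕ) :
    T 𝒰 p (coindLvl 𝒰 D A) r →ₗ[k] T (restrict 𝒰 D) p A r :=
  TMapOfHom 𝒰 p (restrict 𝒰 D) D.subtype (isCompatible_comap 𝒰 D.subtype) (coindLvlEval 𝒰 D A) r

theorem shapiroCT_eq (A : Rep.{u} k D) (r : ℕ) :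
    shapiroCT 𝒰 p D A r = (homologyMap (shapiroCKp 𝒰 p D A) r).hom := rfl

variable {𝒰 D} in
/-- **Shapiro's lemma for the cone of multiplication by `p`**, arbitrary subgroup. -/
theorem shapiroCT_bijective (A : Rep.{u} k D) (hA : (restrict 𝒰 D).IsDiscrete A) (r : ℕ) :
    Function.Bijective (shapiroCT 𝒰 p D A r) :=
  TMapOfHom_bijective 𝒰 (restrict 𝒰 D) p D.subtype (isCompatible_comap 𝒰 D.subtype)
    (coindLvlEval 𝒰 D A) (fun n => shapiroC_bijective n A hA) r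

variable {𝒰 D} in
/-- The Shapiro map on `T` as a linear equivalence. -/
noncomputable def shapiroCTEquiv (A : Rep.{u} k D) (hA : (restrict 𝒰 D).IsDiscrete A) (r : ℕ) :
    T 𝒰 p (coindLvl 𝒰 D A) r ≃ₗ[k] T (restrict 𝒰 D) p A r :=
  LinearEquiv.ofBijective (shapiroCT 𝒰 p D A r) (shapiroCT_bijective p A hA r)

variable {𝒰 D} in
@[simp]
theorem shapiroCTEquiv_apply (A : Rep.{u} k D) (hA : (restrict 𝒰 D).IsDiscrete A) (r : ℕ)
    (t : T 𝒰 p (coindLvl 𝒰 D A) r) :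
    shapiroCTEquiv p A hA r t = shapiroCT 𝒰 p D A r t := rfl

/-- `toH` intertwines the Shapiro maps on `T` and on level cohomology. -/
theorem toH_shapiroCT (A : Rep.{u} k D) (r : ℕ) (t : T 𝒰 p (coindLvl 𝒰 D A) r) :
    toH (restrict 𝒰 D) p A r (shapiroCT 𝒰 p D A r t) =
      (shapiroC 𝒰 D A r).hom (toH 𝒰 p (coindLvl 𝒰 D A) r t) :=
  toH_TMapOfHom 𝒰 p (restrict 𝒰 D) D.subtype (isCompatible_comap 𝒰 D.subtype)
    (coindLvlEval 𝒰 D A) r t

/-- `ofH` intertwines the Shapiro maps on level cohomology and on `T`. -/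
theorem shapiroCT_ofH (A : Rep.{u} k D) (r : ℕ) (y : 𝒰.levelCohomology (coindLvl 𝒰 D A) r) :
    shapiroCT 𝒰 p D A (r + 1) (ofH 𝒰 p (coindLvl 𝒰 D A) r y) =
      ofH (restrict 𝒰 D) p A r ((shapiroC 𝒰 D A r).hom y) :=
  TMapOfHom_ofH 𝒰 p (restrict 𝒰 D) D.subtype (isCompatible_comap 𝒰 D.subtype)
    (coindLvlEval 𝒰 D A) r y

variable {D} in
/-- Naturality of the Shapiro map on `T` in the coefficient module. -/
theorem shapiroCT_naturality {A A' : Rep.{u} k D} (α : A ⟶ A') (r : ℕ)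
    (t : T 𝒰 p (coindLvl 𝒰 D A) r) :
    shapiroCT 𝒰 p D A' r (TMap 𝒰 p (coindLvlMap 𝒰 D α) r t) =
      TMap (restrict 𝒰 D) p α r (shapiroCT 𝒰 p D A r t) :=
  TMap_TMapOfHom 𝒰 (restrict 𝒰 D) p D.subtype (isCompatible_comap 𝒰 D.subtype)
    (coindLvlMap 𝒰 D α) α (coindLvlEval 𝒰 D A) (coindLvlEval 𝒰 D A')
    (coindLvlEval_naturality 𝒰 D α) r t

variable {𝒰 D} in
/-- Compatibility of the Shapiro map on `T` with connecting homomorphisms. -/
theorem shapiroCT_Tδ {S : ShortComplex (Rep.{u} k D)}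
    (hS : S.ShortExact) (hd : (restrict 𝒰 D).IsDiscrete S.X₂) (i j : ℕ) (hij : i + 1 = j)
    (t : T 𝒰 p (coindLvl 𝒰 D S.X₃) i) :
    shapiroCT 𝒰 p D S.X₁ j
        (Tδ 𝒰 p (shortExact_map_coindLvlFunctor (𝒰 := 𝒰) hS hd) (isDiscrete_coindLvl 𝒰 D _)
          i j hij t) =
      Tδ (restrict 𝒰 D) p hS hd i j hij (shapiroCT 𝒰 p D S.X₃ i t) :=
  Tδ_naturality p D.subtype (isCompatible_comap 𝒰 D.subtype)
    (shortExact_map_coindLvlFunctor (𝒰 := 𝒰) hS hd) (isDiscrete_coindLvl 𝒰 D _) hS hd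
    (coindLvlEval 𝒰 D _) (coindLvlEval 𝒰 D _) (coindLvlEval 𝒰 D _)
    (coindLvlEval_naturality 𝒰 D _) (coindLvlEval_naturality 𝒰 D _) i j hij t

end ShapiroCT

end Fermat.Agent.Lib.CFT.Profinite.LES
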